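import Mathlib

set_option autoImplicit false

open Polynomial

namespace Fermat.Agent.S20

/-- The valuation ring at infinity of `k(X)`: rational functions of degree `≤ 0`. -/
def Ainf (k : Type) [Field k] : Subring (RatFunc k) where
  carrier := {r | r.intDegree ≤ 0}
  mul_mem' := by
    intro a b ha hb
    by_cases ha0 : a = 0
    · simp [ha0]
    by_cases hb0 : b = 0
    · simp [hb0]
    simp only [Set.mem_ofPred_eq] at ha hb ⊢
    rw [RatFunc.intDegree_mul ha0 hb0]
    omega
  one_mem' := by simp
  add_mem' := by
    intro a b ha hb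
    by_cases hb0 : b = 0
    · simpa [hb0] using ha
    by_cases hab : a + b = 0
    · simp [hab]
    simp only [Set.mem_ofPred_eq] at ha hb ⊢
    have := RatFunc.intDegree_add_le hb0 hab
    exact this.trans (max_le ha hb)
  zero_mem' := by simp
  neg_mem' := by
    intro a ha
    simpa using ha

theorem mem_Ainf {k : Type} [Field k] {r : RatFunc k} : r ∈ Ainf k ↔ r.intDegree ≤ 0 := Iff.rfl

end Fermat.Agent.S20
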