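import Mathlib
import Fermat.Agent.S20.Ainf

/-!
# `Ainf k` is a discrete valuation ring

`Ainf k ⊆ k(X)` is the ring of rational functions of degree `≤ 0` (regular at infinity).
We show it is a DVR with uniformizer `1/X`, residue field `k`, and fraction field `k(X)`.
-/

set_option autoImplicit false

open Polynomial

namespace Fermat.Agent.S20

variable {k : Type} [Field k]

namespace AinfDVR

theorem coe_eq_zero_iff (a : Ainf k) : (a : RatFunc k) = 0 ↔ a = 0 := by
  constructor
  · intro h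
    exact Subtype.ext h
  · intro h
    rw [h]
    rfl

theorem coe_ne_zero_iff (a : Ainf k) : (a : RatFunc k) ≠ 0 ↔ a ≠ 0 :=
  not_congr (coe_eq_zero_iff a)

theorem intDegree_le (a : Ainf k) : (a : RatFunc k).intDegree ≤ 0 := a.2

theorem intDegree_pow (r : RatFunc k) (hr : r ≠ 0) (n : ℕ) :
    (r ^ n).intDegree = n * r.intDegree := by
  induction n with
  | zero => simp
  | succ n ih =>
    rw [pow_succ, RatFunc.intDegree_mul (pow_ne_zero n hr) hr, ih]
    push_cast
    ring

theorem ratX_ne_zero : (RatFunc.X : RatFunc k) ≠ 0 := RatFunc.X_ne_zero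

theorem intDegree_X_pow (n : ℕ) : ((RatFunc.X : RatFunc k) ^ n).intDegree = n := by
  rw [intDegree_pow _ ratX_ne_zero, RatFunc.intDegree_X, mul_one]

theorem intDegree_Xinv_pow (n : ℕ) : ((RatFunc.X : RatFunc k)⁻¹ ^ n).intDegree = -(n : ℤ) := by
  rw [intDegree_pow _ (inv_ne_zero ratX_ne_zero), RatFunc.intDegree_inv, RatFunc.intDegree_X]
  ring

end AinfDVR

open AinfDVR

/-- The uniformizer `1/X` of `Ainf k`. -/
noncomputable def Ainf.Xinv : Ainf k :=
  ⟨(RatFunc.X : RatFunc k)⁻¹, by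
    rw [mem_Ainf, RatFunc.intDegree_inv, RatFunc.intDegree_X]
    norm_num⟩

@[simp] theorem Ainf.coe_Xinv : ((Ainf.Xinv : Ainf k) : RatFunc k) = (RatFunc.X : RatFunc k)⁻¹ :=
  rfl

/-- The constants `k → Ainf k`. -/
noncomputable def Ainf.const : k →+* Ainf k :=
  (RatFunc.C : k →+* RatFunc k).codRestrict (Ainf k) (fun c => by
    rw [mem_Ainf, RatFunc.intDegree_C])

theorem Ainf.coe_const_C (c : k) : ((Ainf.const c : Ainf k) : RatFunc k) = RatFunc.C c :=
  rfl

theorem Ainf.coe_const (c : k) :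
    ((Ainf.const c : Ainf k) : RatFunc k) = algebraMap k (RatFunc k) c := by
  rw [RatFunc.algebraMap_eq_C]
  rfl

theorem Ainf.Xinv_ne_zero : (Ainf.Xinv : Ainf k) ≠ 0 := by
  rw [← coe_ne_zero_iff]
  exact inv_ne_zero ratX_ne_zero

theorem Ainf.coe_pow (a : Ainf k) (n : ℕ) : ((a ^ n : Ainf k) : RatFunc k) = (a : RatFunc k) ^ n :=
  rfl

theorem Ainf.coe_mul (a b : Ainf k) : ((a * b : Ainf k) : RatFunc k) = (a : RatFunc k) * b :=
  rfl

/-- Units of `Ainf k` are the nonzero elements of degree `0`. -/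
theorem Ainf.isUnit_iff (a : Ainf k) :
    IsUnit a ↔ a ≠ 0 ∧ (a : RatFunc k).intDegree = 0 := by
  constructor
  · intro h
    obtain ⟨b, hb⟩ := h.exists_right_inv
    have hab : (a : RatFunc k) * (b : RatFunc k) = 1 := by
      have := congrArg (Subtype.val) hb
      simpa using this
    have ha0 : (a : RatFunc k) ≠ 0 := left_ne_zero_of_mul_eq_one hab
    have hb0 : (b : RatFunc k) ≠ 0 := right_ne_zero_of_mul_eq_one hab
    have hdeg := RatFunc.intDegree_mul ha0 hb0
    rw [hab, RatFunc.intDegree_one] at hdeg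
    have h1 := intDegree_le a
    have h2 := intDegree_le b
    exact ⟨(coe_ne_zero_iff a).1 ha0, by omega⟩
  · rintro ⟨ha, hdeg⟩
    have ha0 : (a : RatFunc k) ≠ 0 := (coe_ne_zero_iff a).2 ha
    have hmem : (a : RatFunc k)⁻¹ ∈ Ainf k := by
      rw [mem_Ainf, RatFunc.intDegree_inv, hdeg]
      simp
    refine IsUnit.of_mul_eq_one (⟨(a : RatFunc k)⁻¹, hmem⟩ : Ainf k) ?_
    apply Subtype.ext
    show (a : RatFunc k) * (a : RatFunc k)⁻¹ = 1
    exact mul_inv_cancel₀ ha0

theorem Ainf.not_isUnit_Xinv : ¬ IsUnit (Ainf.Xinv : Ainf k) := by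
  rw [Ainf.isUnit_iff]
  rintro ⟨-, h⟩
  rw [Ainf.coe_Xinv, RatFunc.intDegree_inv, RatFunc.intDegree_X] at h
  norm_num at h

/-- Every nonzero element of `Ainf k` is `(1/X)^n` times a unit, with `n = -deg`. -/
theorem Ainf.eq_Xinv_pow_mul_unit (a : Ainf k) (ha : a ≠ 0) :
    ∃ u : (Ainf k)ˣ, a = (Ainf.Xinv : Ainf k) ^ (-(a : RatFunc k).intDegree).toNat * (u : Ainf k) := by
  have ha0 : (a : RatFunc k) ≠ 0 := (coe_ne_zero_iff a).2 ha
  set n : ℕ := (-(a : RatFunc k).intDegree).toNat with hn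
  have hn' : (n : ℤ) = -(a : RatFunc k).intDegree := by
    rw [hn]
    exact Int.toNat_of_nonneg (by have := intDegree_le a; omega)
  have hXn : ((RatFunc.X : RatFunc k) ^ n) ≠ 0 := pow_ne_zero n ratX_ne_zero
  have hdeg : ((a : RatFunc k) * (RatFunc.X : RatFunc k) ^ n).intDegree = 0 := by
    rw [RatFunc.intDegree_mul ha0 hXn, intDegree_X_pow, hn']
    ring
  have hmem : (a : RatFunc k) * (RatFunc.X : RatFunc k) ^ n ∈ Ainf k := by
    rw [mem_Ainf, hdeg]
  set b : Ainf k := ⟨(a : RatFunc k) * (RatFunc.X : RatFunc k) ^ n, hmem⟩ with hb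
  have hbu : IsUnit b := by
    rw [Ainf.isUnit_iff]
    refine ⟨?_, hdeg⟩
    rw [← coe_ne_zero_iff]
    exact mul_ne_zero ha0 hXn
  refine ⟨hbu.unit, ?_⟩
  have key : (a : RatFunc k) =
      (RatFunc.X : RatFunc k)⁻¹ ^ n * ((a : RatFunc k) * (RatFunc.X : RatFunc k) ^ n) := by
    rw [inv_pow]
    field_simp
  apply Subtype.ext
  rw [Ainf.coe_mul, Ainf.coe_pow, Ainf.coe_Xinv, IsUnit.unit_spec]
  exact key

/-- `1/X` is irreducible in `Ainf k`. -/
theorem Ainf.irreducible_Xinv : Irreducible (Ainf.Xinv : Ainf k) := by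
  refine ⟨Ainf.not_isUnit_Xinv, ?_⟩
  intro a b hab
  have hab' : (RatFunc.X : RatFunc k)⁻¹ = (a : RatFunc k) * (b : RatFunc k) := by
    have := congrArg (Subtype.val) hab
    simpa using this
  have hne : (a : RatFunc k) * (b : RatFunc k) ≠ 0 := by
    rw [← hab']
    exact inv_ne_zero ratX_ne_zero
  have ha0 : (a : RatFunc k) ≠ 0 := left_ne_zero_of_mul hne
  have hb0 : (b : RatFunc k) ≠ 0 := right_ne_zero_of_mul hne
  have hdeg := RatFunc.intDegree_mul ha0 hb0
  rw [← hab', RatFunc.intDegree_inv, RatFunc.intDegree_X] at hdeg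
  have h1 := intDegree_le a
  have h2 := intDegree_le b
  by_cases h : (a : RatFunc k).intDegree = 0
  · left
    rw [Ainf.isUnit_iff]
    exact ⟨(coe_ne_zero_iff a).1 ha0, h⟩
  · right
    rw [Ainf.isUnit_iff]
    exact ⟨(coe_ne_zero_iff b).1 hb0, by omega⟩

theorem Ainf.hasUnitMulPowIrreducibleFactorization :
    IsDiscreteValuationRing.HasUnitMulPowIrreducibleFactorization (Ainf k) := by
  refine ⟨Ainf.Xinv, Ainf.irreducible_Xinv, ?_⟩
  intro x hx
  obtain ⟨u, hu⟩ := Ainf.eq_Xinv_pow_mul_unit x hx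
  exact ⟨_, u, hu.symm⟩

instance Ainf.instIsDiscreteValuationRing : IsDiscreteValuationRing (Ainf k) :=
  IsDiscreteValuationRing.ofHasUnitMulPowIrreducibleFactorization
    Ainf.hasUnitMulPowIrreducibleFactorization

/-- `Ainf k` is a valuation ring of `k(X)`. -/
theorem Ainf.mem_or_inv_mem (r : RatFunc k) : r ∈ Ainf k ∨ r⁻¹ ∈ Ainf k := by
  rcases le_total r.intDegree 0 with h | h
  · left
    exact h
  · right
    rw [mem_Ainf, RatFunc.intDegree_inv]
    omega

instance Ainf.instIsFractionRing : IsFractionRing (Ainf k) (RatFunc k) := by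
  refine isFractionRing_of_exists_eq_algebraMap_or_inv_eq_algebraMap_of_injective ?_ ?_
  · intro x
    rcases Ainf.mem_or_inv_mem x with h | h
    · exact ⟨⟨x, h⟩, Or.inl rfl⟩
    · exact ⟨⟨x⁻¹, h⟩, Or.inr rfl⟩
  · exact Subtype.val_injective

/-- The maximal ideal of `Ainf k` is generated by `1/X`. -/
theorem Ainf.maximalIdeal_eq :
    IsLocalRing.maximalIdeal (Ainf k) = Ideal.span {Ainf.Xinv} :=
  (IsDiscreteValuationRing.irreducible_iff_uniformizer _).1 Ainf.irreducible_Xinv

theorem Ainf.mem_maximalIdeal_iff (a : Ainf k) :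
    a ∈ IsLocalRing.maximalIdeal (Ainf k) ↔ a = 0 ∨ (a : RatFunc k).intDegree < 0 := by
  rw [IsLocalRing.mem_maximalIdeal, mem_nonunits_iff, Ainf.isUnit_iff]
  have h1 := intDegree_le a
  by_cases ha : a = 0
  · simp [ha]
  · simp only [ha, ne_eq, not_false_eq_true, true_and, false_or]
    omega

/-- Membership in the powers of the maximal ideal is a degree condition. -/
theorem Ainf.span_Xinv_pow_iff (a : Ainf k) (n : ℕ) :
    a ∈ Ideal.span {(Ainf.Xinv : Ainf k) ^ n} ↔ a = 0 ∨ (a : RatFunc k).intDegree ≤ -(n : ℤ) := by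
  rw [Ideal.mem_span_singleton]
  constructor
  · rintro ⟨c, rfl⟩
    by_cases hc : c = 0
    · left
      rw [hc, mul_zero]
    · right
      have hc0 : (c : RatFunc k) ≠ 0 := (coe_ne_zero_iff c).2 hc
      rw [Ainf.coe_mul, Ainf.coe_pow, Ainf.coe_Xinv,
        RatFunc.intDegree_mul (pow_ne_zero n (inv_ne_zero ratX_ne_zero)) hc0, intDegree_Xinv_pow]
      have := intDegree_le c
      omega
  · rintro (rfl | h)
    · exact dvd_zero _
    · by_cases ha : a = 0
      · rw [ha]
        exact dvd_zero _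
      have ha0 : (a : RatFunc k) ≠ 0 := (coe_ne_zero_iff a).2 ha
      have hXn : ((RatFunc.X : RatFunc k) ^ n) ≠ 0 := pow_ne_zero n ratX_ne_zero
      have hmem : (a : RatFunc k) * (RatFunc.X : RatFunc k) ^ n ∈ Ainf k := by
        rw [mem_Ainf, RatFunc.intDegree_mul ha0 hXn, intDegree_X_pow]
        omega
      have key : (a : RatFunc k) =
          (RatFunc.X : RatFunc k)⁻¹ ^ n * ((a : RatFunc k) * (RatFunc.X : RatFunc k) ^ n) := by
        rw [inv_pow]
        field_simp
      refine ⟨⟨(a : RatFunc k) * (RatFunc.X : RatFunc k) ^ n, hmem⟩, ?_⟩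
      apply Subtype.ext
      rw [Ainf.coe_mul, Ainf.coe_pow, Ainf.coe_Xinv]
      exact key

theorem Ainf.maximalIdeal_ne_bot : IsLocalRing.maximalIdeal (Ainf k) ≠ ⊥ := by
  rw [Ainf.maximalIdeal_eq, Ne, Ideal.span_singleton_eq_bot]
  exact Ainf.Xinv_ne_zero

/-- The residue field of `Ainf k` is `k`: every element is congruent to a constant. -/
theorem Ainf.exists_const_sub_mem (a : Ainf k) :
    ∃ c : k, a - Ainf.const c ∈ IsLocalRing.maximalIdeal (Ainf k) := by
  by_cases hdeg : (a : RatFunc k).intDegree < 0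
  · refine ⟨0, ?_⟩
    rw [map_zero, sub_zero, Ainf.mem_maximalIdeal_iff]
    exact Or.inr hdeg
  have hdeg0 : (a : RatFunc k).intDegree = 0 := le_antisymm (intDegree_le a) (not_lt.1 hdeg)
  by_cases ha : a = 0
  · refine ⟨0, ?_⟩
    rw [ha, map_zero, sub_zero]
    exact zero_mem _
  have ha0 : (a : RatFunc k) ≠ 0 := (coe_ne_zero_iff a).2 ha
  set x : RatFunc k := (a : RatFunc k) with hx
  have hnum : x.num ≠ 0 := RatFunc.num_ne_zero ha0
  have hden : x.denom ≠ 0 := x.denom_ne_zero
  have hmonic : x.denom.Monic := RatFunc.monic_denom x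
  have hnat : x.num.natDegree = x.denom.natDegree := by
    have h := hdeg0
    rw [RatFunc.intDegree] at h
    omega
  set c : k := x.num.leadingCoeff with hc
  have hc0 : c ≠ 0 := Polynomial.leadingCoeff_ne_zero.2 hnum
  refine ⟨c, ?_⟩
  rw [Ainf.mem_maximalIdeal_iff]
  by_cases hz : a - Ainf.const c = 0
  · exact Or.inl hz
  right
  have hz0 : ((a - Ainf.const c : Ainf k) : RatFunc k) ≠ 0 := (coe_ne_zero_iff _).2 hz
  set p : k[X] := x.num - Polynomial.C c * x.denom with hp
  have hdenK : algebraMap k[X] (RatFunc k) x.denom ≠ 0 := by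
    rw [Ne, map_eq_zero_iff _ (IsFractionRing.injective k[X] (RatFunc k))]
    exact hden
  have hval : ((a - Ainf.const c : Ainf k) : RatFunc k) =
      algebraMap k[X] (RatFunc k) p / algebraMap k[X] (RatFunc k) x.denom := by
    have h1 : ((a - Ainf.const c : Ainf k) : RatFunc k) = x - RatFunc.C c := rfl
    rw [h1, hp, map_sub, map_mul, sub_div, mul_div_assoc, div_self hdenK, mul_one,
      RatFunc.num_div_denom]
    rfl
  have hp0 : p ≠ 0 := by
    intro h0
    apply hz0
    rw [hval, h0, map_zero, zero_div]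
  have hpK : algebraMap k[X] (RatFunc k) p ≠ 0 := by
    rw [Ne, map_eq_zero_iff _ (IsFractionRing.injective k[X] (RatFunc k))]
    exact hp0
  have hdegp : p.degree < x.num.degree := by
    rw [hp]
    apply Polynomial.degree_sub_lt_left
    · rw [Polynomial.degree_C_mul hc0, Polynomial.degree_eq_natDegree hnum,
        Polynomial.degree_eq_natDegree hden, hnat]
    · exact hnum
    · rw [Polynomial.leadingCoeff_mul, Polynomial.leadingCoeff_C, hmonic.leadingCoeff, mul_one]
  have hnatp : p.natDegree < x.num.natDegree :=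
    (Polynomial.natDegree_lt_natDegree_iff hp0).2 hdegp
  rw [hval, RatFunc.intDegree_div hpK hdenK, RatFunc.intDegree_polynomial,
    RatFunc.intDegree_polynomial]
  omega

/-- The residue field of `Ainf k` is `k`, ring-hom form. -/
theorem Ainf.residue_surjective :
    Function.Surjective
      ((Ideal.Quotient.mk (IsLocalRing.maximalIdeal (Ainf k))).comp (Ainf.const : k →+* Ainf k)) := by
  intro y
  obtain ⟨a, rfl⟩ := Ideal.Quotient.mk_surjective y
  obtain ⟨c, hc⟩ := Ainf.exists_const_sub_mem a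
  refine ⟨c, ?_⟩
  rw [RingHom.comp_apply]
  exact (Ideal.Quotient.eq.2 hc).symm

open IsDedekindDomain in
/-- `Ainf k` has a unique height-one prime: the maximal ideal. -/
theorem Ainf.heightOneSpectrum_asIdeal (v : HeightOneSpectrum (Ainf k)) :
    v.asIdeal = IsLocalRing.maximalIdeal (Ainf k) := by
  have hmax : v.asIdeal.IsMaximal := v.isMaximal
  exact IsLocalRing.eq_maximalIdeal hmax

open IsDedekindDomain in
theorem Ainf.heightOneSpectrum_subsingleton (v w : HeightOneSpectrum (Ainf k)) : v = w := by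
  apply HeightOneSpectrum.ext
  rw [Ainf.heightOneSpectrum_asIdeal, Ainf.heightOneSpectrum_asIdeal]

open IsDedekindDomain in
/-- The valuation of the unique prime of `Ainf k` is `exp (deg)`. -/
theorem Ainf.valuation_eq (v : HeightOneSpectrum (Ainf k)) (r : RatFunc k) (hr : r ≠ 0) :
    v.valuation (RatFunc k) r = WithZero.exp r.intDegree := by
  have hv : v.asIdeal = Ideal.span {(Ainf.Xinv : Ainf k)} := by
    rw [Ainf.heightOneSpectrum_asIdeal, Ainf.maximalIdeal_eq]
  have hXinv : v.valuation (RatFunc k) ((RatFunc.X : RatFunc k)⁻¹) = WithZero.exp (-1 : ℤ) := by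
    have h1 := v.valuation_of_algebraMap (K := RatFunc k) (Ainf.Xinv : Ainf k)
    rw [v.intValuation_singleton Ainf.Xinv_ne_zero hv] at h1
    exact h1
  have hunit : ∀ a : Ainf k, IsUnit a → v.valuation (RatFunc k) (a : RatFunc k) = 1 := by
    intro a ha
    have h1 := v.valuation_of_algebraMap (K := RatFunc k) a
    have h2 : v.intValuation a = 1 := by
      rw [HeightOneSpectrum.intValuation_eq_one_iff, Ainf.heightOneSpectrum_asIdeal]
      intro hmem
      exact (IsLocalRing.mem_maximalIdeal _).1 hmem ha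
    rw [h2] at h1
    exact h1
  -- general case: r = X^d * w with w a unit of Ainf
  set d : ℤ := r.intDegree with hd
  have hXd : (RatFunc.X : RatFunc k) ^ d ≠ 0 := zpow_ne_zero d ratX_ne_zero
  have hXdeg : ∀ m : ℤ, ((RatFunc.X : RatFunc k) ^ m).intDegree = m := by
    intro m
    rcases Int.eq_nat_or_neg m with ⟨n, rfl | rfl⟩
    · rw [zpow_natCast, intDegree_X_pow]
    · rw [zpow_neg, zpow_natCast, RatFunc.intDegree_inv, intDegree_X_pow]
  have hwdeg : (r * ((RatFunc.X : RatFunc k) ^ d)⁻¹).intDegree = 0 := by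
    rw [RatFunc.intDegree_mul hr (inv_ne_zero hXd), RatFunc.intDegree_inv, hXdeg]
    omega
  have hwmem : r * ((RatFunc.X : RatFunc k) ^ d)⁻¹ ∈ Ainf k := by
    rw [mem_Ainf, hwdeg]
  have hwunit : IsUnit (⟨r * ((RatFunc.X : RatFunc k) ^ d)⁻¹, hwmem⟩ : Ainf k) := by
    rw [Ainf.isUnit_iff]
    refine ⟨?_, hwdeg⟩
    rw [← coe_ne_zero_iff]
    exact mul_ne_zero hr (inv_ne_zero hXd)
  have hw1 := hunit _ hwunit
  have hr_eq : r = (RatFunc.X : RatFunc k) ^ d * (r * ((RatFunc.X : RatFunc k) ^ d)⁻¹) := by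
    field_simp
  have hX : v.valuation (RatFunc k) (RatFunc.X : RatFunc k) = WithZero.exp (1 : ℤ) := by
    rw [map_inv₀] at hXinv
    rw [← inv_inv (v.valuation (RatFunc k) (RatFunc.X : RatFunc k)), hXinv, ← WithZero.exp_neg,
      neg_neg]
  have hw1' : v.valuation (RatFunc k) (r * ((RatFunc.X : RatFunc k) ^ d)⁻¹) = 1 := hw1
  rw [hr_eq, map_mul, hw1', mul_one, map_zpow₀, hX, ← WithZero.exp_zsmul]
  simp

end Fermat.Agent.S20
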