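import Mathlib
import Fermat.Prelude.Def_ModularCurve_GenusNumerics

set_option autoImplicit false

open UpperHalfPlane ModularForm
open scoped MatrixGroups Manifold

namespace Fermat.Agent.S20

/-- The coset space `SL(2,ℤ) ⧸ Γ₀(N)` with its left `SL(2,ℤ)`-action. -/
abbrev X0 (N : ℕ) : Type := SL(2, ℤ) ⧸ CongruenceSubgroup.Gamma0 N

/-- The discriminant function is bounded at `i∞`. -/
theorem isBoundedAtImInfty_disc : IsBoundedAtImInfty (fun z : ℍ => ModularForm.discriminant z) := by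
  have h := CuspFormClass.zero_at_infty CuspForm.discriminant
  exact h.isBoundedAtImInfty

theorem isBoundedAtImInfty_disc_pow (n : ℕ) :
    IsBoundedAtImInfty (fun z : ℍ => ModularForm.discriminant z ^ n) := by
  induction n with
  | zero =>
    simp only [pow_zero]
    exact Filter.const_boundedAtFilter _ (1 : ℂ)
  | succ n ih =>
    have := ih.mul isBoundedAtImInfty_disc
    have e : (fun z : ℍ => ModularForm.discriminant z ^ (n + 1)) =
        (fun z : ℍ => ModularForm.discriminant z ^ n) * (fun z : ℍ => ModularForm.discriminant z) := by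
      funext z
      simp [pow_succ]
    rw [e]
    exact this

/-- Weakly holomorphic `Γ`-invariant functions: holomorphic on `ℍ`, `Γ`-invariant, and
`f * Δ ^ n` is bounded at every cusp for some `n`. -/
structure IsWH (Γ : Subgroup SL(2, ℤ)) (f : ℍ → ℂ) : Prop where
  mdiff : MDiff f
  inv : ∀ γ ∈ Γ, ∀ z : ℍ, f (γ • z) = f z
  bdd : ∃ n : ℕ, ∀ g : SL(2, ℤ),
    IsBoundedAtImInfty (fun z : ℍ => f (g • z) * ModularForm.discriminant z ^ n)

theorem bdd_pow_mono {f : ℍ → ℂ} {n m : ℕ} (hnm : n ≤ m)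
    (h : ∀ g : SL(2, ℤ),
      IsBoundedAtImInfty (fun z : ℍ => f (g • z) * ModularForm.discriminant z ^ n)) :
    ∀ g : SL(2, ℤ),
      IsBoundedAtImInfty (fun z : ℍ => f (g • z) * ModularForm.discriminant z ^ m) := by
  intro g
  obtain ⟨d, rfl⟩ := Nat.exists_eq_add_of_le hnm
  have := (h g).mul (isBoundedAtImInfty_disc_pow d)
  have e : (fun z : ℍ => f (g • z) * ModularForm.discriminant z ^ (n + d)) =
      (fun z : ℍ => f (g • z) * ModularForm.discriminant z ^ n) *
        (fun z : ℍ => ModularForm.discriminant z ^ d) := by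
    funext z
    simp only [Pi.mul_apply, pow_add, mul_assoc]
  rw [e]
  exact this

theorem isWH_const (Γ : Subgroup SL(2, ℤ)) (c : ℂ) : IsWH Γ (fun _ => c) where
  mdiff := mdifferentiable_const
  inv := fun _ _ _ => rfl
  bdd := ⟨0, fun _ => by
    simp only [pow_zero, mul_one]
    exact Filter.const_boundedAtFilter _ c⟩

theorem IsWH.add {Γ : Subgroup SL(2, ℤ)} {f g : ℍ → ℂ} (hf : IsWH Γ f) (hg : IsWH Γ g) :
    IsWH Γ (f + g) where
  mdiff := hf.mdiff.add hg.mdiff
  inv := fun γ hγ z => by rw [Pi.add_apply, Pi.add_apply, hf.inv γ hγ z, hg.inv γ hγ z]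
  bdd := by
    obtain ⟨n, hn⟩ := hf.bdd
    obtain ⟨m, hm⟩ := hg.bdd
    refine ⟨n + m, fun γ => ?_⟩
    have h1 := bdd_pow_mono (Nat.le_add_right n m) hn γ
    have h2 := bdd_pow_mono (Nat.le_add_left m n) hm γ
    have e : (fun z : ℍ => (f + g) (γ • z) * ModularForm.discriminant z ^ (n + m)) =
        (fun z : ℍ => f (γ • z) * ModularForm.discriminant z ^ (n + m)) +
          (fun z : ℍ => g (γ • z) * ModularForm.discriminant z ^ (n + m)) := by
      funext z
      simp only [Pi.add_apply, add_mul]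
    rw [e]
    exact h1.add h2

theorem IsWH.mul {Γ : Subgroup SL(2, ℤ)} {f g : ℍ → ℂ} (hf : IsWH Γ f) (hg : IsWH Γ g) :
    IsWH Γ (f * g) where
  mdiff := hf.mdiff.mul hg.mdiff
  inv := fun γ hγ z => by rw [Pi.mul_apply, Pi.mul_apply, hf.inv γ hγ z, hg.inv γ hγ z]
  bdd := by
    obtain ⟨n, hn⟩ := hf.bdd
    obtain ⟨m, hm⟩ := hg.bdd
    refine ⟨n + m, fun γ => ?_⟩
    have e : (fun z : ℍ => (f * g) (γ • z) * ModularForm.discriminant z ^ (n + m)) =
        (fun z : ℍ => f (γ • z) * ModularForm.discriminant z ^ n) *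
          (fun z : ℍ => g (γ • z) * ModularForm.discriminant z ^ m) := by
      funext z
      simp only [Pi.mul_apply, pow_add]
      ring
    rw [e]
    exact (hn γ).mul (hm γ)

/-- The `ℂ`-algebra of weakly holomorphic `Γ`-invariant functions. -/
def WH (Γ : Subgroup SL(2, ℤ)) : Subalgebra ℂ (ℍ → ℂ) where
  carrier := {f | IsWH Γ f}
  mul_mem' := fun hf hg => hf.mul hg
  add_mem' := fun hf hg => hf.add hg
  algebraMap_mem' := fun c => isWH_const Γ c

theorem mem_WH {Γ : Subgroup SL(2, ℤ)} {f : ℍ → ℂ} : f ∈ WH Γ ↔ IsWH Γ f := Iff.rfl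

theorem WH_mono {Γ Γ' : Subgroup SL(2, ℤ)} (h : Γ ≤ Γ') : WH Γ' ≤ WH Γ :=
  fun _ hf => ⟨hf.mdiff, fun γ hγ => hf.inv γ (h hγ), hf.bdd⟩

/-- The `j`-function `E₄³ / Δ`. -/
noncomputable def jFun (z : ℍ) : ℂ := E₄ z ^ 3 / ModularForm.discriminant z

end Fermat.Agent.S20
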