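import Mathlib
import Fermat.Agent.S20.Defs

set_option autoImplicit false

open UpperHalfPlane hiding I
open Complex Filter Function
open scoped Manifold MatrixGroups ModularForm Topology

namespace Fermat.Agent.S20

/-- Composition with a Möbius transformation preserves holomorphy. -/
theorem mdiff_comp_smul {f : ℍ → ℂ} (hf : MDiff f) (g : SL(2, ℤ)) :
    MDiff (fun z : ℍ => f (g • z)) := by
  have h : MDiff (f ∣[(0 : ℤ)] g) := hf.slash 0 (Matrix.SpecialLinearGroup.mapGL ℝ g)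
  have e : (f ∣[(0 : ℤ)] g) = fun z : ℍ => f (g • z) := by
    funext z
    have := ModularForm.SL_slash_apply (k := 0) f g z
    simpa using this
  rw [e] at h
  exact h

/-- Translates of weakly holomorphic functions are weakly holomorphic for the trivial group. -/
theorem IsWH.comp_smul {Γ : Subgroup SL(2, ℤ)} {f : ℍ → ℂ} (hf : IsWH Γ f) (g : SL(2, ℤ)) :
    IsWH ⊥ (fun z : ℍ => f (g • z)) where
  mdiff := mdiff_comp_smul hf.mdiff g
  inv := by
    intro γ hγ z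
    rw [Subgroup.mem_bot] at hγ
    rw [hγ, one_smul]
  bdd := by
    obtain ⟨n, hn⟩ := hf.bdd
    refine ⟨n, fun g' => ?_⟩
    have := hn (g * g')
    simp only [mul_smul] at this
    exact this

/-- An `SL(2,ℤ)`-invariant function which is weakly holomorphic for the trivial group is weakly
holomorphic of level one. -/
theorem IsWH.of_bot {f : ℍ → ℂ} (hf : IsWH ⊥ f) (hinv : ∀ (g : SL(2, ℤ)) (z : ℍ), f (g • z) = f z) :
    IsWH ⊤ f where
  mdiff := hf.mdiff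
  inv := fun g _ z => hinv g z
  bdd := hf.bdd

/-- The conjugate of a `Γ`-invariant function attached to a coset `gΓ`: `z ↦ f (g⁻¹ z)`. -/
noncomputable def cosetConj (Γ : Subgroup SL(2, ℤ)) (f : ℍ → ℂ) (x : SL(2, ℤ) ⧸ Γ) : ℍ → ℂ :=
  fun z => f ((Quotient.out x : SL(2, ℤ))⁻¹ • z)

theorem cosetConj_mk {Γ : Subgroup SL(2, ℤ)} {f : ℍ → ℂ}
    (hf : ∀ γ ∈ Γ, ∀ z : ℍ, f (γ • z) = f z) (g : SL(2, ℤ)) (z : ℍ) :
    cosetConj Γ f (g : SL(2, ℤ) ⧸ Γ) z = f (g⁻¹ • z) := by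
  obtain ⟨h, hh⟩ := QuotientGroup.mk_out_eq_mul Γ g
  unfold cosetConj
  rw [hh, mul_inv_rev, mul_smul]
  exact hf _ (Γ.inv_mem h.2) _

theorem cosetConj_one {Γ : Subgroup SL(2, ℤ)} {f : ℍ → ℂ}
    (hf : ∀ γ ∈ Γ, ∀ z : ℍ, f (γ • z) = f z) :
    cosetConj Γ f ((1 : SL(2, ℤ)) : SL(2, ℤ) ⧸ Γ) = f := by
  funext z
  rw [cosetConj_mk hf, inv_one, one_smul]

theorem cosetConj_smul {Γ : Subgroup SL(2, ℤ)} {f : ℍ → ℂ}
    (hf : ∀ γ ∈ Γ, ∀ z : ℍ, f (γ • z) = f z) (g : SL(2, ℤ)) (x : SL(2, ℤ) ⧸ Γ) (z : ℍ) :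
    cosetConj Γ f x (g • z) = cosetConj Γ f (g⁻¹ • x) z := by
  induction x using QuotientGroup.induction_on with
  | H h =>
    have e : g⁻¹ • (h : SL(2, ℤ) ⧸ Γ) = ((g⁻¹ * h : SL(2, ℤ)) : SL(2, ℤ) ⧸ Γ) := rfl
    rw [e, cosetConj_mk hf, cosetConj_mk hf, mul_inv_rev, inv_inv, mul_smul]

theorem isWH_cosetConj {Γ : Subgroup SL(2, ℤ)} {f : ℍ → ℂ} (hf : IsWH Γ f) (x : SL(2, ℤ) ⧸ Γ) :
    IsWH ⊥ (cosetConj Γ f x) :=
  hf.comp_smul _

theorem cosetConj_injective_of_sep {Γ : Subgroup SL(2, ℤ)} {f : ℍ → ℂ}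
    (hf : ∀ γ ∈ Γ, ∀ z : ℍ, f (γ • z) = f z)
    (hsep : ∀ g : SL(2, ℤ), (∀ z : ℍ, f (g • z) = f z) → g ∈ Γ) :
    Function.Injective (cosetConj Γ f) := by
  intro x y hxy
  induction x using QuotientGroup.induction_on with
  | H g =>
    induction y using QuotientGroup.induction_on with
    | H g' =>
      rw [QuotientGroup.eq]
      apply hsep
      intro z
      have := congrFun hxy (g' • z)
      rw [cosetConj_mk hf, cosetConj_mk hf, inv_smul_smul, ← mul_smul] at this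
      exact this

section poly

variable (Γ : Subgroup SL(2, ℤ)) [Γ.FiniteIndex]

open Polynomial in
/-- The characteristic polynomial `∏ₓ (T - fₓ)` of a `Γ`-invariant function. -/
noncomputable def cosetPoly (f : ℍ → ℂ) : Polynomial (ℍ → ℂ) :=
  letI := Fintype.ofFinite (SL(2, ℤ) ⧸ Γ)
  ∏ x : SL(2, ℤ) ⧸ Γ, (Polynomial.X - Polynomial.C (cosetConj Γ f x))

theorem cosetPoly_monic (f : ℍ → ℂ) : (cosetPoly Γ f).Monic := by
  unfold cosetPoly
  exact Polynomial.monic_prod_of_monic _ _ (fun x _ => Polynomial.monic_X_sub_C _)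

theorem cosetPoly_natDegree (f : ℍ → ℂ) : (cosetPoly Γ f).natDegree = Γ.index := by
  unfold cosetPoly
  let _ := Fintype.ofFinite (SL(2, ℤ) ⧸ Γ)
  rw [Polynomial.natDegree_prod_of_monic _ _ (fun x _ => Polynomial.monic_X_sub_C _)]
  simp only [Polynomial.natDegree_X_sub_C, Finset.sum_const, Finset.card_univ, smul_eq_mul, mul_one]
  rw [Subgroup.index, Nat.card_eq_fintype_card]

theorem cosetPoly_eval_self {f : ℍ → ℂ} (hf : ∀ γ ∈ Γ, ∀ z : ℍ, f (γ • z) = f z) :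
    (cosetPoly Γ f).eval f = 0 := by
  unfold cosetPoly
  let _ := Fintype.ofFinite (SL(2, ℤ) ⧸ Γ)
  rw [Polynomial.eval_prod]
  apply Finset.prod_eq_zero (Finset.mem_univ ((1 : SL(2, ℤ)) : SL(2, ℤ) ⧸ Γ))
  rw [cosetConj_one hf]
  simp

theorem cosetPoly_eval_cosetConj {f : ℍ → ℂ} (x : SL(2, ℤ) ⧸ Γ) :
    (cosetPoly Γ f).eval (cosetConj Γ f x) = 0 := by
  unfold cosetPoly
  let _ := Fintype.ofFinite (SL(2, ℤ) ⧸ Γ)
  rw [Polynomial.eval_prod]
  apply Finset.prod_eq_zero (Finset.mem_univ x)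
  simp

/-- Pointwise form of the characteristic polynomial. -/
theorem cosetPoly_map_eval (f : ℍ → ℂ) (z : ℍ) :
    (cosetPoly Γ f).map (Pi.evalRingHom (fun _ : ℍ => ℂ) z) =
      letI := Fintype.ofFinite (SL(2, ℤ) ⧸ Γ)
      ∏ x : SL(2, ℤ) ⧸ Γ, (Polynomial.X - Polynomial.C (cosetConj Γ f x z)) := by
  unfold cosetPoly
  let _ := Fintype.ofFinite (SL(2, ℤ) ⧸ Γ)
  rw [Polynomial.map_prod]
  refine Finset.prod_congr rfl (fun x _ => ?_)
  simp

theorem cosetPoly_coeff_smul {f : ℍ → ℂ} (hf : ∀ γ ∈ Γ, ∀ z : ℍ, f (γ • z) = f z)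
    (i : ℕ) (g : SL(2, ℤ)) (z : ℍ) :
    (cosetPoly Γ f).coeff i (g • z) = (cosetPoly Γ f).coeff i z := by
  have h1 : ∀ w : ℍ, (cosetPoly Γ f).coeff i w =
      ((cosetPoly Γ f).map (Pi.evalRingHom (fun _ : ℍ => ℂ) w)).coeff i := by
    intro w
    rw [Polynomial.coeff_map]
    rfl
  rw [h1, h1, cosetPoly_map_eval, cosetPoly_map_eval]
  let _ := Fintype.ofFinite (SL(2, ℤ) ⧸ Γ)
  congr 1
  have : ∀ x : SL(2, ℤ) ⧸ Γ, (Polynomial.X - Polynomial.C (cosetConj Γ f x (g • z)) : Polynomial ℂ) =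
      (fun y => (Polynomial.X - Polynomial.C (cosetConj Γ f y z) : Polynomial ℂ))
        (MulAction.toPerm g⁻¹ x) := by
    intro x
    simp only [MulAction.toPerm_apply]
    rw [cosetConj_smul hf]
  rw [Finset.prod_congr rfl (fun x _ => this x)]
  exact Equiv.prod_comp (MulAction.toPerm g⁻¹)
    (fun y => (Polynomial.X - Polynomial.C (cosetConj Γ f y z) : Polynomial ℂ))

theorem cosetPoly_coeff_mem_bot {f : ℍ → ℂ} (hf : IsWH Γ f) (i : ℕ) :
    (cosetPoly Γ f).coeff i ∈ WH ⊥ := by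
  let _ := Fintype.ofFinite (SL(2, ℤ) ⧸ Γ)
  have h : cosetPoly Γ f = (∏ x : SL(2, ℤ) ⧸ Γ,
      (Polynomial.X - Polynomial.C (⟨cosetConj Γ f x, isWH_cosetConj hf x⟩ : WH ⊥))).map
        (WH ⊥).val.toRingHom := by
    unfold cosetPoly
    rw [Polynomial.map_prod]
    refine Finset.prod_congr rfl (fun x _ => ?_)
    simp
  rw [h, Polynomial.coeff_map]
  exact Subtype.property _

/-- The coefficients of the characteristic polynomial are weakly holomorphic of level one. -/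
theorem cosetPoly_coeff_isWH {f : ℍ → ℂ} (hf : IsWH Γ f) (i : ℕ) :
    IsWH ⊤ ((cosetPoly Γ f).coeff i) :=
  IsWH.of_bot (cosetPoly_coeff_mem_bot Γ hf i) (fun g z => cosetPoly_coeff_smul Γ hf.inv i g z)

end poly

end Fermat.Agent.S20
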