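import Mathlib
import Fermat.Agent.S20.Defs

set_option autoImplicit false

open UpperHalfPlane ModularForm Polynomial
open scoped MatrixGroups Manifold

namespace Fermat.Agent.S20

/-- order of vanishing at a point of `ℍ`. -/
noncomputable def ordAt (f : ℍ → ℂ) (z : ℍ) : ℕ∞ := analyticOrderAt (f ∘ ofComplex) (z : ℂ)

/-- the conjugate `z ↦ f (g⁻¹ • z)` of a function on `ℍ`. -/
noncomputable def conjFun (g : SL(2, ℤ)) (f : ℍ → ℂ) : ℍ → ℂ := fun z => f (g⁻¹ • z)

theorem conjFun_apply (g : SL(2, ℤ)) (f : ℍ → ℂ) (z : ℍ) : conjFun g f z = f (g⁻¹ • z) := rfl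

theorem E₄_smul (g : SL(2, ℤ)) (z : ℍ) : E₄ (g • z) = denom g z ^ (4 : ℤ) * E₄ z :=
  SlashInvariantForm.slash_action_eqn'' E₄ (γ := Matrix.SpecialLinearGroup.mapGL ℝ g)
    (Set.mem_range_self g) z

theorem E₆_smul (g : SL(2, ℤ)) (z : ℍ) : E₆ (g • z) = denom g z ^ (6 : ℤ) * E₆ z :=
  SlashInvariantForm.slash_action_eqn'' E₆ (γ := Matrix.SpecialLinearGroup.mapGL ℝ g)
    (Set.mem_range_self g) z

theorem disc_smul (g : SL(2, ℤ)) (z : ℍ) :
    ModularForm.discriminant (g • z) = denom g z ^ (12 : ℤ) * ModularForm.discriminant z :=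
  SlashInvariantForm.slash_action_eqn'' CuspForm.discriminant
    (γ := Matrix.SpecialLinearGroup.mapGL ℝ g) (Set.mem_range_self g) z

theorem jFun_smul (g : SL(2, ℤ)) (z : ℍ) : jFun (g • z) = jFun z := by
  unfold jFun
  rw [E₄_smul, disc_smul]
  have hd : denom g z ≠ 0 := denom_ne_zero g z
  have hΔ := ModularForm.discriminant_ne_zero z
  have h4 : (denom g z ^ (4 : ℤ)) = denom g z ^ 4 := by norm_cast
  have h12 : (denom g z ^ (12 : ℤ)) = denom g z ^ 12 := by norm_cast
  rw [h4, h12]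
  field_simp

theorem mdiff_jFun : MDiff jFun := by
  have h4 : MDiff (fun z : ℍ => E₄ z ^ 3) := (ModularFormClass.holo E₄).pow 3
  have hΔ : MDiff (fun z : ℍ => ModularForm.discriminant z) :=
    ModularFormClass.holo CuspForm.discriminant
  exact h4.div hΔ ModularForm.discriminant_ne_zero

theorem jFun_mul_disc (z : ℍ) : jFun z * ModularForm.discriminant z = E₄ z ^ 3 := by
  unfold jFun
  field_simp [ModularForm.discriminant_ne_zero z]

theorem isBoundedAtImInfty_E₄_cube : IsBoundedAtImInfty (fun z : ℍ => E₄ z ^ 3) := by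
  have hb : IsBoundedAtImInfty (fun z : ℍ => E₄ z) := ModularFormClass.bdd_at_infty E₄
  have h3 := (hb.mul hb).mul hb
  have e : (fun z : ℍ => E₄ z ^ 3) =
      ((fun z : ℍ => E₄ z) * (fun z : ℍ => E₄ z)) * (fun z : ℍ => E₄ z) := by
    funext z
    simp only [Pi.mul_apply]
    ring
  rw [e]
  exact h3

theorem jFun_mem : jFun ∈ WH (⊤ : Subgroup SL(2, ℤ)) := by
  rw [mem_WH]
  exact
    { mdiff := mdiff_jFun
      inv := fun γ _ z => jFun_smul γ z
      bdd := ⟨1, fun g => by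
        have e : (fun z : ℍ => jFun (g • z) * ModularForm.discriminant z ^ 1) =
            (fun z : ℍ => E₄ z ^ 3) := by
          funext z
          rw [jFun_smul, pow_one, jFun_mul_disc]
        rw [e]
        exact isBoundedAtImInfty_E₄_cube⟩ }

theorem jFun_mem_WH (Γ : Subgroup SL(2, ℤ)) : jFun ∈ WH Γ :=
  WH_mono le_top jFun_mem

/-- `j` as an element of the ring of weakly holomorphic `Γ`-invariant functions. -/
noncomputable def jWH (Γ : Subgroup SL(2, ℤ)) : WH Γ := ⟨jFun, jFun_mem_WH Γ⟩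

theorem jWH_apply (Γ : Subgroup SL(2, ℤ)) (z : ℍ) : (jWH Γ : ℍ → ℂ) z = jFun z := rfl

end Fermat.Agent.S20
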