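import Mathlib
import Fermat.Agent.S20.LevelOneBasic

/-!
# S20 level-one input (J2), (J5): `j` is surjective and `WH ⊤ = ℂ[j]`

* `jFun_surjective : Function.Surjective jFun`;
* `exists_poly_of_isWH_top`: every weakly holomorphic `SL(2,ℤ)`-invariant function is a
  polynomial in `j` (with degree bound `exists_poly_of_bdd`);
* `WH_top_eq_adjoin : WH ⊤ = Algebra.adjoin ℂ {jFun}`;
* `poly_eq_zero_of_eval_jFun`: `j` is transcendental over `ℂ`.
-/

set_option autoImplicit false

open UpperHalfPlane ModularForm Polynomial Filter Function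
open scoped MatrixGroups Manifold Topology

namespace Fermat.Agent.S20

namespace JSurj

/-- A holomorphic function on `ℍ` transforming with weight `k` under `SL(2,ℤ)` and bounded at
`i∞` is a level-one modular form. -/
theorem exists_levelOne (k : ℤ) (F : ℍ → ℂ) (hF : MDiff F)
    (hinv : ∀ (γ : SL(2, ℤ)) (z : ℍ), F (γ • z) = denom γ z ^ k * F z)
    (hbdd : IsBoundedAtImInfty F) :
    ∃ G : ModularForm 𝒮ℒ k, (⇑G : ℍ → ℂ) = F := by
  have hsl : ∀ γ : SL(2, ℤ), F ∣[k] γ = F := by
    intro γ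
    funext z
    rw [ModularForm.SL_slash_apply, hinv γ z]
    have hd : denom γ z ≠ 0 := denom_ne_zero γ z
    rw [mul_right_comm, ← zpow_add₀ hd]
    simp
  refine ⟨{ toFun := F
            slash_action_eq' := ?_
            holo' := hF
            bdd_at_cusps' := ?_ }, rfl⟩
  · rintro γ ⟨γ', rfl⟩
    exact hsl γ'
  · intro c hc
    have hc' := (Subgroup.IsArithmetic.isCusp_iff_isCusp_SL2Z _).mp hc
    rw [OnePoint.isBoundedAt_iff_forall_SL2Z hc']
    intro γ _
    rw [hsl γ]
    exact hbdd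

/-- A level-one modular form tends to its constant `q`-coefficient at `i∞`. -/
theorem tendsto_coeff_zero {k : ℤ} (f : ModularForm 𝒮ℒ k) :
    Tendsto (⇑f) atImInfty (𝓝 ((qExpansion 1 f).coeff 0)) := by
  have hanal := ModularFormClass.analyticAt_cuspFunction_zero f one_pos one_mem_strictPeriods_SL
  have hper := SlashInvariantFormClass.periodic_comp_ofComplex f one_mem_strictPeriods_SL
  rw [qExpansion_coeff_zero one_pos hanal hper, ← cuspFunction_apply_zero one_pos hanal hper]
  exact (hanal.continuousAt.tendsto.comp (qParam_tendsto_atImInfty one_pos)).congr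
    (fun τ ↦ SlashInvariantFormClass.eq_cuspFunction f τ one_mem_strictPeriods_SL one_ne_zero)

theorem tendsto_E₄ : Tendsto (fun z : ℍ => E₄ z) atImInfty (𝓝 1) := by
  have h := tendsto_coeff_zero E₄
  rwa [show (qExpansion 1 E₄).coeff 0 = 1 from
    EisensteinSeries.E_qExpansion_coeff_zero (by norm_num) ⟨2, rfl⟩] at h

theorem tendsto_disc : Tendsto (fun z : ℍ => ModularForm.discriminant z) atImInfty (𝓝 0) :=
  CuspFormClass.zero_at_infty CuspForm.discriminant

theorem bdd_of_tendsto {F : ℍ → ℂ} {c : ℂ} (h : Tendsto F atImInfty (𝓝 c)) :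
    IsBoundedAtImInfty F :=
  h.isBigO_one ℝ

theorem E₄_pow_smul (m : ℕ) (γ : SL(2, ℤ)) (z : ℍ) :
    (E₄ (γ • z) ^ 3) ^ m = denom γ z ^ (12 * (m : ℤ)) * (E₄ z ^ 3) ^ m := by
  rw [E₄_smul]
  have hd : denom γ z ≠ 0 := denom_ne_zero γ z
  have h4 : (denom γ z ^ (4 : ℤ)) = denom γ z ^ 4 := by norm_cast
  have h12 : denom γ z ^ (12 * (m : ℤ)) = (denom γ z ^ 12) ^ m := by
    rw [zpow_mul]
    norm_cast
  rw [h4, h12]
  ring

theorem disc_pow_smul (m : ℕ) (γ : SL(2, ℤ)) (z : ℍ) :
    ModularForm.discriminant (γ • z) ^ m =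
      denom γ z ^ (12 * (m : ℤ)) * ModularForm.discriminant z ^ m := by
  rw [disc_smul]
  have h12 : denom γ z ^ (12 * (m : ℤ)) = (denom γ z ^ (12 : ℤ)) ^ m := by
    rw [zpow_mul]
    norm_cast
  rw [h12]
  ring

theorem mdiff_disc : MDiff (fun z : ℍ => ModularForm.discriminant z) :=
  ModularFormClass.holo CuspForm.discriminant

theorem mdiff_E₄ : MDiff (fun z : ℍ => E₄ z) := ModularFormClass.holo E₄

end JSurj

open JSurj in
/-- The `j`-function takes every complex value. -/
theorem jFun_surjective : Function.Surjective jFun := by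
  intro a
  by_contra hne
  push Not at hne
  obtain ⟨D, hD⟩ : ∃ D : ℍ → ℂ, D = fun z => E₄ z ^ 3 - a * ModularForm.discriminant z := ⟨_, rfl⟩
  have hD0 : ∀ z, D z ≠ 0 := by
    intro z h0
    apply hne z
    have hΔ := ModularForm.discriminant_ne_zero z
    unfold jFun
    rw [div_eq_iff hΔ]
    rw [hD] at h0
    linear_combination h0
  have hDm : MDiff D := by
    rw [hD]
    exact (mdiff_E₄.pow 3).sub (mdifferentiable_const.mul mdiff_disc)
  have hDsmul : ∀ (γ : SL(2, ℤ)) (z : ℍ), D (γ • z) = denom γ z ^ 12 * D z := by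
    intro γ z
    simp only [hD, E₄_smul, disc_smul]
    have h4 : (denom γ z ^ (4 : ℤ)) = denom γ z ^ 4 := by norm_cast
    have h12 : (denom γ z ^ (12 : ℤ)) = denom γ z ^ 12 := by norm_cast
    rw [h4, h12]
    ring
  have hDlim : Tendsto D atImInfty (𝓝 1) := by
    have h := (tendsto_E₄.pow 3).sub (tendsto_disc.const_mul a)
    rw [hD]
    simpa using h
  have hIm : MDiff (fun z : ℍ => 1 / D z) := mdifferentiable_const.div hDm hD0
  have hIlim : Tendsto (fun z : ℍ => 1 / D z) atImInfty (𝓝 1) := by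
    have h := (tendsto_const_nhds (x := (1 : ℂ)) (f := atImInfty)).div hDlim one_ne_zero
    rw [div_one] at h
    exact h
  obtain ⟨G, hG⟩ := exists_levelOne (-12) (fun z : ℍ => 1 / D z) hIm (by
    intro γ z
    have hd : denom γ z ≠ 0 := denom_ne_zero γ z
    have h12 : (denom γ z ^ (-12 : ℤ)) = (denom γ z ^ 12)⁻¹ := by
      rw [zpow_neg]
      norm_cast
    rw [hDsmul, h12]
    field_simp) (bdd_of_tendsto hIlim)
  have h0 := ModularFormClass.levelOne_neg_weight_eq_zero (by norm_num : (-12 : ℤ) < 0) G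
  rw [hG] at h0
  have h1 := congrFun h0 I
  simp only [Pi.zero_apply, one_div, inv_eq_zero] at h1
  exact hD0 _ h1

/-- `j` is transcendental: a polynomial vanishing on all values of `j` is zero. -/
theorem poly_eq_zero_of_eval_jFun (p : ℂ[X]) (h : ∀ z : ℍ, p.eval (jFun z) = 0) : p = 0 := by
  apply Polynomial.funext
  intro a
  obtain ⟨z, rfl⟩ := jFun_surjective a
  simpa using h z

open JSurj in
/-- A holomorphic `SL(2,ℤ)`-invariant function `f` with `f * Δ ^ n` bounded at `i∞` is a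
polynomial of degree at most `n` in `j`. -/
theorem exists_poly_of_bdd (n : ℕ) : ∀ (f : ℍ → ℂ), MDiff f →
    (∀ (γ : SL(2, ℤ)) (z : ℍ), f (γ • z) = f z) →
    IsBoundedAtImInfty (fun z : ℍ => f z * ModularForm.discriminant z ^ n) →
    ∃ p : ℂ[X], p.natDegree ≤ n ∧ ∀ z, f z = p.eval (jFun z) := by
  induction n with
  | zero =>
    intro f hf hinv hb
    obtain ⟨G, hG⟩ := exists_levelOne 0 f hf (by
      intro γ z
      rw [hinv γ z, zpow_zero, one_mul]) (by simpa using hb)
    obtain ⟨c, hc⟩ := ModularFormClass.levelOne_weight_zero_const G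
    refine ⟨C c, by simp, fun z => ?_⟩
    rw [eval_C, ← hG, hc]
    rfl
  | succ n ih =>
    intro f hf hinv hb
    have hΔn : ∀ m : ℕ, MDiff (fun z : ℍ => ModularForm.discriminant z ^ m) :=
      fun m => mdiff_disc.pow m
    -- `G = f Δ^(n+1)` is a modular form of weight `12 (n+1)`
    obtain ⟨G, hG⟩ := exists_levelOne (12 * ((n + 1 : ℕ) : ℤ))
      (fun z : ℍ => f z * ModularForm.discriminant z ^ (n + 1)) (hf.mul (hΔn (n + 1))) (by
        intro γ z
        rw [hinv γ z, disc_pow_smul]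
        ring) hb
    obtain ⟨c, hc⟩ : ∃ c : ℂ, c = (qExpansion 1 G).coeff 0 := ⟨_, rfl⟩
    have hGlim : Tendsto (fun z : ℍ => f z * ModularForm.discriminant z ^ (n + 1)) atImInfty
        (𝓝 c) := by
      rw [hc, ← hG]
      exact tendsto_coeff_zero G
    -- subtract `c j^(n+1)`
    obtain ⟨f₁, hf₁⟩ : ∃ f₁ : ℍ → ℂ, f₁ = fun z => f z - c * jFun z ^ (n + 1) := ⟨_, rfl⟩
    have hf₁m : MDiff f₁ := by
      rw [hf₁]
      exact hf.sub (mdifferentiable_const.mul (mdiff_jFun.pow (n + 1)))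
    have hf₁inv : ∀ (γ : SL(2, ℤ)) (z : ℍ), f₁ (γ • z) = f₁ z := by
      intro γ z
      simp only [hf₁, hinv γ z, jFun_smul]
    have e1 : ∀ z : ℍ, f₁ z * ModularForm.discriminant z ^ (n + 1) =
        f z * ModularForm.discriminant z ^ (n + 1) - c * (E₄ z ^ 3) ^ (n + 1) := by
      intro z
      simp only [hf₁]
      rw [sub_mul, mul_assoc, ← mul_pow, jFun_mul_disc]
    have hG₁lim : Tendsto (fun z : ℍ => f₁ z * ModularForm.discriminant z ^ (n + 1)) atImInfty
        (𝓝 0) := by
      have h := hGlim.sub (((tendsto_E₄.pow 3).pow (n + 1)).const_mul c)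
      simp only [one_pow, mul_one, sub_self] at h
      refine h.congr (fun z => ?_)
      rw [e1]
    obtain ⟨G₁, hG₁⟩ := exists_levelOne (12 * ((n + 1 : ℕ) : ℤ))
      (fun z : ℍ => f₁ z * ModularForm.discriminant z ^ (n + 1)) (hf₁m.mul (hΔn (n + 1))) (by
        intro γ z
        rw [hf₁inv γ z, disc_pow_smul]
        ring) (bdd_of_tendsto hG₁lim)
    have hcoeff : (qExpansion 1 G₁).coeff 0 = 0 := by
      have h := tendsto_coeff_zero G₁
      have h' : Tendsto (⇑G₁) atImInfty (𝓝 0) := by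
        rw [hG₁]
        exact hG₁lim
      exact tendsto_nhds_unique h h'
    have hH := ModularFormClass.bdd_at_infty (CuspForm.discriminantEquiv (toCuspForm G₁ hcoeff))
    have hb₁ : IsBoundedAtImInfty (fun z : ℍ => f₁ z * ModularForm.discriminant z ^ n) := by
      have e2 : (fun z : ℍ => f₁ z * ModularForm.discriminant z ^ n) =
          ⇑(CuspForm.discriminantEquiv (toCuspForm G₁ hcoeff)) := by
        funext z
        rw [CuspForm.discriminantEquiv_apply, toCuspForm_apply, hG₁,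
          eq_div_iff (ModularForm.discriminant_ne_zero z)]
        ring
      rw [e2]
      exact hH
    obtain ⟨p₁, hp₁deg, hp₁⟩ := ih f₁ hf₁m hf₁inv hb₁
    refine ⟨p₁ + C c * X ^ (n + 1), ?_, fun z => ?_⟩
    · refine (natDegree_add_le _ _).trans (max_le (hp₁deg.trans (Nat.le_succ n)) ?_)
      exact natDegree_C_mul_X_pow_le c (n + 1)
    · rw [eval_add, eval_mul, eval_C, eval_pow, eval_X, ← hp₁ z, hf₁]
      ring

/-- (J5) Every weakly holomorphic `SL(2,ℤ)`-invariant function is a polynomial in `j`. -/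
theorem exists_poly_of_isWH_top (f : ℍ → ℂ) (hf : IsWH ⊤ f) :
    ∃ p : Polynomial ℂ, ∀ z, f z = p.eval (jFun z) := by
  obtain ⟨n, hn⟩ := hf.bdd
  have hinv : ∀ (γ : SL(2, ℤ)) (z : ℍ), f (γ • z) = f z :=
    fun γ z => hf.inv γ (Subgroup.mem_top γ) z
  have hb : IsBoundedAtImInfty (fun z : ℍ => f z * ModularForm.discriminant z ^ n) := by
    have h := hn 1
    simpa using h
  obtain ⟨p, -, hp⟩ := exists_poly_of_bdd n f hf.mdiff hinv hb
  exact ⟨p, hp⟩

/-- (J5), algebra form: `WH ⊤ = ℂ[j]`. -/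
theorem WH_top_eq_adjoin : WH (⊤ : Subgroup SL(2, ℤ)) = Algebra.adjoin ℂ {jFun} := by
  apply le_antisymm
  · intro f hf
    obtain ⟨p, hp⟩ := exists_poly_of_isWH_top f hf
    have e : f = Polynomial.aeval jFun p := by
      funext z
      rw [hp z]
      have h := Polynomial.aeval_algHom_apply (Pi.evalAlgHom ℂ (fun _ : ℍ => ℂ) z) jFun p
      simp only [Pi.evalAlgHom_apply] at h
      rw [← h, Polynomial.aeval_def, Polynomial.eval₂_eq_eval_map]
      simp
    rw [e, Algebra.adjoin_singleton_eq_range_aeval]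
    exact ⟨p, rfl⟩
  · exact Algebra.adjoin_le (Set.singleton_subset_iff.mpr jFun_mem)

open JSurj in
/-- `1 / j` tends to `0` at `i∞`. -/
theorem tendsto_inv_jFun_atImInfty : Tendsto (fun z : ℍ => (jFun z)⁻¹) atImInfty (𝓝 0) := by
  have h := tendsto_disc.div (tendsto_E₄.pow 3) (by norm_num)
  simp only [one_pow, div_one] at h
  refine h.congr (fun z => ?_)
  unfold jFun
  rw [inv_div]
  rfl

/-- `j` has a pole at `i∞`. -/
theorem tendsto_norm_jFun_atImInfty : Tendsto (fun z : ℍ => ‖jFun z‖) atImInfty atTop := by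
  have h := tendsto_inv_jFun_atImInfty
  have h1 : Tendsto (fun z : ℍ => ‖(jFun z)⁻¹‖) atImInfty (𝓝[>] 0) := by
    rw [tendsto_nhdsWithin_iff]
    refine ⟨by simpa using h.norm, ?_⟩
    have hE : ∀ᶠ z : ℍ in atImInfty, E₄ z ≠ 0 := by
      exact JSurj.tendsto_E₄.eventually_ne one_ne_zero
    filter_upwards [hE] with z hz
    have hj : jFun z ≠ 0 := by
      unfold jFun
      exact div_ne_zero (pow_ne_zero 3 hz) (ModularForm.discriminant_ne_zero z)
    simp only [Set.mem_Ioi, norm_pos_iff, ne_eq, inv_eq_zero]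
    exact hj
  have h2 := h1.inv_tendsto_nhdsGT_zero
  refine h2.congr (fun z => ?_)
  simp

end Fermat.Agent.S20
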