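import Mathlib
import Fermat.Agent.S20.Defs

set_option autoImplicit false

open UpperHalfPlane ModularForm Function Filter
open scoped MatrixGroups Manifold Topology

namespace Fermat.Agent.S20

/-- The order at `i∞` of a function on `ℍ`, measured in the parameter `q_h = exp (2πiz/h)`. -/
noncomputable def ordInf (h : ℕ) (F : ℍ → ℂ) : WithTop ℤ :=
  meromorphicOrderAt (fun q : ℂ => F (ofComplex (Function.Periodic.invQParam h q))) 0

/-- `F` is holomorphic on `ℍ`, `h`-periodic, and has at most a pole at `i∞`. -/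
structure IsMeroInf (h : ℕ) (F : ℍ → ℂ) : Prop where
  mdiff : MDiff F
  per : ∀ z : ℍ, F ((h : ℝ) +ᵥ z) = F z
  bdd : ∃ n : ℕ, IsBoundedAtImInfty (fun z => F z * ModularForm.discriminant z ^ n)

namespace OrdCusp

theorem periodic_comp {h : ℕ} {F : ℍ → ℂ} (hper : ∀ z : ℍ, F ((h : ℝ) +ᵥ z) = F z) :
    Periodic (F ∘ ofComplex) ((h : ℝ) : ℂ) := by
  intro w
  by_cases hw : 0 < w.im
  · have hw' : 0 < (w + ((h : ℝ) : ℂ)).im := by simpa using hw
    simp only [comp_apply, ofComplex_apply_of_im_pos hw', ofComplex_apply_of_im_pos hw]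
    rw [← hper ⟨w, hw⟩]
    congr 1
    ext
    simp [add_comm]
  · have hw0 : w.im ≤ 0 := not_lt.mp hw
    have hw' : (w + ((h : ℝ) : ℂ)).im ≤ 0 := by simpa using hw0
    show F (ofComplex (w + ((h : ℝ) : ℂ))) = F (ofComplex w)
    rw [ofComplex_apply_of_im_nonpos hw', ofComplex_apply_of_im_nonpos hw0]

theorem cusp_eq (h : ℕ) (F : ℍ → ℂ) {q : ℂ} (hq : q ≠ 0) :
    F (ofComplex (Function.Periodic.invQParam h q)) = cuspFunction (h : ℝ) F q :=
  (Function.Periodic.cuspFunction_eq_of_nonzero (h : ℝ) (F ∘ ofComplex) hq).symm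

theorem ordInf_eq_cuspFunction (h : ℕ) (F : ℍ → ℂ) :
    ordInf h F = meromorphicOrderAt (cuspFunction (h : ℝ) F) 0 := by
  apply meromorphicOrderAt_congr
  filter_upwards [self_mem_nhdsWithin] with q hq
  exact cusp_eq h F hq

theorem tendsto_invQ {h : ℕ} (hh : 0 < h) :
    Tendsto (fun q : ℂ => ofComplex (Function.Periodic.invQParam h q)) (𝓝[≠] 0) atImInfty := by
  have h1 := Function.Periodic.invQParam_tendsto (h := (h : ℝ)) (by exact_mod_cast hh)
  exact tendsto_comap_im_ofComplex.comp h1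

theorem tendsto_comp_invQ {h : ℕ} (hh : 0 < h) {F : ℍ → ℂ} {l : Filter ℂ}
    (hF : Tendsto F atImInfty l) :
    Tendsto (fun q : ℂ => F (ofComplex (Function.Periodic.invQParam h q))) (𝓝[≠] 0) l :=
  hF.comp (tendsto_invQ hh)

theorem tendsto_qParam {h : ℕ} (hh : 0 < h) :
    Tendsto (fun τ : ℍ => Function.Periodic.qParam (h : ℝ) τ) atImInfty (𝓝[≠] 0) :=
  (Function.Periodic.qParam_tendsto (h := (h : ℝ)) (by exact_mod_cast hh)).comp
    tendsto_coe_atImInfty

theorem eq_comp_qParam {h : ℕ} (hh : 0 < h) {F : ℍ → ℂ}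
    (hper : ∀ z : ℍ, F ((h : ℝ) +ᵥ z) = F z) (τ : ℍ) :
    F (ofComplex (Function.Periodic.invQParam h (Function.Periodic.qParam (h : ℝ) τ))) = F τ := by
  rw [cusp_eq h F (Function.Periodic.qParam_ne_zero _)]
  exact eq_cuspFunction τ (by exact_mod_cast hh.ne') (periodic_comp hper)

theorem tendsto_of_tendsto_comp_invQ {h : ℕ} (hh : 0 < h) {F : ℍ → ℂ}
    (hper : ∀ z : ℍ, F ((h : ℝ) +ᵥ z) = F z) {l : Filter ℂ}
    (hF : Tendsto (fun q : ℂ => F (ofComplex (Function.Periodic.invQParam h q))) (𝓝[≠] 0) l) :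
    Tendsto F atImInfty l := by
  have := hF.comp (tendsto_qParam hh)
  refine this.congr (fun τ => ?_)
  exact eq_comp_qParam hh hper τ

theorem eq_zero_of_eventually {F : ℍ → ℂ} (hF : MDiff F) (h0 : ∀ᶠ z in atImInfty, F z = 0) :
    F = 0 := by
  obtain ⟨A, hA⟩ := (UpperHalfPlane.atImInfty_mem _).mp h0
  have hd := UpperHalfPlane.mdifferentiable_iff.mp hF
  have han : AnalyticOnNhd ℂ (F ∘ ofComplex) upperHalfPlaneSet :=
    hd.analyticOnNhd isOpen_upperHalfPlaneSet
  have hpre : IsPreconnected upperHalfPlaneSet := (convex_halfSpace_im_gt 0).isPreconnected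
  set B : ℝ := max A 0 + 1 with hB
  have hBpos : 0 < B := by positivity
  have hz0 : (⟨0, B⟩ : ℂ) ∈ upperHalfPlaneSet := by
    show 0 < (⟨0, B⟩ : ℂ).im
    exact hBpos
  have hev : (F ∘ ofComplex) =ᶠ[𝓝 (⟨0, B⟩ : ℂ)] 0 := by
    have hopen : IsOpen {z : ℂ | max A 0 < z.im} := isOpen_lt continuous_const Complex.continuous_im
    have hmem : (⟨0, B⟩ : ℂ) ∈ {z : ℂ | max A 0 < z.im} := by
      show max A 0 < B
      rw [hB]; linarith
    filter_upwards [hopen.mem_nhds hmem] with z hz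
    have hz' : 0 < z.im := lt_of_le_of_lt (le_max_right A 0) hz
    simp only [comp_apply, ofComplex_apply_of_im_pos hz', Pi.zero_apply]
    exact hA ⟨z, hz'⟩ ((le_max_left A 0).trans hz.le)
  have key := han.eqOn_zero_of_preconnected_of_eventuallyEq_zero hpre hz0 hev
  funext z
  have := key z.2
  simpa using this

theorem natCast_mem_strictPeriods_SL (h : ℕ) : (h : ℝ) ∈ (𝒮ℒ).strictPeriods := by
  have := AddSubgroup.nsmul_mem _ one_mem_strictPeriods_SL h
  simpa using this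

theorem disc_per (h : ℕ) (z : ℍ) :
    ModularForm.discriminant ((h : ℝ) +ᵥ z) = ModularForm.discriminant z :=
  SlashInvariantForm.vAdd_apply_of_mem_strictPeriods CuspForm.discriminant z
    (natCast_mem_strictPeriods_SL h)

theorem mdiff_disc : MDiff (fun z : ℍ => ModularForm.discriminant z) :=
  CuspForm.discriminant.holo'

theorem mdiff_disc_pow (n : ℕ) : MDiff (fun z : ℍ => ModularForm.discriminant z ^ n) :=
  mdiff_disc.pow n

/-- Bounded periodic holomorphic functions have an analytic cusp function. -/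
theorem analyticAt_cusp {h : ℕ} (hh : 0 < h) {F : ℍ → ℂ} (hF : MDiff F)
    (hper : ∀ z : ℍ, F ((h : ℝ) +ᵥ z) = F z) (hb : IsBoundedAtImInfty F) :
    AnalyticAt ℂ (cuspFunction (h : ℝ) F) 0 :=
  analyticAt_cuspFunction_zero (by exact_mod_cast hh) (periodic_comp hper) hF hb

end OrdCusp

theorem IsMeroInf.meromorphicAt {h : ℕ} (hh : 0 < h) {F : ℍ → ℂ} (hF : IsMeroInf h F) :
    MeromorphicAt (fun q : ℂ => F (ofComplex (Function.Periodic.invQParam h q))) 0 := by
  obtain ⟨n, hn⟩ := hF.bdd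
  have h1 : AnalyticAt ℂ (cuspFunction (h : ℝ) (fun z => F z * ModularForm.discriminant z ^ n)) 0 :=
    OrdCusp.analyticAt_cusp hh (hF.mdiff.mul (OrdCusp.mdiff_disc_pow n))
      (fun z => by simp only [hF.per z, OrdCusp.disc_per h z]) hn
  have h2 : AnalyticAt ℂ (cuspFunction (h : ℝ) (fun z => ModularForm.discriminant z ^ n)) 0 :=
    OrdCusp.analyticAt_cusp hh (OrdCusp.mdiff_disc_pow n)
      (fun z => by simp only [OrdCusp.disc_per h z]) (isBoundedAtImInfty_disc_pow n)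
  refine (h1.meromorphicAt.div h2.meromorphicAt).congr ?_
  filter_upwards [self_mem_nhdsWithin] with q hq
  simp only [Pi.div_apply]
  rw [← OrdCusp.cusp_eq h _ hq, ← OrdCusp.cusp_eq h _ hq]
  rw [mul_div_assoc, div_self (pow_ne_zero n (ModularForm.discriminant_ne_zero _)), mul_one]

/-! ### Closure properties of `IsMeroInf` -/

theorem IsMeroInf.of_bdd {h : ℕ} {F : ℍ → ℂ} (hF : MDiff F)
    (hper : ∀ z : ℍ, F ((h : ℝ) +ᵥ z) = F z) (hb : IsBoundedAtImInfty F) : IsMeroInf h F where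
  mdiff := hF
  per := hper
  bdd := ⟨0, by simpa using hb⟩

theorem IsMeroInf.const (h : ℕ) (c : ℂ) : IsMeroInf h (fun _ => c) :=
  IsMeroInf.of_bdd mdifferentiable_const (fun _ => rfl) (Filter.const_boundedAtFilter _ c)

theorem IsMeroInf.mul {h : ℕ} {F G : ℍ → ℂ} (hF : IsMeroInf h F) (hG : IsMeroInf h G) :
    IsMeroInf h (F * G) where
  mdiff := hF.mdiff.mul hG.mdiff
  per := fun z => by rw [Pi.mul_apply, Pi.mul_apply, hF.per z, hG.per z]
  bdd := by
    obtain ⟨n, hn⟩ := hF.bdd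
    obtain ⟨m, hm⟩ := hG.bdd
    refine ⟨n + m, ?_⟩
    have e : (fun z : ℍ => (F * G) z * ModularForm.discriminant z ^ (n + m)) =
        (fun z : ℍ => F z * ModularForm.discriminant z ^ n) *
          (fun z : ℍ => G z * ModularForm.discriminant z ^ m) := by
      funext z
      simp only [Pi.mul_apply, pow_add]
      ring
    rw [e]
    exact hn.mul hm

theorem IsMeroInf.add {h : ℕ} {F G : ℍ → ℂ} (hF : IsMeroInf h F) (hG : IsMeroInf h G) :
    IsMeroInf h (F + G) where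
  mdiff := hF.mdiff.add hG.mdiff
  per := fun z => by rw [Pi.add_apply, Pi.add_apply, hF.per z, hG.per z]
  bdd := by
    obtain ⟨n, hn⟩ := hF.bdd
    obtain ⟨m, hm⟩ := hG.bdd
    refine ⟨n + m, ?_⟩
    have h1 := hn.mul (isBoundedAtImInfty_disc_pow m)
    have h2 := hm.mul (isBoundedAtImInfty_disc_pow n)
    have e : (fun z : ℍ => (F + G) z * ModularForm.discriminant z ^ (n + m)) =
        (fun z : ℍ => F z * ModularForm.discriminant z ^ n) *
          (fun z : ℍ => ModularForm.discriminant z ^ m) +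
        (fun z : ℍ => G z * ModularForm.discriminant z ^ m) *
          (fun z : ℍ => ModularForm.discriminant z ^ n) := by
      funext z
      simp only [Pi.mul_apply, Pi.add_apply, pow_add]
      ring
    rw [e]
    exact h1.add h2

theorem IsMeroInf.pow {h : ℕ} {F : ℍ → ℂ} (hF : IsMeroInf h F) (n : ℕ) :
    IsMeroInf h (F ^ n) := by
  induction n with
  | zero =>
    rw [pow_zero]
    exact IsMeroInf.const h 1
  | succ n ih => rw [pow_succ]; exact ih.mul hF

theorem IsMeroInf.of_dvd {k h : ℕ} (hkh : k ∣ h) {F : ℍ → ℂ} (hF : IsMeroInf k F) :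
    IsMeroInf h F where
  mdiff := hF.mdiff
  per := by
    obtain ⟨d, rfl⟩ := hkh
    intro z
    induction d with
    | zero =>
      congr 1
      ext
      simp
    | succ d ih =>
      rw [← ih, ← hF.per (((k * d : ℕ) : ℝ) +ᵥ z)]
      congr 1
      ext
      simp
      ring
  bdd := hF.bdd

/-! ### Basic properties of `ordInf` -/

theorem ordInf_mul {h : ℕ} (hh : 0 < h) {F G : ℍ → ℂ} (hF : IsMeroInf h F)
    (hG : IsMeroInf h G) : ordInf h (F * G) = ordInf h F + ordInf h G :=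
  meromorphicOrderAt_mul (hF.meromorphicAt hh) (hG.meromorphicAt hh)

theorem ordInf_add_ge {h : ℕ} (hh : 0 < h) {F G : ℍ → ℂ} (hF : IsMeroInf h F)
    (hG : IsMeroInf h G) : min (ordInf h F) (ordInf h G) ≤ ordInf h (F + G) :=
  meromorphicOrderAt_add (hF.meromorphicAt hh) (hG.meromorphicAt hh)

theorem ordInf_eq_top_iff {h : ℕ} (hh : 0 < h) {F : ℍ → ℂ} (hF : IsMeroInf h F) :
    ordInf h F = ⊤ ↔ F = 0 := by
  constructor
  · intro htop
    have h1 := meromorphicOrderAt_eq_top_iff.mp htop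
    have h2 := (OrdCusp.tendsto_qParam hh).eventually h1
    apply OrdCusp.eq_zero_of_eventually hF.mdiff
    filter_upwards [h2] with τ hτ
    rw [← OrdCusp.eq_comp_qParam hh hF.per τ]
    exact hτ
  · rintro rfl
    exact meromorphicOrderAt_eq_top_iff.mpr (Eventually.of_forall fun _ => rfl)

theorem ordInf_pos_iff {h : ℕ} (hh : 0 < h) {F : ℍ → ℂ} (hF : IsMeroInf h F) :
    0 < ordInf h F ↔ IsZeroAtImInfty F := by
  rw [ordInf, ← tendsto_zero_iff_meromorphicOrderAt_pos (hF.meromorphicAt hh)]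
  constructor
  · intro ht
    exact OrdCusp.tendsto_of_tendsto_comp_invQ hh hF.per ht
  · intro ht
    exact OrdCusp.tendsto_comp_invQ hh ht

theorem ordInf_nonneg_iff {h : ℕ} (hh : 0 < h) {F : ℍ → ℂ} (hF : IsMeroInf h F) :
    0 ≤ ordInf h F ↔ IsBoundedAtImInfty F := by
  constructor
  · intro hnn
    obtain ⟨c, hc⟩ := tendsto_nhds_of_meromorphicOrderAt_nonneg (hF.meromorphicAt hh) hnn
    have ht : Tendsto F atImInfty (𝓝 c) := OrdCusp.tendsto_of_tendsto_comp_invQ hh hF.per hc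
    exact ht.isBigO_one ℝ
  · intro hb
    rw [OrdCusp.ordInf_eq_cuspFunction]
    exact (OrdCusp.analyticAt_cusp hh hF.mdiff hF.per hb).meromorphicOrderAt_nonneg

theorem ordInf_eq_zero_of_tendsto {h : ℕ} (hh : 0 < h) {F : ℍ → ℂ} (hF : IsMeroInf h F)
    {c : ℂ} (hc : c ≠ 0) (ht : Tendsto F atImInfty (𝓝 c)) : ordInf h F = 0 :=
  (tendsto_ne_zero_iff_meromorphicOrderAt_eq_zero (hF.meromorphicAt hh)).mp
    ⟨c, hc, OrdCusp.tendsto_comp_invQ hh ht⟩

theorem ordInf_const {h : ℕ} (hh : 0 < h) {c : ℂ} (hc : c ≠ 0) :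
    ordInf h (fun _ => c) = 0 :=
  ordInf_eq_zero_of_tendsto hh (IsMeroInf.const h c) hc tendsto_const_nhds

/-! ### Change of the period, translations -/

namespace OrdCusp

theorem qParam_invQParam_of_dvd {k d : ℕ} (hk : 0 < k) {q : ℂ} (hq : q ≠ 0) :
    Function.Periodic.qParam (k : ℝ) (Function.Periodic.invQParam ((k * d : ℕ) : ℝ) q) = q ^ d := by
  unfold Function.Periodic.qParam Function.Periodic.invQParam
  have hk' : ((k : ℝ) : ℂ) ≠ 0 := by exact_mod_cast hk.ne'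
  have hpi : (2 * (Real.pi : ℂ) * Complex.I) ≠ 0 := Complex.two_pi_I_ne_zero
  have e : 2 * (Real.pi : ℂ) * Complex.I *
      ((((k * d : ℕ) : ℝ) : ℂ) / (2 * (Real.pi : ℂ) * Complex.I) * Complex.log q) / ((k : ℝ) : ℂ)
      = (d : ℂ) * Complex.log q := by
    have hk2 : (k : ℂ) ≠ 0 := by exact_mod_cast hk.ne'
    push_cast
    field_simp
  rw [e, Complex.exp_nat_mul, Complex.exp_log hq]

theorem eventually_norm_lt_one : ∀ᶠ q in 𝓝[≠] (0 : ℂ), ‖q‖ < 1 := by
  apply eventually_nhdsWithin_of_eventually_nhds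
  have : Tendsto (fun q : ℂ => ‖q‖) (𝓝 0) (𝓝 0) := by
    simpa using (continuous_norm.tendsto (0 : ℂ))
  exact this.eventually (gt_mem_nhds one_pos)

theorem qParam_add (h : ℝ) (a b : ℂ) :
    Function.Periodic.qParam h (a + b) =
      Function.Periodic.qParam h a * Function.Periodic.qParam h b := by
  unfold Function.Periodic.qParam
  rw [← Complex.exp_add]
  congr 1
  ring

end OrdCusp

/-- The order in `q_h` is `h / k` times the order in `q_k` for a `k`-periodic function. -/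
theorem ordInf_of_dvd {k h : ℕ} (hk : 0 < k) (hh : 0 < h) (hkh : k ∣ h) {F : ℍ → ℂ}
    (hF : IsMeroInf k F) : ordInf h F = ordInf k F * ((h / k : ℕ) : ℤ) := by
  obtain ⟨d, rfl⟩ := hkh
  have hd : 0 < d := Nat.pos_of_mul_pos_left hh
  rw [Nat.mul_div_cancel_left d hk]
  have hC := hF.meromorphicAt hk
  rw [OrdCusp.ordInf_eq_cuspFunction k F]
  have hC' : MeromorphicAt (cuspFunction (k : ℝ) F) 0 :=
    hC.congr (by filter_upwards [self_mem_nhdsWithin] with q hq using OrdCusp.cusp_eq k F hq)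
  have e : (fun q : ℂ => F (ofComplex (Function.Periodic.invQParam ((k * d : ℕ) : ℝ) q)))
      =ᶠ[𝓝[≠] 0] (cuspFunction (k : ℝ) F) ∘ (fun q => q ^ d) := by
    filter_upwards [self_mem_nhdsWithin] with q hq
    simp only [comp_apply]
    rw [← OrdCusp.qParam_invQParam_of_dvd hk hq]
    exact (Function.Periodic.eq_cuspFunction (by exact_mod_cast hk.ne')
      (OrdCusp.periodic_comp hF.per) _).symm
  rw [ordInf, meromorphicOrderAt_congr e]
  have hg : AnalyticAt ℂ (fun q : ℂ => q ^ d) 0 := by fun_prop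
  have h0 : (fun q : ℂ => q ^ d) 0 = 0 := by simp [hd.ne']
  have h0' : (0 : ℂ) ^ d = 0 := by simp [hd.ne']
  have hord : analyticOrderAt (fun q : ℂ => (fun q : ℂ => q ^ d) q - (fun q : ℂ => q ^ d) 0) 0
      = d := by
    have := analyticOrderAt_centeredMonomial (𝕜 := ℂ) (z₀ := 0) (n := d)
    rw [← this]
    congr 1
    funext q
    simp [hd.ne']
  rw [MeromorphicAt.meromorphicOrderAt_comp (by rw [h0']; exact hC') hg ?_, hord]
  · simp only [h0']
    simp
  · rw [eventuallyConst_iff_analyticOrderAt_sub_eq_top, hord]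
    simp

/-- The order at `i∞` does not change under real integer translations. -/
theorem ordInf_vadd {h : ℕ} (hh : 0 < h) {F : ℍ → ℂ} (hF : IsMeroInf h F) (k : ℤ) :
    ordInf h (fun z => F ((k : ℝ) +ᵥ z)) = ordInf h F := by
  set ζ : ℂ := Function.Periodic.qParam (h : ℝ) ((k : ℝ) : ℂ) with hζ
  have hζ0 : ζ ≠ 0 := Function.Periodic.qParam_ne_zero _
  have e : (fun q : ℂ => F ((k : ℝ) +ᵥ ofComplex (Function.Periodic.invQParam h q)))
      =ᶠ[𝓝[≠] 0] (cuspFunction (h : ℝ) F) ∘ (fun q => ζ * q) := by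
    filter_upwards [self_mem_nhdsWithin, OrdCusp.eventually_norm_lt_one] with q hq hq1
    have him := Function.Periodic.im_invQParam_pos_of_norm_lt_one (h := (h : ℝ))
      (by exact_mod_cast hh) hq1 hq
    rw [ofComplex_apply_of_im_pos him]
    simp only [comp_apply]
    have hh' : ((h : ℕ) : ℝ) ≠ 0 := by exact_mod_cast hh.ne'
    have key := eq_cuspFunction (f := F) ((k : ℝ) +ᵥ (⟨_, him⟩ : ℍ)) (h := (h : ℝ))
      hh' (OrdCusp.periodic_comp hF.per)
    rw [← key]
    congr 1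
    rw [UpperHalfPlane.coe_vadd, OrdCusp.qParam_add]
    congr 1
    exact Function.Periodic.qParam_right_inv hh' hq
  rw [ordInf, meromorphicOrderAt_congr e, OrdCusp.ordInf_eq_cuspFunction]
  have hg : AnalyticAt ℂ (fun q : ℂ => ζ * q) 0 := by fun_prop
  have hd : deriv (fun q : ℂ => ζ * q) 0 ≠ 0 := by
    rw [deriv_const_mul_field]
    simpa using hζ0
  rw [meromorphicOrderAt_comp_of_deriv_ne_zero hg hd]
  simp

/-! ### The orders of `Δ`, `E₄` and `j` at `i∞` -/

theorem isMeroInf_disc (h : ℕ) : IsMeroInf h (fun z => ModularForm.discriminant z) :=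
  IsMeroInf.of_bdd OrdCusp.mdiff_disc (fun z => OrdCusp.disc_per h z) isBoundedAtImInfty_disc

theorem ordInf_one_disc : ordInf 1 (fun z => ModularForm.discriminant z) = 1 := by
  set P : ℍ → ℂ := fun x => ∏' n : ℕ, (1 - ModularForm.eta_q n x) ^ 24 with hP
  have hPt : Tendsto P atImInfty (𝓝 1) := ModularForm.tendsto_atImInfty_tprod_one_sub_eta_q_pow
  have hmer := (isMeroInf_disc 1).meromorphicAt one_pos
  have h1 : (((1 : ℕ) : ℝ)) ≠ 0 := by norm_num
  have h1' : (0 : ℝ) < ((1 : ℕ) : ℝ) := by norm_num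
  have e : (fun q : ℂ => ModularForm.discriminant
        (ofComplex (Function.Periodic.invQParam ((1 : ℕ) : ℝ) q))) =ᶠ[𝓝[≠] 0]
      id * (fun q => P (ofComplex (Function.Periodic.invQParam ((1 : ℕ) : ℝ) q))) := by
    filter_upwards [self_mem_nhdsWithin, OrdCusp.eventually_norm_lt_one] with q hq hq1
    have him := Function.Periodic.im_invQParam_pos_of_norm_lt_one h1' hq1 hq
    rw [Pi.mul_apply, ModularForm.discriminant_eq_q_prod, ofComplex_apply_of_im_pos him]
    congr 1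
    have := Function.Periodic.qParam_right_inv h1 hq
    simpa using this
  have hPm : MeromorphicAt
      (fun q => P (ofComplex (Function.Periodic.invQParam ((1 : ℕ) : ℝ) q))) 0 := by
    refine (hmer.div (MeromorphicAt.id (0 : ℂ))).congr ?_
    filter_upwards [e, self_mem_nhdsWithin] with q hq hq0
    have hq0' : q ≠ 0 := hq0
    rw [Pi.div_apply, hq, Pi.mul_apply, id, mul_div_assoc, mul_comm, div_mul_cancel₀]
    · exact hq0'
  have hP0 : meromorphicOrderAt
      (fun q => P (ofComplex (Function.Periodic.invQParam ((1 : ℕ) : ℝ) q))) 0 = 0 :=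
    (tendsto_ne_zero_iff_meromorphicOrderAt_eq_zero hPm).mp
      ⟨1, one_ne_zero, OrdCusp.tendsto_comp_invQ one_pos hPt⟩
  rw [ordInf, meromorphicOrderAt_congr e, meromorphicOrderAt_mul (MeromorphicAt.id (0 : ℂ)) hPm, hP0,
    meromorphicOrderAt_id, add_zero]

theorem ordInf_disc {h : ℕ} (hh : 0 < h) :
    ordInf h (fun z => ModularForm.discriminant z) = (h : ℤ) := by
  rw [ordInf_of_dvd one_pos hh (one_dvd h) (isMeroInf_disc 1), ordInf_one_disc]
  simp

namespace OrdCusp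

theorem tendsto_E₄ : Tendsto (fun z : ℍ => E₄ z) atImInfty (𝓝 1) := by
  have han := ModularFormClass.analyticAt_cuspFunction_zero E₄ one_pos one_mem_strictPeriods_SL
  have hc : ContinuousAt (cuspFunction 1 ⇑E₄) 0 := han.continuousAt
  have h0 : cuspFunction 1 ⇑E₄ 0 = 1 := by
    have := EisensteinSeries.E_qExpansion_coeff_zero (k := 4) (by norm_num) ⟨2, rfl⟩
    rw [qExpansion_coeff] at this
    simpa using this
  have ht := hc.tendsto.comp (qParam_tendsto_atImInfty (h := 1) one_pos)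
  rw [h0] at ht
  refine ht.congr (fun τ => ?_)
  exact SlashInvariantFormClass.eq_cuspFunction E₄ τ one_mem_strictPeriods_SL one_ne_zero

theorem E₄_per (h : ℕ) (z : ℍ) : E₄ ((h : ℝ) +ᵥ z) = E₄ z :=
  SlashInvariantForm.vAdd_apply_of_mem_strictPeriods E₄ z (natCast_mem_strictPeriods_SL h)

end OrdCusp

theorem isMeroInf_E₄ (h : ℕ) : IsMeroInf h (fun z => E₄ z) :=
  IsMeroInf.of_bdd E₄.holo' (fun z => OrdCusp.E₄_per h z) (ModularFormClass.bdd_at_infty E₄)

theorem ordInf_E₄ {h : ℕ} (hh : 0 < h) : ordInf h (fun z => E₄ z) = 0 :=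
  ordInf_eq_zero_of_tendsto hh (isMeroInf_E₄ h) one_ne_zero OrdCusp.tendsto_E₄

theorem isMeroInf_jFun (h : ℕ) : IsMeroInf h jFun where
  mdiff := by
    have h1 : MDiff (fun z : ℍ => E₄ z ^ 3) := (E₄.holo').pow 3
    have h2 : MDiff (fun z : ℍ => ModularForm.discriminant z) := OrdCusp.mdiff_disc
    rw [UpperHalfPlane.mdifferentiable_iff] at h1 h2 ⊢
    have e : jFun ∘ ofComplex = fun w => ((fun z : ℍ => E₄ z ^ 3) ∘ ofComplex) w /
        ((fun z : ℍ => ModularForm.discriminant z) ∘ ofComplex) w := rfl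
    rw [e]
    exact h1.div h2 (fun x _ => ModularForm.discriminant_ne_zero _)
  per := fun z => by
    unfold jFun
    rw [OrdCusp.E₄_per h z, OrdCusp.disc_per h z]
  bdd := by
    refine ⟨1, ?_⟩
    have e : (fun z : ℍ => jFun z * ModularForm.discriminant z ^ 1) = fun z : ℍ => E₄ z ^ 3 := by
      funext z
      unfold jFun
      rw [pow_one, div_mul_cancel₀ _ (ModularForm.discriminant_ne_zero z)]
    rw [e]
    have hb : IsBoundedAtImInfty (fun z : ℍ => E₄ z) := ModularFormClass.bdd_at_infty E₄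
    have := (hb.mul hb).mul hb
    refine this.congr' ?_ ?_ <;> exact Eventually.of_forall fun z => by simp [pow_succ]

theorem ordInf_jFun {h : ℕ} (hh : 0 < h) : ordInf h jFun = ((-(h : ℤ) : ℤ) : WithTop ℤ) := by
  have hmul : jFun * (fun z : ℍ => ModularForm.discriminant z) = (fun z : ℍ => E₄ z) ^ 3 := by
    funext z
    simp only [Pi.mul_apply, Pi.pow_apply]
    unfold jFun
    rw [div_mul_cancel₀ _ (ModularForm.discriminant_ne_zero z)]
  have h3 : ordInf h ((fun z : ℍ => E₄ z) ^ 3) = 0 := by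
    have ht : Tendsto ((fun z : ℍ => E₄ z) ^ 3) atImInfty (𝓝 ((1 : ℂ) ^ 3)) :=
      OrdCusp.tendsto_E₄.pow 3
    exact ordInf_eq_zero_of_tendsto hh ((isMeroInf_E₄ h).pow 3) (by norm_num) ht
  have key := ordInf_mul hh (isMeroInf_jFun h) (isMeroInf_disc h)
  rw [hmul, h3, ordInf_disc hh] at key
  cases hj : ordInf h jFun with
  | top => rw [hj] at key; simp at key
  | coe m =>
    rw [hj] at key
    have : (0 : ℤ) = m + h := by exact_mod_cast key
    have hm : m = -(h : ℤ) := by linarith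
    rw [hm]

/-! ### Finite sums, products, powers; polynomials in `j` -/

theorem IsMeroInf.sum {ι : Type*} {h : ℕ} (s : Finset ι) {F : ι → ℍ → ℂ}
    (hF : ∀ i ∈ s, IsMeroInf h (F i)) : IsMeroInf h (∑ i ∈ s, F i) := by
  classical
  induction s using Finset.induction_on with
  | empty =>
    rw [Finset.sum_empty]
    exact IsMeroInf.const h 0
  | insert a s ha ih =>
    rw [Finset.sum_insert ha]
    exact (hF a (Finset.mem_insert_self a s)).add
      (ih fun i hi => hF i (Finset.mem_insert_of_mem hi))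

theorem IsMeroInf.prod {ι : Type*} {h : ℕ} (s : Finset ι) {F : ι → ℍ → ℂ}
    (hF : ∀ i ∈ s, IsMeroInf h (F i)) : IsMeroInf h (∏ i ∈ s, F i) := by
  classical
  induction s using Finset.induction_on with
  | empty =>
    rw [Finset.prod_empty]
    exact IsMeroInf.const h 1
  | insert a s ha ih =>
    rw [Finset.prod_insert ha]
    exact (hF a (Finset.mem_insert_self a s)).mul
      (ih fun i hi => hF i (Finset.mem_insert_of_mem hi))

theorem ordInf_zero {h : ℕ} (hh : 0 < h) : ordInf h (0 : ℍ → ℂ) = ⊤ :=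
  (ordInf_eq_top_iff hh (IsMeroInf.const h 0)).mpr rfl

theorem ordInf_one {h : ℕ} (hh : 0 < h) : ordInf h (1 : ℍ → ℂ) = 0 :=
  ordInf_const hh one_ne_zero

theorem ordInf_prod {ι : Type*} {h : ℕ} (hh : 0 < h) (s : Finset ι) {F : ι → ℍ → ℂ}
    (hF : ∀ i ∈ s, IsMeroInf h (F i)) :
    ordInf h (∏ i ∈ s, F i) = ∑ i ∈ s, ordInf h (F i) := by
  classical
  induction s using Finset.induction_on with
  | empty =>
    rw [Finset.prod_empty, Finset.sum_empty]
    exact ordInf_one hh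
  | insert a s ha ih =>
    rw [Finset.prod_insert ha, Finset.sum_insert ha,
      ordInf_mul hh (hF a (Finset.mem_insert_self a s))
        (IsMeroInf.prod s fun i hi => hF i (Finset.mem_insert_of_mem hi)),
      ih fun i hi => hF i (Finset.mem_insert_of_mem hi)]

theorem le_ordInf_sum {ι : Type*} {h : ℕ} (hh : 0 < h) (s : Finset ι) {F : ι → ℍ → ℂ}
    (hF : ∀ i ∈ s, IsMeroInf h (F i)) {m : WithTop ℤ} (hm : ∀ i ∈ s, m ≤ ordInf h (F i)) :
    m ≤ ordInf h (∑ i ∈ s, F i) := by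
  classical
  induction s using Finset.induction_on with
  | empty =>
    rw [Finset.sum_empty, ordInf_zero hh]
    exact le_top
  | insert a s ha ih =>
    rw [Finset.sum_insert ha]
    refine le_trans (le_min (hm a (Finset.mem_insert_self a s))
      (ih (fun i hi => hF i (Finset.mem_insert_of_mem hi))
        (fun i hi => hm i (Finset.mem_insert_of_mem hi)))) ?_
    exact ordInf_add_ge hh (hF a (Finset.mem_insert_self a s))
      (IsMeroInf.sum s fun i hi => hF i (Finset.mem_insert_of_mem hi))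

theorem ordInf_pow {h : ℕ} (hh : 0 < h) {F : ℍ → ℂ} (hF : IsMeroInf h F) (n : ℕ) :
    ordInf h (F ^ n) = n • ordInf h F := by
  induction n with
  | zero =>
    rw [pow_zero, zero_smul]
    exact ordInf_one hh
  | succ n ih =>
    rw [pow_succ, ordInf_mul hh (hF.pow n) hF, ih, succ_nsmul]

theorem isMeroInf_eval_jFun (h : ℕ) (p : Polynomial ℂ) :
    IsMeroInf h (fun z => p.eval (jFun z)) := by
  have e : (fun z => p.eval (jFun z)) =
      ∑ i ∈ Finset.range (p.natDegree + 1), (fun _ : ℍ => p.coeff i) * jFun ^ i := by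
    funext z
    rw [Polynomial.eval_eq_sum_range, Finset.sum_apply]
    rfl
  rw [e]
  exact IsMeroInf.sum _ fun i _ => (IsMeroInf.const h _).mul ((isMeroInf_jFun h).pow i)

namespace OrdCusp

theorem jFun_mul_disc' (z : ℍ) : jFun z * ModularForm.discriminant z = E₄ z ^ 3 := by
  unfold jFun
  rw [div_mul_cancel₀ _ (ModularForm.discriminant_ne_zero z)]

theorem tendsto_eval_jFun_mul_disc_pow (p : Polynomial ℂ) :
    Tendsto (fun z : ℍ => p.eval (jFun z) * ModularForm.discriminant z ^ p.natDegree) atImInfty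
      (𝓝 p.leadingCoeff) := by
  set d := p.natDegree with hd
  have e : ∀ z : ℍ, p.eval (jFun z) * ModularForm.discriminant z ^ d =
      ∑ i ∈ Finset.range (d + 1),
        p.coeff i * (E₄ z ^ 3) ^ i * ModularForm.discriminant z ^ (d - i) := by
    intro z
    rw [Polynomial.eval_eq_sum_range, Finset.sum_mul]
    apply Finset.sum_congr rfl
    intro i hi
    have hi' : i ≤ d := Nat.lt_succ_iff.mp (Finset.mem_range.mp hi)
    have hpow : ModularForm.discriminant z ^ d =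
        ModularForm.discriminant z ^ i * ModularForm.discriminant z ^ (d - i) := by
      rw [← pow_add, Nat.add_sub_cancel' hi']
    rw [hpow, ← jFun_mul_disc' z, mul_pow]
    ring
  have hΔ : Tendsto (fun z : ℍ => ModularForm.discriminant z) atImInfty (𝓝 0) :=
    ModularForm.discriminant_isZeroAtImInfty
  have hE : Tendsto (fun z : ℍ => E₄ z ^ 3) atImInfty (𝓝 1) := by
    simpa using tendsto_E₄.pow 3
  have ht : ∀ i ∈ Finset.range (d + 1),
      Tendsto (fun z : ℍ => p.coeff i * (E₄ z ^ 3) ^ i * ModularForm.discriminant z ^ (d - i))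
        atImInfty (𝓝 (if i = d then p.leadingCoeff else 0)) := by
    intro i hi
    have hi' : i ≤ d := Nat.lt_succ_iff.mp (Finset.mem_range.mp hi)
    have h1 : Tendsto (fun z : ℍ => p.coeff i * (E₄ z ^ 3) ^ i) atImInfty (𝓝 (p.coeff i)) := by
      simpa using (hE.pow i).const_mul (p.coeff i)
    by_cases hid : i = d
    · subst hid
      simp only [if_true, Nat.sub_self, pow_zero, mul_one]
      exact h1
    · have hne : d - i ≠ 0 := by omega
      simp only [hid, if_false]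
      have h2 : Tendsto (fun z : ℍ => ModularForm.discriminant z ^ (d - i)) atImInfty (𝓝 0) := by
        simpa [hne] using hΔ.pow (d - i)
      simpa using h1.mul h2
  have hsum := tendsto_finsetSum (Finset.range (d + 1)) ht
  rw [Finset.sum_ite_eq' (Finset.range (d + 1)) d (fun _ => p.leadingCoeff)] at hsum
  simp only [Finset.mem_range, Nat.lt_succ_self, if_true] at hsum
  exact hsum.congr fun z => (e z).symm

end OrdCusp

/-- The order of `p(j)` at `i∞` in `q_h` is `-h * deg p`. -/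
theorem ordInf_eval_jFun {h : ℕ} (hh : 0 < h) (p : Polynomial ℂ) (hp : p ≠ 0) :
    ordInf h (fun z => p.eval (jFun z)) = ((-((h : ℤ) * p.natDegree) : ℤ) : WithTop ℤ) := by
  have hΔd : IsMeroInf h ((fun z : ℍ => ModularForm.discriminant z) ^ p.natDegree) :=
    (isMeroInf_disc h).pow _
  have h0 : ordInf h ((fun z => p.eval (jFun z)) *
      (fun z : ℍ => ModularForm.discriminant z) ^ p.natDegree) = 0 :=
    ordInf_eq_zero_of_tendsto hh ((isMeroInf_eval_jFun h p).mul hΔd)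
      (Polynomial.leadingCoeff_ne_zero.mpr hp) (OrdCusp.tendsto_eval_jFun_mul_disc_pow p)
  rw [ordInf_mul hh (isMeroInf_eval_jFun h p) hΔd, ordInf_pow hh (isMeroInf_disc h),
    ordInf_disc hh] at h0
  cases hj : ordInf h (fun z => p.eval (jFun z)) with
  | top => rw [hj] at h0; simp at h0
  | coe m =>
    rw [hj] at h0
    have h1 : ((m + p.natDegree • (h : ℤ) : ℤ) : WithTop ℤ) = ((0 : ℤ) : WithTop ℤ) := by
      rw [WithTop.coe_add, WithTop.coe_nsmul, WithTop.coe_zero]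
      exact h0
    have h2 : m + p.natDegree • (h : ℤ) = 0 := WithTop.coe_injective h1
    have hm : m = -((h : ℤ) * p.natDegree) := by
      rw [nsmul_eq_mul] at h2
      linarith
    rw [hm]

/-! ### Orders at the cusps of `Γ₀(N)` -/

open CongruenceSubgroup

/-- The order of `f` at the cusp `g • ∞`, measured in the uniform parameter
`q_N = exp (2πiz/N)`. -/
noncomputable def ordCusp (N : ℕ) (g : SL(2, ℤ)) (f : ℍ → ℂ) : WithTop ℤ :=
  ordInf N (fun z => f (g • z))

/-- `ℤ`-valued version of `ordCusp` (junk value `0` for `f = 0`). -/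
noncomputable def ordCuspZ (N : ℕ) (g : SL(2, ℤ)) (f : ℍ → ℂ) : ℤ :=
  (ordCusp N g f).untop₀

namespace OrdCusp

theorem mdiff_comp_smul {f : ℍ → ℂ} (hf : MDiff f) (g : SL(2, ℤ)) :
    MDiff (fun z => f (g • z)) := by
  have h := hf.slash 0 (Matrix.SpecialLinearGroup.mapGL ℝ g)
  have e : (fun z => f (g • z)) = f ∣[(0 : ℤ)] g := by
    funext z
    rw [ModularForm.SL_slash_apply]
    simp
  rw [e, ModularForm.SL_slash]
  exact h

theorem conj_T_pow_mem (N : ℕ) (g : SL(2, ℤ)) :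
    g * ModularGroup.T ^ N * g⁻¹ ∈ Gamma0 N := by
  have h1 : ModularGroup.T ^ N ∈ CongruenceSubgroup.Gamma N := by
    have := ModularGroup_T_pow_mem_Gamma (N : ℤ) (N : ℤ) dvd_rfl
    simpa using this
  have h2 : g * ModularGroup.T ^ N * g⁻¹ ∈ CongruenceSubgroup.Gamma N :=
    (CongruenceSubgroup.Gamma_normal N).conj_mem _ h1 g
  rw [CongruenceSubgroup.Gamma_mem] at h2
  rw [Gamma0_mem]
  exact h2.2.2.1

theorem smul_vadd_int (g : SL(2, ℤ)) (k : ℤ) (z : ℍ) :
    g • ((k : ℝ) +ᵥ z) = (g * ModularGroup.T ^ k) • z := by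
  rw [mul_smul, UpperHalfPlane.modular_T_zpow_smul]

theorem smul_vadd_nat (g : SL(2, ℤ)) (k : ℕ) (z : ℍ) :
    g • ((k : ℝ) +ᵥ z) = (g * ModularGroup.T ^ k) • z := by
  have := smul_vadd_int g (k : ℤ) z
  simpa using this

theorem comp_per {N : ℕ} {f : ℍ → ℂ} (hinv : ∀ γ ∈ Gamma0 N, ∀ z : ℍ, f (γ • z) = f z)
    (g : SL(2, ℤ)) {k : ℕ} (hg : g * ModularGroup.T ^ k * g⁻¹ ∈ Gamma0 N) (z : ℍ) :
    f (g • ((k : ℝ) +ᵥ z)) = f (g • z) := by
  rw [smul_vadd_nat, ← hinv _ hg (g • z), ← mul_smul, inv_mul_cancel_right]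

theorem levelOne_smul {k : ℤ} (F : ModularForm 𝒮ℒ k) (γ : SL(2, ℤ)) (z : ℍ) :
    F (γ • z) = ((γ 1 0 : ℂ) * z + (γ 1 1 : ℂ)) ^ k * F z := by
  have hmem : Matrix.SpecialLinearGroup.mapGL ℝ γ ∈ 𝒮ℒ := ⟨γ, rfl⟩
  have h := SlashInvariantForm.slash_action_eqn' F hmem z
  have h' : F (γ • z) = F ((Matrix.SpecialLinearGroup.mapGL ℝ γ) • z) := rfl
  rw [h', h]
  simp

theorem disc_smul (γ : SL(2, ℤ)) (z : ℍ) :
    ModularForm.discriminant (γ • z) =
      ((γ 1 0 : ℂ) * z + (γ 1 1 : ℂ)) ^ (12 : ℤ) * ModularForm.discriminant z := by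
  have hmem : Matrix.SpecialLinearGroup.mapGL ℝ γ ∈ 𝒮ℒ := ⟨γ, rfl⟩
  have h := SlashInvariantForm.slash_action_eqn' CuspForm.discriminant hmem z
  have h' : ModularForm.discriminant (γ • z) =
      CuspForm.discriminant ((Matrix.SpecialLinearGroup.mapGL ℝ γ) • z) := rfl
  rw [h', h]
  simp

theorem jFun_smul (γ : SL(2, ℤ)) (z : ℍ) : jFun (γ • z) = jFun z := by
  unfold jFun
  rw [levelOne_smul E₄ γ z, disc_smul γ z]
  have hden : ((γ 1 0 : ℂ) * z + (γ 1 1 : ℂ)) ≠ 0 := by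
    have := denom_ne_zero (Matrix.SpecialLinearGroup.mapGL ℝ γ) z
    simpa [denom] using this
  have hΔ := ModularForm.discriminant_ne_zero z
  have e4 : ((γ 1 0 : ℂ) * z + (γ 1 1 : ℂ)) ^ (4 : ℤ) = ((γ 1 0 : ℂ) * z + (γ 1 1 : ℂ)) ^ 4 := by
    norm_cast
  have e12 : ((γ 1 0 : ℂ) * z + (γ 1 1 : ℂ)) ^ (12 : ℤ) =
      ((γ 1 0 : ℂ) * z + (γ 1 1 : ℂ)) ^ 12 := by
    norm_cast
  rw [e4, e12]
  field_simp

end OrdCusp

section WH

variable {N : ℕ} [NeZero N] {f f' : ℍ → ℂ}

omit [NeZero N] in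
theorem IsWH.isMeroInf (hf : IsWH (Gamma0 N) f) (g : SL(2, ℤ)) :
    IsMeroInf N (fun z => f (g • z)) where
  mdiff := OrdCusp.mdiff_comp_smul hf.mdiff g
  per := fun z => OrdCusp.comp_per hf.inv g (OrdCusp.conj_T_pow_mem N g) z
  bdd := by
    obtain ⟨n, hn⟩ := hf.bdd
    exact ⟨n, hn g⟩

omit [NeZero N] in
/-- If `g T^k g⁻¹ ∈ Γ₀(N)` (e.g. `k` the width of the cusp `g • ∞`), then `f ∘ g` is
`k`-periodic. -/
theorem IsWH.isMeroInf_of_conj_mem (hf : IsWH (Gamma0 N) f) (g : SL(2, ℤ)) {k : ℕ}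
    (hg : g * ModularGroup.T ^ k * g⁻¹ ∈ Gamma0 N) :
    IsMeroInf k (fun z => f (g • z)) where
  mdiff := OrdCusp.mdiff_comp_smul hf.mdiff g
  per := fun z => OrdCusp.comp_per hf.inv g hg z
  bdd := by
    obtain ⟨n, hn⟩ := hf.bdd
    exact ⟨n, hn g⟩

theorem ordCusp_mul (hf : IsWH (Gamma0 N) f) (hf' : IsWH (Gamma0 N) f') (g : SL(2, ℤ)) :
    ordCusp N g (f * f') = ordCusp N g f + ordCusp N g f' :=
  ordInf_mul (NeZero.pos N) (hf.isMeroInf g) (hf'.isMeroInf g)

theorem ordCusp_add_ge (hf : IsWH (Gamma0 N) f) (hf' : IsWH (Gamma0 N) f') (g : SL(2, ℤ)) :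
    min (ordCusp N g f) (ordCusp N g f') ≤ ordCusp N g (f + f') :=
  ordInf_add_ge (NeZero.pos N) (hf.isMeroInf g) (hf'.isMeroInf g)

theorem ordCusp_const (g : SL(2, ℤ)) {c : ℂ} (hc : c ≠ 0) :
    ordCusp N g (fun _ => c) = 0 :=
  ordInf_const (NeZero.pos N) hc

theorem ordCusp_eq_top_iff (hf : IsWH (Gamma0 N) f) (g : SL(2, ℤ)) :
    ordCusp N g f = ⊤ ↔ f = 0 := by
  rw [ordCusp, ordInf_eq_top_iff (NeZero.pos N) (hf.isMeroInf g)]
  constructor
  · intro h
    funext z
    have := congrFun h (g⁻¹ • z)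
    simpa using this
  · rintro rfl
    rfl

omit [NeZero N] in
theorem ordCusp_mul_left (hf : IsWH (Gamma0 N) f) {γ : SL(2, ℤ)} (hγ : γ ∈ Gamma0 N)
    (g : SL(2, ℤ)) : ordCusp N (γ * g) f = ordCusp N g f := by
  unfold ordCusp
  congr 1
  funext z
  rw [mul_smul, hf.inv γ hγ]

theorem ordCusp_mul_T_zpow (hf : IsWH (Gamma0 N) f) (g : SL(2, ℤ)) (k : ℤ) :
    ordCusp N (g * ModularGroup.T ^ k) f = ordCusp N g f := by
  have h := ordInf_vadd (NeZero.pos N) (hf.isMeroInf g) k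
  unfold ordCusp
  rw [← h]
  congr 1
  funext z
  rw [OrdCusp.smul_vadd_int]

theorem ordCusp_jFun (g : SL(2, ℤ)) : ordCusp N g jFun = ((-(N : ℤ) : ℤ) : WithTop ℤ) := by
  have e : (fun z => jFun (g • z)) = jFun := funext fun z => OrdCusp.jFun_smul g z
  rw [ordCusp, e]
  exact ordInf_jFun (NeZero.pos N)

/-- The order in `q_N` is `N / k` times the order in `q_k` as soon as `g T^k g⁻¹ ∈ Γ₀(N)`. -/
theorem ordCusp_eq_mul (hf : IsWH (Gamma0 N) f) (g : SL(2, ℤ)) {k : ℕ} (hk : 0 < k)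
    (hkN : k ∣ N) (hg : g * ModularGroup.T ^ k * g⁻¹ ∈ Gamma0 N) :
    ordCusp N g f = ordInf k (fun z => f (g • z)) * ((N / k : ℕ) : ℤ) :=
  ordInf_of_dvd hk (NeZero.pos N) hkN (hf.isMeroInf_of_conj_mem g hg)

theorem ordCusp_nonneg_iff (hf : IsWH (Gamma0 N) f) (g : SL(2, ℤ)) :
    0 ≤ ordCusp N g f ↔ IsBoundedAtImInfty (fun z => f (g • z)) :=
  ordInf_nonneg_iff (NeZero.pos N) (hf.isMeroInf g)

theorem ordCusp_pos_iff (hf : IsWH (Gamma0 N) f) (g : SL(2, ℤ)) :
    0 < ordCusp N g f ↔ IsZeroAtImInfty (fun z => f (g • z)) :=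
  ordInf_pos_iff (NeZero.pos N) (hf.isMeroInf g)

theorem ordCusp_eq_coe (hf : IsWH (Gamma0 N) f) (hf0 : f ≠ 0) (g : SL(2, ℤ)) :
    ordCusp N g f = (ordCuspZ N g f : ℤ) :=
  (WithTop.coe_untop₀_of_ne_top (mt (ordCusp_eq_top_iff hf g).mp hf0)).symm

/-- `(N / k) ∣ ord` where `k` is (a multiple of) the width of the cusp. -/
theorem dvd_ordCusp (hf : IsWH (Gamma0 N) f) (hf0 : f ≠ 0) (g : SL(2, ℤ)) {k : ℕ} (hk : 0 < k)
    (hkN : k ∣ N) (hg : g * ModularGroup.T ^ k * g⁻¹ ∈ Gamma0 N) :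
    ∃ m : ℤ, ordCusp N g f = ((((N / k : ℕ) : ℤ) * m : ℤ) : WithTop ℤ) := by
  have h1 := ordCusp_eq_mul hf g hk hkN hg
  have hne : ordInf k (fun z => f (g • z)) ≠ ⊤ := by
    rw [Ne, ordInf_eq_top_iff hk (hf.isMeroInf_of_conj_mem g hg)]
    intro h
    apply hf0
    funext z
    have := congrFun h (g⁻¹ • z)
    simpa using this
  refine ⟨(ordInf k (fun z => f (g • z))).untop₀, ?_⟩
  rw [h1]
  conv_lhs => rw [← WithTop.coe_untop₀_of_ne_top hne]
  rw [mul_comm]
  norm_cast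

theorem ordCuspZ_mul (hf : IsWH (Gamma0 N) f) (hf' : IsWH (Gamma0 N) f') (hf0 : f ≠ 0)
    (hf0' : f' ≠ 0) (g : SL(2, ℤ)) :
    ordCuspZ N g (f * f') = ordCuspZ N g f + ordCuspZ N g f' := by
  have h := ordCusp_mul hf hf' g
  rw [ordCusp_eq_coe hf hf0 g, ordCusp_eq_coe hf' hf0' g] at h
  unfold ordCuspZ
  rw [h]
  rfl

theorem ordCusp_mul_ne_zero (hf : IsWH (Gamma0 N) f) (hf' : IsWH (Gamma0 N) f') (hf0 : f ≠ 0)
    (hf0' : f' ≠ 0) : f * f' ≠ 0 := by
  intro h
  have h1 := ordCusp_mul hf hf' 1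
  have hz : IsWH (Gamma0 N) (0 : ℍ → ℂ) := isWH_const _ 0
  rw [h, ordCusp_eq_coe hf hf0 1, ordCusp_eq_coe hf' hf0' 1,
    (ordCusp_eq_top_iff hz 1).mpr rfl] at h1
  exact WithTop.coe_ne_top (h1.symm.trans (by norm_cast))

theorem ordCuspZ_add_ge (hf : IsWH (Gamma0 N) f) (hf' : IsWH (Gamma0 N) f') (hf0 : f ≠ 0)
    (hf0' : f' ≠ 0) (hadd : f + f' ≠ 0) (g : SL(2, ℤ)) :
    min (ordCuspZ N g f) (ordCuspZ N g f') ≤ ordCuspZ N g (f + f') := by
  have h := ordCusp_add_ge hf hf' g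
  rw [ordCusp_eq_coe hf hf0 g, ordCusp_eq_coe hf' hf0' g,
    ordCusp_eq_coe (hf.add hf') hadd g] at h
  exact_mod_cast h

/-- The order of `p(j)` at every cusp is `-N * deg p`. -/
theorem ordCusp_eval_jFun (p : Polynomial ℂ) (hp : p ≠ 0) (g : SL(2, ℤ)) :
    ordCusp N g (fun z => p.eval (jFun z)) = ((-((N : ℤ) * p.natDegree) : ℤ) : WithTop ℤ) := by
  have e : (fun z => (fun w => p.eval (jFun w)) (g • z)) = fun z => p.eval (jFun z) :=
    funext fun z => by simp only [OrdCusp.jFun_smul g z]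
  rw [ordCusp, e]
  exact ordInf_eval_jFun (NeZero.pos N) p hp

/-- A lower bound on the cusp order gives boundedness after multiplication by a power of `Δ`. -/
theorem isBoundedAtImInfty_mul_disc_pow_of_le_ordCusp (N : ℕ) [NeZero N] {f : ℍ → ℂ}
    (hf : IsWH (Gamma0 N) f) (g : SL(2, ℤ)) (d : ℕ)
    (h : ((-((N : ℤ) * d) : ℤ) : WithTop ℤ) ≤ ordCusp N g f) :
    IsBoundedAtImInfty (fun z => f (g • z) * ModularForm.discriminant z ^ d) := by
  have hΔd : IsMeroInf N ((fun z : ℍ => ModularForm.discriminant z) ^ d) :=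
    (isMeroInf_disc N).pow _
  have hF := (hf.isMeroInf g).mul hΔd
  have key : 0 ≤ ordInf N ((fun z => f (g • z)) *
      (fun z : ℍ => ModularForm.discriminant z) ^ d) := by
    rw [ordInf_mul (NeZero.pos N) (hf.isMeroInf g) hΔd, ordInf_pow (NeZero.pos N) (isMeroInf_disc N),
      ordInf_disc (NeZero.pos N)]
    change _ ≤ ordCusp N g f + _
    cases hj : ordCusp N g f with
    | top => simp
    | coe m =>
      rw [hj] at h
      have h1 : -((N : ℤ) * d) ≤ m := WithTop.coe_le_coe.mp h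
      have h2 : (0 : ℤ) ≤ m + d • (N : ℤ) := by
        rw [nsmul_eq_mul]
        linarith
      have h3 : (((0 : ℤ)) : WithTop ℤ) ≤ ((m + d • (N : ℤ) : ℤ) : WithTop ℤ) :=
        WithTop.coe_le_coe.mpr h2
      refine le_trans h3 (le_of_eq ?_)
      rw [WithTop.coe_add, WithTop.coe_nsmul]
  exact (ordInf_nonneg_iff (NeZero.pos N) hF).mp key

end WH

end Fermat.Agent.S20
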