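import Mathlib
import Fermat.Agent.S20.OrdCusp
import Fermat.Agent.S20.Conjugates
import Fermat.Agent.S20.JSurj

set_option autoImplicit false

open UpperHalfPlane ModularForm Function Filter Polynomial CongruenceSubgroup
open scoped MatrixGroups Manifold Topology

namespace Fermat.Agent.S20

namespace CosetCusp

/-- `F` is `h`-periodic, meromorphic at `i∞`, of order at least `m` in `q_h`. -/
def OrdGE (h : ℕ) (m : ℤ) (F : ℍ → ℂ) : Prop :=
  IsMeroInf h F ∧ ((m : ℤ) : WithTop ℤ) ≤ ordInf h F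

theorem OrdGE.mul {h : ℕ} (hh : 0 < h) {m₁ m₂ : ℤ} {F G : ℍ → ℂ} (hF : OrdGE h m₁ F)
    (hG : OrdGE h m₂ G) : OrdGE h (m₁ + m₂) (F * G) :=
  ⟨hF.1.mul hG.1, by
    rw [ordInf_mul hh hF.1 hG.1, WithTop.coe_add]
    exact add_le_add hF.2 hG.2⟩

theorem OrdGE.mono {h : ℕ} {m m' : ℤ} {F : ℍ → ℂ} (hle : m' ≤ m) (hF : OrdGE h m F) :
    OrdGE h m' F :=
  ⟨hF.1, le_trans (WithTop.coe_le_coe.mpr hle) hF.2⟩

theorem OrdGE.zero {h : ℕ} (hh : 0 < h) (m : ℤ) : OrdGE h m (0 : ℍ → ℂ) :=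
  ⟨IsMeroInf.const h 0, by rw [ordInf_zero hh]; exact le_top⟩

theorem OrdGE.one {h : ℕ} (hh : 0 < h) : OrdGE h 0 (1 : ℍ → ℂ) :=
  ⟨IsMeroInf.const h 1, by rw [ordInf_one hh]; exact le_refl _⟩

theorem OrdGE.neg {h : ℕ} (hh : 0 < h) {m : ℤ} {F : ℍ → ℂ} (hF : OrdGE h m F) :
    OrdGE h m (-F) := by
  have hc : OrdGE h 0 (fun _ : ℍ => (-1 : ℂ)) :=
    ⟨IsMeroInf.const h (-1), by
      rw [ordInf_const hh (by norm_num : (-1 : ℂ) ≠ 0)]
      exact le_refl _⟩
  have := hc.mul hh hF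
  rw [zero_add] at this
  have e : (fun _ : ℍ => (-1 : ℂ)) * F = -F := by
    funext z
    simp
  rwa [e] at this

theorem OrdGE.add {h : ℕ} (hh : 0 < h) {m : ℤ} {F G : ℍ → ℂ} (hF : OrdGE h m F)
    (hG : OrdGE h m G) : OrdGE h m (F + G) :=
  ⟨hF.1.add hG.1, le_trans (le_min hF.2 hG.2) (ordInf_add_ge hh hF.1 hG.1)⟩

theorem OrdGE.sub {h : ℕ} (hh : 0 < h) {m : ℤ} {F G : ℍ → ℂ} (hF : OrdGE h m F)
    (hG : OrdGE h m G) : OrdGE h m (F - G) := by
  rw [sub_eq_add_neg]
  exact hF.add hh (hG.neg hh)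

/-- Orders of the coefficients of `∏ (X - a_x)` when every `a_x` has order `≥ -c`. -/
theorem coeff_prod_ordGE {ι : Type*} [DecidableEq ι] {h : ℕ} (hh : 0 < h) (c : ℤ)
    (a : ι → ℍ → ℂ) (s : Finset ι) (ha : ∀ x ∈ s, OrdGE h (-c) (a x)) :
    ∀ i : ℕ, OrdGE h (-(c * ((s.card : ℤ) - i))) ((∏ x ∈ s, (X - C (a x))).coeff i) := by
  induction s using Finset.induction_on with
  | empty =>
    intro i
    rw [Finset.prod_empty, Finset.card_empty]
    rcases Nat.eq_zero_or_pos i with rfl | hi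
    · have e : (1 : Polynomial (ℍ → ℂ)).coeff 0 = 1 := by simp
      rw [e]
      have := OrdGE.one hh
      simpa using this
    · have e : (1 : Polynomial (ℍ → ℂ)).coeff i = 0 := by
        rw [Polynomial.coeff_one, if_neg hi.ne']
      rw [e]
      exact OrdGE.zero hh _
  | insert x s hx ih =>
    intro i
    have ihs := ih (fun y hy => ha y (Finset.mem_insert_of_mem hy))
    have hax := ha x (Finset.mem_insert_self x s)
    rw [Finset.prod_insert hx, Finset.card_insert_of_notMem hx]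
    cases i with
    | zero =>
      rw [Polynomial.mul_coeff_zero]
      have e : (X - C (a x) : Polynomial (ℍ → ℂ)).coeff 0 = -(a x) := by simp
      rw [e]
      have h1 := (hax.neg hh).mul hh (ihs 0)
      refine OrdGE.mono ?_ h1
      push_cast
      ring_nf
      exact le_refl _
    | succ k =>
      rw [Polynomial.coeff_X_sub_C_mul]
      have h1 : OrdGE h (-(c * (((s.card + 1 : ℕ) : ℤ) - ((k + 1 : ℕ) : ℤ)))) ((∏ y ∈ s, (X - C (a y))).coeff k) := by
        refine OrdGE.mono ?_ (ihs k)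
        push_cast
        ring_nf
        exact le_refl _
      have h2 : OrdGE h (-(c * (((s.card + 1 : ℕ) : ℤ) - ((k + 1 : ℕ) : ℤ))))
          (a x * (∏ y ∈ s, (X - C (a y))).coeff (k + 1)) := by
        refine OrdGE.mono ?_ (hax.mul hh (ihs (k + 1)))
        push_cast
        ring_nf
        exact le_refl _
      exact h1.sub hh h2

/-- A lower bound on the order at `i∞` gives boundedness after multiplication by `Δ ^ k`. -/
theorem isBoundedAtImInfty_mul_disc_pow {h : ℕ} (hh : 0 < h) {F : ℍ → ℂ} (hF : IsMeroInf h F)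
    (k : ℕ) (hle : ((-((h : ℤ) * k) : ℤ) : WithTop ℤ) ≤ ordInf h F) :
    IsBoundedAtImInfty (fun z => F z * ModularForm.discriminant z ^ k) := by
  have hΔ : IsMeroInf h ((fun z : ℍ => ModularForm.discriminant z) ^ k) :=
    (isMeroInf_disc h).pow _
  have key : 0 ≤ ordInf h (F * (fun z : ℍ => ModularForm.discriminant z) ^ k) := by
    rw [ordInf_mul hh hF hΔ, ordInf_pow hh (isMeroInf_disc h), ordInf_disc hh]
    cases hj : ordInf h F with
    | top => simp
    | coe m =>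
      rw [hj] at hle
      have h1 : -((h : ℤ) * k) ≤ m := WithTop.coe_le_coe.mp hle
      have h2 : (0 : ℤ) ≤ m + k • (h : ℤ) := by
        rw [nsmul_eq_mul]
        linarith
      have h3 : (((0 : ℤ)) : WithTop ℤ) ≤ ((m + k • (h : ℤ) : ℤ) : WithTop ℤ) :=
        WithTop.coe_le_coe.mpr h2
      refine le_trans h3 (le_of_eq ?_)
      rw [WithTop.coe_add, WithTop.coe_nsmul]
  exact (ordInf_nonneg_iff hh (hF.mul hΔ)).mp key

end CosetCusp

/-- (★) If all cusp orders of `b ∈ WH Γ₀(N)` are at least `-N d`, then the `i`-th coefficient of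
the characteristic polynomial `∏ₓ (T - bₓ)` is a polynomial in `j` of degree at most
`(μ - i) d`. -/
theorem exists_poly_cosetPoly_coeff (N : ℕ) [NeZero N] {b : ℍ → ℂ} (hb : IsWH (Gamma0 N) b)
    (d : ℕ) (h : ∀ g : SL(2, ℤ), ((-((N : ℤ) * d) : ℤ) : WithTop ℤ) ≤ ordCusp N g b) (i : ℕ) :
    ∃ q : ℂ[X], q.natDegree ≤ ((Gamma0 N).index - i) * d ∧
      ∀ z : ℍ, (cosetPoly (Gamma0 N) b).coeff i z = q.eval (jFun z) := by
  classical
  have hwh := cosetPoly_coeff_isWH (Gamma0 N) hb i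
  have key : CosetCusp.OrdGE N (-(((N : ℤ) * d) * (((Gamma0 N).index : ℤ) - i)))
      ((cosetPoly (Gamma0 N) b).coeff i) := by
    let _ := Fintype.ofFinite (SL(2, ℤ) ⧸ Gamma0 N)
    have h0 := CosetCusp.coeff_prod_ordGE (NeZero.pos N) ((N : ℤ) * d)
      (cosetConj (Gamma0 N) b) Finset.univ
      (fun x _ => ⟨hb.isMeroInf _, h _⟩) i
    have hcard : (Finset.univ : Finset (SL(2, ℤ) ⧸ Gamma0 N)).card = (Gamma0 N).index := by
      rw [Finset.card_univ, Subgroup.index, Nat.card_eq_fintype_card]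
    rw [hcard] at h0
    exact h0
  have hbdd : IsBoundedAtImInfty (fun z =>
      (cosetPoly (Gamma0 N) b).coeff i z *
        ModularForm.discriminant z ^ (((Gamma0 N).index - i) * d)) := by
    apply CosetCusp.isBoundedAtImInfty_mul_disc_pow (NeZero.pos N) key.1
    refine le_trans (WithTop.coe_le_coe.mpr ?_) key.2
    have h1 : (((Gamma0 N).index : ℤ) - i) ≤ (((Gamma0 N).index - i : ℕ) : ℤ) := by omega
    have h2 : (0 : ℤ) ≤ (N : ℤ) * d := by positivity
    have h3 := mul_le_mul_of_nonneg_left h1 h2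
    push_cast
    linarith
  obtain ⟨q, hq, hqe⟩ := exists_poly_of_bdd _ _ hwh.mdiff
    (fun γ z => hwh.inv γ (Subgroup.mem_top γ) z) hbdd
  exact ⟨q, hq, hqe⟩

end Fermat.Agent.S20
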