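import Mathlib

/-!
# S20 WP-PL: places of a Dedekind extension from a finite family of valuations

Pure commutative algebra (Mathlib only).  Main results (namespace `Fermat.Agent.S20`):

* `places_of_valuations`: the counting lemma.
* `exists_valuation_of_ord`: an additive order function on a domain gives a valuation on its
  fraction field.

Helper statements live in `Fermat.Agent.S20.Places`.
-/

set_option autoImplicit false
set_option linter.unusedSectionVars false
set_option linter.style.haveILetI false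

open IsDedekindDomain
open scoped WithZero

namespace Fermat.Agent.S20

namespace Places

open scoped Classical in
/-- The valuation on a domain attached to an additive order function. -/
noncomputable def valOfOrd {B : Type} [CommRing B] [IsDomain B]
    (w : B → ℤ) (hmul : ∀ f g : B, f ≠ 0 → g ≠ 0 → w (f * g) = w f + w g)
    (hadd : ∀ f g : B, f ≠ 0 → g ≠ 0 → f + g ≠ 0 → min (w f) (w g) ≤ w (f + g)) :
    Valuation B ℤᵐ⁰ where
  toFun b := if b = 0 then 0 else WithZero.exp (-(w b))
  map_zero' := by simp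
  map_one' := by
    have h := hmul 1 1 one_ne_zero one_ne_zero
    rw [mul_one] at h
    have h1 : w 1 = 0 := by omega
    simp [h1]
  map_mul' := by
    intro f g
    by_cases hf : f = 0
    · simp [hf]
    by_cases hg : g = 0
    · simp [hg]
    simp only [hf, hg, mul_eq_zero, or_self, if_false]
    rw [hmul f g hf hg, neg_add, WithZero.exp_add]
  map_add_le_max' := by
    intro f g
    by_cases hf : f = 0
    · simp [hf]
    by_cases hg : g = 0
    · simp [hg]
    by_cases hfg : f + g = 0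
    · simp [hfg]
    simp only [hf, hg, hfg, if_false]
    have h := hadd f g hf hg hfg
    rcases min_le_iff.mp h with h1 | h1
    · exact le_max_of_le_left (WithZero.exp_le_exp.mpr (by omega))
    · exact le_max_of_le_right (WithZero.exp_le_exp.mpr (by omega))



section general

variable {B : Type} [CommRing B] [IsDedekindDomain B] {L : Type} [Field L] [Algebra B L]
  [IsFractionRing B L]

/-- The center on `B` of a valuation of `L` which is `≤ 1` on `B`. -/
def center (v : Valuation L ℤᵐ⁰) (hB : ∀ b : B, v (algebraMap B L b) ≤ 1) : Ideal B where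
  carrier := {b | v (algebraMap B L b) < 1}
  add_mem' := by
    intro a b ha hb
    simp only [Set.mem_ofPred_eq, map_add] at *
    exact lt_of_le_of_lt (v.map_add _ _) (max_lt ha hb)
  zero_mem' := by simp
  smul_mem' := by
    intro c b hb
    simp only [Set.mem_ofPred_eq, smul_eq_mul, map_mul] at *
    calc v (algebraMap B L c) * v (algebraMap B L b) ≤ 1 * v (algebraMap B L b) :=
          mul_le_mul_left (hB c) _
      _ < 1 := by simpa using hb

theorem mem_center {v : Valuation L ℤᵐ⁰} {hB : ∀ b : B, v (algebraMap B L b) ≤ 1} {b : B} :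
    b ∈ center v hB ↔ v (algebraMap B L b) < 1 := Iff.rfl

theorem eq_one_of_notMem_center {v : Valuation L ℤᵐ⁰} {hB : ∀ b : B, v (algebraMap B L b) ≤ 1}
    {b : B} (hb : b ∉ center v hB) : v (algebraMap B L b) = 1 :=
  le_antisymm (hB b) (not_lt.mp hb)

theorem center_isPrime (v : Valuation L ℤᵐ⁰) (hB : ∀ b : B, v (algebraMap B L b) ≤ 1) :
    (center v hB).IsPrime := by
  refine ⟨?_, ?_⟩
  · intro h
    have : (1 : B) ∈ center v hB := h ▸ Submodule.mem_top
    rw [mem_center] at this
    simp at this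
  · intro a b hab
    by_contra hcon
    push Not at hcon
    have ha := eq_one_of_notMem_center hcon.1
    have hb := eq_one_of_notMem_center hcon.2
    rw [mem_center, map_mul, map_mul, ha, hb] at hab
    simp at hab

/-- A valuation of `L = Frac B` which is `≤ 1` on `B` and whose center is the height one prime `𝔮`
is a positive power of the `𝔮`-adic valuation. -/
theorem valuation_eq_pow (𝔮 : HeightOneSpectrum B) (V : Valuation L ℤᵐ⁰)
    (hB : ∀ b : B, V (algebraMap B L b) ≤ 1)
    (hc : ∀ b : B, V (algebraMap B L b) < 1 ↔ b ∈ 𝔮.asIdeal) :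
    ∃ c : ℕ, 0 < c ∧ ∀ f : L, V f = (𝔮.valuation L f) ^ c := by
  obtain ⟨ϖ, hϖ⟩ := 𝔮.intValuation_exists_uniformizer
  have hϖmem : ϖ ∈ 𝔮.asIdeal := by
    rw [← 𝔮.intValuation_lt_one_iff_mem, hϖ]
    exact WithZero.exp_lt_exp.mpr (by norm_num) |>.trans_eq WithZero.exp_zero
  have hϖ0 : ϖ ≠ 0 := by
    rintro rfl
    rw [map_zero] at hϖ
    exact WithZero.exp_ne_zero hϖ.symm
  have hϖL : algebraMap B L ϖ ≠ 0 := by
    simpa using hϖ0
  have hVϖ0 : V (algebraMap B L ϖ) ≠ 0 := (Valuation.ne_zero_iff V).mpr hϖL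
  have hVϖ1 : V (algebraMap B L ϖ) < 1 := (hc ϖ).mpr hϖmem
  -- `V ϖ = exp (-c)` with `c > 0`
  set k : ℤ := WithZero.log (V (algebraMap B L ϖ)) with hk
  have hVϖ : V (algebraMap B L ϖ) = WithZero.exp k := (WithZero.exp_log hVϖ0).symm
  have hkneg : k < 0 := by
    rw [hVϖ, ← WithZero.exp_zero, WithZero.exp_lt_exp] at hVϖ1
    exact hVϖ1
  have hWϖ : 𝔮.valuation L (algebraMap B L ϖ) = WithZero.exp (-1 : ℤ) := by
    rw [HeightOneSpectrum.valuation_of_algebraMap, hϖ]
  -- units of the local ring have `V = 1`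
  have key : ∀ g : L, 𝔮.valuation L g = 1 → V g = 1 := by
    intro g hg
    obtain ⟨n, d, hnd⟩ := 𝔮.exists_primeCompl_mul_eq_of_integer g hg.le
    have hd : (d : B) ∉ 𝔮.asIdeal := d.2
    have hWd : 𝔮.valuation L (algebraMap B L d) = 1 := by
      rw [HeightOneSpectrum.valuation_of_algebraMap, 𝔮.intValuation_eq_one_iff_mem_primeCompl]
      exact d.2
    have hWn : 𝔮.valuation L (algebraMap B L n) = 1 := by
      rw [← hnd, map_mul, hg, hWd, one_mul]
    have hn : n ∉ 𝔮.asIdeal := by
      rw [HeightOneSpectrum.valuation_of_algebraMap,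
        𝔮.intValuation_eq_one_iff_mem_primeCompl] at hWn
      exact hWn
    have hVd : V (algebraMap B L d) = 1 :=
      le_antisymm (hB _) (not_lt.mp (fun h => hd ((hc _).mp h)))
    have hVn : V (algebraMap B L n) = 1 :=
      le_antisymm (hB _) (not_lt.mp (fun h => hn ((hc _).mp h)))
    have := congrArg V hnd
    rw [map_mul, hVd, hVn, mul_one] at this
    exact this
  refine ⟨(-k).toNat, by omega, fun f => ?_⟩
  by_cases hf : f = 0
  · subst hf
    have : (-k).toNat ≠ 0 := by omega
    simp [this]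
  have hWf0 : 𝔮.valuation L f ≠ 0 := (Valuation.ne_zero_iff _).mpr hf
  set a : ℤ := WithZero.log (𝔮.valuation L f) with ha
  have hWf : 𝔮.valuation L f = WithZero.exp a := (WithZero.exp_log hWf0).symm
  -- `g = f * ϖ ^ a` has `W g = 1`
  have hg : 𝔮.valuation L (f * (algebraMap B L ϖ) ^ a) = 1 := by
    rw [map_mul, map_zpow₀, hWϖ, hWf, ← WithZero.exp_zsmul, ← WithZero.exp_add]
    simp
  have hVg := key _ hg
  rw [map_mul, map_zpow₀, hVϖ, ← WithZero.exp_zsmul] at hVg
  have hVf : V f = WithZero.exp (-(a * k)) := by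
    have h0 : V f ≠ 0 := (Valuation.ne_zero_iff _).mpr hf
    have : V f = (WithZero.exp (a • k))⁻¹ := eq_inv_of_mul_eq_one_left hVg
    rw [this, ← WithZero.exp_neg]
    simp
  rw [hVf, hWf, ← WithZero.exp_nsmul]
  congr 1
  have : ((-k).toNat : ℤ) = -k := Int.toNat_of_nonneg (by omega)
  rw [nsmul_eq_mul, this]
  ring

end general


/-- Integral elements over a ring on which a valuation is `≤ 1` have valuation `≤ 1`. -/
theorem le_one_of_isIntegralElem {A L : Type} [CommRing A] [Field L] (φ : A →+* L)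
    (v : Valuation L ℤᵐ⁰) (hvA : ∀ a : A, v (φ a) ≤ 1) {x : L} (hx : φ.IsIntegralElem x) :
    v x ≤ 1 := by
  obtain ⟨f, hm, hf⟩ := hx
  by_cases hn : f.natDegree = 0
  · rw [Polynomial.natDegree_eq_zero] at hn
    obtain ⟨c, rfl⟩ := hn
    have hc : c = 1 := by simpa [Polynomial.Monic] using hm
    subst hc
    rw [Polynomial.eval₂_C, map_one] at hf
    exact absurd hf one_ne_zero
  simp only [Polynomial.eval₂_eq_sum_range, Finset.sum_range_succ, hm.coeff_natDegree, map_one,
    one_mul, add_eq_zero_iff_eq_neg] at hf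
  apply_fun v at hf
  simp only [Valuation.map_neg, map_pow] at hf
  contrapose! hf
  refine ne_of_lt (v.map_sum_lt ?_ ?_)
  · simp [hn, (hf.trans' (zero_lt_one)).ne']
  · simp only [Finset.mem_range, map_mul, map_pow]
    intro _ hi
    exact mul_lt_of_le_one_of_lt (hvA _) <| pow_lt_pow_right₀ hf hi

/-- Counting: a surjection which does not increase "sizes" and preserves their total is a
bijection preserving sizes. -/
theorem injective_of_sum_le {Q P : Type} [Fintype Q] [Fintype P] (Φ : Q → P)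
    (hΦ : Function.Surjective Φ) (size : Q → ℕ) (e : P → ℕ) (he : ∀ p, 0 < e p)
    (hle : ∀ q, e (Φ q) ≤ size q) (hsum : ∑ q, size q ≤ ∑ p, e p) :
    Function.Injective Φ ∧ ∀ q, size q = e (Φ q) := by
  classical
  let σ : P → Q := Function.surjInv hΦ
  have hσ : ∀ p, Φ (σ p) = p := Function.surjInv_eq hΦ
  have hσinj : Function.Injective σ := Function.injective_surjInv hΦ
  have h1 : ∑ p, e p ≤ ∑ p, size (σ p) :=
    Finset.sum_le_sum fun p _ => by simpa [hσ] using hle (σ p)
  have h2 : ∑ p, size (σ p) = ∑ q ∈ Finset.univ.image σ, size q :=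
    (Finset.sum_image (fun a _ b _ h => hσinj h)).symm
  have h3 : ∑ q ∈ Finset.univ.image σ, size q ≤ ∑ q, size q :=
    Finset.sum_le_sum_of_subset (Finset.subset_univ _)
  have hsurj : ∀ q, q ∈ Finset.univ.image σ := by
    intro q
    by_contra hq
    have : ∑ q ∈ Finset.univ.image σ, size q < ∑ q, size q :=
      Finset.sum_lt_sum_of_subset (Finset.subset_univ _) (Finset.mem_univ q) hq
        (lt_of_lt_of_le (he _) (hle q)) (fun _ _ _ => Nat.zero_le _)
    omega
  have h4 : ∑ p, e p = ∑ p, size (σ p) := by omega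
  have h5 : ∀ p, e p = size (σ p) := by
    intro p
    exact (Finset.sum_eq_sum_iff_of_le
      (fun p _ => by simpa [hσ] using hle (σ p))).mp h4 p (Finset.mem_univ p)
  refine ⟨?_, ?_⟩
  · intro q q' h
    obtain ⟨p, -, rfl⟩ := Finset.mem_image.mp (hsurj q)
    obtain ⟨p', -, rfl⟩ := Finset.mem_image.mp (hsurj q')
    rw [hσ, hσ] at h
    rw [h]
  · intro q
    obtain ⟨p, -, rfl⟩ := Finset.mem_image.mp (hsurj q)
    rw [hσ]
    exact (h5 p).symm

/-- Prime avoidance for maximal ideals. -/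
theorem exists_mem_notMem {R : Type} [CommRing R] {ι : Type} [Finite ι] (f : ι → Ideal R)
    (hf : ∀ i, (f i).IsPrime) (I : Ideal R) (hI : I.IsMaximal) (hne : ∀ i, f i ≠ I) :
    ∃ b ∈ I, ∀ i, b ∉ f i := by
  classical
  haveI : Fintype ι := Fintype.ofFinite ι
  rcases isEmpty_or_nonempty ι with hι | ⟨⟨i₀⟩⟩
  · exact ⟨0, I.zero_mem, fun i => (hι.false i).elim⟩
  by_contra hcon
  push Not at hcon
  have hsub : (I : Set R) ⊆ ⋃ i ∈ ((Finset.univ : Finset ι) : Set ι), (f i : Set R) := by
    intro b hb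
    obtain ⟨i, hi⟩ := hcon b hb
    exact Set.mem_biUnion (Finset.mem_coe.mpr (Finset.mem_univ i)) hi
  obtain ⟨i, -, hi⟩ := (Ideal.subset_union_prime i₀ i₀ (fun i _ _ _ => hf i)).mp hsub
  exact hne i (hI.eq_of_le (hf i).ne_top hi).symm

section ram

variable {A : Type} [CommRing A] [IsDedekindDomain A] (π : A)
  {B : Type} [CommRing B] [IsDedekindDomain B] [Algebra A B] [Module.Finite A B]
  [FaithfulSMul A B]
  {L : Type} [Field L] [Algebra B L] [IsFractionRing B L]

omit [IsDedekindDomain A] [IsDedekindDomain B] [Module.Finite A B] [FaithfulSMul A B] in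
theorem liesOver_of_mem (hmax : (Ideal.span {π} : Ideal A).IsMaximal) (P : Ideal B)
    (hP : P ≠ ⊤) (h : algebraMap A B π ∈ P) : P.LiesOver (Ideal.span {π}) := by
  refine ⟨hmax.eq_of_le (Ideal.comap_ne_top _ hP) ?_⟩
  rw [Ideal.span_le, Set.singleton_subset_iff]
  exact h

omit [IsDedekindDomain A] [IsDedekindDomain B] [Module.Finite A B] [FaithfulSMul A B] in
theorem mem_of_liesOver (P : Ideal B) [hP : P.LiesOver (Ideal.span {π})] :
    algebraMap A B π ∈ P := by
  have : π ∈ P.under A := by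
    rw [← hP.over]
    exact Ideal.subset_span rfl
  exact this

omit [IsDedekindDomain A] [Module.Finite A B] in
theorem valuation_pi_eq (hπ : π ≠ 0) (𝔮 : HeightOneSpectrum B)
    [𝔮.asIdeal.LiesOver (Ideal.span {π})] :
    𝔮.valuation L (algebraMap B L (algebraMap A B π)) =
      WithZero.exp (-(𝔮.asIdeal.ramificationIdx A : ℤ)) := by
  have hπB : algebraMap A B π ≠ 0 := by
    rw [Ne, FaithfulSMul.algebraMap_eq_zero_iff]
    exact hπ
  have hmap : (Ideal.span {π} : Ideal A).map (algebraMap A B) ≠ ⊥ := by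
    rw [Ideal.map_span, Set.image_singleton, Ne, Ideal.span_singleton_eq_bot]
    exact hπB
  rw [HeightOneSpectrum.valuation_of_algebraMap, 𝔮.intValuation_eq_exp_neg_multiplicity hπB,
    Ideal.IsDedekindDomain.ramificationIdx_eq_multiplicity (Ideal.span {π}) 𝔮.asIdeal hmap,
    Ideal.map_span, Set.image_singleton]

theorem inertiaDeg_eq_one (hmax : (Ideal.span {π} : Ideal A).IsMaximal) (𝔮 : Ideal B)
    [𝔮.IsMaximal] [𝔮.LiesOver (Ideal.span {π})]
    (hres : Function.Surjective ((Ideal.Quotient.mk 𝔮).comp (algebraMap A B))) :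
    𝔮.inertiaDeg A = 1 := by
  rw [Ideal.inertiaDeg_eq_of_isMaximal (Ideal.span {π}) 𝔮]
  let _ : Field (A ⧸ (Ideal.span {π} : Ideal A)) := Ideal.Quotient.field _
  let _ : Field (B ⧸ 𝔮) := Ideal.Quotient.field _
  rw [finrank_eq_one_iff_of_nonzero' (1 : B ⧸ 𝔮) one_ne_zero]
  intro w
  obtain ⟨a, ha⟩ := hres w
  refine ⟨Ideal.Quotient.mk _ a, ?_⟩
  rw [Algebra.smul_def, mul_one, Ideal.Quotient.algebraMap_mk_of_liesOver]
  exact ha

theorem sum_ramificationIdx (hπ : π ≠ 0) (hmax : (Ideal.span {π} : Ideal A).IsMaximal)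
    (hres : ∀ 𝔮 : Ideal B, 𝔮.IsMaximal → algebraMap A B π ∈ 𝔮 →
      Function.Surjective ((Ideal.Quotient.mk 𝔮).comp (algebraMap A B))) :
    ∑ q : (Ideal.span {π} : Ideal A).primesOver B, q.1.ramificationIdx A =
      Module.finrank A B := by
  haveI := hmax
  haveI : Module.IsTorsionFree A B := inferInstance
  have h := Ideal.sum_ramification_inertia_eq_finrank (Ideal.span {π} : Ideal A) B
  rw [← h]
  refine Finset.sum_congr rfl fun q _ => ?_
  have hspan : (Ideal.span {π} : Ideal A) ≠ ⊥ := by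
    rw [Ne, Ideal.span_singleton_eq_bot]
    exact hπ
  have hq0 : q.1 ≠ ⊥ := Ideal.ne_bot_of_mem_primesOver hspan q.2
  haveI : q.1.IsMaximal := (inferInstance : q.1.IsPrime).isMaximal hq0
  rw [inertiaDeg_eq_one π hmax q.1 (hres q.1 inferInstance (mem_of_liesOver π q.1)), mul_one]

/-- The primes of `B` containing `π`, as height one primes, versus the primes over `(π)`. -/
noncomputable def equivOver (hπ : π ≠ 0) (hmax : (Ideal.span {π} : Ideal A).IsMaximal) :
    {𝔮 : HeightOneSpectrum B // algebraMap A B π ∈ 𝔮.asIdeal} ≃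
      (Ideal.span {π} : Ideal A).primesOver B where
  toFun 𝔮 := ⟨𝔮.1.asIdeal, 𝔮.1.isPrime, liesOver_of_mem π hmax _ 𝔮.1.isPrime.ne_top 𝔮.2⟩
  invFun P := ⟨⟨P.1, P.2.1, Ideal.ne_bot_of_mem_primesOver (by
      rw [Ne, Ideal.span_singleton_eq_bot]
      exact hπ) P.2⟩, by
      haveI := P.2.2
      exact mem_of_liesOver π P.1⟩
  left_inv 𝔮 := rfl
  right_inv P := rfl

end ram


end Places

/-- bridging: an additive order function on a domain gives a valuation on its fraction field. -/
theorem exists_valuation_of_ord {B : Type} [CommRing B] [IsDomain B]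
    (L : Type) [Field L] [Algebra B L] [IsFractionRing B L]
    (w : B → ℤ) (hmul : ∀ f g : B, f ≠ 0 → g ≠ 0 → w (f * g) = w f + w g)
    (hadd : ∀ f g : B, f ≠ 0 → g ≠ 0 → f + g ≠ 0 → min (w f) (w g) ≤ w (f + g)) :
    ∃ v : Valuation L ℤᵐ⁰, ∀ b : B, b ≠ 0 → v (algebraMap B L b) = WithZero.exp (-(w b)) := by
  have hS : nonZeroDivisors B ≤ (Places.valOfOrd w hmul hadd).supp.primeCompl := by
    intro b hb hb'
    have hb0 : b ≠ 0 := nonZeroDivisors.ne_zero hb
    rw [SetLike.mem_coe, Valuation.mem_supp_iff] at hb'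
    simp [Places.valOfOrd, hb0] at hb'
  refine ⟨(Places.valOfOrd w hmul hadd).extendToLocalization hS L, fun b hb => ?_⟩
  rw [Valuation.extendToLocalization_apply_map_apply]
  simp [Places.valOfOrd, hb]


/-- COUNTING LEMMA, WEAK FORM. A finite family of valuations `v x` on `L = Frac B` which are `≤ 1`
on `A`, `< 1` at `π`, compatible with an equivalence relation `r` and satisfying the norm
condition `hnorm`: each `v x` is a power of the adic valuation at a prime `𝔮 x` over `(π)`,
every prime over `(π)` is some `𝔮 x`, and there are at most `|X / r|` primes over `(π)`. -/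
theorem places_of_valuations_weak
    {A : Type} [CommRing A] [IsDedekindDomain A] (π : A) (hπ : π ≠ 0)
    (hmax : (Ideal.span {π} : Ideal A).IsMaximal)
    {B : Type} [CommRing B] [IsDedekindDomain B] [Algebra A B] [Algebra.IsIntegral A B]
    [FaithfulSMul A B]
    {L : Type} [Field L] [Algebra B L] [IsFractionRing B L]
    {X : Type} [Finite X] (v : X → Valuation L ℤᵐ⁰)
    (hvA : ∀ x (a : A), v x (algebraMap B L (algebraMap A B a)) ≤ 1)
    (s : X → ℕ) (hs : ∀ x, 0 < s x)
    (hvπ : ∀ x, v x (algebraMap B L (algebraMap A B π)) = WithZero.exp (-(s x : ℤ)))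
    (r : Setoid X)
    (hcenter : ∀ x y, r.r x y → ∀ b : B,
      (v x (algebraMap B L b) < 1 ↔ v y (algebraMap B L b) < 1))
    (hnorm : ∀ b : B, (∀ x, v x (algebraMap B L b) = 1) →
      ∃ a : A, a ∉ Ideal.span {π} ∧ b ∣ algebraMap A B a) :
    ∃ (𝔮 : X → HeightOneSpectrum B) (c : X → ℕ),
      (∀ x, algebraMap A B π ∈ (𝔮 x).asIdeal) ∧
      (∀ x, 0 < c x ∧ c x * (𝔮 x).asIdeal.ramificationIdx A = s x ∧
        ∀ f : L, v x f = (𝔮 x).valuation L f ^ c x) ∧
      (∀ x y, r.r x y → 𝔮 x = 𝔮 y) ∧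
      (∀ 𝔭 : HeightOneSpectrum B, algebraMap A B π ∈ 𝔭.asIdeal → ∃ x, 𝔮 x = 𝔭) ∧
      Nat.card {𝔭 : HeightOneSpectrum B // algebraMap A B π ∈ 𝔭.asIdeal} ≤
        Nat.card (Quotient r) := by
  classical
  have hπB : algebraMap A B π ≠ 0 := by
    rw [Ne, FaithfulSMul.algebraMap_eq_zero_iff]
    exact hπ
  -- Step 1: the valuations are `≤ 1` on `B`
  have hB : ∀ x (b : B), v x (algebraMap B L b) ≤ 1 := by
    intro x b
    refine Places.le_one_of_isIntegralElem ((algebraMap B L).comp (algebraMap A B)) (v x)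
      (hvA x) ?_
    obtain ⟨p, hp, hpb⟩ := Algebra.IsIntegral.isIntegral (R := A) b
    refine ⟨p, hp, ?_⟩
    rw [← Polynomial.hom_eval₂, hpb, map_zero]
  -- the centers
  have hcπ : ∀ x, algebraMap A B π ∈ Places.center (v x) (hB x) := by
    intro x
    rw [Places.mem_center, hvπ, ← WithZero.exp_zero, WithZero.exp_lt_exp]
    have := hs x
    omega
  let 𝔮 : X → HeightOneSpectrum B := fun x =>
    ⟨Places.center (v x) (hB x), Places.center_isPrime _ _, fun h => hπB (by
      have := hcπ x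
      rw [h] at this
      simpa using this)⟩
  have h𝔮mem : ∀ x (b : B), v x (algebraMap B L b) < 1 ↔ b ∈ (𝔮 x).asIdeal :=
    fun x b => Iff.rfl
  have h𝔮over : ∀ x, (𝔮 x).asIdeal.LiesOver (Ideal.span {π}) := fun x =>
    Places.liesOver_of_mem π hmax _ (𝔮 x).isPrime.ne_top (hcπ x)
  -- Step 2: the valuations are powers of the adic valuations
  have hpow : ∀ x, ∃ c : ℕ, 0 < c ∧ ∀ f : L, v x f = ((𝔮 x).valuation L f) ^ c := fun x =>
    Places.valuation_eq_pow (𝔮 x) (v x) (hB x) (h𝔮mem x)
  choose c hc0 hc using hpow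
  have hse : ∀ x, c x * (𝔮 x).asIdeal.ramificationIdx A = s x := by
    intro x
    haveI := h𝔮over x
    have h1 := hc x (algebraMap B L (algebraMap A B π))
    rw [hvπ, Places.valuation_pi_eq π hπ (𝔮 x), ← WithZero.exp_nsmul, WithZero.exp_inj,
      nsmul_eq_mul] at h1
    have : ((c x : ℤ) * ((𝔮 x).asIdeal.ramificationIdx A : ℤ)) = (s x : ℤ) := by
      linarith
    exact_mod_cast this
  have h𝔮r : ∀ x y, r.r x y → 𝔮 x = 𝔮 y := by
    intro x y hxy
    apply HeightOneSpectrum.ext
    apply Ideal.ext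
    intro b
    exact hcenter x y hxy b
  -- Step 4: every prime over `π` is a center
  have hsurj : ∀ 𝔭 : HeightOneSpectrum B, algebraMap A B π ∈ 𝔭.asIdeal → ∃ x, 𝔮 x = 𝔭 := by
    intro 𝔭 h𝔭
    by_contra hcon
    push Not at hcon
    have hne : ∀ x, (𝔮 x).asIdeal ≠ 𝔭.asIdeal := fun x h => hcon x (HeightOneSpectrum.ext h)
    have hpmax : 𝔭.asIdeal.IsMaximal := 𝔭.isPrime.isMaximal 𝔭.ne_bot
    obtain ⟨b, hb, hbx⟩ := Places.exists_mem_notMem (fun x => (𝔮 x).asIdeal)
      (fun x => (𝔮 x).isPrime) 𝔭.asIdeal hpmax hne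
    obtain ⟨a, ha, hba⟩ := hnorm b
      (fun x => Places.eq_one_of_notMem_center (hB := hB x) (hbx x))
    have hmem : algebraMap A B a ∈ 𝔭.asIdeal := Ideal.mem_of_dvd _ hba hb
    haveI := Places.liesOver_of_mem π hmax _ 𝔭.isPrime.ne_top h𝔭
    have hmem' : a ∈ (𝔭.asIdeal).under A := hmem
    rw [← Ideal.over_def 𝔭.asIdeal (Ideal.span {π})] at hmem'
    exact ha hmem'
  refine ⟨𝔮, c, hcπ, fun x => ⟨hc0 x, hse x, hc x⟩, h𝔮r, hsurj, ?_⟩
  -- the count
  let Φ : Quotient r → {𝔭 : HeightOneSpectrum B // algebraMap A B π ∈ 𝔭.asIdeal} :=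
    Quotient.lift (fun x => ⟨𝔮 x, hcπ x⟩) (fun x y hxy => Subtype.ext (h𝔮r x y hxy))
  have hΦ : Function.Surjective Φ := by
    rintro ⟨𝔭, h𝔭⟩
    obtain ⟨x, hx⟩ := hsurj 𝔭 h𝔭
    exact ⟨Quotient.mk r x, Subtype.ext hx⟩
  exact Nat.card_le_card_of_surjective Φ hΦ

/-- COUNTING LEMMA. A family of valuations `v x` on `L = Frac B` indexed by a finite set `X` with
`|X| = rank_A B`, compatible with an equivalence relation `r` whose classes have size
`s x / n x`, is (modulo `r`) in bijection with the primes of `B` over `(π)`; ramification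
index = class size, and `v x = (𝔮-adic valuation)^(n x)`. -/
theorem places_of_valuations
    {A : Type} [CommRing A] [IsDedekindDomain A] (π : A) (hπ : π ≠ 0)
    (hmax : (Ideal.span {π} : Ideal A).IsMaximal)
    {B : Type} [CommRing B] [IsDedekindDomain B] [Algebra A B] [Module.Finite A B]
    [FaithfulSMul A B]
    {L : Type} [Field L] [Algebra B L] [IsFractionRing B L]
    (hres : ∀ 𝔮 : Ideal B, 𝔮.IsMaximal → algebraMap A B π ∈ 𝔮 →
      Function.Surjective ((Ideal.Quotient.mk 𝔮).comp (algebraMap A B)))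
    {X : Type} [Finite X] (hX : Nat.card X = Module.finrank A B)
    (v : X → Valuation L ℤᵐ⁰)
    (hvA : ∀ x (a : A), v x (algebraMap B L (algebraMap A B a)) ≤ 1)
    (s : X → ℕ) (hs : ∀ x, 0 < s x)
    (hvπ : ∀ x, v x (algebraMap B L (algebraMap A B π)) = WithZero.exp (-(s x : ℤ)))
    (hv1 : ∀ x (a : A), a ∉ Ideal.span {π} → v x (algebraMap B L (algebraMap A B a)) = 1)
    (n : X → ℕ) (hn : ∀ x (f : L), ∃ u : ℤᵐ⁰, v x f = u ^ n x)
    (r : Setoid X)
    (hclass : ∀ x, Nat.card {y // r.r y x} * n x = s x)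
    (hcenter : ∀ x y, r.r x y → ∀ b : B,
      (v x (algebraMap B L b) < 1 ↔ v y (algebraMap B L b) < 1))
    (hnorm : ∀ b : B, (∀ x, v x (algebraMap B L b) = 1) →
      ∃ a : A, a ∉ Ideal.span {π} ∧ b ∣ algebraMap A B a) :
    ∃ φ : Quotient r ≃ {𝔮 : HeightOneSpectrum B // algebraMap A B π ∈ 𝔮.asIdeal},
      ∀ x : X, ((φ (Quotient.mk r x)).1.asIdeal.ramificationIdx A * n x = s x) ∧
        ∀ f : L, v x f = ((φ (Quotient.mk r x)).1.valuation L f) ^ n x := by
  classical
  haveI : Fintype X := Fintype.ofFinite X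
  have hπB : algebraMap A B π ≠ 0 := by
    rw [Ne, FaithfulSMul.algebraMap_eq_zero_iff]
    exact hπ
  -- Step 1: the valuations are `≤ 1` on `B`
  have hB : ∀ x (b : B), v x (algebraMap B L b) ≤ 1 := by
    intro x b
    refine Places.le_one_of_isIntegralElem ((algebraMap B L).comp (algebraMap A B)) (v x)
      (hvA x) ?_
    obtain ⟨p, hp, hpb⟩ := Algebra.IsIntegral.isIntegral (R := A) b
    refine ⟨p, hp, ?_⟩
    rw [← Polynomial.hom_eval₂, hpb, map_zero]
  -- the centers
  have hcπ : ∀ x, algebraMap A B π ∈ Places.center (v x) (hB x) := by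
    intro x
    rw [Places.mem_center, hvπ, ← WithZero.exp_zero, WithZero.exp_lt_exp]
    have := hs x
    omega
  let 𝔮 : X → HeightOneSpectrum B := fun x =>
    ⟨Places.center (v x) (hB x), Places.center_isPrime _ _, fun h => hπB (by
      have := hcπ x
      rw [h] at this
      simpa using this)⟩
  have h𝔮mem : ∀ x (b : B), v x (algebraMap B L b) < 1 ↔ b ∈ (𝔮 x).asIdeal :=
    fun x b => Iff.rfl
  have h𝔮over : ∀ x, (𝔮 x).asIdeal.LiesOver (Ideal.span {π}) := fun x =>
    Places.liesOver_of_mem π hmax _ (𝔮 x).isPrime.ne_top (hcπ x)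
  -- Step 2: the valuations are powers of the adic valuations
  have hpow : ∀ x, ∃ c : ℕ, 0 < c ∧ ∀ f : L, v x f = ((𝔮 x).valuation L f) ^ c := fun x =>
    Places.valuation_eq_pow (𝔮 x) (v x) (hB x) (h𝔮mem x)
  choose c hc0 hc using hpow
  -- Step 3: `s x = c x * e`, `n x ∣ c x`
  have hse : ∀ x, s x = c x * (𝔮 x).asIdeal.ramificationIdx A := by
    intro x
    haveI := h𝔮over x
    have h1 := hc x (algebraMap B L (algebraMap A B π))
    rw [hvπ, Places.valuation_pi_eq π hπ (𝔮 x), ← WithZero.exp_nsmul, WithZero.exp_inj,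
      nsmul_eq_mul] at h1
    have : (s x : ℤ) = (c x : ℤ) * ((𝔮 x).asIdeal.ramificationIdx A : ℤ) := by
      linarith
    exact_mod_cast this
  have hnc : ∀ x, n x ∣ c x := by
    intro x
    obtain ⟨ϖ, hϖ⟩ := (𝔮 x).valuation_exists_uniformizer L
    obtain ⟨u, hu⟩ := hn x ϖ
    rw [hc x ϖ, hϖ, ← WithZero.exp_nsmul] at hu
    have hu0 : u ≠ 0 := by
      rintro rfl
      by_cases hn0 : n x = 0
      · rw [hn0, pow_zero, ← WithZero.exp_zero, WithZero.exp_inj, nsmul_eq_mul] at hu
        have := hc0 x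
        omega
      · rw [zero_pow hn0] at hu
        exact WithZero.exp_ne_zero hu
    rw [← WithZero.exp_log hu0, ← WithZero.exp_nsmul, WithZero.exp_inj, nsmul_eq_mul,
      nsmul_eq_mul] at hu
    have : (n x : ℤ) ∣ (c x : ℤ) := ⟨-(WithZero.log u), by linarith⟩
    exact Int.natCast_dvd_natCast.mp this
  have hn0 : ∀ x, 0 < n x := fun x => Nat.pos_of_dvd_of_pos (hnc x) (hc0 x)
  have hle : ∀ x, (𝔮 x).asIdeal.ramificationIdx A ≤ Nat.card {y // r.r y x} := by
    intro x
    obtain ⟨d, hd⟩ := hnc x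
    have h1 := hclass x
    rw [hse x, hd] at h1
    have hd0 : 0 < d := by
      have := hc0 x
      rw [hd] at this
      refine Nat.pos_of_ne_zero ?_
      rintro rfl
      simp at this
    have h2 : Nat.card {y // r.r y x} = d * (𝔮 x).asIdeal.ramificationIdx A := by
      apply Nat.eq_of_mul_eq_mul_right (hn0 x)
      rw [h1]
      ring
    rw [h2]
    exact Nat.le_mul_of_pos_left _ hd0
  -- Step 4: the map from classes to primes
  let P := {𝔮 : HeightOneSpectrum B // algebraMap A B π ∈ 𝔮.asIdeal}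
  haveI : Fintype P := Fintype.ofEquiv _ (Places.equivOver π hπ hmax).symm
  let Φ : Quotient r → P := Quotient.lift (fun x => (⟨𝔮 x, hcπ x⟩ : P)) (by
    intro x y hxy
    apply Subtype.ext
    apply HeightOneSpectrum.ext
    apply Ideal.ext
    intro b
    exact hcenter x y hxy b)
  let size : Quotient r → ℕ := fun q => Fintype.card {y : X // Quotient.mk r y = q}
  have hsize : ∀ x, size (Quotient.mk r x) = Nat.card {y // r.r y x} := by
    intro x
    rw [Nat.card_eq_fintype_card]
    apply Fintype.card_congr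
    exact Equiv.subtypeEquivRight (fun y => Quotient.eq)
  have hsum_size : ∑ q, size q = Fintype.card X := by
    rw [← Fintype.card_sigma]
    exact Fintype.card_congr (Equiv.sigmaFiberEquiv (Quotient.mk r))
  let e : P → ℕ := fun p => p.1.asIdeal.ramificationIdx A
  have he : ∀ p, 0 < e p := fun p => by
    haveI := p.1.isPrime
    exact Ideal.ramificationIdx_pos _ _
  have hsum_e : ∑ p, e p = Module.finrank A B := by
    rw [← Places.sum_ramificationIdx π hπ hmax hres]
    exact Fintype.sum_equiv (Places.equivOver π hπ hmax) _ _ (fun p => rfl)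
  have hsurj : Function.Surjective Φ := by
    intro p
    by_contra hcon
    push Not at hcon
    have hne : ∀ x, (𝔮 x).asIdeal ≠ p.1.asIdeal := by
      intro x h
      apply hcon (Quotient.mk r x)
      apply Subtype.ext
      exact HeightOneSpectrum.ext h
    have hpmax : p.1.asIdeal.IsMaximal := p.1.isPrime.isMaximal p.1.ne_bot
    obtain ⟨b, hb, hbx⟩ := Places.exists_mem_notMem (fun x => (𝔮 x).asIdeal)
      (fun x => (𝔮 x).isPrime) p.1.asIdeal hpmax hne
    obtain ⟨a, ha, hba⟩ := hnorm b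
      (fun x => Places.eq_one_of_notMem_center (hB := hB x) (hbx x))
    have hmem : algebraMap A B a ∈ p.1.asIdeal := Ideal.mem_of_dvd _ hba hb
    haveI := Places.liesOver_of_mem π hmax _ p.1.isPrime.ne_top p.2
    have hmem' : a ∈ (p.1.asIdeal).under A := hmem
    rw [← Ideal.over_def p.1.asIdeal (Ideal.span {π})] at hmem'
    exact ha hmem'
  obtain ⟨hinj, hsz⟩ := Places.injective_of_sum_le Φ hsurj size e he (by
      intro q
      induction q using Quotient.inductionOn with
      | _ x =>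
        rw [hsize]
        exact hle x) (by
      rw [hsum_size, hsum_e, ← hX, Nat.card_eq_fintype_card])
  refine ⟨Equiv.ofBijective Φ ⟨hinj, hsurj⟩, fun x => ⟨?_, ?_⟩⟩
  · have h1 := hsz (Quotient.mk r x)
    rw [hsize] at h1
    show (𝔮 x).asIdeal.ramificationIdx A * n x = s x
    rw [← hclass x, h1]
    rfl
  · intro f
    have h1 := hsz (Quotient.mk r x)
    rw [hsize] at h1
    have hcn : c x = n x := by
      have h2 := hclass x
      rw [h1, hse x] at h2
      have he' := he (Φ (Quotient.mk r x))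
      have h3 : e (Φ (Quotient.mk r x)) * n x = e (Φ (Quotient.mk r x)) * c x := by
        rw [h2]
        exact mul_comm _ _
      exact (Nat.eq_of_mul_eq_mul_left he' h3).symm
    show v x f = ((𝔮 x).valuation L f) ^ n x
    rw [← hcn]
    exact hc x f

end Fermat.Agent.S20
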