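import Mathlib
import Fermat.Agent.S20.Conjugates
import Fermat.Agent.S23.Analysis

set_option autoImplicit false

open UpperHalfPlane hiding I
open Complex Filter Function
open scoped Manifold MatrixGroups ModularForm Topology

namespace Fermat.Agent.S20

/-- **Integral closedness** of the ring of weakly holomorphic functions: a quotient `a / b` of
weakly holomorphic `Γ`-invariant functions which satisfies a monic equation with weakly
holomorphic coefficients is itself weakly holomorphic. -/
theorem exists_isWH_quotient {Γ : Subgroup SL(2, ℤ)} {a b : ℍ → ℂ} (ha : IsWH Γ a)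
    (hb : IsWH Γ b) (hb0 : b ≠ 0) {k : ℕ} (hk : 0 < k) (c : ℕ → ℍ → ℂ)
    (hc : ∀ i < k, IsWH ⊥ (c i))
    (h : ∀ z, a z ^ k + ∑ i ∈ Finset.range k, c i z * b z ^ (k - i) * a z ^ i = 0) :
    ∃ f : ℍ → ℂ, IsWH Γ f ∧ ∀ z, f z * b z = a z := by
  obtain ⟨f, hf, hfb, hfm⟩ := Fermat.Agent.S23.exists_mdiff_mul_eq_of_monic hk ha.mdiff hb.mdiff
    hb0 c (fun i hi => (hc i hi).mdiff.continuous) h
  refine ⟨f, ⟨hf, ?_, ?_⟩, hfb⟩
  · intro γ hγ z
    have h1 : (fun z : ℍ => f (γ • z)) * b = f * b := by
      funext w
      simp only [Pi.mul_apply]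
      calc f (γ • w) * b w = f (γ • w) * b (γ • w) := by rw [hb.inv γ hγ w]
        _ = a (γ • w) := hfb _
        _ = a w := ha.inv γ hγ w
        _ = f w * b w := (hfb w).symm
    have h2 := Fermat.Agent.S23.mdiff_mul_right_cancel (mdiff_comp_smul hf γ) hf hb.mdiff hb0 h1
    exact congrFun h2 z
  · -- moderate growth at every cusp
    have hn : ∀ i : ℕ, ∃ n : ℕ, i < k → ∀ g : SL(2, ℤ),
        IsBoundedAtImInfty (fun z : ℍ => c i (g • z) * ModularForm.discriminant z ^ n) := by
      intro i
      by_cases hi : i < k
      · obtain ⟨n, hn⟩ := (hc i hi).bdd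
        exact ⟨n, fun _ => hn⟩
      · exact ⟨0, fun hi' => absurd hi' hi⟩
    choose n hn using hn
    set m : ℕ := ∑ i ∈ Finset.range k, n i with hm
    refine ⟨m, fun g => ?_⟩
    have hle : ∀ i < k, n i ≤ m * (k - i) := by
      intro i hi
      have h1 : n i ≤ m := Finset.single_le_sum (f := n) (fun _ _ => Nat.zero_le _)
        (Finset.mem_range.mpr hi)
      have h2 : 1 ≤ k - i := by omega
      calc n i ≤ m := h1
        _ = m * 1 := (mul_one m).symm
        _ ≤ m * (k - i) := Nat.mul_le_mul_left m h2
    apply Fermat.Agent.S23.isBoundedAtImInfty_of_monic_root (k := k)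
      (fun i z => c i (g • z) * ModularForm.discriminant z ^ (m * (k - i)))
    · intro i hi
      exact bdd_pow_mono (hle i hi) (hn i hi) g
    · intro z
      have h0 := hfm (g • z)
      have e : (f (g • z) * ModularForm.discriminant z ^ m) ^ k +
          ∑ i ∈ Finset.range k, c i (g • z) * ModularForm.discriminant z ^ (m * (k - i)) *
            (f (g • z) * ModularForm.discriminant z ^ m) ^ i =
          ModularForm.discriminant z ^ (m * k) *
            (f (g • z) ^ k + ∑ i ∈ Finset.range k, c i (g • z) * f (g • z) ^ i) := by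
        rw [mul_add, Finset.mul_sum]
        congr 1
        · rw [mul_pow, ← pow_mul]; ring
        · refine Finset.sum_congr rfl (fun i hi => ?_)
          have hik : i < k := Finset.mem_range.mp hi
          have : m * k = m * (k - i) + m * i := by
            rw [← Nat.mul_add]; congr 1; omega
          rw [this, mul_pow, ← pow_mul, pow_add]
          ring
      rw [e, h0, mul_zero]

end Fermat.Agent.S20
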