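import Mathlib
import Fermat.Agent.S20.Defs
import Fermat.Agent.S23.SepForm
import Fermat.Agent.S23.Glue

set_option autoImplicit false

open UpperHalfPlane hiding I
open Complex Filter Function
open scoped Manifold MatrixGroups ModularForm Topology

namespace Fermat.Agent.S20.SepFunAux

open ModularForm EisensteinSeries

theorem slash_apply_SL (k : ℤ) (f : ℍ → ℂ) (γ : SL(2, ℤ)) (z : ℍ) :
    f (γ • z) = (f ∣[k] γ) z * UpperHalfPlane.denom γ z ^ k := by
  rw [ModularForm.SL_slash_apply]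
  have hd : UpperHalfPlane.denom γ z ≠ 0 := UpperHalfPlane.denom_ne_zero _ z
  rw [mul_assoc, ← zpow_add₀ hd]
  simp

theorem levelOne_smul {k : ℤ} (F : ModularForm 𝒮ℒ k) (γ : SL(2, ℤ)) (z : ℍ) :
    F (γ • z) = F z * UpperHalfPlane.denom γ z ^ k := by
  rw [slash_apply_SL k (⇑F) γ z, Fermat.Agent.S23.Glue.levelOne_slash]

theorem disc_smul (γ : SL(2, ℤ)) (z : ℍ) :
    ModularForm.discriminant (γ • z) =
      ModularForm.discriminant z * UpperHalfPlane.denom γ z ^ (12 : ℤ) := by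
  have h := slash_apply_SL 12 (⇑CuspForm.discriminant) γ z
  have h2 : (⇑CuspForm.discriminant : ℍ → ℂ) ∣[(12 : ℤ)] γ = ⇑CuspForm.discriminant :=
    CuspForm.discriminant.slash_action_eq' _ ⟨γ, rfl⟩
  rw [h2] at h
  exact h

theorem mdiff_div (f g : ℍ → ℂ) (hf : MDiff f) (hg : MDiff g) (h0 : ∀ z, g z ≠ 0) :
    MDiff (fun z => f z / g z) := by
  rw [UpperHalfPlane.mdifferentiable_iff] at hf hg ⊢
  have : (fun z => f z / g z) ∘ ofComplex = fun w => (f ∘ ofComplex) w / (g ∘ ofComplex) w := rfl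
  rw [this]
  exact hf.div hg (fun x _ => h0 _)

/-- If a translate of the separating form eventually agrees with it at `i∞`, the translating
matrix lies in `Γ₀(N)`. -/
theorem mem_Gamma0_of_sepForm_slash_eventuallyEq (N : ℕ) [NeZero N] (γ : SL(2, ℤ))
    (h : ∀ᶠ z in atImInfty,
      (⇑(Fermat.Agent.S23.sepForm N) ∣[(4 : ℤ)] γ) z = Fermat.Agent.S23.sepForm N z) :
    γ ∈ CongruenceSubgroup.Gamma0 N := by
  obtain ⟨n₁, hn₁, hdvd, ht⟩ := Fermat.Agent.S23.exists_tendsto_sepForm_slash N γ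
  have ht' : Tendsto (fun z : ℍ => Fermat.Agent.S23.sepForm N z) atImInfty
      (𝓝 (((n₁ : ℂ) ^ 4)⁻¹)) := ht.congr' h
  have huniq := tendsto_nhds_unique ht' (Fermat.Agent.S23.tendsto_sepForm N)
  rw [CongruenceSubgroup.Gamma0_mem, ZMod.intCast_zmod_eq_zero_iff_dvd]
  apply hdvd
  have h1 : ((n₁ : ℂ) ^ 4) = 1 := inv_eq_one.mp huniq
  have h2 : ((n₁ ^ 4 : ℤ) : ℂ) = ((1 : ℤ) : ℂ) := by push_cast; exact h1
  have h3 : n₁ ^ 4 = 1 := by exact_mod_cast h2
  have h4 : n₁ ≤ 1 := by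
    by_contra hcon
    have : (2 : ℤ) ≤ n₁ := by omega
    have : (2 : ℤ) ^ 4 ≤ n₁ ^ 4 := pow_le_pow_left₀ (by norm_num) this 4
    omega
  omega

theorem eventually_E4_ne_zero : ∀ᶠ z in atImInfty, E₄ z ≠ 0 := by
  have h := Fermat.Agent.S23.Sep.tendsto_E4
  exact h.eventually_ne one_ne_zero

end Fermat.Agent.S20.SepFunAux

namespace Fermat.Agent.S20

open ModularForm EisensteinSeries Fermat.Agent.S20.SepFunAux

/-- A weakly holomorphic `Γ₀(N)`-invariant function with pairwise distinct `SL(2,ℤ)`-conjugates: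
`E₄(Nτ) E₄(τ)² / Δ(τ)`. -/
noncomputable def sepFun (N : ℕ) [NeZero N] (z : ℍ) : ℂ :=
  Fermat.Agent.S23.sepForm N z * E₄ z ^ 2 / ModularForm.discriminant z

theorem sepFun_smul (N : ℕ) [NeZero N] (g : SL(2, ℤ)) (z : ℍ) :
    sepFun N (g • z) =
      (⇑(Fermat.Agent.S23.sepForm N) ∣[(4 : ℤ)] g) z * E₄ z ^ 2 / ModularForm.discriminant z := by
  unfold sepFun
  rw [slash_apply_SL 4 (⇑(Fermat.Agent.S23.sepForm N)) g z, levelOne_smul E₄ g z, disc_smul g z]
  have hd : UpperHalfPlane.denom g z ≠ 0 := UpperHalfPlane.denom_ne_zero _ z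
  have hΔ : ModularForm.discriminant z ≠ 0 := ModularForm.discriminant_ne_zero z
  have h4 : UpperHalfPlane.denom g z ^ (4 : ℤ) = UpperHalfPlane.denom g z ^ 4 := by norm_cast
  have h12 : UpperHalfPlane.denom g z ^ (12 : ℤ) = UpperHalfPlane.denom g z ^ 12 := by norm_cast
  rw [h4, h12]
  field_simp

theorem sepFun_mul_disc (N : ℕ) [NeZero N] (g : SL(2, ℤ)) (z : ℍ) :
    sepFun N (g • z) * ModularForm.discriminant z =
      (⇑(Fermat.Agent.S23.sepForm N) ∣[(4 : ℤ)] g) z * E₄ z ^ 2 := by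
  rw [sepFun_smul]
  have hΔ : ModularForm.discriminant z ≠ 0 := ModularForm.discriminant_ne_zero z
  field_simp

theorem mdiff_sepFun (N : ℕ) [NeZero N] : MDiff (sepFun N) := by
  have h1 : MDiff (fun z : ℍ => Fermat.Agent.S23.sepForm N z * E₄ z ^ 2) :=
    (ModularFormClass.holo (Fermat.Agent.S23.sepForm N)).mul ((ModularFormClass.holo E₄).pow 2)
  have h2 : MDiff (fun z : ℍ => ModularForm.discriminant z) :=
    CuspFormClass.holo CuspForm.discriminant
  exact mdiff_div _ _ h1 h2 ModularForm.discriminant_ne_zero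

theorem isWH_sepFun (N : ℕ) [NeZero N] : IsWH (CongruenceSubgroup.Gamma0 N) (sepFun N) where
  mdiff := mdiff_sepFun N
  inv := by
    intro γ hγ z
    rw [sepFun_smul, Fermat.Agent.S23.Glue.modularForm_slash_Gamma0 N _ γ hγ]
    rfl
  bdd := by
    refine ⟨1, fun g => ?_⟩
    have h1 := Fermat.Agent.S23.Glue.modularForm_slash_isBoundedAtImInfty N
      (Fermat.Agent.S23.sepForm N) g
    have h2 : IsBoundedAtImInfty (fun z : ℍ => E₄ z) := ModularFormClass.bdd_at_infty E₄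
    have h3 := h1.mul (h2.mul h2)
    have e : (fun z : ℍ => sepFun N (g • z) * ModularForm.discriminant z ^ 1) =
        (⇑(Fermat.Agent.S23.sepForm N) ∣[(4 : ℤ)] g) *
          ((fun z : ℍ => E₄ z) * (fun z : ℍ => E₄ z)) := by
      funext z
      rw [pow_one, sepFun_mul_disc]
      simp only [Pi.mul_apply]
      ring
    rw [e]
    exact h3

theorem sepFun_mem_WH (N : ℕ) [NeZero N] : sepFun N ∈ WH (CongruenceSubgroup.Gamma0 N) :=
  isWH_sepFun N

/-- The `SL(2,ℤ)`-translates of `sepFun N` separate the cosets of `Γ₀(N)`. -/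
theorem mem_Gamma0_of_sepFun_eventuallyEq (N : ℕ) [NeZero N] (g : SL(2, ℤ))
    (h : ∀ᶠ z in atImInfty, sepFun N (g • z) = sepFun N z) : g ∈ CongruenceSubgroup.Gamma0 N := by
  apply mem_Gamma0_of_sepForm_slash_eventuallyEq N g
  filter_upwards [h, eventually_E4_ne_zero] with z hz hE
  have h1 := sepFun_mul_disc N g z
  have h2 := sepFun_mul_disc N 1 z
  rw [one_smul] at h2
  rw [hz, h2] at h1
  have h3 : (⇑(Fermat.Agent.S23.sepForm N) ∣[(4 : ℤ)] (1 : SL(2, ℤ))) z =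
      Fermat.Agent.S23.sepForm N z := by
    rw [SlashAction.slash_one]
  rw [h3] at h1
  have hE2 : E₄ z ^ 2 ≠ 0 := pow_ne_zero 2 hE
  exact (mul_right_cancel₀ hE2 h1).symm

theorem mem_Gamma0_of_sepFun_eq (N : ℕ) [NeZero N] (g : SL(2, ℤ))
    (h : ∀ z : ℍ, sepFun N (g • z) = sepFun N z) : g ∈ CongruenceSubgroup.Gamma0 N :=
  mem_Gamma0_of_sepFun_eventuallyEq N g (Eventually.of_forall h)

theorem sepFun_smul_eq_iff (N : ℕ) [NeZero N] (g g' : SL(2, ℤ)) :
    (∀ z : ℍ, sepFun N (g • z) = sepFun N (g' • z)) ↔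
      g * g'⁻¹ ∈ CongruenceSubgroup.Gamma0 N := by
  constructor
  · intro h
    apply mem_Gamma0_of_sepFun_eq
    intro z
    have := h (g'⁻¹ • z)
    rw [← mul_smul, ← mul_smul, mul_inv_cancel, one_smul] at this
    exact this
  · intro h z
    have := (isWH_sepFun N).inv _ h (g' • z)
    rw [← mul_smul, inv_mul_cancel_right] at this
    exact this

end Fermat.Agent.S20
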