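import Mathlib
import Fermat.Agent.S20.LevelOneBasic
import Fermat.Agent.S20.Conjugates
import Fermat.Agent.S20.IntClosed
import Fermat.Agent.S20.SepFun
import Fermat.Agent.S20.JSurj
import Fermat.Agent.S20.AinfDVR

set_option autoImplicit false

open UpperHalfPlane hiding I
open Complex Filter Function
open scoped Manifold MatrixGroups ModularForm Topology RatFunc

namespace Fermat.Agent.S20.RingAux

open ModularForm EisensteinSeries

theorem tendsto_norm_jFun : Tendsto (fun z : ℍ => ‖jFun z‖) atImInfty atTop := by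
  have h1 : Tendsto (fun z : ℍ => ‖E₄ z‖ ^ 3) atImInfty (𝓝 1) := by
    have := (Fermat.Agent.S23.Sep.tendsto_E4.norm).pow 3
    simpa using this
  have h2 : Tendsto (fun z : ℍ => ‖ModularForm.discriminant z‖⁻¹) atImInfty atTop := by
    have h0 : Tendsto (fun z : ℍ => ‖ModularForm.discriminant z‖) atImInfty (𝓝 0) := by
      have h3 : Tendsto (fun z : ℍ => ModularForm.discriminant z) atImInfty (𝓝 0) :=
        ModularForm.discriminant_isZeroAtImInfty
      simpa using h3.norm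
    apply Filter.Tendsto.inv_tendsto_nhdsGT_zero
    rw [tendsto_nhdsWithin_iff]
    refine ⟨h0, Eventually.of_forall (fun z => ?_)⟩
    exact norm_pos_iff.mpr (ModularForm.discriminant_ne_zero z)
  have h3 := Filter.Tendsto.pos_mul_atTop (zero_lt_one) h1 h2
  refine h3.congr (fun z => ?_)
  unfold jFun
  rw [norm_div, norm_pow, div_eq_mul_inv]

theorem exists_eval_jFun_ne_zero (p : Polynomial ℂ) (hp : p ≠ 0) :
    ∃ z : ℍ, p.eval (jFun z) ≠ 0 := by
  by_contra hcon
  have hcon' : ∀ z : ℍ, p.eval (jFun z) = 0 := by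
    intro z
    by_contra h
    exact hcon ⟨z, h⟩
  have hroots : ∀ z : ℍ, jFun z ∈ p.roots.toFinset := by
    intro z
    rw [Multiset.mem_toFinset, Polynomial.mem_roots hp]
    exact hcon' z
  obtain ⟨M, hM⟩ : ∃ M : ℝ, ∀ x ∈ p.roots.toFinset, ‖x‖ ≤ M := by
    refine ⟨∑ x ∈ p.roots.toFinset, ‖x‖, fun x hx => ?_⟩
    exact Finset.single_le_sum (f := fun x => ‖x‖) (fun _ _ => norm_nonneg _) hx
  have h := tendsto_atTop.mp tendsto_norm_jFun (M + 1)
  obtain ⟨z, hz⟩ := h.exists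
  have := hM _ (hroots z)
  linarith

end Fermat.Agent.S20.RingAux

namespace Fermat.Agent.S20

open Fermat.Agent.S20.RingAux

instance instIsDomainWH (Γ : Subgroup SL(2, ℤ)) : IsDomain (WH Γ) := by
  have : Nontrivial (WH Γ) := by
    refine ⟨⟨0, 1, ?_⟩⟩
    intro h
    have h1 : ((0 : WH Γ) : ℍ → ℂ) UpperHalfPlane.I = ((1 : WH Γ) : ℍ → ℂ) UpperHalfPlane.I := by
      rw [h]
    simp at h1
  have : NoZeroDivisors (WH Γ) := by
    refine ⟨fun {a b} hab => ?_⟩
    have h1 : (a : ℍ → ℂ) * (b : ℍ → ℂ) = 0 := by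
      have := congrArg (Subtype.val) hab
      simpa using this
    rcases (UpperHalfPlane.mul_eq_zero_iff a.2.mdiff b.2.mdiff).mp h1 with h2 | h2
    · left; exact Subtype.ext h2
    · right; exact Subtype.ext h2
  exact NoZeroDivisors.to_isDomain _

noncomputable instance instAlgebraPolyWH (Γ : Subgroup SL(2, ℤ)) : Algebra (Polynomial ℂ) (WH Γ) :=
  (Polynomial.aeval (jWH Γ)).toAlgebra

theorem algebraMap_poly_WH (Γ : Subgroup SL(2, ℤ)) (p : Polynomial ℂ) :
    algebraMap (Polynomial ℂ) (WH Γ) p = Polynomial.aeval (jWH Γ) p := rfl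

theorem algebraMap_poly_WH_apply (Γ : Subgroup SL(2, ℤ)) (p : Polynomial ℂ) (z : ℍ) :
    (algebraMap (Polynomial ℂ) (WH Γ) p : ℍ → ℂ) z = p.eval (jFun z) := by
  rw [algebraMap_poly_WH]
  have h1 : ((Polynomial.aeval (jWH Γ) p : WH Γ) : ℍ → ℂ) = Polynomial.aeval (jFun) p := by
    have := Polynomial.aeval_algHom_apply (WH Γ).val (jWH Γ) p
    exact this.symm
  rw [h1]
  have h2 := Polynomial.aeval_algHom_apply (Pi.evalAlgHom ℂ (fun _ : ℍ => ℂ) z) jFun p
  simp only [Pi.evalAlgHom_apply] at h2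
  rw [← h2]
  simp [Polynomial.aeval_def, Polynomial.eval₂_eq_eval_map]

instance instIsScalarTowerPolyWH (Γ : Subgroup SL(2, ℤ)) : IsScalarTower ℂ (Polynomial ℂ) (WH Γ) :=
  IsScalarTower.of_algHom (Polynomial.aeval (jWH Γ))

theorem algebraMap_poly_WH_injective (Γ : Subgroup SL(2, ℤ)) :
    Function.Injective (algebraMap (Polynomial ℂ) (WH Γ)) := by
  rw [injective_iff_map_eq_zero]
  intro p hp
  by_contra hp0
  obtain ⟨z, hz⟩ := exists_eval_jFun_ne_zero p hp0
  apply hz
  rw [← algebraMap_poly_WH_apply Γ p z, hp]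
  rfl

instance instFaithfulSMulPolyWH (Γ : Subgroup SL(2, ℤ)) : FaithfulSMul (Polynomial ℂ) (WH Γ) :=
  (faithfulSMul_iff_algebraMap_injective _ _).mpr (algebraMap_poly_WH_injective Γ)

/-- Every weakly holomorphic `Γ`-invariant function is a root of a monic polynomial of degree
`[SL(2,ℤ) : Γ]` with coefficients in `ℂ[j]`. -/
theorem exists_monic_poly_WH (Γ : Subgroup SL(2, ℤ)) [Γ.FiniteIndex] (f : WH Γ) :
    ∃ Q : Polynomial (Polynomial ℂ), Q.Monic ∧ Q.natDegree = Γ.index ∧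
      Polynomial.eval₂ (algebraMap (Polynomial ℂ) (WH Γ)) f Q = 0 := by
  set φ : Polynomial ℂ →+* (ℍ → ℂ) :=
    ((WH Γ).val : WH Γ →+* (ℍ → ℂ)).comp (algebraMap (Polynomial ℂ) (WH Γ)) with hφ
  have hlift : cosetPoly Γ (f : ℍ → ℂ) ∈ Polynomial.lifts φ := by
    rw [Polynomial.lifts_iff_coeff_lifts]
    intro n
    obtain ⟨p, hp⟩ := exists_poly_of_isWH_top _ (cosetPoly_coeff_isWH Γ f.2 n)
    refine ⟨p, ?_⟩
    funext z
    rw [hp z]
    exact algebraMap_poly_WH_apply Γ p z
  obtain ⟨Q, hQ, hdeg, hmonic⟩ :=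
    Polynomial.lifts_and_natDegree_eq_and_monic hlift (cosetPoly_monic Γ _)
  refine ⟨Q, hmonic, by rw [hdeg, cosetPoly_natDegree], ?_⟩
  apply Subtype.ext
  have h1 := Polynomial.hom_eval₂ Q (algebraMap (Polynomial ℂ) (WH Γ))
    ((WH Γ).val : WH Γ →+* (ℍ → ℂ)) f
  have h2 : (((Polynomial.eval₂ (algebraMap (Polynomial ℂ) (WH Γ)) f Q : WH Γ)) : ℍ → ℂ) =
      Polynomial.eval₂ φ (f : ℍ → ℂ) Q := h1
  rw [h2, Polynomial.eval₂_eq_eval_map, hQ]
  exact cosetPoly_eval_self Γ f.2.inv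

instance instIsIntegralPolyWH (Γ : Subgroup SL(2, ℤ)) [Γ.FiniteIndex] :
    Algebra.IsIntegral (Polynomial ℂ) (WH Γ) := by
  refine ⟨fun f => ?_⟩
  obtain ⟨Q, hQ, -, h0⟩ := exists_monic_poly_WH Γ f
  exact ⟨Q, hQ, h0⟩

instance instIsIntegrallyClosedWH (Γ : Subgroup SL(2, ℤ)) : IsIntegrallyClosed (WH Γ) := by
  rw [isIntegrallyClosed_iff (FractionRing (WH Γ))]
  intro x hx
  obtain ⟨a, b, hb, rfl⟩ := IsFractionRing.div_surjective (A := WH Γ) x
  obtain ⟨Q, hQm, hQ⟩ := hx
  have hb0 : b ≠ 0 := nonZeroDivisors.ne_zero hb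
  have hinj := IsFractionRing.injective (WH Γ) (FractionRing (WH Γ))
  have h1 := Polynomial.scaleRoots_aeval_eq_zero_of_aeval_div_eq_zero hinj (p := Q) (r := a)
    (s := b) hQ hb
  have h2 : Polynomial.eval a (Q.scaleRoots b) = 0 := by
    apply hinj
    rw [map_zero, ← h1, Polynomial.aeval_algebraMap_apply, Polynomial.coe_aeval_eq_eval]
  set k := Q.natDegree with hk
  have hkpos : 0 < k := by
    by_contra hk0
    have hk0' : Q.natDegree = 0 := by omega
    have hQ1 : Q = 1 := Polynomial.eq_one_of_monic_natDegree_zero hQm hk0'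
    rw [hQ1] at hQ
    simp at hQ
  -- pointwise form of the relation
  have hpt : ∀ z : ℍ, (a : ℍ → ℂ) z ^ k + ∑ i ∈ Finset.range k,
      ((Q.coeff i : WH Γ) : ℍ → ℂ) z * (b : ℍ → ℂ) z ^ (k - i) * (a : ℍ → ℂ) z ^ i = 0 := by
    intro z
    set ev : WH Γ →+* ℂ := (Pi.evalRingHom (fun _ : ℍ => ℂ) z).comp
      ((WH Γ).val : WH Γ →+* (ℍ → ℂ)) with hev
    have h3 : ((Q.scaleRoots b).map ev).eval (ev a) = 0 := by
      rw [Polynomial.eval_map_apply, h2, map_zero]
    have hdeg : ((Q.scaleRoots b).map ev).natDegree < k + 1 := by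
      have := Polynomial.natDegree_map_le (f := ev) (p := Q.scaleRoots b)
      rw [Polynomial.natDegree_scaleRoots] at this
      omega
    rw [Polynomial.eval_eq_sum_range' hdeg, Finset.sum_range_succ] at h3
    have hcoeff : ∀ i, ((Q.scaleRoots b).map ev).coeff i =
        ((Q.coeff i : WH Γ) : ℍ → ℂ) z * (b : ℍ → ℂ) z ^ (k - i) := by
      intro i
      rw [Polynomial.coeff_map, Polynomial.coeff_scaleRoots, map_mul, map_pow]
      rfl
    simp only [hcoeff] at h3
    have htop : ((Q.coeff k : WH Γ) : ℍ → ℂ) z = 1 := by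
      rw [hk, hQm.coeff_natDegree]
      rfl
    rw [htop, Nat.sub_self, pow_zero, mul_one, one_mul] at h3
    have hev_a : ev a = (a : ℍ → ℂ) z := rfl
    rw [hev_a] at h3
    rw [add_comm]
    exact h3
  obtain ⟨f, hf, hfb⟩ := exists_isWH_quotient a.2 b.2
    (fun h => hb0 (Subtype.ext h)) hkpos (fun i => ((Q.coeff i : WH Γ) : ℍ → ℂ))
    (fun i _ => WH_mono bot_le (Q.coeff i).2) hpt
  refine ⟨⟨f, hf⟩, ?_⟩
  have hb' : algebraMap (WH Γ) (FractionRing (WH Γ)) b ≠ 0 := by
    intro h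
    exact hb0 (hinj (by rw [h, map_zero]))
  rw [eq_div_iff hb', ← map_mul]
  congr 1
  apply Subtype.ext
  funext z
  exact hfb z

section generalL

theorem faithfulSMul_poly_L (Γ : Subgroup SL(2, ℤ)) (L : Type) [Field L] [Algebra (WH Γ) L]
    [IsFractionRing (WH Γ) L] [Algebra (Polynomial ℂ) L] [IsScalarTower (Polynomial ℂ) (WH Γ) L] :
    FaithfulSMul (Polynomial ℂ) L := by
  rw [faithfulSMul_iff_algebraMap_injective, IsScalarTower.algebraMap_eq (Polynomial ℂ) (WH Γ) L]
  exact (IsFractionRing.injective (WH Γ) L).comp (algebraMap_poly_WH_injective Γ)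

/-- Elements of `WH Γ` are roots of monic polynomials of degree `[SL(2,ℤ) : Γ]` over `ℂ(j)`. -/
theorem RingAux.exists_monic_ratFunc (Γ : Subgroup SL(2, ℤ)) [Γ.FiniteIndex] (L : Type) [Field L]
    [Algebra (WH Γ) L] [IsFractionRing (WH Γ) L] [Algebra (Polynomial ℂ) L]
    [IsScalarTower (Polynomial ℂ) (WH Γ) L] [FaithfulSMul (Polynomial ℂ) L] (b : WH Γ) :
    ∃ P : Polynomial (RatFunc ℂ), P.Monic ∧ P.natDegree = Γ.index ∧
      Polynomial.aeval (algebraMap (WH Γ) L b) P = 0 := by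
  obtain ⟨Q, hQm, hQd, hQ0⟩ := exists_monic_poly_WH Γ b
  refine ⟨Q.map (algebraMap (Polynomial ℂ) (RatFunc ℂ)), hQm.map _, ?_, ?_⟩
  · rw [hQm.natDegree_map, hQd]
  · rw [Polynomial.aeval_map_algebraMap, Polynomial.aeval_algebraMap_apply]
    have : Polynomial.aeval b Q = 0 := hQ0
    rw [this, map_zero]

theorem RingAux.isIntegral_ratFunc (Γ : Subgroup SL(2, ℤ)) [Γ.FiniteIndex] (L : Type) [Field L]
    [Algebra (WH Γ) L] [IsFractionRing (WH Γ) L] [Algebra (Polynomial ℂ) L]
    [IsScalarTower (Polynomial ℂ) (WH Γ) L] [FaithfulSMul (Polynomial ℂ) L] (x : L) :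
    IsIntegral (RatFunc ℂ) x := by
  obtain ⟨a, b, hb, rfl⟩ := IsFractionRing.div_surjective (A := WH Γ) x
  have h : ∀ c : WH Γ, IsIntegral (RatFunc ℂ) (algebraMap (WH Γ) L c) := by
    intro c
    obtain ⟨P, hPm, -, hP0⟩ := RingAux.exists_monic_ratFunc Γ L c
    exact ⟨P, hPm, hP0⟩
  rw [div_eq_mul_inv]
  exact (h a).mul (h b).inv

theorem RingAux.natDegree_minpoly_le (Γ : Subgroup SL(2, ℤ)) [Γ.FiniteIndex] (L : Type) [Field L]
    [Algebra (WH Γ) L] [IsFractionRing (WH Γ) L] [Algebra (Polynomial ℂ) L]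
    [IsScalarTower (Polynomial ℂ) (WH Γ) L] [FaithfulSMul (Polynomial ℂ) L] (x : L) :
    (minpoly (RatFunc ℂ) x).natDegree ≤ Γ.index := by
  have hK : IsAlgebraic (RatFunc ℂ) x := (RingAux.isIntegral_ratFunc Γ L x).isAlgebraic
  have hA : IsAlgebraic (Polynomial ℂ) x :=
    (IsFractionRing.isAlgebraic_iff (Polynomial ℂ) (RatFunc ℂ) L).mpr hK
  obtain ⟨y, hy0, hy⟩ := hA.exists_integral_multiple
  obtain ⟨b, hb⟩ := (IsIntegralClosure.isIntegral_iff (R := Polynomial ℂ) (A := WH Γ) (B := L)).mp hy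
  obtain ⟨P, hPm, hPd, hP0⟩ := RingAux.exists_monic_ratFunc Γ L b
  set c : RatFunc ℂ := algebraMap (Polynomial ℂ) (RatFunc ℂ) y with hc
  have hc0 : c ≠ 0 := by
    rw [hc, Ne, map_eq_zero_iff _ (IsFractionRing.injective (Polynomial ℂ) (RatFunc ℂ))]
    exact hy0
  set P' : Polynomial (RatFunc ℂ) := P.comp (Polynomial.C c * Polynomial.X) with hP'
  have hdeg : P'.natDegree = Γ.index := by
    rw [hP', Polynomial.natDegree_comp, Polynomial.natDegree_C_mul_X c hc0, mul_one, hPd]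
  have hidx : Γ.index ≠ 0 := Subgroup.FiniteIndex.index_ne_zero
  have hP'0 : P' ≠ 0 := by
    intro h
    rw [h, Polynomial.natDegree_zero] at hdeg
    exact hidx hdeg.symm
  have hroot : Polynomial.aeval x P' = 0 := by
    rw [hP', Polynomial.aeval_comp]
    have : Polynomial.aeval x (Polynomial.C c * Polynomial.X) = algebraMap (WH Γ) L b := by
      rw [hb]
      simp only [map_mul, Polynomial.aeval_C, Polynomial.aeval_X]
      rw [hc, ← IsScalarTower.algebraMap_apply, Algebra.smul_def]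
    rw [this, hP0]
  have := minpoly.degree_le_of_ne_zero (RatFunc ℂ) x hP'0 hroot
  have := Polynomial.natDegree_le_natDegree this
  rw [hdeg] at this
  exact this

theorem finiteDimensional_ratFunc_L (Γ : Subgroup SL(2, ℤ)) [Γ.FiniteIndex] (L : Type) [Field L]
    [Algebra (WH Γ) L] [IsFractionRing (WH Γ) L] [Algebra (Polynomial ℂ) L]
    [IsScalarTower (Polynomial ℂ) (WH Γ) L] [FaithfulSMul (Polynomial ℂ) L] :
    FiniteDimensional (RatFunc ℂ) L := by
  have halg : Algebra.IsAlgebraic (RatFunc ℂ) L :=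
    ⟨fun x => (RingAux.isIntegral_ratFunc Γ L x).isAlgebraic⟩
  by_contra hnfd
  obtain ⟨F, hF, hlt⟩ := IntermediateField.exists_lt_finrank_of_infinite_dimensional hnfd Γ.index
  obtain ⟨α, hα⟩ := Field.exists_primitive_element (RatFunc ℂ) F
  have h1 := (Field.primitive_element_iff_minpoly_natDegree_eq (RatFunc ℂ) α).mp hα
  have h2 : minpoly (RatFunc ℂ) α = minpoly (RatFunc ℂ) (α : L) := IntermediateField.minpoly_eq α
  have h3 := RingAux.natDegree_minpoly_le Γ L (α : L)
  rw [← h2, h1] at h3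
  omega

theorem finrank_ratFunc_L_le (Γ : Subgroup SL(2, ℤ)) [Γ.FiniteIndex] (L : Type) [Field L]
    [Algebra (WH Γ) L] [IsFractionRing (WH Γ) L] [Algebra (Polynomial ℂ) L]
    [IsScalarTower (Polynomial ℂ) (WH Γ) L] [FaithfulSMul (Polynomial ℂ) L] :
    Module.finrank (RatFunc ℂ) L ≤ Γ.index := by
  have := finiteDimensional_ratFunc_L Γ L
  obtain ⟨α, hα⟩ := Field.exists_primitive_element (RatFunc ℂ) L
  have h1 := (Field.primitive_element_iff_minpoly_natDegree_eq (RatFunc ℂ) α).mp hα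
  rw [← h1]
  exact RingAux.natDegree_minpoly_le Γ L α

end generalL

/-- A separating function forces the field degree to be at least the index. -/
theorem RingAux.index_le_natDegree_minpoly (Γ : Subgroup SL(2, ℤ)) [Γ.FiniteIndex] (h : WH Γ)
    (hsep : ∀ g : SL(2, ℤ), (∀ z : ℍ, (h : ℍ → ℂ) (g • z) = (h : ℍ → ℂ) z) → g ∈ Γ) :
    Γ.index ≤ (minpoly (Polynomial ℂ) h).natDegree := by
  classical
  let _ := Fintype.ofFinite (SL(2, ℤ) ⧸ Γ)
  have hint : IsIntegral (Polynomial ℂ) h := Algebra.IsIntegral.isIntegral h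
  set q := minpoly (Polynomial ℂ) h with hq
  have hqm : q.Monic := minpoly.monic hint
  have hq0 : Polynomial.aeval h q = 0 := minpoly.aeval _ _
  -- the conjugates as elements of the domain `WH ⊥`
  set c : SL(2, ℤ) ⧸ Γ → WH (⊥ : Subgroup SL(2, ℤ)) :=
    fun x => ⟨cosetConj Γ (h : ℍ → ℂ) x, isWH_cosetConj h.2 x⟩ with hc
  have hcinj : Function.Injective c := by
    intro x y hxy
    apply cosetConj_injective_of_sep h.2.inv hsep
    exact congrArg Subtype.val hxy
  set D : WH (⊥ : Subgroup SL(2, ℤ)) :=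
    ∏ p ∈ (Finset.univ : Finset ((SL(2, ℤ) ⧸ Γ) × (SL(2, ℤ) ⧸ Γ))).filter (fun p => p.1 ≠ p.2),
      (c p.1 - c p.2) with hD
  have hD0 : D ≠ 0 := by
    rw [hD, Finset.prod_ne_zero_iff]
    intro p hp
    rw [Finset.mem_filter] at hp
    exact sub_ne_zero.mpr (fun h' => hp.2 (hcinj h'))
  obtain ⟨z, hz⟩ : ∃ z : ℍ, (D : ℍ → ℂ) z ≠ 0 := by
    by_contra hcon
    apply hD0
    apply Subtype.ext
    funext z
    by_contra h'
    exact hcon ⟨z, h'⟩
  set ev : WH (⊥ : Subgroup SL(2, ℤ)) →+* ℂ := (Pi.evalRingHom (fun _ : ℍ => ℂ) z).comp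
    ((WH (⊥ : Subgroup SL(2, ℤ))).val : WH (⊥ : Subgroup SL(2, ℤ)) →+* (ℍ → ℂ)) with hev
  have hz' : ev D ≠ 0 := hz
  rw [hD, map_prod, Finset.prod_ne_zero_iff] at hz'
  have hdist : Function.Injective (fun x : SL(2, ℤ) ⧸ Γ => cosetConj Γ (h : ℍ → ℂ) x z) := by
    intro x y hxy
    by_contra hne
    have := hz' (x, y) (by rw [Finset.mem_filter]; exact ⟨Finset.mem_univ _, hne⟩)
    apply this
    rw [map_sub]
    exact sub_eq_zero.mpr hxy
  -- the specialised polynomial
  set qz : Polynomial ℂ := q.map (Polynomial.evalRingHom (jFun z)) with hqz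
  have hqzm : qz.Monic := hqm.map _
  have hroot : ∀ x : SL(2, ℤ) ⧸ Γ, qz.eval (cosetConj Γ (h : ℍ → ℂ) x z) = 0 := by
    intro x
    induction x using QuotientGroup.induction_on with
    | H g =>
      rw [cosetConj_mk h.2.inv]
      set w : ℍ := g⁻¹ • z with hw
      set evw : WH Γ →+* ℂ := (Pi.evalRingHom (fun _ : ℍ => ℂ) w).comp
        ((WH Γ).val : WH Γ →+* (ℍ → ℂ)) with hevw
      have h1 : evw (Polynomial.aeval h q) = 0 := by rw [hq0, map_zero]
      rw [Polynomial.aeval_def, Polynomial.hom_eval₂, Polynomial.eval₂_eq_eval_map] at h1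
      have hj : jFun w = jFun z := jFun_smul g⁻¹ z
      have h2 : evw.comp (algebraMap (Polynomial ℂ) (WH Γ)) = Polynomial.evalRingHom (jFun z) := by
        refine RingHom.ext (fun p => ?_)
        change ((algebraMap (Polynomial ℂ) (WH Γ) p : WH Γ) : ℍ → ℂ) w = _
        rw [algebraMap_poly_WH_apply, hj]
        rfl
      rw [h2] at h1
      exact h1
  have hsub : (Finset.univ.image (fun x : SL(2, ℤ) ⧸ Γ => cosetConj Γ (h : ℍ → ℂ) x z)).val ⊆
      qz.roots := by
    intro a ha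
    rw [Finset.mem_val, Finset.mem_image] at ha
    obtain ⟨x, -, rfl⟩ := ha
    rw [Polynomial.mem_roots hqzm.ne_zero]
    exact hroot x
  have hcard := Polynomial.card_le_degree_of_subset_roots hsub
  have hdeg : qz.natDegree = q.natDegree := hqm.natDegree_map _
  rw [Finset.card_image_of_injective _ hdist, Finset.card_univ, hdeg] at hcard
  have hidx : Γ.index = Fintype.card (SL(2, ℤ) ⧸ Γ) := by
    rw [Subgroup.index, Nat.card_eq_fintype_card]
  rw [hidx]
  exact hcard

theorem RingAux.index_le_finrank (Γ : Subgroup SL(2, ℤ)) [Γ.FiniteIndex] (L : Type) [Field L]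
    [Algebra (WH Γ) L] [IsFractionRing (WH Γ) L] [Algebra (Polynomial ℂ) L]
    [IsScalarTower (Polynomial ℂ) (WH Γ) L] [FaithfulSMul (Polynomial ℂ) L] (h : WH Γ)
    (hsep : ∀ g : SL(2, ℤ), (∀ z : ℍ, (h : ℍ → ℂ) (g • z) = (h : ℍ → ℂ) z) → g ∈ Γ) :
    Γ.index ≤ Module.finrank (RatFunc ℂ) L := by
  have := finiteDimensional_ratFunc_L Γ L
  have hint : IsIntegral (Polynomial ℂ) h := Algebra.IsIntegral.isIntegral h
  have h1 := minpoly.isIntegrallyClosed_eq_field_fractions (RatFunc ℂ) L hint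
  have h2 := minpoly.natDegree_le (A := RatFunc ℂ) (algebraMap (WH Γ) L h)
  rw [h1, (minpoly.monic hint).natDegree_map] at h2
  exact (RingAux.index_le_natDegree_minpoly Γ h hsep).trans h2

theorem finrank_ratFunc_L_Gamma0 (N : ℕ) [NeZero N] (L : Type) [Field L]
    [Algebra (WH (CongruenceSubgroup.Gamma0 N)) L]
    [IsFractionRing (WH (CongruenceSubgroup.Gamma0 N)) L]
    [Algebra (Polynomial ℂ) L] [IsScalarTower (Polynomial ℂ) (WH (CongruenceSubgroup.Gamma0 N)) L]
    [FaithfulSMul (Polynomial ℂ) L] :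
    Module.finrank (RatFunc ℂ) L = (CongruenceSubgroup.Gamma0 N).index := by
  apply le_antisymm (finrank_ratFunc_L_le _ L)
  exact RingAux.index_le_finrank (CongruenceSubgroup.Gamma0 N) L ⟨sepFun N, sepFun_mem_WH N⟩
    (fun g hg => mem_Gamma0_of_sepFun_eq N g hg)

section frac

variable (Γ : Subgroup SL(2, ℤ)) [Γ.FiniteIndex]

instance instFiniteDimensionalRatFuncFrac :
    FiniteDimensional (RatFunc ℂ) (FractionRing (WH Γ)) :=
  finiteDimensional_ratFunc_L Γ _

instance instIsDedekindDomainWH : IsDedekindDomain (WH Γ) :=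
  IsIntegralClosure.isDedekindDomain (Polynomial ℂ) (RatFunc ℂ) (FractionRing (WH Γ)) (WH Γ)

instance instModuleFinitePolyWH : Module.Finite (Polynomial ℂ) (WH Γ) :=
  IsIntegralClosure.finite (Polynomial ℂ) (RatFunc ℂ) (FractionRing (WH Γ)) (WH Γ)

theorem finrank_poly_WH_eq (L : Type) [Field L]
    [Algebra (WH Γ) L] [IsFractionRing (WH Γ) L] [Algebra (Polynomial ℂ) L]
    [IsScalarTower (Polynomial ℂ) (WH Γ) L] [FaithfulSMul (Polynomial ℂ) L] :
    Module.finrank (Polynomial ℂ) (WH Γ) = Module.finrank (RatFunc ℂ) L := by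
  have h := Algebra.IsAlgebraic.rank_of_isFractionRing (Polynomial ℂ) (RatFunc ℂ) (WH Γ) L
  unfold Module.finrank
  rw [h]

end frac

theorem finrank_ratFunc_fractionRing_Gamma0 (N : ℕ) [NeZero N] :
    Module.finrank (RatFunc ℂ) (FractionRing (WH (CongruenceSubgroup.Gamma0 N))) =
      (CongruenceSubgroup.Gamma0 N).index :=
  finrank_ratFunc_L_Gamma0 N _

theorem finrank_poly_WH_Gamma0 (N : ℕ) [NeZero N] :
    Module.finrank (Polynomial ℂ) (WH (CongruenceSubgroup.Gamma0 N)) =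
      (CongruenceSubgroup.Gamma0 N).index := by
  rw [finrank_poly_WH_eq (CongruenceSubgroup.Gamma0 N) (FractionRing (WH (CongruenceSubgroup.Gamma0 N))),
    finrank_ratFunc_fractionRing_Gamma0]

/-! ### The function field of `X₀(N)` and its ring at infinity -/

/-- The function field of `X₀(N)`: the fraction field of the ring of weakly holomorphic
`Γ₀(N)`-invariant functions. A `def` on purpose (keeps instance search fast). -/
def FF (N : ℕ) : Type := FractionRing (WH (CongruenceSubgroup.Gamma0 N))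

section FFinst

variable (N : ℕ)

noncomputable instance instFieldFF : Field (FF N) :=
  inferInstanceAs (Field (FractionRing (WH (CongruenceSubgroup.Gamma0 N))))

noncomputable instance instAlgebraWHFF : Algebra (WH (CongruenceSubgroup.Gamma0 N)) (FF N) :=
  inferInstanceAs (Algebra (WH (CongruenceSubgroup.Gamma0 N))
    (FractionRing (WH (CongruenceSubgroup.Gamma0 N))))

instance instIsFractionRingFF : IsFractionRing (WH (CongruenceSubgroup.Gamma0 N)) (FF N) :=
  inferInstanceAs (IsFractionRing (WH (CongruenceSubgroup.Gamma0 N))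
    (FractionRing (WH (CongruenceSubgroup.Gamma0 N))))

noncomputable instance instAlgebraPolyFF : Algebra (Polynomial ℂ) (FF N) :=
  inferInstanceAs (Algebra (Polynomial ℂ) (FractionRing (WH (CongruenceSubgroup.Gamma0 N))))

noncomputable instance instAlgebraComplexFF : Algebra ℂ (FF N) :=
  inferInstanceAs (Algebra ℂ (FractionRing (WH (CongruenceSubgroup.Gamma0 N))))

instance instIsScalarTowerComplexPolyFF : IsScalarTower ℂ (Polynomial ℂ) (FF N) :=
  inferInstanceAs (IsScalarTower ℂ (Polynomial ℂ)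
    (FractionRing (WH (CongruenceSubgroup.Gamma0 N))))

instance instIsScalarTowerPolyWHFF :
    IsScalarTower (Polynomial ℂ) (WH (CongruenceSubgroup.Gamma0 N)) (FF N) :=
  inferInstanceAs (IsScalarTower (Polynomial ℂ) (WH (CongruenceSubgroup.Gamma0 N))
    (FractionRing (WH (CongruenceSubgroup.Gamma0 N))))

instance instIsScalarTowerComplexWHFF :
    IsScalarTower ℂ (WH (CongruenceSubgroup.Gamma0 N)) (FF N) :=
  inferInstanceAs (IsScalarTower ℂ (WH (CongruenceSubgroup.Gamma0 N))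
    (FractionRing (WH (CongruenceSubgroup.Gamma0 N))))

instance instFaithfulSMulPolyFF : FaithfulSMul (Polynomial ℂ) (FF N) :=
  faithfulSMul_poly_L (CongruenceSubgroup.Gamma0 N) (FF N)

variable [NeZero N]

instance instFiniteDimensionalRatFuncFF : FiniteDimensional (RatFunc ℂ) (FF N) :=
  finiteDimensional_ratFunc_L (CongruenceSubgroup.Gamma0 N) (FF N)

instance instIsIntegralClosureFF :
    IsIntegralClosure (WH (CongruenceSubgroup.Gamma0 N)) (Polynomial ℂ) (FF N) :=
  inferInstance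

end FFinst

theorem finrank_FF (N : ℕ) [NeZero N] :
    Module.finrank (RatFunc ℂ) (FF N) = (CongruenceSubgroup.Gamma0 N).index :=
  finrank_ratFunc_L_Gamma0 N (FF N)

theorem le_finrank_FF (N : ℕ) [NeZero N] :
    Nat.card (SL(2, ℤ) ⧸ CongruenceSubgroup.Gamma0 N) ≤ Module.finrank (RatFunc ℂ) (FF N) := by
  rw [finrank_FF]
  exact le_of_eq rfl

/-- The ring at infinity: the integral closure of `Ainf ℂ` in the function field. -/
abbrev Binf (N : ℕ) : Type := integralClosure (Ainf ℂ) (FF N)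

noncomputable example (N : ℕ) : Algebra (RatFunc ℂ) (FF N) := inferInstance
noncomputable example (N : ℕ) : Algebra (Ainf ℂ) (FF N) := inferInstance
instance instIsScalarTowerAinfRatFuncFF (N : ℕ) :
    @IsScalarTower (Ainf ℂ) (RatFunc ℂ) (FF N) Algebra.toSMul _ _ :=
  IsScalarTower.of_algebraMap_eq (fun _ => rfl)

instance instIsDedekindDomainBinf (N : ℕ) [NeZero N] : IsDedekindDomain (Binf N) :=
  IsIntegralClosure.isDedekindDomain (Ainf ℂ) (RatFunc ℂ) (FF N) (Binf N)

instance instIsFractionRingBinf (N : ℕ) [NeZero N] : IsFractionRing (Binf N) (FF N) :=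
  integralClosure.isFractionRing_of_finite_extension (RatFunc ℂ) (FF N)

example (N : ℕ) : IsScalarTower (Ainf ℂ) (Binf N) (FF N) := inferInstance
example (N : ℕ) : IsIntegralClosure (Binf N) (Ainf ℂ) (FF N) := inferInstance

end Fermat.Agent.S20
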