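import Mathlib
import Fermat.Agent.S20.Ring
import Fermat.Agent.S20.OrdCusp
import Fermat.Agent.S20.Places
import Fermat.Agent.S20.JSurj
import Fermat.Agent.S20.AinfDVR
import Fermat.Agent.S20.CosetCusp

/-!
# S20 (DI): the cusp dictionary

Instantiation of `places_of_valuations_weak` at infinity: `A = Ainf ℂ`, `π = 1/X`,
`B = Binf N`, `X = SL(2, ℤ) ⧸ Γ₀(N)`, `v x = exp (- ordCuspZ N (out x)⁻¹ ·)`.
-/

set_option autoImplicit false

open UpperHalfPlane ModularForm Polynomial IsDedekindDomain CongruenceSubgroup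
open scoped MatrixGroups Manifold RatFunc WithZero

namespace Fermat.Agent.S20

namespace DictInf

variable (N : ℕ) [NeZero N]

/-- the cusp order function attached to a coset. -/
noncomputable def w (x : SL(2, ℤ) ⧸ Gamma0 N) (b : WH (Gamma0 N)) : ℤ :=
  ordCuspZ N (Quotient.out x : SL(2, ℤ))⁻¹ (b : ℍ → ℂ)

omit [NeZero N] in
theorem coe_ne_zero {b : WH (Gamma0 N)} (hb : b ≠ 0) : (b : ℍ → ℂ) ≠ 0 := by
  intro h
  exact hb (Subtype.ext h)

theorem w_mul (x : SL(2, ℤ) ⧸ Gamma0 N) (f g : WH (Gamma0 N)) (hf : f ≠ 0) (hg : g ≠ 0) :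
    w N x (f * g) = w N x f + w N x g :=
  ordCuspZ_mul f.2 g.2 (coe_ne_zero N hf) (coe_ne_zero N hg) _

theorem w_add (x : SL(2, ℤ) ⧸ Gamma0 N) (f g : WH (Gamma0 N)) (hf : f ≠ 0) (hg : g ≠ 0)
    (hfg : f + g ≠ 0) : min (w N x f) (w N x g) ≤ w N x (f + g) :=
  ordCuspZ_add_ge f.2 g.2 (coe_ne_zero N hf) (coe_ne_zero N hg) (coe_ne_zero N hfg) _

/-- the valuation on `FF N` attached to a coset. -/
noncomputable def v (x : SL(2, ℤ) ⧸ Gamma0 N) : Valuation (FF N) ℤᵐ⁰ :=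
  (exists_valuation_of_ord (FF N) (w N x) (w_mul N x) (w_add N x)).choose

theorem v_algebraMap (x : SL(2, ℤ) ⧸ Gamma0 N) (b : WH (Gamma0 N)) (hb : b ≠ 0) :
    v N x (algebraMap (WH (Gamma0 N)) (FF N) b) = WithZero.exp (-(w N x b)) :=
  (exists_valuation_of_ord (FF N) (w N x) (w_mul N x) (w_add N x)).choose_spec b hb

omit [NeZero N] in
theorem algebraMap_poly_ne_zero {p : ℂ[X]} (hp : p ≠ 0) :
    algebraMap ℂ[X] (WH (Gamma0 N)) p ≠ 0 := by
  rw [Ne, FaithfulSMul.algebraMap_eq_zero_iff]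
  exact hp

theorem w_poly (x : SL(2, ℤ) ⧸ Gamma0 N) {p : ℂ[X]} (hp : p ≠ 0) :
    w N x (algebraMap ℂ[X] (WH (Gamma0 N)) p) = -((N : ℤ) * p.natDegree) := by
  unfold w
  have e : ((algebraMap ℂ[X] (WH (Gamma0 N)) p : WH (Gamma0 N)) : ℍ → ℂ) =
      fun z => p.eval (jFun z) := funext fun z => algebraMap_poly_WH_apply _ p z
  rw [e]
  unfold ordCuspZ
  rw [ordCusp_eval_jFun p hp]
  rfl

theorem v_poly (x : SL(2, ℤ) ⧸ Gamma0 N) {p : ℂ[X]} (hp : p ≠ 0) :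
    v N x (algebraMap ℂ[X] (FF N) p) = WithZero.exp ((N : ℤ) * p.natDegree) := by
  rw [IsScalarTower.algebraMap_apply ℂ[X] (WH (Gamma0 N)) (FF N),
    v_algebraMap N x _ (algebraMap_poly_ne_zero N hp), w_poly N x hp, neg_neg]

theorem v_ratFunc (x : SL(2, ℤ) ⧸ Gamma0 N) {r : RatFunc ℂ} (hr : r ≠ 0) :
    v N x (algebraMap (RatFunc ℂ) (FF N) r) = WithZero.exp ((N : ℤ) * r.intDegree) := by
  have hnum : r.num ≠ 0 := RatFunc.num_ne_zero hr
  have hden : r.denom ≠ 0 := RatFunc.denom_ne_zero r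
  have e : algebraMap (RatFunc ℂ) (FF N) r =
      algebraMap ℂ[X] (FF N) r.num / algebraMap ℂ[X] (FF N) r.denom := by
    conv_lhs => rw [← RatFunc.num_div_denom r]
    rw [map_div₀, ← IsScalarTower.algebraMap_apply, ← IsScalarTower.algebraMap_apply]
  rw [e, map_div₀, v_poly N x hnum, v_poly N x hden, ← WithZero.exp_sub, RatFunc.intDegree]
  congr 1
  ring

omit [NeZero N] in
theorem faithfulSMul_Binf : FaithfulSMul (Ainf ℂ) (Binf N) := by
  rw [faithfulSMul_iff_algebraMap_injective]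
  intro a b h
  have h2 : algebraMap (RatFunc ℂ) (FF N) (a : RatFunc ℂ) =
      algebraMap (RatFunc ℂ) (FF N) (b : RatFunc ℂ) :=
    congrArg (algebraMap (Binf N) (FF N)) h
  exact Subtype.ext ((algebraMap (RatFunc ℂ) (FF N)).injective h2)

theorem v_Ainf_le (x : SL(2, ℤ) ⧸ Gamma0 N) (a : Ainf ℂ) :
    v N x (algebraMap (Binf N) (FF N) (algebraMap (Ainf ℂ) (Binf N) a)) ≤ 1 := by
  show v N x (algebraMap (RatFunc ℂ) (FF N) (a : RatFunc ℂ)) ≤ 1
  by_cases ha : (a : RatFunc ℂ) = 0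
  · rw [ha, map_zero, map_zero]
    exact zero_le_one
  · rw [v_ratFunc N x ha, ← WithZero.exp_zero, WithZero.exp_le_exp]
    exact mul_nonpos_of_nonneg_of_nonpos (by positivity) a.2

theorem v_Xinv (x : SL(2, ℤ) ⧸ Gamma0 N) :
    v N x (algebraMap (Binf N) (FF N) (algebraMap (Ainf ℂ) (Binf N) Ainf.Xinv)) =
      WithZero.exp (-(N : ℤ)) := by
  show v N x (algebraMap (RatFunc ℂ) (FF N) ((Ainf.Xinv : Ainf ℂ) : RatFunc ℂ)) = _
  rw [Ainf.coe_Xinv, v_ratFunc N x (inv_ne_zero RatFunc.X_ne_zero), RatFunc.intDegree_inv,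
    RatFunc.intDegree_X]
  congr 1
  ring

theorem isIntegral_of_rel {A L : Type} [CommRing A] [CommRing L] [Algebra A L] (f : L) (n : ℕ)
    (a : ℕ → A) (h : f ^ n + ∑ i ∈ Finset.range n, algebraMap A L (a i) * f ^ i = 0) :
    IsIntegral A f := by
  refine ⟨X ^ n + ∑ i ∈ Finset.range n, C (a i) * X ^ i, ?_, ?_⟩
  · apply Polynomial.monic_X_pow_add
    rw [Polynomial.degree_lt_iff_coeff_zero]
    intro m hm
    rw [Polynomial.finsetSum_coeff]
    refine Finset.sum_eq_zero (fun i hi => ?_)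
    rw [Polynomial.coeff_C_mul_X_pow, if_neg]
    have := Finset.mem_range.mp hi
    omega
  · rw [Polynomial.eval₂_add, Polynomial.eval₂_pow, Polynomial.eval₂_X,
      Polynomial.eval₂_finsetSum]
    simp only [Polynomial.eval₂_mul, Polynomial.eval₂_C, Polynomial.eval₂_pow, Polynomial.eval₂_X]
    exact h

theorem exists_mul_poly (f : FF N) : ∃ (β : WH (Gamma0 N)) (p : ℂ[X]), p ≠ 0 ∧
    f * algebraMap ℂ[X] (FF N) p = algebraMap (WH (Gamma0 N)) (FF N) β := by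
  obtain ⟨a, b, hb, rfl⟩ := IsFractionRing.div_surjective (A := WH (Gamma0 N)) f
  have halg : IsAlgebraic ℂ[X] b := (Algebra.IsIntegral.isIntegral b).isAlgebraic
  obtain ⟨c, p, hp, h⟩ := halg.exists_smul_eq_mul a hb
  refine ⟨c, p, hp, ?_⟩
  have hb0 : algebraMap (WH (Gamma0 N)) (FF N) b ≠ 0 :=
    IsFractionRing.to_map_ne_zero_of_mem_nonZeroDivisors hb
  rw [IsScalarTower.algebraMap_apply ℂ[X] (WH (Gamma0 N)) (FF N), div_mul_eq_mul_div,
    div_eq_iff hb0, ← map_mul, ← map_mul, mul_comm a, ← Algebra.smul_def, h, mul_comm]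

omit [NeZero N] in
theorem ordCusp_out_mk (g : SL(2, ℤ)) {b : ℍ → ℂ} (hb : IsWH (Gamma0 N) b) :
    ordCusp N (Quotient.out (QuotientGroup.mk g⁻¹ : SL(2, ℤ) ⧸ Gamma0 N) : SL(2, ℤ))⁻¹ b =
      ordCusp N g b := by
  obtain ⟨h, hh⟩ := QuotientGroup.mk_out_eq_mul (Gamma0 N) g⁻¹
  rw [hh, mul_inv_rev, inv_inv]
  exact ordCusp_mul_left hb ((Gamma0 N).inv_mem h.2) g

omit [NeZero N] in
theorem w_mk (g : SL(2, ℤ)) (b : WH (Gamma0 N)) :
    w N (QuotientGroup.mk g⁻¹ : SL(2, ℤ) ⧸ Gamma0 N) b = ordCuspZ N g (b : ℍ → ℂ) := by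
  unfold w ordCuspZ
  rw [ordCusp_out_mk N g b.2]

theorem le_ordCusp_of_v_le (f : FF N) (hf : ∀ x, v N x f ≤ 1) (β : WH (Gamma0 N)) (hβ0 : β ≠ 0)
    (p : ℂ[X]) (hp : p ≠ 0)
    (h : f * algebraMap ℂ[X] (FF N) p = algebraMap (WH (Gamma0 N)) (FF N) β) (g : SL(2, ℤ)) :
    ((-((N : ℤ) * p.natDegree) : ℤ) : WithTop ℤ) ≤ ordCusp N g (β : ℍ → ℂ) := by
  have hx := hf (QuotientGroup.mk g⁻¹ : SL(2, ℤ) ⧸ Gamma0 N)
  have h1 := congrArg (v N (QuotientGroup.mk g⁻¹ : SL(2, ℤ) ⧸ Gamma0 N)) h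
  rw [map_mul, v_poly N _ hp, v_algebraMap N _ β hβ0, w_mk] at h1
  have h2 : WithZero.exp (-(ordCuspZ N g (β : ℍ → ℂ))) ≤ WithZero.exp ((N : ℤ) * p.natDegree) := by
    rw [← h1]
    exact mul_le_of_le_one_left' hx
  rw [WithZero.exp_le_exp] at h2
  rw [ordCusp_eq_coe β.2 (coe_ne_zero N hβ0) g]
  exact_mod_cast (by linarith : -((N : ℤ) * p.natDegree) ≤ ordCuspZ N g (β : ℍ → ℂ))

theorem rel_WH (β : WH (Gamma0 N)) (q : ℕ → ℂ[X])
    (hq : ∀ i (z : ℍ), (cosetPoly (Gamma0 N) (β : ℍ → ℂ)).coeff i z = (q i).eval (jFun z)) :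
    β ^ (Gamma0 N).index + ∑ i ∈ Finset.range (Gamma0 N).index,
      algebraMap ℂ[X] (WH (Gamma0 N)) (q i) * β ^ i = 0 := by
  apply Subtype.ext
  have h0 := cosetPoly_eval_self (Gamma0 N) (f := (β : ℍ → ℂ)) β.2.inv
  rw [Polynomial.eval_eq_sum_range, cosetPoly_natDegree, Finset.sum_range_succ] at h0
  have hlead : (cosetPoly (Gamma0 N) (β : ℍ → ℂ)).coeff (Gamma0 N).index = 1 := by
    have := (cosetPoly_monic (Gamma0 N) (β : ℍ → ℂ)).coeff_natDegree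
    rwa [cosetPoly_natDegree] at this
  rw [hlead, one_mul, add_comm] at h0
  have hc : ∀ i, ((algebraMap ℂ[X] (WH (Gamma0 N)) (q i) : WH (Gamma0 N)) : ℍ → ℂ) =
      (cosetPoly (Gamma0 N) (β : ℍ → ℂ)).coeff i := by
    intro i
    funext z
    rw [algebraMap_poly_WH_apply, hq]
  simp only [Subalgebra.coe_add, Subalgebra.coe_pow, Subalgebra.coe_mul,
    AddSubmonoidClass.coe_finsetSum, hc, Subalgebra.coe_zero]
  exact h0

theorem isIntegral_of_v_le (f : FF N) (hf : ∀ x, v N x f ≤ 1) : IsIntegral (Ainf ℂ) f := by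
  obtain ⟨β, p, hp, hβ⟩ := exists_mul_poly N f
  have hp' : algebraMap ℂ[X] (FF N) p ≠ 0 := by
    rw [Ne, FaithfulSMul.algebraMap_eq_zero_iff]
    exact hp
  by_cases hβ0 : β = 0
  · have : f = 0 := by
      rw [hβ0, map_zero] at hβ
      exact (mul_eq_zero.mp hβ).resolve_right hp'
    rw [this]
    exact isIntegral_zero
  choose q hqdeg hq using fun i => exists_poly_cosetPoly_coeff N β.2 p.natDegree
    (le_ordCusp_of_v_le N f hf β hβ0 p hp hβ) i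
  have hrel := congrArg (algebraMap (WH (Gamma0 N)) (FF N)) (rel_WH N β q hq)
  rw [map_add, map_pow, map_sum, map_zero] at hrel
  simp only [map_mul, map_pow, ← hβ,
    ← IsScalarTower.algebraMap_apply ℂ[X] (WH (Gamma0 N)) (FF N)] at hrel
  have hp2 : algebraMap ℂ[X] (RatFunc ℂ) p ≠ 0 := by
    rw [Ne, FaithfulSMul.algebraMap_eq_zero_iff]
    exact hp
  have hmem : ∀ i, algebraMap ℂ[X] (RatFunc ℂ) (q i) /
      algebraMap ℂ[X] (RatFunc ℂ) p ^ ((Gamma0 N).index - i) ∈ Ainf ℂ := by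
    intro i
    rw [mem_Ainf]
    by_cases hqi : q i = 0
    · simp [hqi]
    · have h1 : algebraMap ℂ[X] (RatFunc ℂ) (q i) ≠ 0 := by
        rw [Ne, FaithfulSMul.algebraMap_eq_zero_iff]
        exact hqi
      rw [div_eq_mul_inv, RatFunc.intDegree_mul h1 (inv_ne_zero (pow_ne_zero _ hp2)),
        RatFunc.intDegree_inv, AinfDVR.intDegree_pow _ hp2, RatFunc.intDegree_polynomial,
        RatFunc.intDegree_polynomial]
      have := hqdeg i
      have h3 : ((q i).natDegree : ℤ) ≤ (((Gamma0 N).index - i : ℕ) : ℤ) * (p.natDegree : ℤ) := by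
        exact_mod_cast this
      linarith
  refine isIntegral_of_rel f (Gamma0 N).index (fun i => ⟨_, hmem i⟩) ?_
  have hcoe : ∀ i, algebraMap (Ainf ℂ) (FF N) ⟨_, hmem i⟩ =
      algebraMap ℂ[X] (FF N) (q i) / algebraMap ℂ[X] (FF N) p ^ ((Gamma0 N).index - i) := by
    intro i
    show algebraMap (RatFunc ℂ) (FF N) (_ / _) = _
    rw [map_div₀, map_pow, ← IsScalarTower.algebraMap_apply, ← IsScalarTower.algebraMap_apply]
  simp only [hcoe]
  have hpμ : (algebraMap ℂ[X] (FF N) p) ^ (Gamma0 N).index ≠ 0 := pow_ne_zero _ hp'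
  have key : f ^ (Gamma0 N).index + ∑ i ∈ Finset.range (Gamma0 N).index,
      (algebraMap ℂ[X] (FF N) (q i) / algebraMap ℂ[X] (FF N) p ^ ((Gamma0 N).index - i)) * f ^ i =
      ((f * algebraMap ℂ[X] (FF N) p) ^ (Gamma0 N).index + ∑ i ∈ Finset.range (Gamma0 N).index,
        algebraMap ℂ[X] (FF N) (q i) * (f * algebraMap ℂ[X] (FF N) p) ^ i) /
        (algebraMap ℂ[X] (FF N) p) ^ (Gamma0 N).index := by
    rw [add_div, Finset.sum_div, mul_pow, mul_div_assoc, div_self hpμ, mul_one]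
    congr 1
    refine Finset.sum_congr rfl (fun i hi => ?_)
    have hi' := Finset.mem_range.mp hi
    have e : (algebraMap ℂ[X] (FF N) p) ^ (Gamma0 N).index =
        (algebraMap ℂ[X] (FF N) p) ^ ((Gamma0 N).index - i) * (algebraMap ℂ[X] (FF N) p) ^ i := by
      rw [← pow_add, Nat.sub_add_cancel hi'.le]
    rw [e, mul_pow]
    field_simp
  rw [key, hrel, zero_div]

theorem w_eq_of_rel {x y : SL(2, ℤ) ⧸ Gamma0 N}
    (h : (MulAction.orbitRel (Subgroup.zpowers ModularGroup.T) (SL(2, ℤ) ⧸ Gamma0 N)).r x y)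
    (b : WH (Gamma0 N)) : w N x b = w N y b := by
  obtain ⟨⟨t, ht⟩, rfl⟩ := h
  obtain ⟨k, rfl⟩ := Subgroup.mem_zpowers_iff.mp ht
  have hy : (⟨ModularGroup.T ^ k, ht⟩ : Subgroup.zpowers ModularGroup.T) • y =
      (QuotientGroup.mk ((Quotient.out y : SL(2, ℤ))⁻¹ * ModularGroup.T ^ (-k))⁻¹ :
        SL(2, ℤ) ⧸ Gamma0 N) := by
    rw [mul_inv_rev, inv_inv, zpow_neg, inv_inv]
    conv_lhs => rw [← QuotientGroup.out_eq' y]
    rfl
  show w N ((⟨ModularGroup.T ^ k, ht⟩ : Subgroup.zpowers ModularGroup.T) • y) b = _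
  rw [hy, w_mk]
  unfold w ordCuspZ
  rw [ordCusp_mul_T_zpow b.2]

theorem v_eq_of_rel {x y : SL(2, ℤ) ⧸ Gamma0 N}
    (h : (MulAction.orbitRel (Subgroup.zpowers ModularGroup.T) (SL(2, ℤ) ⧸ Gamma0 N)).r x y) :
    v N x = v N y := by
  ext f
  obtain ⟨a, b, hb, rfl⟩ := IsFractionRing.div_surjective (A := WH (Gamma0 N)) f
  have key : ∀ c : WH (Gamma0 N), v N x (algebraMap _ _ c) = v N y (algebraMap _ _ c) := by
    intro c
    by_cases hc : c = 0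
    · rw [hc, map_zero, map_zero, map_zero]
    · rw [v_algebraMap N x c hc, v_algebraMap N y c hc, w_eq_of_rel N h c]
  rw [map_div₀, map_div₀, key a, key b]

theorem hnorm (b : Binf N) (hb : ∀ x, v N x (algebraMap (Binf N) (FF N) b) = 1) :
    ∃ a : Ainf ℂ, a ∉ Ideal.span {(Ainf.Xinv : Ainf ℂ)} ∧ b ∣ algebraMap (Ainf ℂ) (Binf N) a := by
  refine ⟨1, ?_, ?_⟩
  · intro h
    rw [← Ideal.eq_top_iff_one, Ideal.span_singleton_eq_top] at h
    exact Ainf.not_isUnit_Xinv h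
  · rw [map_one]
    have hint : IsIntegral (Ainf ℂ) (algebraMap (Binf N) (FF N) b)⁻¹ := by
      apply isIntegral_of_v_le
      intro x
      rw [map_inv₀, hb x, inv_one]
    have hb0 : algebraMap (Binf N) (FF N) b ≠ 0 := by
      intro h0
      have := hb (QuotientGroup.mk 1)
      rw [h0, map_zero] at this
      exact zero_ne_one this
    refine ⟨⟨_, hint⟩, ?_⟩
    apply Subtype.ext
    exact (mul_inv_cancel₀ hb0).symm

theorem main :
    ∃ (𝔮 : SL(2, ℤ) ⧸ Gamma0 N → HeightOneSpectrum (Binf N)) (c : SL(2, ℤ) ⧸ Gamma0 N → ℕ),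
      (∀ x, algebraMap (Ainf ℂ) (Binf N) Ainf.Xinv ∈ (𝔮 x).asIdeal) ∧
      (∀ x, 0 < c x ∧ c x * (𝔮 x).asIdeal.ramificationIdx (Ainf ℂ) = N ∧
        ∀ f : FF N, v N x f = (𝔮 x).valuation (FF N) f ^ c x) ∧
      (∀ x y, (MulAction.orbitRel (Subgroup.zpowers ModularGroup.T)
        (SL(2, ℤ) ⧸ Gamma0 N)).r x y → 𝔮 x = 𝔮 y) ∧
      (∀ 𝔭 : HeightOneSpectrum (Binf N),
        algebraMap (Ainf ℂ) (Binf N) Ainf.Xinv ∈ 𝔭.asIdeal → ∃ x, 𝔮 x = 𝔭) ∧
      Nat.card {𝔭 : HeightOneSpectrum (Binf N) //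
          algebraMap (Ainf ℂ) (Binf N) Ainf.Xinv ∈ 𝔭.asIdeal} ≤
        Nat.card (Quotient (MulAction.orbitRel (Subgroup.zpowers ModularGroup.T)
          (SL(2, ℤ) ⧸ Gamma0 N))) := by
  have := faithfulSMul_Binf N
  have hmax : (Ideal.span {(Ainf.Xinv : Ainf ℂ)}).IsMaximal := by
    rw [← Ainf.maximalIdeal_eq]
    exact IsLocalRing.maximalIdeal.isMaximal _
  exact places_of_valuations_weak (A := Ainf ℂ) Ainf.Xinv Ainf.Xinv_ne_zero hmax (B := Binf N)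
    (L := FF N) (v N) (v_Ainf_le N) (fun _ => N) (fun _ => NeZero.pos N) (v_Xinv N) _
    (fun x y h b => by rw [v_eq_of_rel N h]) (hnorm N)

omit [NeZero N] in
theorem Xinv_mem (𝔭 : HeightOneSpectrum (Binf N)) :
    algebraMap (Ainf ℂ) (Binf N) Ainf.Xinv ∈ 𝔭.asIdeal := by
  have hne : 𝔭.asIdeal.comap (algebraMap (Ainf ℂ) (Binf N)) ≠ ⊥ := by
    intro h
    exact 𝔭.ne_bot (Ideal.eq_bot_of_comap_eq_bot h)
  have hprime : (𝔭.asIdeal.comap (algebraMap (Ainf ℂ) (Binf N))).IsPrime := Ideal.comap_isPrime _ _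
  have hmax := hprime.isMaximal hne
  have := IsLocalRing.eq_maximalIdeal hmax
  rw [Ainf.maximalIdeal_eq] at this
  have h1 : (Ainf.Xinv : Ainf ℂ) ∈ 𝔭.asIdeal.comap (algebraMap (Ainf ℂ) (Binf N)) := by
    rw [this]
    exact Ideal.mem_span_singleton_self _
  exact h1

end DictInf

theorem exists_prime_of_cusp (N : ℕ) [NeZero N] (g : SL(2, ℤ)) :
    ∃ (𝔫 : HeightOneSpectrum (Binf N)) (c : ℕ), 0 < c ∧
      c * 𝔫.asIdeal.ramificationIdx (Ainf ℂ) = N ∧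
      ∀ b₁ b₂ : WH (Gamma0 N), b₁ ≠ 0 → b₂ ≠ 0 →
        𝔫.valuation (FF N) (algebraMap _ (FF N) b₁ / algebraMap _ (FF N) b₂) ^ c =
          WithZero.exp (-(ordCuspZ N g b₁ - ordCuspZ N g b₂)) := by
  obtain ⟨𝔮, c, -, h2, -, -, -⟩ := DictInf.main N
  obtain ⟨hc, he, hv⟩ := h2 (QuotientGroup.mk g⁻¹)
  refine ⟨𝔮 _, c _, hc, he, fun b₁ b₂ hb₁ hb₂ => ?_⟩
  rw [← hv, map_div₀, DictInf.v_algebraMap N _ b₁ hb₁, DictInf.v_algebraMap N _ b₂ hb₂,
    DictInf.w_mk, DictInf.w_mk, ← WithZero.exp_sub]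
  congr 1
  ring

theorem card_primes_inf_le (N : ℕ) [NeZero N] :
    Nat.card (HeightOneSpectrum (Binf N)) ≤
      Nat.card (MulAction.orbitRel.Quotient (Subgroup.zpowers ModularGroup.T)
        (SL(2, ℤ) ⧸ Gamma0 N)) := by
  obtain ⟨𝔮, c, -, -, -, -, h5⟩ := DictInf.main N
  calc Nat.card (HeightOneSpectrum (Binf N))
      = Nat.card {𝔭 : HeightOneSpectrum (Binf N) //
          algebraMap (Ainf ℂ) (Binf N) Ainf.Xinv ∈ 𝔭.asIdeal} :=
        Nat.card_congr (Equiv.subtypeUnivEquiv (DictInf.Xinv_mem N)).symm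
    _ ≤ _ := h5

end Fermat.Agent.S20
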