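import Mathlib
import Fermat.Agent.S20.Defs
import Fermat.Agent.S20.LevelOneBasic
import Fermat.Agent.S20.Ainf
import Fermat.Agent.S23.Analysis
import Fermat.Agent.S23.Glue
import Fermat.Agent.S23.SepForm

/-!
# S20 (G4): functions integral over `ℂ[j]` and over the valuation ring at infinity are constant
-/

set_option autoImplicit false

open UpperHalfPlane ModularForm Polynomial Filter
open scoped MatrixGroups Manifold Topology

namespace Fermat.Agent.S20

/-- (G4a) A weakly holomorphic `Γ₀(N)`-invariant function all of whose translates are bounded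
at `i∞` is constant. -/
theorem const_of_isWH_of_bdd (N : ℕ) [NeZero N] (f : ℍ → ℂ)
    (hf : IsWH (CongruenceSubgroup.Gamma0 N) f)
    (hb : ∀ g : SL(2, ℤ), IsBoundedAtImInfty (fun z => f (g • z))) :
    ∃ c : ℂ, f = fun _ => c := by
  have hslash : ∀ g : SL(2, ℤ), f ∣[(0 : ℤ)] g = fun z => f (g • z) := by
    intro g
    funext z
    rw [ModularForm.SL_slash_apply]
    simp
  obtain ⟨G, hG⟩ := Fermat.Agent.S23.Glue.exists_modularForm_of_mdiff N 0 f hf.mdiff
    (fun γ hγ => by
      rw [hslash]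
      funext z
      exact hf.inv γ hγ z)
    (fun γ => by
      rw [hslash]
      exact hb γ)
  obtain ⟨c, hc⟩ := ModularForm.eq_const_of_weight_zero G
  exact ⟨c, by rw [← hG, hc]; rfl⟩

/-- (G4a), pointwise form (the shape of the wave-2 interface). -/
theorem isWH_const_of_bounded (N : ℕ) [NeZero N] (f : ℍ → ℂ)
    (hf : IsWH (CongruenceSubgroup.Gamma0 N) f)
    (hb : ∀ g : SL(2, ℤ), IsBoundedAtImInfty (fun z => f (g • z))) :
    ∃ c : ℂ, ∀ z, f z = c := by
  obtain ⟨c, hc⟩ := const_of_isWH_of_bdd N f hf hb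
  exact ⟨c, fun z => congrFun hc z⟩

namespace Const

theorem eval_eq_reflect (d : ℕ) (P : ℂ[X]) (hP : P.natDegree ≤ d) (x : ℂ) (hx : x ≠ 0) :
    P.eval x = (reflect d P).eval x⁻¹ * x ^ d := by
  let _ : Invertible x := invertibleOfNonzero hx
  have h := eval₂_reflect_mul_pow (RingHom.id ℂ) x d P hP
  rw [invOf_eq_inv] at h
  simpa [eval₂_id] using h.symm

theorem eval_zero_reflect (P : ℂ[X]) : (reflect P.natDegree P).eval 0 = P.leadingCoeff := by
  rw [← coeff_zero_eq_eval_zero, coeff_reflect, revAt_le (Nat.zero_le _), Nat.sub_zero]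
  rfl

theorem tendsto_inv_jFun : Tendsto (fun z : ℍ => (jFun z)⁻¹) atImInfty (𝓝 0) := by
  have hΔ : Tendsto (fun z : ℍ => ModularForm.discriminant z) atImInfty (𝓝 0) :=
    ModularForm.discriminant_isZeroAtImInfty
  have hE : Tendsto (fun z : ℍ => E₄ z ^ 3) atImInfty (𝓝 (1 ^ 3)) :=
    Fermat.Agent.S23.Sep.tendsto_E4.pow 3
  have h := hΔ.div hE (by norm_num)
  rw [zero_div] at h
  refine h.congr fun z => ?_
  show ModularForm.discriminant z / E₄ z ^ 3 = (jFun z)⁻¹
  unfold jFun
  rw [inv_div]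

theorem eventually_jFun_ne_zero : ∀ᶠ z : ℍ in atImInfty, jFun z ≠ 0 := by
  have h := Fermat.Agent.S23.Sep.tendsto_E4.eventually_ne one_ne_zero
  filter_upwards [h] with z hz
  unfold jFun
  exact div_ne_zero (pow_ne_zero 3 hz) (ModularForm.discriminant_ne_zero z)

theorem tendsto_reflect (d : ℕ) (P : ℂ[X]) :
    Tendsto (fun z : ℍ => (reflect d P).eval (jFun z)⁻¹) atImInfty
      (𝓝 ((reflect d P).eval 0)) :=
  ((reflect d P).continuous.tendsto 0).comp tendsto_inv_jFun

end Const

open Fermat.Agent.S20.Const in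
/-- (G4b) A function on `ℍ` satisfying a polynomial relation whose coefficients are polynomials
in `j` with the leading one of maximal degree has all its translates bounded at `i∞`. -/
theorem bdd_of_monic_over_Ainf (f : ℍ → ℂ) (n : ℕ) (Q : ℂ[X]) (hQ : Q ≠ 0) (R : ℕ → ℂ[X])
    (hdeg : ∀ i < n, (R i).natDegree ≤ Q.natDegree)
    (hrel : ∀ z : ℍ, Q.eval (jFun z) * f z ^ n +
      ∑ i ∈ Finset.range n, (R i).eval (jFun z) * f z ^ i = 0) :
    ∀ g : SL(2, ℤ), IsBoundedAtImInfty (fun z => f (g • z)) := by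
  intro g
  set d := Q.natDegree with hd
  -- the coefficient functions
  set c : ℕ → ℍ → ℂ := fun i z => (R i).eval (jFun z) / Q.eval (jFun z) with hc
  have hQlim : Tendsto (fun z : ℍ => (reflect d Q).eval (jFun z)⁻¹) atImInfty
      (𝓝 Q.leadingCoeff) := by
    have := tendsto_reflect d Q
    rwa [hd, eval_zero_reflect] at this
  have hlc : Q.leadingCoeff ≠ 0 := leadingCoeff_ne_zero.mpr hQ
  have hQne : ∀ᶠ z : ℍ in atImInfty, (reflect d Q).eval (jFun z)⁻¹ ≠ 0 :=
    hQlim.eventually_ne hlc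
  have hclim : ∀ i ∈ Finset.range n, ∀ᶠ z : ℍ in atImInfty,
      ‖c i z‖ < ‖(reflect d (R i)).eval 0 / Q.leadingCoeff‖ + 1 := by
    intro i hi
    have hi' : i < n := Finset.mem_range.mp hi
    have ht : Tendsto (c i) atImInfty (𝓝 ((reflect d (R i)).eval 0 / Q.leadingCoeff)) := by
      have h1 := (tendsto_reflect d (R i)).div hQlim hlc
      refine h1.congr' ?_
      filter_upwards [eventually_jFun_ne_zero, hQne] with z hz hz'
      simp only [hc, Pi.div_apply]
      rw [eval_eq_reflect d (R i) (hdeg i hi') (jFun z) hz,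
        eval_eq_reflect d Q le_rfl (jFun z) hz]
      rw [mul_div_mul_right _ _ (pow_ne_zero d hz)]
    exact ht.norm.eventually (gt_mem_nhds (lt_add_one _))
  have hall := (Filter.eventually_all_finset (Finset.range n)).mpr hclim
  refine Asymptotics.IsBigO.of_bound
    (1 + ∑ i ∈ Finset.range n, (‖(reflect d (R i)).eval 0 / Q.leadingCoeff‖ + 1)) ?_
  filter_upwards [eventually_jFun_ne_zero, hQne, hall] with z hz hz' hzc
  have hQz : Q.eval (jFun z) ≠ 0 := by
    rw [eval_eq_reflect d Q le_rfl (jFun z) hz]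
    exact mul_ne_zero hz' (pow_ne_zero d hz)
  have h := hrel (g • z)
  simp only [jFun_smul] at h
  have h' : f (g • z) ^ n + ∑ i ∈ Finset.range n, c i z * f (g • z) ^ i = 0 := by
    have e : f (g • z) ^ n + ∑ i ∈ Finset.range n, c i z * f (g • z) ^ i =
        (Q.eval (jFun z) * f (g • z) ^ n +
          ∑ i ∈ Finset.range n, (R i).eval (jFun z) * f (g • z) ^ i) / Q.eval (jFun z) := by
      rw [add_div, Finset.sum_div, mul_div_cancel_left₀ _ hQz]
      congr 1
      refine Finset.sum_congr rfl fun i _ => ?_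
      simp only [hc]
      ring
    rw [e, h, zero_div]
  have hb := Fermat.Agent.S23.norm_le_of_monic_root (f (g • z)) (fun i => c i z) h'
  have hsum : ∑ i ∈ Finset.range n, ‖c i z‖ ≤
      ∑ i ∈ Finset.range n, (‖(reflect d (R i)).eval 0 / Q.leadingCoeff‖ + 1) :=
    Finset.sum_le_sum fun i hi => (hzc i hi).le
  simp only [Pi.one_apply, norm_one, mul_one]
  linarith

open scoped RatFunc in
/-- (G4c) An element of a field `L ⊇ WH Γ₀(N)` which is integral over `ℂ[j]` and over the
valuation ring at infinity of `ℂ(j)` is a constant. -/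
theorem const_of_isIntegral_gen (N : ℕ) [NeZero N]
    {L : Type} [Field L] [Algebra ℂ[X] L] [FaithfulSMul ℂ[X] L] [Algebra ℂ L]
    [Algebra (WH (CongruenceSubgroup.Gamma0 N)) L]
    [Algebra ℂ[X] (WH (CongruenceSubgroup.Gamma0 N))]
    [IsScalarTower ℂ[X] (WH (CongruenceSubgroup.Gamma0 N)) L]
    [IsScalarTower ℂ (WH (CongruenceSubgroup.Gamma0 N)) L]
    [IsIntegralClosure (WH (CongruenceSubgroup.Gamma0 N)) ℂ[X] L]
    (halg : ∀ (P : ℂ[X]) (z : ℍ),
      (algebraMap ℂ[X] (WH (CongruenceSubgroup.Gamma0 N)) P : ℍ → ℂ) z = P.eval (jFun z))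
    (f : L) (h1 : IsIntegral ℂ[X] f) (h2 : IsIntegral (Ainf ℂ) f) :
    ∃ c : ℂ, f = algebraMap ℂ L c := by
  obtain ⟨b, rfl⟩ :=
    (IsIntegralClosure.isIntegral_iff (A := WH (CongruenceSubgroup.Gamma0 N))).mp h1
  obtain ⟨p, hpm, hp⟩ := h2
  set x : L := algebraMap (WH (CongruenceSubgroup.Gamma0 N)) L b with hx
  set n := p.natDegree with hn
  have hinjL : Function.Injective (algebraMap ℂ[X] L) := FaithfulSMul.algebraMap_injective ℂ[X] L
  have hinjB : Function.Injective (algebraMap (WH (CongruenceSubgroup.Gamma0 N)) L) :=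
    IsIntegralClosure.algebraMap_injective (WH (CongruenceSubgroup.Gamma0 N)) ℂ[X] L
  -- numerators and denominators of the coefficients
  set num : ℕ → ℂ[X] := fun i => (p.coeff i : RatFunc ℂ).num with hnum
  set den : ℕ → ℂ[X] := fun i => (p.coeff i : RatFunc ℂ).denom with hden
  have hden0 : ∀ i, den i ≠ 0 := fun i => RatFunc.denom_ne_zero _
  have hdeg0 : ∀ i, (num i).natDegree ≤ (den i).natDegree := by
    intro i
    have h := mem_Ainf.mp (p.coeff i).2
    unfold RatFunc.intDegree at h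
    simp only [hnum, hden]
    omega
  set Q : ℂ[X] := ∏ j ∈ Finset.range n, den j with hQ
  set R : ℕ → ℂ[X] := fun i => num i * ∏ j ∈ (Finset.range n).erase i, den j with hR
  have hQ0 : Q ≠ 0 := Finset.prod_ne_zero_iff.mpr fun j _ => hden0 j
  have hQi : ∀ i ∈ Finset.range n, Q = den i * ∏ j ∈ (Finset.range n).erase i, den j :=
    fun i hi => (Finset.mul_prod_erase (Finset.range n) den hi).symm
  have hdeg : ∀ i < n, (R i).natDegree ≤ Q.natDegree := by
    intro i hi
    have hi' : i ∈ Finset.range n := Finset.mem_range.mpr hi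
    have he0 : ∏ j ∈ (Finset.range n).erase i, den j ≠ 0 :=
      Finset.prod_ne_zero_iff.mpr fun j _ => hden0 j
    rw [hQi i hi', natDegree_mul (hden0 i) he0]
    exact (natDegree_mul_le).trans (Nat.add_le_add_right (hdeg0 i) _)
  -- the relation in `L`
  have hrelL : x ^ n + ∑ i ∈ Finset.range n, algebraMap (RatFunc ℂ) L (p.coeff i : RatFunc ℂ) * x ^ i
      = 0 := by
    have h := hp
    rw [eval₂_eq_sum_range, Finset.sum_range_succ, ← hn] at h
    have hlead : p.coeff n = 1 := hpm.coeff_natDegree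
    rw [hlead, map_one, one_mul, add_comm] at h
    exact h
  have hcoef : ∀ i ∈ Finset.range n,
      algebraMap ℂ[X] L Q * algebraMap (RatFunc ℂ) L (p.coeff i : RatFunc ℂ) =
        algebraMap ℂ[X] L (R i) := by
    intro i hi
    have hd : algebraMap ℂ[X] L (den i) ≠ 0 := fun h0 =>
      hden0 i (hinjL (h0.trans (map_zero _).symm))
    have e : algebraMap (RatFunc ℂ) L (p.coeff i : RatFunc ℂ) =
        algebraMap ℂ[X] L (num i) / algebraMap ℂ[X] L (den i) := by
      conv_lhs => rw [← RatFunc.num_div_denom (p.coeff i : RatFunc ℂ)]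
      rw [map_div₀, ← IsScalarTower.algebraMap_apply, ← IsScalarTower.algebraMap_apply]
    rw [e, hQi i hi, hR, map_mul, map_mul]
    field_simp
  have hrelL' : algebraMap ℂ[X] L Q * x ^ n +
      ∑ i ∈ Finset.range n, algebraMap ℂ[X] L (R i) * x ^ i = 0 := by
    have h := congrArg (fun y => algebraMap ℂ[X] L Q * y) hrelL
    simp only [mul_add, mul_zero, Finset.mul_sum] at h
    rw [← h]
    congr 1
    refine Finset.sum_congr rfl fun i hi => ?_
    rw [← hcoef i hi]
    ring
  -- the relation in `B`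
  have hrelB : algebraMap ℂ[X] (WH (CongruenceSubgroup.Gamma0 N)) Q * b ^ n +
      ∑ i ∈ Finset.range n, algebraMap ℂ[X] (WH (CongruenceSubgroup.Gamma0 N)) (R i) * b ^ i = 0 := by
    apply hinjB
    rw [map_zero, map_add, map_mul, map_pow, map_sum, ← IsScalarTower.algebraMap_apply, ← hrelL']
    congr 1
    refine Finset.sum_congr rfl fun i _ => ?_
    rw [map_mul, map_pow, ← IsScalarTower.algebraMap_apply]
  -- the relation for functions
  have hrel : ∀ z : ℍ, Q.eval (jFun z) * (b : ℍ → ℂ) z ^ n +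
      ∑ i ∈ Finset.range n, (R i).eval (jFun z) * (b : ℍ → ℂ) z ^ i = 0 := by
    intro z
    have h := congrArg (fun w : WH (CongruenceSubgroup.Gamma0 N) => (w : ℍ → ℂ) z) hrelB
    simp only [Subalgebra.coe_add, Subalgebra.coe_mul, Subalgebra.coe_pow,
      AddSubmonoidClass.coe_finsetSum, Subalgebra.coe_zero, Pi.add_apply, Pi.mul_apply,
      Pi.pow_apply, Finset.sum_apply, Pi.zero_apply, halg] at h
    exact h
  have hbdd := bdd_of_monic_over_Ainf (b : ℍ → ℂ) n Q hQ0 R hdeg hrel
  obtain ⟨c, hc⟩ := const_of_isWH_of_bdd N (b : ℍ → ℂ) b.2 hbdd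
  refine ⟨c, ?_⟩
  have hb : b = algebraMap ℂ (WH (CongruenceSubgroup.Gamma0 N)) c := by
    apply Subtype.ext
    rw [hc]
    funext z
    simp
  rw [hx, hb, ← IsScalarTower.algebraMap_apply]

end Fermat.Agent.S20
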