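import Mathlib
import Fermat.Agent.S20.Ring
import Fermat.Agent.S20.Const

/-!
# S20 (DI): elements of `FF N` integral over `ℂ[j]` and over `Ainf ℂ` are constants
-/

set_option autoImplicit false

open UpperHalfPlane Polynomial CongruenceSubgroup
open scoped MatrixGroups RatFunc

namespace Fermat.Agent.S20

/-- `hconst` of the abstract Riemann–Hurwitz formula for the function field of `X₀(N)`. -/
theorem const_of_isIntegral (N : ℕ) [NeZero N] (f : FF N) (h1 : IsIntegral ℂ[X] f)
    (h2 : IsIntegral (Ainf ℂ) f) : ∃ c : ℂ, f = algebraMap ℂ (FF N) c :=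
  const_of_isIntegral_gen N (algebraMap_poly_WH_apply (Gamma0 N)) f h1 h2

end Fermat.Agent.S20
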