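import Mathlib
import Fermat.Agent.S20.Defs

/-!
# S20 (J4): stabilizers of points of `ℍ` in `SL(2,ℤ)`

* A non-central `γ : SL(2,ℤ)` fixing `z : ℍ` forces `E₄ z = 0` or `E₆ z = 0`.
* `Stab(i) = ⟨S⟩`, `Stab(ρ) = ⟨S T⟩` with `ρ = e^{2πi/3}`; `E₆ i = 0`, `E₄ ρ = 0`.
-/

set_option autoImplicit false

open UpperHalfPlane hiding I
open Complex ModularForm
open scoped MatrixGroups Manifold

namespace Fermat.Agent.S20

namespace Stab

/-- Transformation law of a level-one form under `γ : SL(2,ℤ)`. -/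
theorem levelOne_smul {k : ℤ} (F : ModularForm 𝒮ℒ k) (γ : SL(2, ℤ)) (z : ℍ) :
    F (γ • z) = ((γ 1 0 : ℂ) * z + (γ 1 1 : ℂ)) ^ k * F z := by
  have hmem : Matrix.SpecialLinearGroup.mapGL ℝ γ ∈ 𝒮ℒ := ⟨γ, rfl⟩
  have h := SlashInvariantForm.slash_action_eqn' F hmem z
  have h' : F (γ • z) = F ((Matrix.SpecialLinearGroup.mapGL ℝ γ) • z) := rfl
  rw [h', h]
  simp

/-- The fixed-point equation in coordinates. -/
theorem fixed_eq (γ : SL(2, ℤ)) (z : ℍ) (h : γ • z = z) :
    (γ 0 0 : ℂ) * z + (γ 0 1 : ℂ) = (z : ℂ) * ((γ 1 0 : ℂ) * z + (γ 1 1 : ℂ)) := by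
  have h1 : ((γ • z : ℍ) : ℂ) = (z : ℂ) := congrArg (fun w : ℍ => (w : ℂ)) h
  rw [coe_specialLinearGroup_apply] at h1
  have hden : ((γ 1 0 : ℂ) * z + (γ 1 1 : ℂ)) ≠ 0 := by
    have := denom_ne_zero (Matrix.SpecialLinearGroup.mapGL ℝ γ) z
    simpa [denom] using this
  have hden' : ((algebraMap ℤ ℝ (γ 1 0) : ℂ) * z + (algebraMap ℤ ℝ (γ 1 1) : ℂ)) ≠ 0 := by
    simpa using hden
  have h2 := (div_eq_iff hden').mp h1
  simpa using h2

theorem det_eq (γ : SL(2, ℤ)) : γ 0 0 * γ 1 1 - γ 0 1 * γ 1 0 = 1 := by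
  have h := γ.det_coe
  rw [Matrix.det_fin_two] at h
  exact h

/-- Extensionality for `SL(2,ℤ)` by the four entries. -/
theorem sl2_ext (γ γ' : SL(2, ℤ)) (h00 : γ 0 0 = γ' 0 0) (h01 : γ 0 1 = γ' 0 1)
    (h10 : γ 1 0 = γ' 1 0) (h11 : γ 1 1 = γ' 1 1) : γ = γ' := by
  apply Matrix.SpecialLinearGroup.ext
  intro i j
  fin_cases i <;> fin_cases j <;> assumption

/-- The automorphy factor `w = c z + d` of a fixed point is a root of `X² - (a+d) X + 1`. -/
theorem factor_quadratic (γ : SL(2, ℤ)) (z : ℍ) (h : γ • z = z) :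
    ((γ 1 0 : ℂ) * z + (γ 1 1 : ℂ)) ^ 2 -
      ((γ 0 0 : ℂ) + (γ 1 1 : ℂ)) * ((γ 1 0 : ℂ) * z + (γ 1 1 : ℂ)) + 1 = 0 := by
  have E1 := fixed_eq γ z h
  have E2 : (γ 0 0 : ℂ) * γ 1 1 - γ 0 1 * γ 1 0 = 1 := by exact_mod_cast det_eq γ
  linear_combination (-(γ 1 0 : ℂ)) * E1 - E2

/-- If `γ` fixes `z` and its lower-left entry vanishes then `γ = ±1`. -/
theorem eq_one_or_neg_one_of_c_eq_zero (γ : SL(2, ℤ)) (z : ℍ) (h : γ • z = z)
    (hc : γ 1 0 = 0) : γ = 1 ∨ γ = -1 := by
  have E1 := fixed_eq γ z h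
  have hdet := det_eq γ
  rw [hc] at hdet
  simp only [hc, Int.cast_zero, zero_mul, zero_add] at E1
  have him := congrArg Complex.im E1
  simp only [Complex.add_im, Complex.mul_im, Complex.intCast_re, Complex.intCast_im, zero_mul,
    add_zero, mul_zero] at him
  have hzim : (z : ℂ).im ≠ 0 := z.im_pos.ne'
  have had : (γ 0 0 : ℝ) = (γ 1 1 : ℝ) := by
    have : ((γ 0 0 : ℝ) - (γ 1 1 : ℝ)) * (z : ℂ).im = 0 := by linarith
    have := (mul_eq_zero.mp this).resolve_right hzim
    linarith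
  have had' : γ 0 0 = γ 1 1 := by exact_mod_cast had
  have hre := congrArg Complex.re E1
  simp only [Complex.add_re, Complex.mul_re, Complex.intCast_re, Complex.intCast_im, zero_mul,
    sub_zero, mul_zero] at hre
  have hb : (γ 0 1 : ℝ) = 0 := by
    rw [had] at hre
    linarith
  have hb' : γ 0 1 = 0 := by exact_mod_cast hb
  rw [had'] at hdet
  have hsq : γ 1 1 * γ 1 1 = 1 := by linarith
  rcases Int.isUnit_iff.mp (IsUnit.of_mul_eq_one _ hsq) with h1 | h1
  · left
    refine sl2_ext _ _ ?_ ?_ ?_ ?_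
    · rw [had', h1]; decide
    · rw [hb']; decide
    · rw [hc]; decide
    · rw [h1]; decide
  · right
    refine sl2_ext _ _ ?_ ?_ ?_ ?_
    · rw [had', h1]; decide
    · rw [hb']; decide
    · rw [hc]; decide
    · rw [h1]; decide

/-- If `γ` fixes `z` and `c ≠ 0`, the trace is `0`, `1` or `-1`. -/
theorem trace_mem_of_c_ne_zero (γ : SL(2, ℤ)) (z : ℍ) (h : γ • z = z) (hc : γ 1 0 ≠ 0) :
    γ 0 0 + γ 1 1 = 0 ∨ γ 0 0 + γ 1 1 = 1 ∨ γ 0 0 + γ 1 1 = -1 := by
  have hq := factor_quadratic γ z h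
  set w : ℂ := (γ 1 0 : ℂ) * z + (γ 1 1 : ℂ) with hw
  set t : ℤ := γ 0 0 + γ 1 1 with ht
  have hq' : w ^ 2 - (t : ℂ) * w + 1 = 0 := by
    rw [ht]
    push_cast
    exact hq
  have hwim : w.im = (γ 1 0 : ℝ) * (z : ℂ).im := by
    simp [hw]
  have hv : w.im ≠ 0 := by
    rw [hwim]
    exact mul_ne_zero (by exact_mod_cast hc) z.im_pos.ne'
  have him := congrArg Complex.im hq'
  have hre := congrArg Complex.re hq'
  simp only [pow_two, Complex.add_im, Complex.sub_im, Complex.mul_im, Complex.intCast_re,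
    Complex.intCast_im, Complex.one_im, Complex.zero_im, zero_mul, add_zero] at him
  simp only [pow_two, Complex.add_re, Complex.sub_re, Complex.mul_re, Complex.intCast_re,
    Complex.intCast_im, Complex.one_re, Complex.zero_re, zero_mul, sub_zero] at hre
  have h2u : 2 * w.re = (t : ℝ) := by
    have : w.im * (2 * w.re - (t : ℝ)) = 0 := by linarith
    have := (mul_eq_zero.mp this).resolve_left hv
    linarith
  have hvpos : 0 < w.im ^ 2 := by positivity
  have ht2 : (t : ℝ) ^ 2 < 4 := by nlinarith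
  have ht2' : t ^ 2 < 4 := by exact_mod_cast ht2
  have hlt : t < 2 := by nlinarith
  have hgt : -2 < t := by nlinarith
  interval_cases t <;> simp

end Stab

open Stab

/-- An element of trace `0` fixing `z` forces `E₆ z = 0`. -/
theorem E₆_eq_zero_of_trace_zero (γ : SL(2, ℤ)) (z : ℍ) (h : γ • z = z)
    (ht : γ 0 0 + γ 1 1 = 0) : E₆ z = 0 := by
  have hq := factor_quadratic γ z h
  have htC : (γ 0 0 : ℂ) + (γ 1 1 : ℂ) = 0 := by exact_mod_cast ht
  rw [htC, zero_mul, sub_zero] at hq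
  set w : ℂ := (γ 1 0 : ℂ) * z + (γ 1 1 : ℂ) with hw
  have hw2 : w ^ 2 = -1 := by linear_combination hq
  have hw6 : w ^ 6 = -1 := by
    have : w ^ 6 = (w ^ 2) ^ 3 := by ring
    rw [this, hw2]
    norm_num
  have hE := levelOne_smul E₆ γ z
  rw [h, ← hw] at hE
  have hE' : E₆ z = w ^ 6 * E₆ z := by
    have : w ^ (6 : ℤ) = w ^ 6 := by norm_cast
    rw [← this]
    exact hE
  rw [hw6] at hE'
  have : 2 * E₆ z = 0 := by linear_combination hE'
  simpa using this

/-- An element of trace `±1` fixing `z` forces `E₄ z = 0`. -/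
theorem E₄_eq_zero_of_trace_one (γ : SL(2, ℤ)) (z : ℍ) (h : γ • z = z)
    (ht : γ 0 0 + γ 1 1 = 1 ∨ γ 0 0 + γ 1 1 = -1) : E₄ z = 0 := by
  have hq := factor_quadratic γ z h
  set w : ℂ := (γ 1 0 : ℂ) * z + (γ 1 1 : ℂ) with hw
  have hE := levelOne_smul E₄ γ z
  rw [h, ← hw] at hE
  have hE' : E₄ z = w ^ 4 * E₄ z := by
    have : w ^ (4 : ℤ) = w ^ 4 := by norm_cast
    rw [← this]
    exact hE
  rcases ht with ht | ht
  · have htC : (γ 0 0 : ℂ) + (γ 1 1 : ℂ) = 1 := by exact_mod_cast ht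
    rw [htC, one_mul] at hq
    -- w² = w - 1, so w⁴ = -w
    have hw4 : w ^ 4 = -w := by linear_combination (w ^ 2 + w) * hq
    rw [hw4] at hE'
    have h1 : (1 + w) * E₄ z = 0 := by linear_combination hE'
    have hne : (1 + w) ≠ 0 := by
      intro h0
      have hwm : w = -1 := by linear_combination h0
      rw [hwm] at hq
      norm_num at hq
    exact (mul_eq_zero.mp h1).resolve_left hne
  · have htC : (γ 0 0 : ℂ) + (γ 1 1 : ℂ) = -1 := by exact_mod_cast ht
    rw [htC] at hq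
    -- w² = -w - 1, so w⁴ = w
    have hw4 : w ^ 4 = w := by linear_combination (w ^ 2 - w) * hq
    rw [hw4] at hE'
    have h1 : (1 - w) * E₄ z = 0 := by linear_combination hE'
    have hne : (1 - w) ≠ 0 := by
      intro h0
      have hwm : w = 1 := by linear_combination -h0
      rw [hwm] at hq
      norm_num at hq
    exact (mul_eq_zero.mp h1).resolve_left hne

/-- A non-central element of `SL(2,ℤ)` fixing `z` forces `E₄ z = 0` or `E₆ z = 0`. -/
theorem smul_eq_self_imp (γ : SL(2, ℤ)) (z : ℍ) (h : γ • z = z) :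
    γ = 1 ∨ γ = -1 ∨ E₄ z = 0 ∨ E₆ z = 0 := by
  by_cases hc : γ 1 0 = 0
  · rcases eq_one_or_neg_one_of_c_eq_zero γ z h hc with h1 | h1
    · exact Or.inl h1
    · exact Or.inr (Or.inl h1)
  · rcases trace_mem_of_c_ne_zero γ z h hc with ht | ht | ht
    · exact Or.inr (Or.inr (Or.inr (E₆_eq_zero_of_trace_zero γ z h ht)))
    · exact Or.inr (Or.inr (Or.inl (E₄_eq_zero_of_trace_one γ z h (Or.inl ht))))
    · exact Or.inr (Or.inr (Or.inl (E₄_eq_zero_of_trace_one γ z h (Or.inr ht))))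

/-- `jFun z = 0 ↔ E₄ z = 0`. -/
theorem jFun_eq_zero_iff (z : ℍ) : jFun z = 0 ↔ E₄ z = 0 := by
  unfold jFun
  rw [div_eq_zero_iff]
  constructor
  · rintro (h | h)
    · exact pow_eq_zero_iff (by norm_num) |>.mp h
    · exact absurd h (ModularForm.discriminant_ne_zero z)
  · intro h
    left
    rw [h]
    norm_num

/-- The stabilizer of `i` is generated by `S`. -/
theorem stabilizer_I :
    MulAction.stabilizer SL(2, ℤ) UpperHalfPlane.I = Subgroup.zpowers ModularGroup.S := by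
  apply le_antisymm
  · intro γ hγ
    have h : γ • UpperHalfPlane.I = UpperHalfPlane.I := MulAction.mem_stabilizer_iff.mp hγ
    have E1 := fixed_eq γ UpperHalfPlane.I h
    have hdet := det_eq γ
    simp only [UpperHalfPlane.coe_I] at E1
    have him := congrArg Complex.im E1
    have hre := congrArg Complex.re E1
    simp only [Complex.add_im, Complex.mul_im, Complex.intCast_re, Complex.intCast_im,
      Complex.I_re, Complex.I_im, Complex.add_re, Complex.mul_re, mul_zero, mul_one, zero_mul,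
      add_zero, zero_add, sub_zero, zero_sub] at him hre
    have had : γ 0 0 = γ 1 1 := by
      have : (γ 0 0 : ℝ) = (γ 1 1 : ℝ) := by linarith
      exact_mod_cast this
    have hbc : γ 0 1 = -γ 1 0 := by
      have : (γ 0 1 : ℝ) = -(γ 1 0 : ℝ) := by linarith
      exact_mod_cast this
    rw [had, hbc] at hdet
    have hsum : γ 1 1 * γ 1 1 + γ 1 0 * γ 1 0 = 1 := by linarith
    have hd1 : γ 1 1 ≤ 1 := by nlinarith [mul_self_nonneg (γ 1 0)]
    have hd2 : -1 ≤ γ 1 1 := by nlinarith [mul_self_nonneg (γ 1 0)]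
    have hc1 : γ 1 0 ≤ 1 := by nlinarith [mul_self_nonneg (γ 1 1)]
    have hc2 : -1 ≤ γ 1 0 := by nlinarith [mul_self_nonneg (γ 1 1)]
    generalize hcd : γ 1 0 = c at *
    generalize hdd : γ 1 1 = d at *
    have key : γ = ModularGroup.S ^ 0 ∨ γ = ModularGroup.S ^ 1 ∨ γ = ModularGroup.S ^ 2 ∨
        γ = ModularGroup.S ^ 3 := by
      interval_cases c <;> interval_cases d <;> simp at hsum
      · -- c = -1, d = 0 : γ = [[0,1],[-1,0]] = S^3
        refine Or.inr (Or.inr (Or.inr (sl2_ext _ _ ?_ ?_ ?_ ?_)))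
        · rw [had]; decide
        · rw [hbc]; decide
        · rw [hcd]; decide
        · rw [hdd]; decide
      · -- c = 0, d = -1 : γ = -1 = S^2
        refine Or.inr (Or.inr (Or.inl (sl2_ext _ _ ?_ ?_ ?_ ?_)))
        · rw [had]; decide
        · rw [hbc]; decide
        · rw [hcd]; decide
        · rw [hdd]; decide
      · -- c = 0, d = 1 : γ = 1
        refine Or.inl (sl2_ext _ _ ?_ ?_ ?_ ?_)
        · rw [had]; decide
        · rw [hbc]; decide
        · rw [hcd]; decide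
        · rw [hdd]; decide
      · -- c = 1, d = 0 : γ = S
        refine Or.inr (Or.inl (sl2_ext _ _ ?_ ?_ ?_ ?_))
        · rw [had]; decide
        · rw [hbc]; decide
        · rw [hcd]; decide
        · rw [hdd]; decide
    rcases key with h1 | h1 | h1 | h1 <;> rw [h1] <;> exact Subgroup.npow_mem_zpowers _ _
  · rw [Subgroup.zpowers_le]
    rw [MulAction.mem_stabilizer_iff]
    rw [UpperHalfPlane.modular_S_smul]
    ext
    simp

/-- The point `ρ = e^{2πi/3} = -1/2 + (√3/2) i`. -/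
noncomputable def rho : ℍ :=
  ⟨-1 / 2 + (Real.sqrt 3 / 2 : ℝ) * Complex.I, by
    simp only [Complex.add_im, Complex.mul_im, Complex.ofReal_re, Complex.I_im, mul_one,
      Complex.ofReal_im, Complex.I_re, mul_zero, add_zero]
    norm_num⟩

theorem coe_rho : (rho : ℂ) = -1 / 2 + (Real.sqrt 3 / 2 : ℝ) * Complex.I := rfl

theorem rho_sq : (rho : ℂ) ^ 2 + (rho : ℂ) + 1 = 0 := by
  have h3 : ((Real.sqrt 3 : ℝ) : ℂ) ^ 2 = 3 := by
    have : (Real.sqrt 3 : ℝ) ^ 2 = 3 := Real.sq_sqrt (by norm_num)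
    exact_mod_cast this
  rw [coe_rho]
  push_cast
  linear_combination (-1 / 4 : ℂ) * h3 + ((Real.sqrt 3 : ℂ) ^ 2 / 4) * Complex.I_sq

theorem rho_im_pos : 0 < (rho : ℂ).im := rho.im_pos

/-- The stabilizer of `ρ` is generated by `S T`. -/
theorem stabilizer_rho :
    MulAction.stabilizer SL(2, ℤ) rho =
      Subgroup.zpowers (ModularGroup.S * ModularGroup.T) := by
  apply le_antisymm
  · intro γ hγ
    have h : γ • rho = rho := MulAction.mem_stabilizer_iff.mp hγ
    have E1 := fixed_eq γ rho h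
    have hdet := det_eq γ
    -- (a - d + c) ρ + (b + c) = 0
    have E2 : ((γ 0 0 : ℂ) - γ 1 1 + γ 1 0) * (rho : ℂ) + ((γ 0 1 : ℂ) + γ 1 0) = 0 := by
      linear_combination E1 + (γ 1 0 : ℂ) * rho_sq
    have him := congrArg Complex.im E2
    have hre := congrArg Complex.re E2
    have hcast1 : ((γ 0 0 : ℂ) - γ 1 1 + γ 1 0) = ((γ 0 0 - γ 1 1 + γ 1 0 : ℤ) : ℂ) := by
      push_cast; ring
    have hcast2 : ((γ 0 1 : ℂ) + γ 1 0) = ((γ 0 1 + γ 1 0 : ℤ) : ℂ) := by
      push_cast; ring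
    rw [hcast1, hcast2] at him hre
    simp only [Complex.add_im, Complex.mul_im, Complex.intCast_re, Complex.intCast_im,
      Complex.add_re, Complex.mul_re, zero_mul, add_zero, sub_zero, Complex.zero_im,
      Complex.zero_re] at him hre
    have h1 : ((γ 0 0 - γ 1 1 + γ 1 0 : ℤ) : ℝ) = 0 :=
      (mul_eq_zero.mp him).resolve_right rho_im_pos.ne'
    rw [h1, zero_mul, zero_add] at hre
    have h1' : γ 0 0 - γ 1 1 + γ 1 0 = 0 := by exact_mod_cast h1
    have h2' : γ 0 1 + γ 1 0 = 0 := by exact_mod_cast hre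
    have ha : γ 0 0 = γ 1 1 - γ 1 0 := by linarith
    have hb : γ 0 1 = -γ 1 0 := by linarith
    rw [ha, hb] at hdet
    have hsum : γ 1 1 * γ 1 1 - γ 1 0 * γ 1 1 + γ 1 0 * γ 1 0 = 1 := by linarith
    have hc1 : γ 1 0 ≤ 1 := by nlinarith [mul_self_nonneg (2 * γ 1 1 - γ 1 0)]
    have hc2 : -1 ≤ γ 1 0 := by nlinarith [mul_self_nonneg (2 * γ 1 1 - γ 1 0)]
    have hd1 : γ 1 1 ≤ 1 := by nlinarith [mul_self_nonneg (2 * γ 1 0 - γ 1 1)]
    have hd2 : -1 ≤ γ 1 1 := by nlinarith [mul_self_nonneg (2 * γ 1 0 - γ 1 1)]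
    generalize hcd : γ 1 0 = c at *
    generalize hdd : γ 1 1 = d at *
    have key : ∃ n : ℕ, γ = (ModularGroup.S * ModularGroup.T) ^ n := by
      interval_cases c <;> interval_cases d <;> simp at hsum
      · -- c = -1, d = -1 : (0, 1, -1, -1) = (ST)^4
        refine ⟨4, sl2_ext _ _ ?_ ?_ ?_ ?_⟩
        · rw [ha]; decide
        · rw [hb]; decide
        · rw [hcd]; decide
        · rw [hdd]; decide
      · -- c = -1, d = 0 : (1, 1, -1, 0) = (ST)^5
        refine ⟨5, sl2_ext _ _ ?_ ?_ ?_ ?_⟩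
        · rw [ha]; decide
        · rw [hb]; decide
        · rw [hcd]; decide
        · rw [hdd]; decide
      · -- c = 0, d = -1 : -1 = (ST)^3
        refine ⟨3, sl2_ext _ _ ?_ ?_ ?_ ?_⟩
        · rw [ha]; decide
        · rw [hb]; decide
        · rw [hcd]; decide
        · rw [hdd]; decide
      · -- c = 0, d = 1 : 1
        refine ⟨0, sl2_ext _ _ ?_ ?_ ?_ ?_⟩
        · rw [ha]; decide
        · rw [hb]; decide
        · rw [hcd]; decide
        · rw [hdd]; decide
      · -- c = 1, d = 0 : (-1, -1, 1, 0) = (ST)^2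
        refine ⟨2, sl2_ext _ _ ?_ ?_ ?_ ?_⟩
        · rw [ha]; decide
        · rw [hb]; decide
        · rw [hcd]; decide
        · rw [hdd]; decide
      · -- c = 1, d = 1 : (0, -1, 1, 1) = ST
        refine ⟨1, sl2_ext _ _ ?_ ?_ ?_ ?_⟩
        · rw [ha]; decide
        · rw [hb]; decide
        · rw [hcd]; decide
        · rw [hdd]; decide
    obtain ⟨n, hn⟩ := key
    rw [hn]
    exact Subgroup.npow_mem_zpowers _ _
  · rw [Subgroup.zpowers_le, MulAction.mem_stabilizer_iff]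
    ext
    rw [coe_specialLinearGroup_apply]
    have h00 : (ModularGroup.S * ModularGroup.T) 0 0 = 0 := by decide
    have h01 : (ModularGroup.S * ModularGroup.T) 0 1 = -1 := by decide
    have h10 : (ModularGroup.S * ModularGroup.T) 1 0 = 1 := by decide
    have h11 : (ModularGroup.S * ModularGroup.T) 1 1 = 1 := by decide
    rw [h00, h01, h10, h11]
    have hne : (rho : ℂ) + 1 ≠ 0 := by
      intro h0
      have h0' := congrArg Complex.im h0
      simp at h0'
      exact absurd h0' rho.im_pos.ne'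
    simp only [algebraMap_int_eq, eq_intCast, Int.cast_zero, Complex.ofReal_zero, zero_mul,
      Int.cast_neg, Int.cast_one, Complex.ofReal_neg, Complex.ofReal_one, zero_add, one_mul]
    rw [div_eq_iff hne]
    linear_combination -rho_sq

/-- `E₆ i = 0`. -/
theorem E₆_I : E₆ UpperHalfPlane.I = 0 := by
  have hS : ModularGroup.S • UpperHalfPlane.I = UpperHalfPlane.I := by
    have : ModularGroup.S ∈ MulAction.stabilizer SL(2, ℤ) UpperHalfPlane.I := by
      rw [stabilizer_I]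
      exact Subgroup.mem_zpowers _
    exact MulAction.mem_stabilizer_iff.mp this
  exact E₆_eq_zero_of_trace_zero ModularGroup.S _ hS (by decide)

/-- `E₄ ρ = 0`. -/
theorem E₄_rho : E₄ rho = 0 := by
  have hST : (ModularGroup.S * ModularGroup.T) • rho = rho := by
    have : ModularGroup.S * ModularGroup.T ∈ MulAction.stabilizer SL(2, ℤ) rho := by
      rw [stabilizer_rho]
      exact Subgroup.mem_zpowers _
    exact MulAction.mem_stabilizer_iff.mp this
  exact E₄_eq_zero_of_trace_one _ _ hST (Or.inl (by decide))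

/-- `j(ρ) = 0`. -/
theorem jFun_rho : jFun rho = 0 := (jFun_eq_zero_iff rho).mpr E₄_rho

end Fermat.Agent.S20
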