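import Mathlib
import Fermat.Agent.S20.Defs
import Fermat.Agent.S20.LevelOneBasic
import Fermat.Agent.S20.Stab

/-!
# S20 (AN3b): analytic order functions at points of `ℍ` and elliptic points

`ordAt f z` (from `LevelOneBasic`) is the vanishing order at `z : ℍ` of `f : ℍ → ℂ`.  We prove the
valuation axioms on holomorphic functions, invariance under Möbius transformations, and the
divisibility of the order of an invariant function by the order of the stabilizer.
-/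

set_option autoImplicit false

open UpperHalfPlane hiding I
open Complex ModularForm Filter Topology
open scoped MatrixGroups Manifold

namespace Fermat.Agent.S20

namespace Elliptic

theorem analyticAt_comp_ofComplex {f : ℍ → ℂ} (hf : MDiff f) (z : ℍ) :
    AnalyticAt ℂ (f ∘ ofComplex) (z : ℂ) := by
  have h := UpperHalfPlane.mdifferentiable_iff.mp hf
  exact h.analyticAt (isOpen_upperHalfPlaneSet.mem_nhds z.im_pos)

theorem comp_ofComplex_apply (f : ℍ → ℂ) (z : ℍ) : (f ∘ ofComplex) (z : ℂ) = f z := by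
  simp [Function.comp_apply, ofComplex_apply]

/-- The Möbius transformation of `g : SL(2,ℤ)` as a function on `ℂ`. -/
noncomputable def mob (g : SL(2, ℤ)) (w : ℂ) : ℂ :=
  ((g 0 0 : ℂ) * w + (g 0 1 : ℂ)) / ((g 1 0 : ℂ) * w + (g 1 1 : ℂ))

theorem coe_smul_eq_mob (g : SL(2, ℤ)) (z : ℍ) : ((g • z : ℍ) : ℂ) = mob g z := by
  rw [coe_specialLinearGroup_apply]
  simp [mob]

theorem denom_ne_zero' (g : SL(2, ℤ)) (z : ℍ) : (g 1 0 : ℂ) * z + (g 1 1 : ℂ) ≠ 0 := by
  have := denom_ne_zero (Matrix.SpecialLinearGroup.mapGL ℝ g) z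
  simpa [denom] using this

theorem det_eq_complex (g : SL(2, ℤ)) : (g 0 0 : ℂ) * g 1 1 - g 0 1 * g 1 0 = 1 := by
  exact_mod_cast Stab.det_eq g

theorem analyticAt_mob (g : SL(2, ℤ)) (z : ℍ) : AnalyticAt ℂ (mob g) (z : ℂ) := by
  unfold mob
  have h := denom_ne_zero' g z
  fun_prop (disch := exact h)

theorem hasDerivAt_mob (g : SL(2, ℤ)) (z : ℍ) :
    HasDerivAt (mob g) (1 / ((g 1 0 : ℂ) * z + (g 1 1 : ℂ)) ^ 2) (z : ℂ) := by
  have h := denom_ne_zero' g z
  have h1 : HasDerivAt (fun w : ℂ => (g 0 0 : ℂ) * w + (g 0 1 : ℂ)) (g 0 0 : ℂ) (z : ℂ) := by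
    simpa using ((hasDerivAt_id (z : ℂ)).const_mul (g 0 0 : ℂ)).add_const (g 0 1 : ℂ)
  have h2 : HasDerivAt (fun w : ℂ => (g 1 0 : ℂ) * w + (g 1 1 : ℂ)) (g 1 0 : ℂ) (z : ℂ) := by
    simpa using ((hasDerivAt_id (z : ℂ)).const_mul (g 1 0 : ℂ)).add_const (g 1 1 : ℂ)
  have h3 := h1.div h2 h
  have E := det_eq_complex g
  have hval : ((g 0 0 : ℂ) * ((g 1 0 : ℂ) * z + (g 1 1 : ℂ)) -
      ((g 0 0 : ℂ) * z + (g 0 1 : ℂ)) * (g 1 0 : ℂ)) / ((g 1 0 : ℂ) * z + (g 1 1 : ℂ)) ^ 2 =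
      1 / ((g 1 0 : ℂ) * z + (g 1 1 : ℂ)) ^ 2 := by
    congr 1
    linear_combination E
  rw [hval] at h3
  exact h3

theorem deriv_mob_ne_zero (g : SL(2, ℤ)) (z : ℍ) : deriv (mob g) (z : ℂ) ≠ 0 := by
  rw [(hasDerivAt_mob g z).deriv]
  exact one_div_ne_zero (pow_ne_zero 2 (denom_ne_zero' g z))

/-- Near `z`, `w ↦ f (g • ofComplex w)` is `(f ∘ ofComplex) ∘ mob g`. -/
theorem comp_smul_eventuallyEq (f : ℍ → ℂ) (g : SL(2, ℤ)) (z : ℍ) :
    (fun w : ℍ => f (g • w)) ∘ ofComplex =ᶠ[𝓝 (z : ℂ)] (f ∘ ofComplex) ∘ mob g := by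
  filter_upwards [isOpen_upperHalfPlaneSet.mem_nhds z.im_pos] with w hw
  have hw' : 0 < w.im := hw
  simp only [Function.comp_apply]
  rw [ofComplex_apply_of_im_pos hw']
  have : ofComplex (mob g w) = g • (⟨w, hw'⟩ : ℍ) := by
    rw [← coe_smul_eq_mob g ⟨w, hw'⟩, ofComplex_apply]
  rw [this]

end Elliptic

open Elliptic

variable {f g : ℍ → ℂ} {z : ℍ}

theorem ordAt_mul (hf : MDiff f) (hg : MDiff g) : ordAt (f * g) z = ordAt f z + ordAt g z :=
  analyticOrderAt_mul (analyticAt_comp_ofComplex hf z) (analyticAt_comp_ofComplex hg z)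

theorem ordAt_add_ge (f g : ℍ → ℂ) (z : ℍ) : min (ordAt f z) (ordAt g z) ≤ ordAt (f + g) z :=
  le_analyticOrderAt_add

theorem ordAt_eq_zero_iff (hf : MDiff f) : ordAt f z = 0 ↔ f z ≠ 0 := by
  unfold ordAt
  rw [(analyticAt_comp_ofComplex hf z).analyticOrderAt_eq_zero, comp_ofComplex_apply]

theorem ordAt_pos_iff (hf : MDiff f) : 0 < ordAt f z ↔ f z = 0 := by
  rw [pos_iff_ne_zero, Ne, ordAt_eq_zero_iff hf, not_not]

theorem ordAt_const {c : ℂ} (hc : c ≠ 0) (z : ℍ) : ordAt (fun _ => c) z = 0 :=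
  (ordAt_eq_zero_iff mdifferentiable_const).mpr hc

theorem ordAt_one (z : ℍ) : ordAt (1 : ℍ → ℂ) z = 0 :=
  ordAt_const one_ne_zero z

theorem ordAt_eq_top_iff (hf : MDiff f) : ordAt f z = ⊤ ↔ f = 0 := by
  constructor
  · intro h
    have h1 : ∀ᶠ w in 𝓝 (z : ℂ), (f ∘ ofComplex) w = 0 := analyticOrderAt_eq_top.mp h
    have hd := UpperHalfPlane.mdifferentiable_iff.mp hf
    have han : AnalyticOnNhd ℂ (f ∘ ofComplex) {w : ℂ | 0 < w.im} :=
      hd.analyticOnNhd isOpen_upperHalfPlaneSet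
    have hconn : IsPreconnected {w : ℂ | 0 < w.im} :=
      (convex_halfSpace_im_gt 0).isPreconnected
    have h2 := han.eqOn_zero_of_preconnected_of_eventuallyEq_zero hconn z.im_pos h1
    funext w
    have := h2 w.im_pos
    simpa [ofComplex_apply] using this
  · rintro rfl
    apply analyticOrderAt_eq_top.mpr
    exact Eventually.of_forall fun w => rfl

theorem ordAt_smul (f : ℍ → ℂ) (γ : SL(2, ℤ)) (z : ℍ) :
    ordAt (fun w => f (γ • w)) z = ordAt f (γ • z) := by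
  unfold ordAt
  rw [analyticOrderAt_congr (comp_smul_eventuallyEq f γ z),
    analyticOrderAt_comp_of_deriv_ne_zero (analyticAt_mob γ z) (deriv_mob_ne_zero γ z),
    coe_smul_eq_mob]

/-- For a `Γ`-invariant function, the order is constant on `Γ`-orbits. -/
theorem ordAt_smul_of_invariant {Γ : Subgroup SL(2, ℤ)} (hinv : ∀ γ ∈ Γ, ∀ w : ℍ, f (γ • w) = f w)
    {γ : SL(2, ℤ)} (hγ : γ ∈ Γ) (z : ℍ) : ordAt f (γ • z) = ordAt f z := by
  rw [← ordAt_smul]
  congr 1
  funext w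
  exact hinv γ hγ w

namespace Elliptic

/-- If `F ∘ m = F` near a fixed point `z₀` of `m` and `F - F z₀` has finite order `n` at `z₀`,
then the multiplier `m'(z₀)` is an `n`-th root of unity. -/
theorem deriv_pow_eq_one_of_comp_eq {F m : ℂ → ℂ} {z₀ : ℂ} (hF : AnalyticAt ℂ F z₀)
    (hm : AnalyticAt ℂ m z₀) (hmz : m z₀ = z₀) (hinv : F ∘ m =ᶠ[𝓝 z₀] F) {n : ℕ}
    (hn : analyticOrderAt (fun w => F w - F z₀) z₀ = n) : deriv m z₀ ^ n = 1 := by
  have hF0 : AnalyticAt ℂ (fun w => F w - F z₀) z₀ := hF.sub analyticAt_const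
  obtain ⟨G, hG, hGne, hFG⟩ := (hF0.analyticOrderAt_eq_natCast).mp hn
  have hmc : ContinuousAt m z₀ := hm.continuousAt
  have hmt : Tendsto m (𝓝 z₀) (𝓝 z₀) := by
    have := hmc.tendsto
    rwa [hmz] at this
  have h1 : ∀ᶠ w in 𝓝 z₀, F (m w) - F z₀ = (m w - z₀) ^ n • G (m w) := hmt.eventually hFG
  have hψ : ContinuousAt (dslope m z₀) z₀ := continuousAt_dslope_same.mpr hm.differentiableAt
  have hψ0 : dslope m z₀ z₀ = deriv m z₀ := dslope_same m z₀
  have hsub : ∀ w, m w - z₀ = (w - z₀) * dslope m z₀ w := by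
    intro w
    have := sub_smul_dslope m z₀ w
    rw [hmz, smul_eq_mul] at this
    exact this.symm
  have h2 : ∀ᶠ w in 𝓝[≠] z₀, dslope m z₀ w ^ n * G (m w) - G w = 0 := by
    rw [eventually_nhdsWithin_iff]
    filter_upwards [h1, hFG, hinv] with w hw1 hw2 hw3 hne
    have hw3' : F (m w) = F w := hw3
    rw [hw3', hw2, hsub w, mul_pow] at hw1
    simp only [smul_eq_mul] at hw1
    have hpow : (w - z₀) ^ n ≠ 0 := pow_ne_zero n (sub_ne_zero.mpr hne)
    have h3 : (w - z₀) ^ n * G w = (w - z₀) ^ n * (dslope m z₀ w ^ n * G (m w)) := by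
      rw [hw1]; ring
    have h4 := mul_left_cancel₀ hpow h3
    rw [← h4, sub_self]
  have hcont : ContinuousAt (fun w => dslope m z₀ w ^ n * G (m w) - G w) z₀ := by
    have hGm : ContinuousAt (fun w => G (m w)) z₀ := by
      have hG' : ContinuousAt G (m z₀) := by rw [hmz]; exact hG.continuousAt
      exact ContinuousAt.comp (f := m) (g := G) hG' hmc
    exact ((hψ.pow n).mul hGm).sub hG.continuousAt
  have hlim : Tendsto (fun w => dslope m z₀ w ^ n * G (m w) - G w) (𝓝[≠] z₀)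
      (𝓝 (dslope m z₀ z₀ ^ n * G (m z₀) - G z₀)) :=
    hcont.tendsto.mono_left nhdsWithin_le_nhds
  have hlim0 : Tendsto (fun w => dslope m z₀ w ^ n * G (m w) - G w) (𝓝[≠] z₀) (𝓝 0) := by
    apply Tendsto.congr' _ tendsto_const_nhds
    filter_upwards [h2] with w hw using hw.symm
  have hfin := tendsto_nhds_unique hlim hlim0
  rw [hmz, hψ0] at hfin
  have h4 : (deriv m z₀ ^ n - 1) * G z₀ = 0 := by linear_combination hfin
  rcases mul_eq_zero.mp h4 with h5 | h5
  · exact sub_eq_zero.mp h5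
  · exact absurd h5 hGne

end Elliptic

/-- If `γ` fixes `z`, `f ∘ γ = f` and `f - f z` vanishes to finite order `n` at `z`, then the
automorphy factor `c z + d` of `γ` at `z` is a `2n`-th root of unity. -/
theorem denom_pow_two_mul_ordAt (hf : MDiff f) (γ : SL(2, ℤ)) (hγz : γ • z = z)
    (hinv : ∀ w : ℍ, f (γ • w) = f w) {n : ℕ} (hn : ordAt (fun w => f w - f z) z = n) :
    ((γ 1 0 : ℂ) * z + (γ 1 1 : ℂ)) ^ (2 * n) = 1 := by
  have hmz : mob γ (z : ℂ) = (z : ℂ) := by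
    rw [← coe_smul_eq_mob, hγz]
  have hF := analyticAt_comp_ofComplex hf z
  have hinv' : (f ∘ ofComplex) ∘ mob γ =ᶠ[𝓝 (z : ℂ)] f ∘ ofComplex := by
    have h := comp_smul_eventuallyEq f γ z
    have e : (fun w : ℍ => f (γ • w)) = f := funext hinv
    rw [e] at h
    exact h.symm
  have hn' : analyticOrderAt (fun w => (f ∘ ofComplex) w - (f ∘ ofComplex) (z : ℂ)) (z : ℂ) = n := by
    rw [comp_ofComplex_apply]
    exact hn
  have h := deriv_pow_eq_one_of_comp_eq hF (analyticAt_mob γ z) hmz hinv' hn'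
  rw [(hasDerivAt_mob γ z).deriv, one_div, inv_pow, inv_eq_one, ← pow_mul] at h
  exact h

namespace Elliptic

/-- The automorphy factor at a fixed point, as a character of the stabilizer. -/
noncomputable def stabChar (z : ℍ) : MulAction.stabilizer SL(2, ℤ) z →* ℂ where
  toFun γ := ((γ : SL(2, ℤ)) 1 0 : ℂ) * z + ((γ : SL(2, ℤ)) 1 1 : ℂ)
  map_one' := by simp
  map_mul' := by
    intro γ γ'
    have E1 := Stab.fixed_eq (γ' : SL(2, ℤ)) z (MulAction.mem_stabilizer_iff.mp γ'.2)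
    have h10 : ((γ * γ' : MulAction.stabilizer SL(2, ℤ) z) : SL(2, ℤ)) 1 0 =
        (γ : SL(2, ℤ)) 1 0 * (γ' : SL(2, ℤ)) 0 0 + (γ : SL(2, ℤ)) 1 1 * (γ' : SL(2, ℤ)) 1 0 := by
      rw [Subgroup.coe_mul, Matrix.SpecialLinearGroup.coe_mul, Matrix.mul_apply, Fin.sum_univ_two]
    have h11 : ((γ * γ' : MulAction.stabilizer SL(2, ℤ) z) : SL(2, ℤ)) 1 1 =
        (γ : SL(2, ℤ)) 1 0 * (γ' : SL(2, ℤ)) 0 1 + (γ : SL(2, ℤ)) 1 1 * (γ' : SL(2, ℤ)) 1 1 := by
      rw [Subgroup.coe_mul, Matrix.SpecialLinearGroup.coe_mul, Matrix.mul_apply, Fin.sum_univ_two]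
    rw [h10, h11]
    push_cast
    linear_combination ((γ : SL(2, ℤ)) 1 0 : ℂ) * E1

theorem stabChar_apply (z : ℍ) (γ : MulAction.stabilizer SL(2, ℤ) z) :
    stabChar z γ = ((γ : SL(2, ℤ)) 1 0 : ℂ) * z + ((γ : SL(2, ℤ)) 1 1 : ℂ) := rfl

theorem stabChar_injective (z : ℍ) : Function.Injective (stabChar z) := by
  rw [injective_iff_map_eq_one]
  intro γ hγ
  rw [stabChar_apply] at hγ
  have hfix := MulAction.mem_stabilizer_iff.mp γ.2
  have him := congrArg Complex.im hγ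
  simp only [Complex.add_im, Complex.mul_im, Complex.intCast_re, Complex.intCast_im, zero_mul,
    add_zero, Complex.one_im] at him
  have hc : ((γ : SL(2, ℤ)) 1 0 : ℝ) = 0 := by
    rcases mul_eq_zero.mp him with h | h
    · exact h
    · exact absurd h z.im_pos.ne'
  have hc' : (γ : SL(2, ℤ)) 1 0 = 0 := by exact_mod_cast hc
  have hd : ((γ : SL(2, ℤ)) 1 1 : ℂ) = 1 := by
    rw [hc'] at hγ
    simpa using hγ
  have hd' : (γ : SL(2, ℤ)) 1 1 = 1 := by exact_mod_cast hd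
  rcases Stab.eq_one_or_neg_one_of_c_eq_zero (γ : SL(2, ℤ)) z hfix hc' with h | h
  · exact Subtype.ext h
  · exfalso
    rw [h] at hd'
    revert hd'
    decide

theorem stabChar_pow_twelve (z : ℍ) (γ : MulAction.stabilizer SL(2, ℤ) z) :
    stabChar z γ ^ 12 = 1 := by
  have hfix := MulAction.mem_stabilizer_iff.mp γ.2
  have hq := Stab.factor_quadratic (γ : SL(2, ℤ)) z hfix
  rw [stabChar_apply]
  set u : ℂ := ((γ : SL(2, ℤ)) 1 0 : ℂ) * z + ((γ : SL(2, ℤ)) 1 1 : ℂ) with hu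
  by_cases hc : (γ : SL(2, ℤ)) 1 0 = 0
  · rcases Stab.eq_one_or_neg_one_of_c_eq_zero (γ : SL(2, ℤ)) z hfix hc with h | h
    · have h11 : (γ : SL(2, ℤ)) 1 1 = 1 := by rw [h]; decide
      rw [hu, hc, h11]
      simp
    · have h11 : (γ : SL(2, ℤ)) 1 1 = -1 := by rw [h]; decide
      rw [hu, hc, h11]
      norm_num
  · rcases Stab.trace_mem_of_c_ne_zero (γ : SL(2, ℤ)) z hfix hc with ht | ht | ht
    · have ht' : ((γ : SL(2, ℤ)) 0 0 : ℂ) + ((γ : SL(2, ℤ)) 1 1 : ℂ) = 0 := by exact_mod_cast ht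
      rw [ht'] at hq
      have h2 : u ^ 2 = -1 := by linear_combination hq
      calc u ^ 12 = (u ^ 2) ^ 6 := by ring
        _ = 1 := by rw [h2]; norm_num
    · have ht' : ((γ : SL(2, ℤ)) 0 0 : ℂ) + ((γ : SL(2, ℤ)) 1 1 : ℂ) = 1 := by exact_mod_cast ht
      rw [ht'] at hq
      have h3 : u ^ 3 = -1 := by linear_combination (u + 1) * hq
      calc u ^ 12 = (u ^ 3) ^ 4 := by ring
        _ = 1 := by rw [h3]; norm_num
    · have ht' : ((γ : SL(2, ℤ)) 0 0 : ℂ) + ((γ : SL(2, ℤ)) 1 1 : ℂ) = -1 := by exact_mod_cast ht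
      rw [ht'] at hq
      have h3 : u ^ 3 = 1 := by linear_combination (u - 1) * hq
      calc u ^ 12 = (u ^ 3) ^ 4 := by ring
        _ = 1 := by rw [h3]; norm_num

end Elliptic

/-- Stabilizers of points of `ℍ` in `SL(2,ℤ)` are finite. -/
instance finite_stabilizer (z : ℍ) : Finite (MulAction.stabilizer SL(2, ℤ) z) := by
  have hinj : Function.Injective (fun γ : MulAction.stabilizer SL(2, ℤ) z =>
      (⟨stabChar z γ, (Polynomial.mem_nthRootsFinset (by norm_num) (1 : ℂ)).mpr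
        (stabChar_pow_twelve z γ)⟩ : ↥(Polynomial.nthRootsFinset 12 (1 : ℂ)))) := by
    intro γ γ' h
    exact stabChar_injective z (Subtype.ext_iff.mp h)
  exact Finite.of_injective _ hinj

/-- Stabilizers of points of `ℍ` in `SL(2,ℤ)` are cyclic. -/
instance isCyclic_stabilizer (z : ℍ) : IsCyclic (MulAction.stabilizer SL(2, ℤ) z) :=
  isCyclic_of_injective_ringHom (stabChar z) (stabChar_injective z)

/-- **(H1)** If `f` is holomorphic and `Γ`-invariant and `f - f z` vanishes to finite order `n`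
at `z`, then the order of the stabilizer of `z` in `Γ` divides `2 n`. -/
theorem card_inf_stabilizer_dvd (Γ : Subgroup SL(2, ℤ)) (hf : MDiff f)
    (hinv : ∀ γ ∈ Γ, ∀ w : ℍ, f (γ • w) = f w) {n : ℕ}
    (hn : ordAt (fun w => f w - f z) z = n) :
    Nat.card ↥(Γ ⊓ MulAction.stabilizer SL(2, ℤ) z) ∣ 2 * n := by
  set K : Subgroup SL(2, ℤ) := Γ ⊓ MulAction.stabilizer SL(2, ℤ) z with hK
  let ι : K →* MulAction.stabilizer SL(2, ℤ) z := Subgroup.inclusion inf_le_right
  have hι : Function.Injective ι := Subgroup.inclusion_injective inf_le_right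
  let χ : K →* ℂ := (stabChar z).comp ι
  have hχ : Function.Injective χ := (stabChar_injective z).comp hι
  have : Finite K := Finite.of_injective ι hι
  have : IsCyclic K := isCyclic_of_injective_ringHom χ hχ
  obtain ⟨k₀, hk₀⟩ := IsCyclic.exists_generator (α := K)
  have hcard : orderOf k₀ = Nat.card K := orderOf_eq_card_of_forall_mem_zpowers hk₀
  rw [← hcard]
  apply orderOf_dvd_of_pow_eq_one
  apply hχ
  rw [map_pow, map_one]
  have hk₀Γ : (k₀ : SL(2, ℤ)) ∈ Γ := (Subgroup.mem_inf.mp k₀.2).1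
  have hk₀z : (k₀ : SL(2, ℤ)) • z = z := MulAction.mem_stabilizer_iff.mp (Subgroup.mem_inf.mp k₀.2).2
  exact denom_pow_two_mul_ordAt hf (k₀ : SL(2, ℤ)) hk₀z (hinv _ hk₀Γ) hn

/-- If `-1 ∈ Γ`, the stabilizer of `z` in `Γ` has even order. -/
theorem two_dvd_card_inf_stabilizer (Γ : Subgroup SL(2, ℤ)) (hneg : (-1 : SL(2, ℤ)) ∈ Γ) (z : ℍ) :
    2 ∣ Nat.card ↥(Γ ⊓ MulAction.stabilizer SL(2, ℤ) z) := by
  have hmem : (-1 : SL(2, ℤ)) ∈ Γ ⊓ MulAction.stabilizer SL(2, ℤ) z := by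
    refine Subgroup.mem_inf.mpr ⟨hneg, MulAction.mem_stabilizer_iff.mpr ?_⟩
    exact ModularGroup.SL_neg_smul 1 z |>.trans (one_smul _ z)
  have h2 : orderOf (⟨-1, hmem⟩ : ↥(Γ ⊓ MulAction.stabilizer SL(2, ℤ) z)) = 2 := by
    rw [← Subgroup.orderOf_coe]
    have hne : (-1 : SL(2, ℤ)) ≠ 1 := by decide
    have hsq : (-1 : SL(2, ℤ)) ^ 2 = 1 := by decide
    exact orderOf_eq_prime hsq hne
  have h3 := orderOf_dvd_natCard (⟨-1, hmem⟩ : ↥(Γ ⊓ MulAction.stabilizer SL(2, ℤ) z))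
  rwa [h2] at h3

/-- **(H1)**, order form: for `-1 ∈ Γ` and `f` holomorphic `Γ`-invariant vanishing at `z`, the order
of vanishing is at least `|Γ_z / ±1|`. -/
theorem card_inf_stabilizer_div_two_le_ordAt (Γ : Subgroup SL(2, ℤ))
    (hneg : (-1 : SL(2, ℤ)) ∈ Γ) (hf : MDiff f) (hinv : ∀ γ ∈ Γ, ∀ w : ℍ, f (γ • w) = f w)
    (hpos : 0 < ordAt f z) :
    ((Nat.card ↥(Γ ⊓ MulAction.stabilizer SL(2, ℤ) z) / 2 : ℕ) : ℕ∞) ≤ ordAt f z := by
  have hfz : f z = 0 := (ordAt_pos_iff hf).mp hpos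
  have e : (fun w => f w - f z) = f := by
    funext w
    rw [hfz, sub_zero]
  rcases eq_or_ne (ordAt f z) ⊤ with htop | htop
  · rw [htop]
    exact le_top
  · obtain ⟨n, hn⟩ := ENat.ne_top_iff_exists.mp htop
    have hn' : ordAt (fun w => f w - f z) z = n := by rw [e]; exact hn.symm
    have hdvd := card_inf_stabilizer_dvd Γ hf hinv hn'
    obtain ⟨m, hm⟩ := two_dvd_card_inf_stabilizer Γ hneg z
    rw [hm] at hdvd ⊢
    have hmn : m ∣ n := (Nat.mul_dvd_mul_iff_left (by norm_num)).mp hdvd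
    have hnpos : 0 < n := by
      rw [← hn] at hpos
      exact_mod_cast hpos
    rw [← hn, Nat.mul_div_cancel_left m (by norm_num)]
    exact_mod_cast Nat.le_of_dvd hnpos hmn

/-! ### Blueprint AN3b statements -/

namespace Elliptic

theorem trace_conj (g γ : SL(2, ℤ)) :
    (g * γ * g⁻¹) 0 0 + (g * γ * g⁻¹) 1 1 = γ 0 0 + γ 1 1 := by
  have h1 : Matrix.trace ((g * γ * g⁻¹ : SL(2, ℤ)) : Matrix (Fin 2) (Fin 2) ℤ) =
      Matrix.trace ((γ : SL(2, ℤ)) : Matrix (Fin 2) (Fin 2) ℤ) := by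
    rw [Matrix.SpecialLinearGroup.coe_mul, Matrix.trace_mul_comm, ← Matrix.SpecialLinearGroup.coe_mul]
    have e : g⁻¹ * (g * γ) = γ := by group
    rw [e]
  rw [Matrix.trace_fin_two, Matrix.trace_fin_two] at h1
  exact h1

theorem conj_smul (g γ : SL(2, ℤ)) (z : ℍ) (h : γ • z = z) : (g * γ * g⁻¹) • (g • z) = g • z := by
  rw [← mul_smul, mul_assoc, inv_mul_cancel, mul_one, mul_smul, h]

theorem two_dvd_of_pow (u : ℂ) (hu : u ^ 2 + 1 = 0) (m : ℕ) (h : u ^ (2 * m) = 1) : 2 ∣ m := by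
  have h2 : u ^ 2 = -1 := by linear_combination hu
  rw [pow_mul, h2] at h
  have hne : (-1 : ℂ) ≠ 1 := by norm_num
  exact even_iff_two_dvd.mp ((neg_one_pow_eq_one_iff_even hne).mp h)

theorem three_dvd_of_pow (u : ℂ) (hu : u ^ 2 - u + 1 = 0 ∨ u ^ 2 + u + 1 = 0) (m : ℕ)
    (h : u ^ (2 * m) = 1) : 3 ∣ m := by
  have h6 : u ^ 6 = 1 := by
    rcases hu with hu | hu
    · have h3 : u ^ 3 = -1 := by linear_combination (u + 1) * hu
      calc u ^ 6 = (u ^ 3) ^ 2 := by ring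
        _ = 1 := by rw [h3]; norm_num
    · have h3 : u ^ 3 = 1 := by linear_combination (u - 1) * hu
      calc u ^ 6 = (u ^ 3) ^ 2 := by ring
        _ = 1 := by rw [h3]; norm_num
  have hm : m = 3 * (m / 3) + m % 3 := (Nat.div_add_mod m 3).symm
  have hr : u ^ (2 * (m % 3)) = 1 := by
    have e : u ^ (2 * m) = (u ^ 6) ^ (m / 3) * u ^ (2 * (m % 3)) := by
      rw [← pow_mul, ← pow_add]
      congr 1
      omega
    rw [e, h6, one_pow, one_mul] at h
    exact h
  have hlt : m % 3 < 3 := Nat.mod_lt _ (by norm_num)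
  have h0 : m % 3 = 0 := by
    by_contra hne
    have hcases : m % 3 = 1 ∨ m % 3 = 2 := by omega
    rcases hcases with h1 | h1
    · rw [h1] at hr
      have hr2 : u ^ 2 = 1 := by simpa using hr
      rcases hu with hu | hu
      · -- u = 2
        have hu2 : u = 2 := by linear_combination hr2 - hu
        rw [hu2] at hr2
        norm_num at hr2
      · have hu2 : u = -2 := by linear_combination hu - hr2
        rw [hu2] at hr2
        norm_num at hr2
    · rw [h1] at hr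
      have hr4 : u ^ 4 = 1 := by simpa using hr
      rcases hu with hu | hu
      · -- u^3 = -1, so u^4 = -u, u = -1
        have hu1 : u = -1 := by linear_combination (u ^ 2 + u) * hu - hr4
        rw [hu1] at hu
        norm_num at hu
      · have hu1 : u = 1 := by linear_combination hr4 - (u ^ 2 - u) * hu
        rw [hu1] at hu
        norm_num at hu
  exact Nat.dvd_of_mod_eq_zero h0

end Elliptic

theorem S_smul_I : ModularGroup.S • UpperHalfPlane.I = UpperHalfPlane.I := by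
  have : ModularGroup.S ∈ MulAction.stabilizer SL(2, ℤ) UpperHalfPlane.I := by
    rw [stabilizer_I]
    exact Subgroup.mem_zpowers _
  exact MulAction.mem_stabilizer_iff.mp this

theorem ST_smul_rho : (ModularGroup.S * ModularGroup.T) • rho = rho := by
  have : ModularGroup.S * ModularGroup.T ∈ MulAction.stabilizer SL(2, ℤ) rho := by
    rw [stabilizer_rho]
    exact Subgroup.mem_zpowers _
  exact MulAction.mem_stabilizer_iff.mp this

theorem E₄_eq_zero_iff (z : ℍ) : E₄ z = 0 ↔ jFun z = 0 := (jFun_eq_zero_iff z).symm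

theorem jFun_sub_eq (z : ℍ) : jFun z - 1728 = E₆ z ^ 2 / ModularForm.discriminant z := by
  have hΔ := ModularForm.discriminant_ne_zero z
  have h := ModularForm.discriminant_eq_E₄_cube_sub_E₆_sq z
  unfold jFun
  rw [eq_div_iff hΔ, sub_mul, div_mul_cancel₀ _ hΔ]
  rw [h]
  ring

theorem E₆_eq_zero_iff (z : ℍ) : E₆ z = 0 ↔ jFun z = 1728 := by
  have hΔ := ModularForm.discriminant_ne_zero z
  have h := jFun_sub_eq z
  constructor
  · intro h6
    rw [h6] at h
    have : jFun z - 1728 = 0 := by rw [h]; simp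
    exact sub_eq_zero.mp this
  · intro hj
    rw [hj, sub_self] at h
    have h2 : E₆ z ^ 2 = 0 := by
      have := h.symm
      rcases div_eq_zero_iff.mp this with h3 | h3
      · exact h3
      · exact absurd h3 hΔ
    exact pow_eq_zero_iff (two_ne_zero) |>.mp h2

theorem stabilizer_of_ne {z : ℍ} (h4 : E₄ z ≠ 0) (h6 : E₆ z ≠ 0) (g : SL(2, ℤ)) (hg : g • z = z) :
    g = 1 ∨ g = -1 := by
  rcases smul_eq_self_imp g z hg with h | h | h | h
  · exact Or.inl h
  · exact Or.inr h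
  · exact absurd h h4
  · exact absurd h h6

theorem two_dvd_ordAt (f : ℍ → ℂ) (hf : MDiff f) (g : SL(2, ℤ))
    (hinv : ∀ z, f ((g * ModularGroup.S * g⁻¹) • z) = f z) (m : ℕ)
    (hm : ordAt f (g • UpperHalfPlane.I) = m) : 2 ∣ m := by
  rcases Nat.eq_zero_or_pos m with h0 | hpos
  · rw [h0]; exact dvd_zero 2
  set z : ℍ := g • UpperHalfPlane.I with hz
  set γ : SL(2, ℤ) := g * ModularGroup.S * g⁻¹ with hγ
  have hγz : γ • z = z := conj_smul g ModularGroup.S UpperHalfPlane.I S_smul_I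
  have hfz : f z = 0 := by
    apply (ordAt_pos_iff hf).mp
    rw [hm]
    exact_mod_cast hpos
  have e : (fun w => f w - f z) = f := by
    funext w
    rw [hfz, sub_zero]
  have hn : ordAt (fun w => f w - f z) z = m := by rw [e]; exact hm
  have hpow := denom_pow_two_mul_ordAt hf γ hγz hinv hn
  have hq := Stab.factor_quadratic γ z hγz
  have htr : γ 0 0 + γ 1 1 = 0 := by
    rw [hγ, trace_conj]
    decide
  have htr' : ((γ 0 0 : ℤ) : ℂ) + ((γ 1 1 : ℤ) : ℂ) = 0 := by exact_mod_cast htr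
  rw [htr'] at hq
  exact two_dvd_of_pow _ (by linear_combination hq) m hpow

theorem three_dvd_ordAt (f : ℍ → ℂ) (hf : MDiff f) (g : SL(2, ℤ))
    (hinv : ∀ z, f ((g * (ModularGroup.S * ModularGroup.T) * g⁻¹) • z) = f z) (m : ℕ)
    (hm : ordAt f (g • rho) = m) : 3 ∣ m := by
  rcases Nat.eq_zero_or_pos m with h0 | hpos
  · rw [h0]; exact dvd_zero 3
  set z : ℍ := g • rho with hz
  set γ : SL(2, ℤ) := g * (ModularGroup.S * ModularGroup.T) * g⁻¹ with hγ
  have hγz : γ • z = z := conj_smul g (ModularGroup.S * ModularGroup.T) rho ST_smul_rho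
  have hfz : f z = 0 := by
    apply (ordAt_pos_iff hf).mp
    rw [hm]
    exact_mod_cast hpos
  have e : (fun w => f w - f z) = f := by
    funext w
    rw [hfz, sub_zero]
  have hn : ordAt (fun w => f w - f z) z = m := by rw [e]; exact hm
  have hpow := denom_pow_two_mul_ordAt hf γ hγz hinv hn
  have hq := Stab.factor_quadratic γ z hγz
  have htr : γ 0 0 + γ 1 1 = 1 := by
    rw [hγ, trace_conj]
    decide
  have htr' : ((γ 0 0 : ℤ) : ℂ) + ((γ 1 1 : ℤ) : ℂ) = 1 := by exact_mod_cast htr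
  rw [htr'] at hq
  exact three_dvd_of_pow _ (Or.inl (by linear_combination hq)) m hpow

end Fermat.Agent.S20
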