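import Mathlib
import Fermat.Agent.S20.LevelOneBasic

/-!
# S20 level-one input (J1): the `j`-function separates `SL(2,ℤ)`-orbits

`jFun z = jFun w ↔ ∃ γ : SL(2, ℤ), γ • z = w`, without the valence formula:
equal `j`-values give a homothety factor `c` with `E₄ w = c⁴ E₄ z`, `E₆ w = c⁶ E₆ z`; by the
structure of level-one forms every level-one form scales accordingly, in particular all the
lattice sums `G_k`; so the Weierstrass `℘`-functions of the two lattices agree near `0`, hence
have the same poles, hence the lattices coincide.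
-/

set_option autoImplicit false

open UpperHalfPlane ModularForm EisensteinSeries
open scoped MatrixGroups Manifold Topology

namespace Fermat.Agent.S20

namespace JInj

/-- A twelfth root of unity with prescribed 4th and 6th powers. -/
theorem exists_root_adjust (ω ε : ℂ) (hω : ω ^ 3 = 1) (hε : ε ^ 2 = 1) :
    ∃ ζ : ℂ, ζ ≠ 0 ∧ ζ ^ 4 = ω ∧ ζ ^ 6 = ε ∧ ζ ^ 12 = 1 := by
  have hε' : ε = 1 ∨ ε = -1 := by
    have : (ε - 1) * (ε + 1) = 0 := by ring_nf; rw [hε]; ring
    rcases mul_eq_zero.mp this with h | h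
    · left; linear_combination h
    · right; linear_combination h
  have hω0 : ω ≠ 0 := by
    rintro rfl; simp at hω
  rcases hε' with rfl | rfl
  · refine ⟨ω, hω0, ?_, ?_, ?_⟩
    · calc ω ^ 4 = ω ^ 3 * ω := by ring
        _ = ω := by rw [hω, one_mul]
    · calc ω ^ 6 = (ω ^ 3) ^ 2 := by ring
        _ = 1 := by rw [hω]; ring
    · calc ω ^ 12 = (ω ^ 3) ^ 4 := by ring
        _ = 1 := by rw [hω]; ring
  · refine ⟨ω * Complex.I, mul_ne_zero hω0 Complex.I_ne_zero, ?_, ?_, ?_⟩
    · calc (ω * Complex.I) ^ 4 = ω ^ 3 * ω * (Complex.I ^ 2) ^ 2 := by ring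
        _ = ω := by rw [hω, Complex.I_sq]; ring
    · calc (ω * Complex.I) ^ 6 = (ω ^ 3) ^ 2 * (Complex.I ^ 2) ^ 3 := by ring
        _ = -1 := by rw [hω, Complex.I_sq]; ring
    · calc (ω * Complex.I) ^ 12 = (ω ^ 3) ^ 4 * (Complex.I ^ 2) ^ 6 := by ring
        _ = 1 := by rw [hω, Complex.I_sq]; ring

theorem exists_cube_root_unity (a b : ℂ) (h : a ^ 3 = b ^ 3) :
    ∃ ω : ℂ, ω ^ 3 = 1 ∧ a = ω * b := by
  by_cases hb : b = 0
  · subst hb
    have : a = 0 := by
      have : a ^ 3 = 0 := by rw [h]; ring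
      exact pow_eq_zero_iff (by norm_num) |>.mp this
    exact ⟨1, by ring, by rw [this]; ring⟩
  · refine ⟨a / b, ?_, by field_simp⟩
    rw [div_pow, h, div_self (pow_ne_zero _ hb)]

theorem exists_sq_root_unity (a b : ℂ) (h : a ^ 2 = b ^ 2) :
    ∃ ε : ℂ, ε ^ 2 = 1 ∧ a = ε * b := by
  by_cases hb : b = 0
  · subst hb
    have : a = 0 := by
      have : a ^ 2 = 0 := by rw [h]; ring
      exact pow_eq_zero_iff (by norm_num) |>.mp this
    exact ⟨1, by ring, by rw [this]; ring⟩
  · refine ⟨a / b, ?_, by field_simp⟩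
    rw [div_pow, h, div_self (pow_ne_zero _ hb)]

/-- Step A: equal `j`-values give a homothety factor for `E₄`, `E₆`. -/
theorem exists_scale_of_jFun_eq {z w : ℍ} (h : jFun z = jFun w) :
    ∃ c : ℂ, c ≠ 0 ∧ E₄ w = c ^ 4 * E₄ z ∧ E₆ w = c ^ 6 * E₆ z := by
  have hΔz := discriminant_ne_zero z
  have hΔw := discriminant_ne_zero w
  have e1 : E₄ z ^ 3 * discriminant w = E₄ w ^ 3 * discriminant z := by
    unfold jFun at h
    field_simp at h
    linear_combination h
  have dz := discriminant_eq_E₄_cube_sub_E₆_sq z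
  have dw := discriminant_eq_E₄_cube_sub_E₆_sq w
  have e2 : E₆ z ^ 2 * discriminant w = E₆ w ^ 2 * discriminant z := by
    have dz' : E₆ z ^ 2 = E₄ z ^ 3 - 1728 * discriminant z := by rw [dz]; ring
    have dw' : E₆ w ^ 2 = E₄ w ^ 3 - 1728 * discriminant w := by rw [dw]; ring
    rw [dz', dw']
    linear_combination e1
  obtain ⟨μ, hμ⟩ : ∃ μ : ℂ, μ ^ 12 = discriminant w / discriminant z :=
    IsAlgClosed.exists_pow_nat_eq _ (by norm_num)
  have hμ0 : μ ≠ 0 := by
    rintro rfl
    have : discriminant w / discriminant z ≠ 0 := div_ne_zero hΔw hΔz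
    apply this
    rw [← hμ]; ring
  have hμ' : μ ^ 12 * discriminant z = discriminant w := by
    rw [hμ]; field_simp
  obtain ⟨ω, hω, hω'⟩ := exists_cube_root_unity (E₄ w) (μ ^ 4 * E₄ z) (by
    have : (μ ^ 4 * E₄ z) ^ 3 * discriminant z = E₄ w ^ 3 * discriminant z := by
      rw [← e1, ← hμ']; ring
    exact (mul_right_cancel₀ hΔz this).symm)
  obtain ⟨ε, hε, hε'⟩ := exists_sq_root_unity (E₆ w) (μ ^ 6 * E₆ z) (by
    have : (μ ^ 6 * E₆ z) ^ 2 * discriminant z = E₆ w ^ 2 * discriminant z := by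
      rw [← e2, ← hμ']; ring
    exact (mul_right_cancel₀ hΔz this).symm)
  obtain ⟨ζ, hζ0, hζ4, hζ6, -⟩ := exists_root_adjust ω ε hω hε
  refine ⟨ζ * μ, mul_ne_zero hζ0 hμ0, ?_, ?_⟩
  · rw [hω', mul_pow, hζ4]; ring
  · rw [hε', mul_pow, hζ6]; ring

/-- Decomposition of a level one form: multiple of a form with constant term `1` plus `Δ` times
a form of weight `k - 12`. -/
theorem exists_decomp {k : ℤ} (f g : ModularForm 𝒮ℒ k) (hg : (qExpansion 1 g).coeff 0 = 1) :
    ∃ (a : ℂ) (h : ModularForm 𝒮ℒ (k - 12)),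
      ∀ z : ℍ, f z = a * g z + discriminant z * h z := by
  set a : ℂ := (qExpansion 1 f).coeff 0 with ha
  have hcusp : (qExpansion 1 (⇑(f - a • g : ModularForm 𝒮ℒ k))).coeff 0 = 0 := by
    have h1 : qExpansion 1 (⇑(f - a • g : ModularForm 𝒮ℒ k)) =
        qExpansion 1 f - a • qExpansion 1 g := by
      have e1 := ModularForm.qExpansion_sub one_pos one_mem_strictPeriods_SL f (a • g)
      have e2 := ModularForm.qExpansion_smul one_pos one_mem_strictPeriods_SL a g
      rw [← e2]
      exact e1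
    rw [h1, map_sub, PowerSeries.coeff_smul, hg, ha]
    simp
  refine ⟨a, CuspForm.discriminantEquiv (toCuspForm (f - a • g) hcusp), fun z => ?_⟩
  rw [discriminant_mul_discriminantEquiv_apply, toCuspForm_apply]
  simp

theorem disc_scale {z w : ℍ} {c : ℂ} (h4 : E₄ w = c ^ 4 * E₄ z)
    (h6 : E₆ w = c ^ 6 * E₆ z) : discriminant w = c ^ 12 * discriminant z := by
  rw [discriminant_eq_E₄_cube_sub_E₆_sq, discriminant_eq_E₄_cube_sub_E₆_sq, h4, h6]
  ring

/-- Step B: all level-one forms scale. -/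
theorem levelOne_scale {z w : ℍ} {c : ℂ} (h4 : E₄ w = c ^ 4 * E₄ z)
    (h6 : E₆ w = c ^ 6 * E₆ z) :
    ∀ (k : ℕ) (f : ModularForm 𝒮ℒ (k : ℤ)), f w = c ^ k * f z := by
  intro k
  induction k using Nat.strong_induction_on with
  | _ k ih =>
  intro f
  -- reduction step given `g`
  have step : ∀ g : ModularForm 𝒮ℒ (k : ℤ), (qExpansion 1 g).coeff 0 = 1 →
      g w = c ^ k * g z → f w = c ^ k * f z := by
    intro g hg hgs
    obtain ⟨a, h, hh⟩ := exists_decomp f g hg
    have hhs : discriminant w * h w = c ^ k * (discriminant z * h z) := by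
      by_cases hk12 : k < 12
      · have : (k : ℤ) - 12 < 0 := by omega
        have h0 := ModularFormClass.levelOne_neg_weight_eq_zero this h
        simp [h0]
      · push Not at hk12
        have e : (k : ℤ) - 12 = ((k - 12 : ℕ) : ℤ) := by omega
        have := ih (k - 12) (by omega) (ModularForm.mcast e h)
        rw [ModularForm.mcast_apply, ModularForm.mcast_apply] at this
        rw [this, disc_scale h4 h6]
        have : c ^ k = c ^ 12 * c ^ (k - 12) := by
          rw [← pow_add]; congr 1; omega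
        rw [this]; ring
    rw [hh w, hh z, hgs, hhs]; ring
  rcases Nat.even_or_odd k with hev | hodd
  · -- even weight
    by_cases hk0 : k = 0
    · subst hk0
      obtain ⟨a, ha⟩ := ModularFormClass.levelOne_weight_zero_const f
      simp [ha]
    by_cases hk2 : k = 2
    · subst hk2
      have := rank_zero_iff_forall_zero.mp levelOne_weight_two_rank_zero f
      simp [this]
    by_cases hk4 : k = 4
    · subst hk4
      exact step E₄ (E_qExpansion_coeff_zero _ ⟨2, rfl⟩) h4
    by_cases hk6 : k = 6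
    · subst hk6
      exact step E₆ (E_qExpansion_coeff_zero _ ⟨3, rfl⟩) h6
    have hk8 : 8 ≤ k := by
      obtain ⟨r, hr⟩ := hev
      omega
    obtain ⟨m, rfl⟩ : ∃ m, k = m + 4 := ⟨k - 4, by omega⟩
    have hm3 : 3 ≤ m := by omega
    have hmev : Even m := by
      obtain ⟨r, hr⟩ := hev
      exact ⟨r - 2, by omega⟩
    have e : ((4 : ℕ) : ℤ) + (m : ℤ) = ((m + 4 : ℕ) : ℤ) := by push_cast; ring
    refine step (ModularForm.mcast e (E₄.mul (E hm3))) ?_ ?_
    · rw [ModularForm.qExpansion_mcast,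
        ModularForm.qExpansion_mul one_pos one_mem_strictPeriods_SL]
      simp [PowerSeries.coeff_mul, -PowerSeries.coeff_zero_eq_constantCoeff,
        E_qExpansion_coeff_zero _ ⟨2, rfl⟩, E_qExpansion_coeff_zero _ hmev]
    · rw [ModularForm.mcast_apply, ModularForm.mcast_apply]
      change E₄ w * E hm3 w = c ^ (m + 4) * (E₄ z * E hm3 z)
      rw [h4, ih m (by omega) (E hm3)]
      ring
  · have hodd' : Odd (k : ℤ) := by exact_mod_cast hodd
    have := ModularForm.levelOne_odd_weight_eq_zero hodd' f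
    simp [this]

/-- The period pair `(c z, c)`. -/
noncomputable def pp (c : ℂ) (hc : c ≠ 0) (z : ℍ) : PeriodPair where
  ω₁ := c * z
  ω₂ := c
  indep := by
    rw [LinearIndependent.pair_iff]
    intro s t hst
    have h1 : c * ((s : ℂ) * z + t) = 0 := by
      simp only [Complex.real_smul] at hst
      linear_combination hst
    have h2 : (s : ℂ) * z + t = 0 := by
      rcases mul_eq_zero.mp h1 with h | h
      · exact absurd h hc
      · exact h
    have h3 := congrArg Complex.im h2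
    simp at h3
    have hs : s = 0 := by
      rcases h3 with h | h
      · exact h
      · exact absurd h z.im_ne_zero
    subst hs
    simp at h2
    exact ⟨rfl, h2⟩

@[simp] theorem pp_ω₁ (c : ℂ) (hc : c ≠ 0) (z : ℍ) : (pp c hc z).ω₁ = c * z := rfl
@[simp] theorem pp_ω₂ (c : ℂ) (hc : c ≠ 0) (z : ℍ) : (pp c hc z).ω₂ = c := rfl

/-- Step C: the lattice sum of `(c z, c)` in terms of the Eisenstein summands. -/
theorem pp_G (c : ℂ) (hc : c ≠ 0) (z : ℍ) (k : ℕ) :
    (pp c hc z).G k = (c ^ k)⁻¹ * ∑' v : Fin 2 → ℤ, eisSummand k v z := by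
  unfold PeriodPair.G
  rw [← (pp c hc z).latticeEquivProd.symm.toEquiv.tsum_eq, ← (finTwoArrowEquiv ℤ).symm.tsum_eq,
    ← tsum_mul_left]
  refine tsum_congr fun x => ?_
  simp only [LinearEquiv.coe_toEquiv, PeriodPair.latticeEquiv_symm_apply, pp_ω₁, pp_ω₂,
    finTwoArrowEquiv_symm_apply, eisSummand]
  simp only [Matrix.cons_val_zero, Matrix.cons_val_one, zpow_neg, zpow_natCast]
  rw [← mul_inv, ← mul_pow]
  congr 2
  ring

theorem eisSum_eq (z : ℍ) {k : ℕ} (hk : 3 ≤ k) :
    ∑' v : Fin 2 → ℤ, eisSummand k v z = riemannZeta k * (2 * E hk z) := by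
  rw [tsum_eisSummand_eq_riemannZeta_mul_eisensteinSeries hk z,
    show E hk z = (1 / 2 : ℂ) • eisensteinSeriesSIF (N := 1) 0 k z from rfl,
    eisensteinSeriesSIF_apply 0 k z]
  simp

/-- Step E: extracting the matrix from the lattice equality. -/
theorem exists_smul_of_lattice_eq {z w : ℍ} {c : ℂ} (hc : c ≠ 0)
    (h : (pp 1 one_ne_zero w).lattice = (pp c hc z).lattice) :
    ∃ γ : SL(2, ℤ), γ • z = w := by
  have hw : (w : ℂ) ∈ (pp c hc z).lattice := by
    rw [← h]
    simpa using (pp 1 one_ne_zero w).ω₁_mem_lattice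
  have h1 : (1 : ℂ) ∈ (pp c hc z).lattice := by
    rw [← h]
    simpa using (pp 1 one_ne_zero w).ω₂_mem_lattice
  have hcz : c * (z : ℂ) ∈ (pp 1 one_ne_zero w).lattice := by
    rw [h]
    simpa using (pp c hc z).ω₁_mem_lattice
  have hcc : c ∈ (pp 1 one_ne_zero w).lattice := by
    rw [h]
    simpa using (pp c hc z).ω₂_mem_lattice
  obtain ⟨a, b, hab⟩ := PeriodPair.mem_lattice.mp hw
  obtain ⟨c', d, hcd⟩ := PeriodPair.mem_lattice.mp h1
  obtain ⟨p, q, hpq⟩ := PeriodPair.mem_lattice.mp hcz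
  obtain ⟨r, s, hrs⟩ := PeriodPair.mem_lattice.mp hcc
  simp only [pp_ω₁, pp_ω₂, one_mul] at hab hcd hpq hrs
  -- hab : a * (c * z) + b * c = w ; hcd : c' * (c * z) + d * c = 1
  -- hpq : p * w + q = c * z ; hrs : r * w + s = c
  -- linear independence of `z`, `1` over `ℝ`
  have hind : ∀ x y : ℝ, (x : ℂ) * z + y = 0 → x = 0 ∧ y = 0 := by
    intro x y hxy
    have h3 := congrArg Complex.im hxy
    simp at h3
    have hx : x = 0 := by
      rcases h3 with h | h
      · exact h
      · exact absurd h z.im_ne_zero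
    subst hx
    simp at hxy
    exact ⟨rfl, hxy⟩
  -- c = r * w + s = r * (a c z + b c) + s * (c' c z + d c) ⇒ 1 = (r a + s c') z + (r b + s d)
  have e1 : ((r * a + s * c' : ℤ) : ℂ) * z + ((r * b + s * d - 1 : ℤ) : ℂ) = 0 := by
    have : c * ((r * a + s * c' : ℂ) * z + (r * b + s * d - 1)) = 0 := by
      linear_combination (r : ℂ) * hab + (s : ℂ) * hcd + hrs
    rcases mul_eq_zero.mp this with h | h
    · exact absurd h hc
    · push_cast; exact h
  have e2 : ((p * a + q * c' - 1 : ℤ) : ℂ) * z + ((p * b + q * d : ℤ) : ℂ) = 0 := by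
    have : c * ((p * a + q * c' - 1 : ℂ) * z + (p * b + q * d)) = 0 := by
      linear_combination (p : ℂ) * hab + (q : ℂ) * hcd + hpq
    rcases mul_eq_zero.mp this with h | h
    · exact absurd h hc
    · push_cast; exact h
  have e1' := hind ((r * a + s * c' : ℤ) : ℝ) ((r * b + s * d - 1 : ℤ) : ℝ) (by exact_mod_cast e1)
  have e2' := hind ((p * a + q * c' - 1 : ℤ) : ℝ) ((p * b + q * d : ℤ) : ℝ) (by exact_mod_cast e2)
  have f1 : r * a + s * c' = 0 := by exact_mod_cast e1'.1
  have f2 : r * b + s * d = 1 := by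
    have : r * b + s * d - 1 = 0 := by exact_mod_cast e1'.2
    linarith
  have f3 : p * a + q * c' = 1 := by
    have : p * a + q * c' - 1 = 0 := by exact_mod_cast e2'.1
    linarith
  have f4 : p * b + q * d = 0 := by exact_mod_cast e2'.2
  -- determinant is a unit
  have hdet : (a * d - b * c') * (p * s - q * r) = 1 := by
    linear_combination (r * b + s * d) * f3 + f2 - (r * a + s * c') * f4
  -- w = (a z + b) / (c' z + d)
  have hden : (c' : ℂ) * z + d ≠ 0 := by
    intro h0
    have : c * ((c' : ℂ) * z + d) = 1 := by linear_combination hcd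
    rw [h0, mul_zero] at this
    exact zero_ne_one this
  have hwz : (w : ℂ) = ((a : ℂ) * z + b) / ((c' : ℂ) * z + d) := by
    rw [eq_div_iff hden]
    have : c * ((c' : ℂ) * z + d) = 1 := by linear_combination hcd
    have hw' : (w : ℂ) = c * ((a : ℂ) * z + b) := by linear_combination -hab
    rw [hw']
    linear_combination ((a : ℂ) * z + b) * this
  have hwz' : (w : ℂ) * ((c' : ℂ) * z + d) = (a : ℂ) * z + b := by
    rw [hwz, div_mul_cancel₀ _ hden]
  -- positivity of the determinant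
  have hre := congrArg Complex.re hwz'
  have him := congrArg Complex.im hwz'
  simp only [Complex.mul_re, Complex.mul_im, Complex.add_re, Complex.add_im, Complex.intCast_re,
    Complex.intCast_im, zero_mul, sub_zero, add_zero] at hre him
  have hy : 0 < (z : ℂ).im := z.im_pos
  have hv : 0 < (w : ℂ).im := w.im_pos
  set x := (z : ℂ).re
  set y := (z : ℂ).im
  set u := (w : ℂ).re
  set v := (w : ℂ).im
  have hN : 0 < ((c' : ℝ) * x + d) ^ 2 + ((c' : ℝ) * y) ^ 2 := by
    by_contra hN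
    have h0 : ((c' : ℝ) * x + d) ^ 2 + ((c' : ℝ) * y) ^ 2 = 0 :=
      le_antisymm (not_lt.mp hN) (by positivity)
    have h1 : (c' : ℝ) * x + d = 0 := by nlinarith [sq_nonneg ((c' : ℝ) * x + d), sq_nonneg ((c' : ℝ) * y)]
    have h2 : (c' : ℝ) * y = 0 := by nlinarith [sq_nonneg ((c' : ℝ) * x + d), sq_nonneg ((c' : ℝ) * y)]
    apply hden
    apply Complex.ext
    · simp only [Complex.mul_re, Complex.add_re, Complex.intCast_re, Complex.intCast_im, zero_mul,
        sub_zero, Complex.zero_re]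
      exact h1
    · simp only [Complex.mul_im, Complex.add_im, Complex.intCast_re, Complex.intCast_im, zero_mul,
        add_zero, Complex.zero_im]
      exact h2
  have hD : ((a * d - b * c' : ℤ) : ℝ) * y = v * (((c' : ℝ) * x + d) ^ 2 + ((c' : ℝ) * y) ^ 2) := by
    push_cast
    linear_combination ((c' : ℝ) * y) * hre - ((c' : ℝ) * x + d) * him
  have hDpos : 0 < a * d - b * c' := by
    have : (0 : ℝ) < ((a * d - b * c' : ℤ) : ℝ) * y := by rw [hD]; positivity
    have : (0 : ℝ) < ((a * d - b * c' : ℤ) : ℝ) := by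
      by_contra hneg
      have := mul_nonpos_of_nonpos_of_nonneg (not_lt.mp hneg) hy.le
      linarith
    exact_mod_cast this
  have hD1 : a * d - b * c' = 1 := by
    rcases Int.eq_one_or_neg_one_of_mul_eq_one hdet with h | h
    · exact h
    · omega
  let γ : SL(2, ℤ) := ⟨!![a, b; c', d], by rw [Matrix.det_fin_two_of]; exact hD1⟩
  refine ⟨γ, ?_⟩
  apply UpperHalfPlane.ext
  have hγ := UpperHalfPlane.coe_specialLinearGroup_apply γ z
  rw [hγ, hwz]
  simp [γ]

open PeriodPair in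
/-- Step D: lattices with the same Eisenstein sums `G_k`, `k ≥ 3`, coincide (one inclusion). -/
theorem lattice_le_of_G_eq (L L' : PeriodPair) (h : ∀ k : ℕ, 3 ≤ k → L.G k = L'.G k) :
    L.lattice ≤ L'.lattice := by
  -- same power series at 0
  have hser : (fun i : ℕ => if i = 0 then ℘[L - (0:ℂ)] 0 else (i + 1) * L.sumInvPow 0 (i + 2)) =
      (fun i : ℕ => if i = 0 then ℘[L' - (0:ℂ)] 0 else (i + 1) * L'.sumInvPow 0 (i + 2)) := by
    funext i
    by_cases hi : i = 0
    · simp [hi]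
    · simp only [hi, if_false, sumInvPow_zero]
      rw [h (i + 2) (by omega)]
  have h1 := L.hasFPowerSeriesAt_weierstrassPExcept 0
  have h2 := L'.hasFPowerSeriesAt_weierstrassPExcept 0
  rw [hser] at h1
  have hev : ℘[L - (0:ℂ)] =ᶠ[𝓝 0] ℘[L' - (0:ℂ)] := by
    filter_upwards [h1.eventually_hasSum_sub, h2.eventually_hasSum_sub] with y hy1 hy2
    exact hy1.unique hy2
  -- the common domain
  set S : Set ℂ := ((L.lattice : Set ℂ) \ {0}) ∪ ((L'.lattice : Set ℂ) \ {0}) with hS
  have hScount : S.Countable := by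
    apply Set.Countable.union
    · exact .mono Set.sdiff_subset (countable_of_Lindelof_of_discrete (X := L.lattice))
    · exact .mono Set.sdiff_subset (countable_of_Lindelof_of_discrete (X := L'.lattice))
  have hconn : IsPreconnected Sᶜ :=
    (Set.Countable.isConnected_compl_of_one_lt_rank (by simp) hScount).2
  have han1 : AnalyticOnNhd ℂ ℘[L - (0:ℂ)] Sᶜ :=
    (L.analyticOnNhd_weierstrassPExcept 0).mono (by
      intro x hx hx'
      exact hx (Or.inl hx'))
  have han2 : AnalyticOnNhd ℂ ℘[L' - (0:ℂ)] Sᶜ :=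
    (L'.analyticOnNhd_weierstrassPExcept 0).mono (by
      intro x hx hx'
      exact hx (Or.inr hx'))
  have h0S : (0:ℂ) ∈ Sᶜ := by simp [hS]
  have heq : Set.EqOn ℘[L - (0:ℂ)] ℘[L' - (0:ℂ)] Sᶜ :=
    han1.eqOn_of_preconnected_of_eventuallyEq han2 hconn h0S hev
  intro l hl
  by_contra hl'
  have hl0 : l ≠ 0 := by
    rintro rfl
    exact hl' (zero_mem _)
  -- near `l`, `℘[L]` agrees with an analytic function
  have hord := L.order_weierstrassP l hl
  have hg : AnalyticAt ℂ (fun x : ℂ => ℘[L' - (0:ℂ)] x + 1 / x ^ 2) l := by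
    have a1 : AnalyticAt ℂ ℘[L' - (0:ℂ)] l :=
      L'.analyticOnNhd_weierstrassPExcept 0 l (fun hx => hl' hx.1)
    have a2 : AnalyticAt ℂ (fun x : ℂ => 1 / x ^ 2) l := by
      fun_prop (disch := simpa using hl0)
    exact a1.add a2
  have hcong : ℘[L] =ᶠ[𝓝[≠] l] (fun x : ℂ => ℘[L' - (0:ℂ)] x + 1 / x ^ 2) := by
    have m1 := L.compl_lattice_sdiff_singleton_mem_nhds l
    have m2 := L'.compl_lattice_sdiff_singleton_mem_nhds l
    have m3 : {x : ℂ | x ≠ 0} ∈ 𝓝 l := isOpen_ne.mem_nhds hl0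
    have : ∀ᶠ x in 𝓝[≠] l, x ∈ ((L.lattice : Set ℂ) \ {l})ᶜ ∧ x ∈ ((L'.lattice : Set ℂ) \ {l})ᶜ ∧ x ≠ 0 ∧ x ≠ l := by
      have hm : ∀ᶠ x in 𝓝[≠] l, x ∈ ((L.lattice : Set ℂ) \ {l})ᶜ ∧ x ∈ ((L'.lattice : Set ℂ) \ {l})ᶜ ∧ x ≠ 0 :=
        nhdsWithin_le_nhds (Filter.inter_mem m1 (Filter.inter_mem m2 m3))
      filter_upwards [hm, self_mem_nhdsWithin] with x hx hx'
      exact ⟨hx.1, hx.2.1, hx.2.2, hx'⟩
    filter_upwards [this] with x hx
    obtain ⟨hx1, hx2, hx3, hx4⟩ := hx
    have hxS : x ∈ Sᶜ := by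
      intro hxS
      rcases hxS with hxS | hxS
      · exact hx1 ⟨hxS.1, hx4⟩
      · exact hx2 ⟨hxS.1, hx4⟩
    have e1 := heq hxS
    have e2 := L.weierstrassPExcept_def 0 x
    simp only [ZeroMemClass.coe_zero, sub_zero] at e2
    rw [← e1, e2]
    simp
  have := meromorphicOrderAt_congr hcong
  rw [hord] at this
  have hnn := hg.meromorphicOrderAt_nonneg
  rw [← this] at hnn
  exact absurd hnn (by decide)

theorem lattice_eq_of_G_eq (L L' : PeriodPair) (h : ∀ k : ℕ, 3 ≤ k → L.G k = L'.G k) :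
    L.lattice = L'.lattice :=
  le_antisymm (lattice_le_of_G_eq L L' h) (lattice_le_of_G_eq L' L fun k hk => (h k hk).symm)

end JInj

open JInj in
/-- **(J1)** The `j`-function separates `SL(2,ℤ)`-orbits on the upper half plane. -/
theorem jFun_eq_iff (z w : ℍ) : jFun z = jFun w ↔ ∃ γ : SL(2, ℤ), γ • z = w := by
  constructor
  · intro h
    obtain ⟨c, hc, h4, h6⟩ := exists_scale_of_jFun_eq h
    have hsum : ∀ k : ℕ, 3 ≤ k →
        ∑' v : Fin 2 → ℤ, eisSummand k v w = c ^ k * ∑' v : Fin 2 → ℤ, eisSummand k v z := by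
      intro k hk
      rw [eisSum_eq w hk, eisSum_eq z hk, levelOne_scale h4 h6 k (E hk)]
      ring
    have hc' : c⁻¹ ≠ 0 := inv_ne_zero hc
    have hG : ∀ k : ℕ, 3 ≤ k → (pp 1 one_ne_zero w).G k = (pp c⁻¹ hc' z).G k := by
      intro k hk
      rw [pp_G, pp_G, hsum k hk]
      simp
    exact exists_smul_of_lattice_eq hc' (lattice_eq_of_G_eq _ _ hG)
  · rintro ⟨γ, rfl⟩
    exact (jFun_smul γ z).symm

end Fermat.Agent.S20
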