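import Mathlib
import Fermat.Agent.S20.LevelOneBasic
import Fermat.Agent.S20.Stab

/-!
# S20 level-one input (J3): orders of vanishing of `j − j(z)`

With `D = (2πi)⁻¹ d/dz`, the first Rankin–Cohen bracket `W = 4 E₄ · D E₆ − 6 D E₄ · E₆` is a
cusp form of weight 12 and level one, hence `W = c Δ`, and `c ≠ 0` because otherwise `D j = 0`.
Since `D j · 3456 Δ² = E₄² E₆ W`, the derivative of `j` vanishes exactly at the zeros of `E₄`
and `E₆`, and those zeros are simple.  Hence `j − j(z)` has order `1`, `2`, `3` at `z`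
according to `E₄ z ≠ 0 ∧ E₆ z ≠ 0`, `E₆ z = 0`, `E₄ z = 0`.
-/

set_option autoImplicit false

open UpperHalfPlane ModularForm EisensteinSeries Filter Function Derivative
open scoped MatrixGroups Manifold Topology Derivative

namespace Fermat.Agent.S20

namespace JOrder

local notation "𝕢" => Periodic.qParam
local notation "Δ" => ModularForm.discriminant

/-- `D F = q · φ'(q)` where `φ` is the cusp function. -/
theorem D_eq_qParam_mul {k : ℤ} (F : ModularForm 𝒮ℒ k) (z : ℍ) :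
    D F z = 𝕢 1 z * deriv (cuspFunction 1 F) (𝕢 1 z) := by
  have hq : ‖𝕢 1 (z : ℂ)‖ < 1 := Periodic.norm_qParam_lt_one one_pos z.im_pos
  have hφ : DifferentiableAt ℂ (cuspFunction 1 F) (𝕢 1 z) :=
    ModularFormClass.differentiableAt_cuspFunction F one_pos one_mem_strictPeriods_SL hq
  have hqd : HasDerivAt (𝕢 1) (2 * Real.pi * Complex.I * 𝕢 1 (z : ℂ)) (z : ℂ) := by
    unfold Periodic.qParam
    have h1 : HasDerivAt (fun w : ℂ => 2 * Real.pi * Complex.I * w / (1 : ℝ))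
        (2 * Real.pi * Complex.I) (z : ℂ) := by
      have := (hasDerivAt_id (z : ℂ)).const_mul (2 * Real.pi * Complex.I)
      simpa using this
    exact h1.cexp.congr_deriv (by ring)
  have hcomp : (⇑F ∘ ofComplex) =ᶠ[𝓝 (z : ℂ)] (cuspFunction 1 F ∘ 𝕢 1) := by
    filter_upwards [isOpen_upperHalfPlaneSet.mem_nhds z.im_pos] with w hw
    simp only [comp_apply, ofComplex_apply_of_im_pos hw]
    exact (SlashInvariantFormClass.eq_cuspFunction F ⟨w, hw⟩ one_mem_strictPeriods_SL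
      one_ne_zero).symm
  have hd : HasDerivAt (⇑F ∘ ofComplex)
      (deriv (cuspFunction 1 F) (𝕢 1 z) * (2 * Real.pi * Complex.I * 𝕢 1 (z : ℂ))) (z : ℂ) :=
    (hφ.hasDerivAt.comp (z : ℂ) hqd).congr_of_eventuallyEq hcomp
  simp only [normalizedDerivOfComplex, hd.deriv]
  have : (2 * (Real.pi : ℂ) * Complex.I) ≠ 0 := Complex.two_pi_I_ne_zero
  field_simp

/-- The normalized derivative of a level-one modular form vanishes at `i∞`. -/
theorem isZeroAtImInfty_D {k : ℤ} (F : ModularForm 𝒮ℒ k) : IsZeroAtImInfty (D F) := by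
  have han : AnalyticAt ℂ (cuspFunction 1 F) 0 :=
    ModularFormClass.analyticAt_cuspFunction_zero F one_pos one_mem_strictPeriods_SL
  have hcont : ContinuousAt (fun q : ℂ => q * deriv (cuspFunction 1 F) q) 0 :=
    continuousAt_id.mul han.deriv.continuousAt
  have ht : Tendsto (fun τ : ℍ => 𝕢 1 (τ : ℂ)) atImInfty (𝓝 0) := qParam_tendsto_atImInfty one_pos
  have := hcont.tendsto.comp ht
  simp only [zero_mul] at this
  refine this.congr fun τ => ?_
  simp only [comp_apply]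
  exact (D_eq_qParam_mul F τ).symm

theorem slash_eq {k : ℤ} (F : ModularForm 𝒮ℒ k) (γ : SL(2, ℤ)) : (⇑F ∣[k] γ) = ⇑F :=
  F.slash_action_eq' _ ⟨γ, rfl⟩

/-- Transformation law of `D F` for a level-one form `F` of weight `k`. -/
theorem D_smul {k : ℤ} (F : ModularForm 𝒮ℒ k) (γ : SL(2, ℤ)) (z : ℍ) :
    D F (γ • z) = denom γ z ^ (k + 2) *
      (D F z + k * (2 * Real.pi * Complex.I)⁻¹ * ((γ 1 0 : ℂ) / denom γ z) * F z) := by
  have h := congrFun (normalizedDerivOfComplex_SL_slash (k := k) (ModularFormClass.holo F)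
    (γ := γ)) z
  rw [slash_eq F γ] at h
  simp only [Pi.sub_apply, ModularForm.SL_slash_apply] at h
  have hd : denom γ z ≠ 0 := denom_ne_zero _ _
  have hd' : denom γ z ^ (k + 2) ≠ 0 := zpow_ne_zero _ hd
  rw [h, zpow_neg]
  field_simp
  ring

/-- The function `4 E₄ DE₆ − 6 DE₄ E₆` (first Rankin–Cohen bracket). -/
noncomputable def Wfun : ℍ → ℂ := fun z => 4 * E₄ z * D E₆ z - 6 * D E₄ z * E₆ z

theorem D_smul' {k : ℤ} (F : ModularForm 𝒮ℒ k) (γ : SL(2, ℤ)) (z : ℍ) (n : ℕ)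
    (hn : k + 2 = (n : ℤ)) :
    D F (γ • z) = denom γ z ^ n *
      (D F z + k * (2 * Real.pi * Complex.I)⁻¹ * ((γ 1 0 : ℂ) / denom γ z) * F z) := by
  rw [D_smul, hn, zpow_natCast]

theorem D_E₄_smul (γ : SL(2, ℤ)) (z : ℍ) :
    D E₄ (γ • z) = denom γ z ^ 6 *
      (D E₄ z + 4 * (2 * Real.pi * Complex.I)⁻¹ * ((γ 1 0 : ℂ) / denom γ z) * E₄ z) := by
  rw [D_smul' E₄ γ z 6 (by norm_num)]
  push_cast
  ring

theorem D_E₆_smul (γ : SL(2, ℤ)) (z : ℍ) :
    D E₆ (γ • z) = denom γ z ^ 8 *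
      (D E₆ z + 6 * (2 * Real.pi * Complex.I)⁻¹ * ((γ 1 0 : ℂ) / denom γ z) * E₆ z) := by
  rw [D_smul' E₆ γ z 8 (by norm_num)]
  push_cast
  ring

theorem E₄_smul' (γ : SL(2, ℤ)) (z : ℍ) : E₄ (γ • z) = denom γ z ^ 4 * E₄ z := by
  rw [E₄_smul]; norm_cast

theorem E₆_smul' (γ : SL(2, ℤ)) (z : ℍ) : E₆ (γ • z) = denom γ z ^ 6 * E₆ z := by
  rw [E₆_smul]; norm_cast

theorem Wfun_smul (γ : SL(2, ℤ)) (z : ℍ) : Wfun (γ • z) = denom γ z ^ 12 * Wfun z := by
  unfold Wfun
  rw [D_E₄_smul γ z, D_E₆_smul γ z, E₄_smul', E₆_smul']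
  ring

theorem Wfun_slash (γ : SL(2, ℤ)) : Wfun ∣[(12 : ℤ)] γ = Wfun := by
  funext z
  rw [ModularForm.SL_slash_apply, Wfun_smul, zpow_neg]
  have hd : denom γ z ^ 12 ≠ 0 := pow_ne_zero _ (denom_ne_zero _ _)
  have e : denom γ z ^ (12 : ℤ) = denom γ z ^ 12 := by norm_cast
  rw [e]
  field_simp

theorem mdiff_Wfun : MDiff Wfun := by
  have h4 : MDiff (⇑E₄) := ModularFormClass.holo E₄
  have h6 : MDiff (⇑E₆) := ModularFormClass.holo E₆
  have hD4 : MDiff (D ⇑E₄) := normalizedDerivOfComplex_mdifferentiable h4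
  have hD6 : MDiff (D ⇑E₆) := normalizedDerivOfComplex_mdifferentiable h6
  have h1 : MDiff (fun z : ℍ => 4 * E₄ z * D E₆ z) := (mdifferentiable_const.mul h4).mul hD6
  have h2 : MDiff (fun z : ℍ => 6 * D E₄ z * E₆ z) := (mdifferentiable_const.mul hD4).mul h6
  exact h1.sub h2

theorem isZeroAtImInfty_Wfun : IsZeroAtImInfty Wfun := by
  have b4 : IsBoundedAtImInfty (⇑E₄) := ModularFormClass.bdd_at_infty E₄
  have b6 : IsBoundedAtImInfty (⇑E₆) := ModularFormClass.bdd_at_infty E₆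
  have z4 : IsZeroAtImInfty (D ⇑E₄) := isZeroAtImInfty_D E₄
  have z6 : IsZeroAtImInfty (D ⇑E₆) := isZeroAtImInfty_D E₆
  have h1 : IsZeroAtImInfty (fun z : ℍ => 4 * E₄ z * D E₆ z) := by
    have := ((const_boundedAtFilter atImInfty (4 : ℂ)).mul b4).mul_zeroAtFilter z6
    exact this
  have h2 : IsZeroAtImInfty (fun z : ℍ => 6 * D E₄ z * E₆ z) := by
    have := (z6.boundedAtFilter).mul b6
    have := ((const_boundedAtFilter atImInfty (6 : ℂ)).mul_zeroAtFilter z4).mul_boundedAtFilter b6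
    exact this
  have := h1.add h2.neg
  refine this.congr' (Eventually.of_forall fun z => ?_)
  simp [Wfun, sub_eq_add_neg]

/-- `W` as a cusp form of weight 12. -/
noncomputable def Wform : CuspForm 𝒮ℒ 12 where
  toFun := Wfun
  slash_action_eq' A hA := by
    obtain ⟨γ, rfl⟩ := hA
    exact Wfun_slash γ
  holo' := mdiff_Wfun
  zero_at_cusps' hc := by
    rw [Subgroup.IsArithmetic.isCusp_iff_isCusp_SL2Z] at hc
    rw [OnePoint.isZeroAt_iff_forall_SL2Z hc]
    intro γ _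
    rw [Wfun_slash γ]
    exact isZeroAtImInfty_Wfun

theorem Wform_apply (z : ℍ) : Wform z = Wfun z := rfl

theorem tendsto_E₄ : Tendsto (fun z : ℍ => E₄ z) atImInfty (𝓝 1) := by
  have han := ModularFormClass.analyticAt_cuspFunction_zero E₄ one_pos one_mem_strictPeriods_SL
  have hc : ContinuousAt (cuspFunction 1 ⇑E₄) 0 := han.continuousAt
  have h0 : cuspFunction 1 ⇑E₄ 0 = 1 := by
    have := E_qExpansion_coeff_zero (k := 4) (by norm_num) ⟨2, rfl⟩
    rw [qExpansion_coeff] at this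
    simpa using this
  have ht := hc.tendsto.comp (qParam_tendsto_atImInfty (h := 1) one_pos)
  rw [h0] at ht
  refine ht.congr fun z => ?_
  exact SlashInvariantFormClass.eq_cuspFunction E₄ z one_mem_strictPeriods_SL one_ne_zero

theorem mdiff_disc : MDiff (fun z : ℍ => Δ z) := ModularFormClass.holo CuspForm.discriminant

/-- `1728 · DΔ = 3 E₄² DE₄ − 2 E₆ DE₆`. -/
theorem D_disc (z : ℍ) :
    1728 * D (fun w : ℍ => Δ w) z = 3 * E₄ z ^ 2 * D E₄ z - 2 * E₆ z * D E₆ z := by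
  have h4 : MDiff (⇑E₄) := ModularFormClass.holo E₄
  have h6 : MDiff (⇑E₆) := ModularFormClass.holo E₆
  have hfun : (1728 : ℂ) • (fun w : ℍ => Δ w) = (⇑E₄) ^ 3 - (⇑E₆) ^ 2 := by
    funext w
    simp only [Pi.smul_apply, Pi.sub_apply, Pi.pow_apply, smul_eq_mul]
    rw [discriminant_eq_E₄_cube_sub_E₆_sq]
    ring
  have h := congrFun (congrArg (fun F => D F) hfun) z
  beta_reduce at h
  rw [normalizedDerivOfComplex_smul _ _ mdiff_disc,
    normalizedDerivOfComplex_sub _ _ (h4.pow 3) (h6.pow 2),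
    normalizedDerivOfComplex_pow _ _ h4, normalizedDerivOfComplex_pow _ _ h6] at h
  simp only [Pi.smul_apply, Pi.sub_apply, Pi.mul_apply, Pi.pow_apply, smul_eq_mul,
    Pi.natCast_apply] at h
  rw [h]
  push_cast
  ring

/-- `D j · Δ + j · DΔ = 3 E₄² DE₄`. -/
theorem D_jFun_mul_disc (z : ℍ) :
    D jFun z * Δ z + jFun z * D (fun w : ℍ => Δ w) z = 3 * E₄ z ^ 2 * D E₄ z := by
  have h4 : MDiff (⇑E₄) := ModularFormClass.holo E₄
  have hfun : jFun * (fun w : ℍ => Δ w) = (⇑E₄) ^ 3 := by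
    funext w
    simp only [Pi.mul_apply, Pi.pow_apply]
    exact jFun_mul_disc w
  have h := congrFun (congrArg (fun F => D F) hfun) z
  beta_reduce at h
  rw [normalizedDerivOfComplex_mul _ _ mdiff_jFun mdiff_disc,
    normalizedDerivOfComplex_pow _ _ h4] at h
  simp only [Pi.add_apply, Pi.mul_apply, Pi.pow_apply, Pi.natCast_apply] at h
  rw [h]
  push_cast
  ring

/-- `D j · 3456 Δ² = E₄² E₆ W`. -/
theorem D_jFun_mul (z : ℍ) : D jFun z * (3456 * Δ z ^ 2) = E₄ z ^ 2 * E₆ z * Wfun z := by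
  have h1 := D_disc z
  have h2 := D_jFun_mul_disc z
  have h3 := jFun_mul_disc z
  have h4 := discriminant_eq_E₄_cube_sub_E₆_sq z
  have h4' : 1728 * Δ z = E₄ z ^ 3 - E₆ z ^ 2 := by rw [h4]; ring
  unfold Wfun
  linear_combination (3456 * Δ z) * h2 - 2 * jFun z * Δ z * h1 - 2 * (3 * E₄ z ^ 2 * D E₄ z - 2 * E₆ z * D E₆ z) * h3 + 6 * E₄ z ^ 2 * D E₄ z * h4'

/-- `W = c Δ` with `c ≠ 0`. -/
theorem exists_Wfun_eq : ∃ c : ℂ, c ≠ 0 ∧ ∀ z : ℍ, Wfun z = c * Δ z := by
  obtain ⟨c, hc⟩ := CuspForm.exists_smul_discriminant_of_weight_eq_twelve Wform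
  have hW : ∀ z : ℍ, Wfun z = c * Δ z := by
    intro z
    rw [← Wform_apply, ← hc]
    rfl
  refine ⟨c, ?_, hW⟩
  rintro rfl
  -- then `D j = 0`, so `j` is constant, contradiction at `i∞`
  have hD : ∀ z : ℍ, deriv (jFun ∘ ofComplex) z = 0 := by
    intro z
    have h := D_jFun_mul z
    rw [hW z, zero_mul, mul_zero] at h
    have hne : (3456 * Δ z ^ 2) ≠ 0 := mul_ne_zero (by norm_num) (pow_ne_zero _ (discriminant_ne_zero z))
    have h0 : D jFun z = 0 := by
      rcases mul_eq_zero.mp h with h | h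
      · exact h
      · exact absurd h hne
    unfold normalizedDerivOfComplex at h0
    rcases mul_eq_zero.mp h0 with h | h
    · exact absurd h (inv_ne_zero Complex.two_pi_I_ne_zero)
    · exact h
  have hdiff : DifferentiableOn ℂ (jFun ∘ ofComplex) upperHalfPlaneSet :=
    (UpperHalfPlane.mdifferentiable_iff.mp mdiff_jFun)
  have hconst : ∀ z : ℍ, jFun z = jFun UpperHalfPlane.I := by
    intro z
    have := isOpen_upperHalfPlaneSet.is_const_of_deriv_eq_zero
      (convex_halfSpace_im_gt 0).isPreconnected hdiff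
      (fun w hw => hD ⟨w, hw⟩) (x := (z : ℂ)) (y := ((UpperHalfPlane.I : ℍ) : ℂ))
      z.im_pos UpperHalfPlane.I.im_pos
    simp only [comp_apply, ofComplex_apply] at this
    exact this
  have h1 : Tendsto (fun z : ℍ => E₄ z ^ 3) atImInfty (𝓝 1) := by
    simpa using tendsto_E₄.pow 3
  have h2 : Tendsto (fun z : ℍ => E₄ z ^ 3) atImInfty (𝓝 0) := by
    have hz : Tendsto (fun z : ℍ => jFun UpperHalfPlane.I * Δ z) atImInfty
        (𝓝 (jFun UpperHalfPlane.I * 0)) :=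
      tendsto_const_nhds.mul discriminant_isZeroAtImInfty
    rw [mul_zero] at hz
    refine hz.congr fun z => ?_
    rw [← hconst z, jFun_mul_disc]
  exact one_ne_zero (tendsto_nhds_unique h1 h2)

theorem analyticAt_comp_ofComplex {F : ℍ → ℂ} (hF : MDiff F) (z : ℍ) :
    AnalyticAt ℂ (F ∘ ofComplex) (z : ℂ) :=
  (UpperHalfPlane.mdifferentiable_iff.mp hF).analyticAt
    (isOpen_upperHalfPlaneSet.mem_nhds z.im_pos)

theorem deriv_ne_zero_of_D_ne_zero {F : ℍ → ℂ} {z : ℍ} (h : D F z ≠ 0) :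
    deriv (F ∘ ofComplex) (z : ℂ) ≠ 0 := by
  intro h0
  apply h
  unfold normalizedDerivOfComplex
  rw [h0, mul_zero]

/-- a simple zero: `F z = 0`, `D F z ≠ 0` gives `ordAt F z = 1`. -/
theorem ordAt_eq_one {F : ℍ → ℂ} (hF : MDiff F) {z : ℍ} (h0 : F z = 0) (h1 : D F z ≠ 0) :
    ordAt F z = 1 := by
  unfold ordAt
  refine (analyticAt_comp_ofComplex hF z).analyticOrderAt_eq_one_of_zero_deriv_ne_zero ?_
    (deriv_ne_zero_of_D_ne_zero h1)
  simp [h0]

theorem ordAt_eq_zero {F : ℍ → ℂ} (hF : MDiff F) {z : ℍ} (h0 : F z ≠ 0) :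
    ordAt F z = 0 := by
  unfold ordAt
  rw [(analyticAt_comp_ofComplex hF z).analyticOrderAt_eq_zero]
  simpa using h0

theorem ordAt_mul {F G : ℍ → ℂ} (hF : MDiff F) (hG : MDiff G) (z : ℍ) :
    ordAt (F * G) z = ordAt F z + ordAt G z := by
  unfold ordAt
  exact analyticOrderAt_mul (analyticAt_comp_ofComplex hF z) (analyticAt_comp_ofComplex hG z)

theorem ordAt_pow {F : ℍ → ℂ} (hF : MDiff F) (n : ℕ) (z : ℍ) :
    ordAt (F ^ n) z = n • ordAt F z := by
  unfold ordAt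
  exact analyticOrderAt_pow (analyticAt_comp_ofComplex hF z) n

end JOrder

open JOrder

local notation "Δ" => ModularForm.discriminant

/-- `j − 1728 = E₆² / Δ`. -/
theorem jFun_sub_1728 (z : ℍ) : jFun z - 1728 = E₆ z ^ 2 / Δ z := by
  unfold jFun
  have hΔ := discriminant_ne_zero z
  rw [eq_div_iff hΔ, sub_mul, div_mul_cancel₀ _ hΔ, discriminant_eq_E₄_cube_sub_E₆_sq]
  ring

theorem jFun_eq_1728_iff (z : ℍ) : jFun z = 1728 ↔ E₆ z = 0 := by
  have h := jFun_sub_1728 z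
  have hΔ := discriminant_ne_zero z
  constructor
  · intro hj
    rw [hj, sub_self] at h
    have := (div_eq_zero_iff.mp h.symm).resolve_right hΔ
    exact pow_eq_zero_iff (by norm_num) |>.mp this
  · intro h6
    rw [h6] at h
    simp at h
    linear_combination h

/-- zeros of `E₆` are simple. -/
theorem ordAt_E₆ (z : ℍ) (h6 : E₆ z = 0) : ordAt (⇑E₆) z = 1 := by
  obtain ⟨c, hc, hW⟩ := exists_Wfun_eq
  have h := hW z
  unfold Wfun at h
  rw [h6, mul_zero, sub_zero] at h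
  refine ordAt_eq_one (ModularFormClass.holo E₆) h6 ?_
  intro h0
  rw [h0, mul_zero] at h
  exact mul_ne_zero hc (discriminant_ne_zero z) h.symm

/-- zeros of `E₄` are simple. -/
theorem ordAt_E₄ (z : ℍ) (h4 : E₄ z = 0) : ordAt (⇑E₄) z = 1 := by
  obtain ⟨c, hc, hW⟩ := exists_Wfun_eq
  have h := hW z
  unfold Wfun at h
  rw [h4, mul_zero, zero_mul, zero_sub] at h
  refine ordAt_eq_one (ModularFormClass.holo E₄) h4 ?_
  intro h0
  rw [h0, mul_zero, zero_mul, neg_zero] at h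
  exact mul_ne_zero hc (discriminant_ne_zero z) h.symm

/-- **(J3a)** away from the zeros of `E₄` and `E₆`, `j − j(z)` has a simple zero at `z`. -/
theorem ordAt_jFun_sub_of_ne (z : ℍ) (h4 : E₄ z ≠ 0) (h6 : E₆ z ≠ 0) :
    ordAt (fun w => jFun w - jFun z) z = 1 := by
  obtain ⟨c, hc, hW⟩ := exists_Wfun_eq
  have hΔ := discriminant_ne_zero z
  have hD : D jFun z ≠ 0 := by
    intro h0
    have h := D_jFun_mul z
    rw [h0, zero_mul, hW z] at h
    have : E₄ z ^ 2 * E₆ z * (c * Δ z) ≠ 0 :=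
      mul_ne_zero (mul_ne_zero (pow_ne_zero _ h4) h6) (mul_ne_zero hc hΔ)
    exact this h.symm
  have := (analyticAt_comp_ofComplex mdiff_jFun z).analyticOrderAt_sub_eq_one_of_deriv_ne_zero
    (deriv_ne_zero_of_D_ne_zero hD)
  unfold ordAt
  convert this using 2
  funext w
  simp [ofComplex_apply]

/-- **(J3b)** at a zero of `E₆`, `j − j(z) = j − 1728` vanishes to order exactly `2`. -/
theorem ordAt_jFun_sub_of_E₆ (z : ℍ) (h6 : E₆ z = 0) :
    ordAt (fun w => jFun w - jFun z) z = 2 := by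
  have hj : jFun z = 1728 := (jFun_eq_1728_iff z).mpr h6
  have hinv : MDiff (fun w : ℍ => (Δ w)⁻¹) := by
    have : MDiff (fun w : ℍ => (1 : ℂ) / Δ w) :=
      mdifferentiable_const.div mdiff_disc discriminant_ne_zero
    simpa using this
  have hfun : (fun w => jFun w - jFun z) = (⇑E₆) ^ 2 * (fun w : ℍ => (Δ w)⁻¹) := by
    funext w
    rw [hj, jFun_sub_1728]
    simp [div_eq_mul_inv]
  rw [hfun, ordAt_mul ((ModularFormClass.holo E₆).pow 2) hinv, ordAt_pow (ModularFormClass.holo E₆),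
    ordAt_E₆ z h6, ordAt_eq_zero hinv (inv_ne_zero (discriminant_ne_zero z))]
  rfl

/-- **(J3c)** at a zero of `E₄`, `j − j(z) = j` vanishes to order exactly `3`. -/
theorem ordAt_jFun_sub_of_E₄ (z : ℍ) (h4 : E₄ z = 0) :
    ordAt (fun w => jFun w - jFun z) z = 3 := by
  have hj : jFun z = 0 := by unfold jFun; rw [h4]; simp
  have hinv : MDiff (fun w : ℍ => (Δ w)⁻¹) := by
    have : MDiff (fun w : ℍ => (1 : ℂ) / Δ w) :=
      mdifferentiable_const.div mdiff_disc discriminant_ne_zero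
    simpa using this
  have hfun : (fun w => jFun w - jFun z) = (⇑E₄) ^ 3 * (fun w : ℍ => (Δ w)⁻¹) := by
    funext w
    rw [hj, sub_zero]
    simp [jFun, div_eq_mul_inv]
  rw [hfun, ordAt_mul ((ModularFormClass.holo E₄).pow 3) hinv, ordAt_pow (ModularFormClass.holo E₄),
    ordAt_E₄ z h4, ordAt_eq_zero hinv (inv_ne_zero (discriminant_ne_zero z))]
  rfl

/-- `D j = c · E₄² E₆ / Δ` with a nonzero constant `c` (in fact `c = -1`). -/
theorem exists_D_jFun_eq :
    ∃ c : ℂ, c ≠ 0 ∧ ∀ z : ℍ, D jFun z = c * (E₄ z ^ 2 * E₆ z / Δ z) := by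
  obtain ⟨c, hc, hW⟩ := exists_Wfun_eq
  refine ⟨c / 3456, div_ne_zero hc (by norm_num), fun z => ?_⟩
  have h := D_jFun_mul z
  rw [hW z] at h
  have hΔ := discriminant_ne_zero z
  have h' : D jFun z * (3456 * Δ z) = c * (E₄ z ^ 2 * E₆ z) := by
    have : (D jFun z * (3456 * Δ z)) * Δ z = (c * (E₄ z ^ 2 * E₆ z)) * Δ z := by
      linear_combination h
    exact mul_right_cancel₀ hΔ this
  rw [show c / 3456 * (E₄ z ^ 2 * E₆ z / Δ z) = c * (E₄ z ^ 2 * E₆ z) / (3456 * Δ z) by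
    field_simp, eq_div_iff (mul_ne_zero (by norm_num) hΔ)]
  exact h'

/-- `j(i) = 1728`. -/
theorem jFun_I : jFun UpperHalfPlane.I = 1728 := (jFun_eq_1728_iff _).mpr E₆_I

namespace JOrder

/-- `D j` is holomorphic. -/
theorem mdiff_D_jFun : MDiff (D jFun) := normalizedDerivOfComplex_mdifferentiable mdiff_jFun

/-- `D j` transforms with weight `2`. -/
theorem D_jFun_smul (γ : SL(2, ℤ)) (z : ℍ) : D jFun (γ • z) = denom γ z ^ 2 * D jFun z := by
  obtain ⟨c, -, hc⟩ := exists_D_jFun_eq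
  rw [hc, hc, E₄_smul', E₆_smul', disc_smul]
  have hd : denom γ z ≠ 0 := denom_ne_zero _ _
  have hΔ := discriminant_ne_zero z
  have e : denom γ z ^ (12 : ℤ) = denom γ z ^ 12 := by norm_cast
  rw [e]
  field_simp

/-- `D j` vanishes exactly at the zeros of `E₄` and `E₆`. -/
theorem D_jFun_eq_zero_iff (z : ℍ) : D jFun z = 0 ↔ E₄ z = 0 ∨ E₆ z = 0 := by
  obtain ⟨c, hc0, hc⟩ := exists_D_jFun_eq
  have hΔ := discriminant_ne_zero z
  rw [hc]
  constructor
  · intro h
    rcases mul_eq_zero.mp h with h | h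
    · exact absurd h hc0
    · rcases div_eq_zero_iff.mp h with h | h
      · rcases mul_eq_zero.mp h with h | h
        · exact Or.inl (pow_eq_zero_iff (by norm_num) |>.mp h)
        · exact Or.inr h
      · exact absurd h hΔ
  · rintro (h | h) <;> simp [h]

end JOrder

end Fermat.Agent.S20
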