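import Mathlib
import Fermat.Agent.S20.Ring
import Fermat.Agent.S20.Places
import Fermat.Agent.S20.Elliptic
import Fermat.Agent.S20.JOrder
import Fermat.Agent.S20.JSurj
import Fermat.Agent.S20.JInj
import Fermat.Agent.S20.Conjugates

/-!
# S20: the finite places of `X₀(N)`

Instantiation of the counting lemma `places_of_valuations` at the finite places: for `z₀ : ℍ`, the
primes of `B = WH Γ₀(N)` over `(X - j(z₀))` correspond to the orbits of `Stab(z₀)` on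
`SL(2,ℤ) ⧸ Γ₀(N)`, with the ramification indices and valuations given by analytic orders.
-/

set_option autoImplicit false

open UpperHalfPlane hiding I
open Complex ModularForm Polynomial
open scoped MatrixGroups Manifold WithZero

namespace Fermat.Agent.S20

namespace FinitePlaces

section general

variable {Γ : Subgroup SL(2, ℤ)}

theorem isWH_coe (b : WH Γ) : IsWH Γ (b : ℍ → ℂ) := mem_WH.mp b.2

theorem coe_eq_zero_iff (b : WH Γ) : (b : ℍ → ℂ) = 0 ↔ b = 0 := by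
  constructor
  · intro h
    exact Subtype.ext h
  · rintro rfl
    rfl

theorem ordAt_ne_top {b : WH Γ} (hb : b ≠ 0) (z : ℍ) : ordAt (b : ℍ → ℂ) z ≠ ⊤ := by
  intro h
  exact hb ((coe_eq_zero_iff b).mp ((ordAt_eq_top_iff (isWH_coe b).mdiff).mp h))

/-- `ℤ`-valued order of an element of `WH Γ` at `z` (junk value `0` at `0`). -/
noncomputable def ordZ (z : ℍ) (b : WH Γ) : ℤ := ((ordAt (b : ℍ → ℂ) z).toNat : ℤ)

theorem ordZ_nonneg (z : ℍ) (b : WH Γ) : 0 ≤ ordZ z b := Int.natCast_nonneg _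

theorem ordAt_eq_ordZ {b : WH Γ} (hb : b ≠ 0) (z : ℍ) :
    ordAt (b : ℍ → ℂ) z = ((ordZ z b).toNat : ℕ∞) := by
  unfold ordZ
  rw [Int.toNat_natCast, ENat.natCast_toNat (ordAt_ne_top hb z)]

theorem ordZ_mul (z : ℍ) (f g : WH Γ) (hf : f ≠ 0) (hg : g ≠ 0) :
    ordZ z (f * g) = ordZ z f + ordZ z g := by
  unfold ordZ
  have h : ((f * g : WH Γ) : ℍ → ℂ) = (f : ℍ → ℂ) * (g : ℍ → ℂ) := rfl
  rw [h, ordAt_mul (isWH_coe f).mdiff (isWH_coe g).mdiff,
    ENat.toNat_add (ordAt_ne_top hf z) (ordAt_ne_top hg z)]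
  exact Nat.cast_add _ _

theorem ordZ_add (z : ℍ) (f g : WH Γ) (hfg : f + g ≠ 0) :
    min (ordZ z f) (ordZ z g) ≤ ordZ z (f + g) := by
  unfold ordZ
  have h : ((f + g : WH Γ) : ℍ → ℂ) = (f : ℍ → ℂ) + (g : ℍ → ℂ) := rfl
  have h1 := ordAt_add_ge (f : ℍ → ℂ) (g : ℍ → ℂ) z
  rw [← h] at h1
  have h2 := ENat.toNat_le_toNat h1 (ordAt_ne_top hfg z)
  rcases le_total (ordAt (f : ℍ → ℂ) z) (ordAt (g : ℍ → ℂ) z) with hle | hle
  · rw [min_eq_left hle] at h2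
    exact (min_le_left _ _).trans (by exact_mod_cast h2)
  · rw [min_eq_right hle] at h2
    exact (min_le_right _ _).trans (by exact_mod_cast h2)

theorem ordZ_eq_zero_iff (z : ℍ) {b : WH Γ} (hb : b ≠ 0) : ordZ z b = 0 ↔ (b : ℍ → ℂ) z ≠ 0 := by
  rw [← ordAt_eq_zero_iff (isWH_coe b).mdiff, ordAt_eq_ordZ hb z]
  constructor
  · intro h
    rw [h]
    rfl
  · intro h
    have h1 : (ordZ z b).toNat = 0 := by exact_mod_cast h
    have h2 := ordZ_nonneg z b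
    omega

theorem ordZ_congr {z z' : ℍ} (b : WH Γ) (h : ordAt (b : ℍ → ℂ) z = ordAt (b : ℍ → ℂ) z') :
    ordZ z b = ordZ z' b := by
  unfold ordZ
  rw [h]

end general

end FinitePlaces

open FinitePlaces

section val

variable (Γ : Subgroup SL(2, ℤ)) (L : Type) [Field L] [Algebra (WH Γ) L] [IsFractionRing (WH Γ) L]

theorem FinitePlaces.exists_ordVal (z : ℍ) : ∃ v : Valuation L ℤᵐ⁰, ∀ b : WH Γ, b ≠ 0 →
    v (algebraMap (WH Γ) L b) = WithZero.exp (-(ordZ z b)) :=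
  exists_valuation_of_ord L (ordZ z) (fun f g hf hg => ordZ_mul z f g hf hg)
    (fun f g _ _ hfg => ordZ_add z f g hfg)

/-- The valuation on `L = Frac (WH Γ)` given by the analytic order at `z : ℍ`. -/
noncomputable def ordVal (z : ℍ) : Valuation L ℤᵐ⁰ := Classical.choose (exists_ordVal Γ L z)

theorem ordVal_apply (z : ℍ) (b : WH Γ) (hb : b ≠ 0) :
    ordVal Γ L z (algebraMap (WH Γ) L b) = WithZero.exp (-(ordZ z b)) :=
  Classical.choose_spec (exists_ordVal Γ L z) b hb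

theorem ordVal_le_one (z : ℍ) (b : WH Γ) : ordVal Γ L z (algebraMap (WH Γ) L b) ≤ 1 := by
  by_cases hb : b = 0
  · rw [hb, map_zero, map_zero]
    exact zero_le_one
  · rw [ordVal_apply Γ L z b hb, ← WithZero.exp_zero, WithZero.exp_le_exp]
    have := ordZ_nonneg z b
    omega

theorem ordVal_eq_one_iff (z : ℍ) (b : WH Γ) :
    ordVal Γ L z (algebraMap (WH Γ) L b) = 1 ↔ (b : ℍ → ℂ) z ≠ 0 := by
  by_cases hb : b = 0
  · rw [hb, map_zero, map_zero]
    constructor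
    · intro h
      exact absurd h zero_ne_one
    · intro h
      exact absurd rfl h
  · rw [ordVal_apply Γ L z b hb, WithZero.exp_eq_one, neg_eq_zero, ordZ_eq_zero_iff z hb]

theorem ordVal_lt_one_iff (z : ℍ) (b : WH Γ) :
    ordVal Γ L z (algebraMap (WH Γ) L b) < 1 ↔ (b : ℍ → ℂ) z = 0 := by
  rw [lt_iff_le_and_ne]
  constructor
  · rintro ⟨-, h⟩
    by_contra h0
    exact h ((ordVal_eq_one_iff Γ L z b).mpr h0)
  · intro h
    refine ⟨ordVal_le_one Γ L z b, fun h1 => ?_⟩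
    exact (ordVal_eq_one_iff Γ L z b).mp h1 h

/-- The order valuation only depends on the `Γ`-orbit of the point (on `WH Γ`). -/
theorem ordVal_congr {z z' : ℍ} (b : WH Γ)
    (h : ordAt (b : ℍ → ℂ) z = ordAt (b : ℍ → ℂ) z') :
    ordVal Γ L z (algebraMap (WH Γ) L b) = ordVal Γ L z' (algebraMap (WH Γ) L b) := by
  by_cases hb : b = 0
  · rw [hb, map_zero, map_zero, map_zero]
  · rw [ordVal_apply Γ L z b hb, ordVal_apply Γ L z' b hb, ordZ_congr b h]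

end val

namespace FinitePlaces

section points

variable {Γ : Subgroup SL(2, ℤ)}

/-- The point of `ℍ` above `z₀` attached to a coset `x = gΓ`: `g⁻¹ • z₀` (for `g = x.out`). -/
noncomputable def pt (z0 : ℍ) (x : SL(2, ℤ) ⧸ Γ) : ℍ := (Quotient.out x)⁻¹ • z0

theorem pt_mk (z0 : ℍ) (g : SL(2, ℤ)) :
    ∃ γ ∈ Γ, pt z0 (g : SL(2, ℤ) ⧸ Γ) = γ • (g⁻¹ • z0) := by
  obtain ⟨h, hh⟩ := QuotientGroup.mk_out_eq_mul Γ g
  refine ⟨(h : SL(2, ℤ))⁻¹, Γ.inv_mem h.2, ?_⟩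
  unfold pt
  rw [hh, mul_inv_rev, mul_smul]

theorem exists_mem_smul_pt (z0 : ℍ) (x : SL(2, ℤ) ⧸ Γ) (s : SL(2, ℤ)) (hs : s • z0 = z0) :
    ∃ γ ∈ Γ, pt z0 (s • x) = γ • pt z0 x := by
  have hx : x = ((Quotient.out x : SL(2, ℤ)) : SL(2, ℤ) ⧸ Γ) := (QuotientGroup.out_eq' x).symm
  have hsx : s • x = ((s * Quotient.out x : SL(2, ℤ)) : SL(2, ℤ) ⧸ Γ) := by
    conv_lhs => rw [hx]
    rfl
  obtain ⟨γ, hγ, h⟩ := pt_mk (Γ := Γ) z0 (s * Quotient.out x)
  refine ⟨γ, hγ, ?_⟩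
  rw [hsx, h]
  congr 1
  unfold pt
  rw [mul_inv_rev, mul_smul]
  congr 1
  rw [inv_smul_eq_iff, hs]

theorem ordAt_pt_smul (z0 : ℍ) (x : SL(2, ℤ) ⧸ Γ) (s : SL(2, ℤ)) (hs : s • z0 = z0) (b : WH Γ) :
    ordAt (b : ℍ → ℂ) (pt z0 (s • x)) = ordAt (b : ℍ → ℂ) (pt z0 x) := by
  obtain ⟨γ, hγ, h⟩ := exists_mem_smul_pt (Γ := Γ) z0 x s hs
  rw [h]
  exact ordAt_smul_of_invariant (isWH_coe b).inv hγ _

theorem jFun_pt (z0 : ℍ) (x : SL(2, ℤ) ⧸ Γ) : jFun (pt z0 x) = jFun z0 := by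
  unfold pt
  rw [jFun_smul]

end points

section eIdx

/-- The ramification index of `j` at `z₀`: the order of vanishing of `j - j(z₀)` at `z₀`. -/
noncomputable def eIdx (z0 : ℍ) : ℕ := (ordAt (fun w => jFun w - jFun z0) z0).toNat

theorem eIdx_cases (z0 : ℍ) :
    (E₄ z0 ≠ 0 ∧ E₆ z0 ≠ 0 ∧ eIdx z0 = 1) ∨ (E₆ z0 = 0 ∧ eIdx z0 = 2) ∨
      (E₄ z0 = 0 ∧ eIdx z0 = 3) := by
  unfold eIdx
  by_cases h4 : E₄ z0 = 0
  · right; right
    refine ⟨h4, ?_⟩
    rw [ordAt_jFun_sub_of_E₄ z0 h4]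
    rfl
  · by_cases h6 : E₆ z0 = 0
    · right; left
      refine ⟨h6, ?_⟩
      rw [ordAt_jFun_sub_of_E₆ z0 h6]
      rfl
    · left
      refine ⟨h4, h6, ?_⟩
      rw [ordAt_jFun_sub_of_ne z0 h4 h6]
      rfl

theorem eIdx_pos (z0 : ℍ) : 0 < eIdx z0 := by
  rcases eIdx_cases z0 with ⟨-, -, h⟩ | ⟨-, h⟩ | ⟨-, h⟩ <;> omega

theorem ordAt_jFun_sub (z0 : ℍ) : ordAt (fun w => jFun w - jFun z0) z0 = (eIdx z0 : ℕ∞) := by
  unfold eIdx
  by_cases h4 : E₄ z0 = 0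
  · rw [ordAt_jFun_sub_of_E₄ z0 h4]
    rfl
  · by_cases h6 : E₆ z0 = 0
    · rw [ordAt_jFun_sub_of_E₆ z0 h6]
      rfl
    · rw [ordAt_jFun_sub_of_ne z0 h4 h6]
      rfl

/-- The order of `j - j(z₀)` at any point `g • z₀` of the orbit. -/
theorem ordAt_jFun_sub_smul (z0 : ℍ) (g : SL(2, ℤ)) :
    ordAt (fun w => jFun w - jFun z0) (g • z0) = (eIdx z0 : ℕ∞) := by
  rw [← ordAt_smul]
  have e : (fun w : ℍ => jFun (g • w) - jFun z0) = fun w => jFun w - jFun z0 := by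
    funext w
    rw [jFun_smul]
  rw [e, ordAt_jFun_sub]

theorem card_stabilizer_smul (g : SL(2, ℤ)) (z : ℍ) :
    Nat.card (MulAction.stabilizer SL(2, ℤ) (g • z)) = Nat.card (MulAction.stabilizer SL(2, ℤ) z) := by
  rw [MulAction.stabilizer_smul_eq_stabilizer_map_conj]
  exact Nat.card_congr
    ((MulAction.stabilizer SL(2, ℤ) z).equivMapOfInjective _ (MulAut.conj g).injective).symm.toEquiv

theorem orderOf_S : orderOf ModularGroup.S = 4 := by
  have h4 : ModularGroup.S ^ 4 = 1 := by decide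
  have h2 : ModularGroup.S ^ 2 ≠ 1 := by decide
  have hd : orderOf ModularGroup.S ∣ 4 := orderOf_dvd_of_pow_eq_one h4
  have hle : orderOf ModularGroup.S ≤ 4 := Nat.le_of_dvd (by norm_num) hd
  have hne2 : ¬ orderOf ModularGroup.S ∣ 2 := fun h => h2 (orderOf_dvd_iff_pow_eq_one.mp h)
  interval_cases h : orderOf ModularGroup.S <;> simp_all

theorem orderOf_ST : orderOf (ModularGroup.S * ModularGroup.T) = 6 := by
  have h6 : (ModularGroup.S * ModularGroup.T) ^ 6 = 1 := by decide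
  have h2 : (ModularGroup.S * ModularGroup.T) ^ 2 ≠ 1 := by decide
  have h3 : (ModularGroup.S * ModularGroup.T) ^ 3 ≠ 1 := by decide
  have hd : orderOf (ModularGroup.S * ModularGroup.T) ∣ 6 := orderOf_dvd_of_pow_eq_one h6
  have hle : orderOf (ModularGroup.S * ModularGroup.T) ≤ 6 := Nat.le_of_dvd (by norm_num) hd
  have hne2 : ¬ orderOf (ModularGroup.S * ModularGroup.T) ∣ 2 :=
    fun h => h2 (orderOf_dvd_iff_pow_eq_one.mp h)
  have hne3 : ¬ orderOf (ModularGroup.S * ModularGroup.T) ∣ 3 :=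
    fun h => h3 (orderOf_dvd_iff_pow_eq_one.mp h)
  interval_cases h : orderOf (ModularGroup.S * ModularGroup.T) <;> simp_all

/-- **(H2)** `ord_{z₀}(j - j(z₀)) = |Stab(z₀)| / 2`. -/
theorem card_stabilizer (z0 : ℍ) :
    Nat.card (MulAction.stabilizer SL(2, ℤ) z0) = 2 * eIdx z0 := by
  rcases eIdx_cases z0 with ⟨h4, h6, h⟩ | ⟨h6, h⟩ | ⟨h4, h⟩
  · rw [h]
    have hneg : (-1 : SL(2, ℤ)) ∈ MulAction.stabilizer SL(2, ℤ) z0 :=
      MulAction.mem_stabilizer_iff.mpr (ModularGroup.SL_neg_smul 1 z0 |>.trans (one_smul _ z0))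
    rw [Nat.card_eq_two_iff]
    refine ⟨1, ⟨-1, hneg⟩, ?_, ?_⟩
    · intro h1
      have h2 : (1 : SL(2, ℤ)) = -1 := congrArg Subtype.val h1
      revert h2
      decide
    · ext γ
      simp only [Set.mem_insert_iff, Set.mem_singleton_iff, Set.mem_univ, iff_true]
      rcases stabilizer_of_ne h4 h6 (γ : SL(2, ℤ)) (MulAction.mem_stabilizer_iff.mp γ.2) with h1 | h1
      · left
        exact Subtype.ext h1
      · right
        exact Subtype.ext h1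
  · rw [h]
    have hj : jFun UpperHalfPlane.I = jFun z0 := by
      rw [(E₆_eq_zero_iff z0).mp h6, (E₆_eq_zero_iff _).mp E₆_I]
    obtain ⟨g, hg⟩ := (jFun_eq_iff _ _).mp hj
    rw [← hg, card_stabilizer_smul, stabilizer_I, Nat.card_zpowers, orderOf_S]
  · rw [h]
    have hj : jFun rho = jFun z0 := by
      rw [(E₄_eq_zero_iff z0).mp h4, jFun_rho]
    obtain ⟨g, hg⟩ := (jFun_eq_iff _ _).mp hj
    rw [← hg, card_stabilizer_smul, stabilizer_rho, Nat.card_zpowers, orderOf_ST]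

end eIdx

section orbit

variable (Γ : Subgroup SL(2, ℤ))

/-- `|Γ_z / ±1|` for the point `z = pt z₀ x`. -/
noncomputable def nIdx (z0 : ℍ) (x : SL(2, ℤ) ⧸ Γ) : ℕ :=
  Nat.card ↥(Γ ⊓ MulAction.stabilizer SL(2, ℤ) (pt z0 x)) / 2

theorem smul_out_mk (x : SL(2, ℤ) ⧸ Γ) (s : SL(2, ℤ)) :
    s • x = ((s * Quotient.out x : SL(2, ℤ)) : SL(2, ℤ) ⧸ Γ) := by
  conv_lhs => rw [← QuotientGroup.out_eq' x]
  rfl

theorem smul_eq_self_iff (x : SL(2, ℤ) ⧸ Γ) (s : SL(2, ℤ)) :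
    s • x = x ↔ (Quotient.out x)⁻¹ * s * Quotient.out x ∈ Γ := by
  rw [smul_out_mk]
  conv_lhs => rhs; rw [← QuotientGroup.out_eq' x]
  rw [QuotientGroup.eq, mul_inv_rev, ← Subgroup.inv_mem_iff]
  have e : ((Quotient.out x)⁻¹ * s⁻¹ * Quotient.out x)⁻¹ = (Quotient.out x)⁻¹ * s * Quotient.out x := by
    group
  rw [e]

/-- The stabilizer of `x` in `Stab(z₀)` is conjugate to the stabilizer of `pt z₀ x` in `Γ`. -/
noncomputable def stabEquiv (z0 : ℍ) (x : SL(2, ℤ) ⧸ Γ) :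
    MulAction.stabilizer (MulAction.stabilizer SL(2, ℤ) z0) x ≃
      ↥(Γ ⊓ MulAction.stabilizer SL(2, ℤ) (pt z0 x)) where
  toFun s := ⟨(Quotient.out x)⁻¹ * ((s : MulAction.stabilizer SL(2, ℤ) z0) : SL(2, ℤ)) *
      Quotient.out x, by
    have hs : ((s : MulAction.stabilizer SL(2, ℤ) z0) : SL(2, ℤ)) • x = x :=
      MulAction.mem_stabilizer_iff.mp s.2
    have hz : ((s : MulAction.stabilizer SL(2, ℤ) z0) : SL(2, ℤ)) • z0 = z0 :=
      MulAction.mem_stabilizer_iff.mp (s : MulAction.stabilizer SL(2, ℤ) z0).2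
    refine Subgroup.mem_inf.mpr ⟨(smul_eq_self_iff Γ x _).mp hs, ?_⟩
    rw [MulAction.mem_stabilizer_iff]
    unfold pt
    rw [← mul_smul, mul_assoc, mul_inv_cancel, mul_one, mul_smul, hz]⟩
  invFun k := ⟨⟨Quotient.out x * (k : SL(2, ℤ)) * (Quotient.out x)⁻¹, by
    have hk : (k : SL(2, ℤ)) • pt z0 x = pt z0 x :=
      MulAction.mem_stabilizer_iff.mp (Subgroup.mem_inf.mp k.2).2
    rw [MulAction.mem_stabilizer_iff]
    unfold pt at hk
    rw [mul_smul, mul_smul, hk, smul_inv_smul]⟩, by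
    have hk : (k : SL(2, ℤ)) ∈ Γ := (Subgroup.mem_inf.mp k.2).1
    rw [MulAction.mem_stabilizer_iff]
    change (Quotient.out x * (k : SL(2, ℤ)) * (Quotient.out x)⁻¹) • x = x
    rw [smul_eq_self_iff]
    have e : (Quotient.out x)⁻¹ * (Quotient.out x * (k : SL(2, ℤ)) * (Quotient.out x)⁻¹) *
        Quotient.out x = (k : SL(2, ℤ)) := by group
    rw [e]
    exact hk⟩
  left_inv s := by
    apply Subtype.ext
    apply Subtype.ext
    simp only
    group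
  right_inv k := by
    apply Subtype.ext
    simp only
    group

theorem nIdx_pos (hneg : (-1 : SL(2, ℤ)) ∈ Γ) (z0 : ℍ) (x : SL(2, ℤ) ⧸ Γ) : 0 < nIdx Γ z0 x := by
  unfold nIdx
  obtain ⟨m, hm⟩ := two_dvd_card_inf_stabilizer Γ hneg (pt z0 x)
  have hfin : Finite ↥(Γ ⊓ MulAction.stabilizer SL(2, ℤ) (pt z0 x)) :=
    Finite.of_injective (Subgroup.inclusion (inf_le_right (a := Γ)))
      (Subgroup.inclusion_injective inf_le_right)
  have hpos : 0 < Nat.card ↥(Γ ⊓ MulAction.stabilizer SL(2, ℤ) (pt z0 x)) := Nat.card_pos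
  rw [hm] at hpos ⊢
  rw [Nat.mul_div_cancel_left m (by norm_num)]
  omega

/-- **hclass**: (size of the `Stab(z₀)`-orbit of `x`) `* |Γ_z / ±1| = e(z₀)`. -/
theorem card_orbit_mul_nIdx (hneg : (-1 : SL(2, ℤ)) ∈ Γ) (z0 : ℍ) (x : SL(2, ℤ) ⧸ Γ) :
    Nat.card {y // (MulAction.orbitRel (MulAction.stabilizer SL(2, ℤ) z0) (SL(2, ℤ) ⧸ Γ)).r y x} *
      nIdx Γ z0 x = eIdx z0 := by
  have h1 : Nat.card {y // (MulAction.orbitRel (MulAction.stabilizer SL(2, ℤ) z0)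
      (SL(2, ℤ) ⧸ Γ)).r y x} =
      Nat.card ((MulAction.stabilizer SL(2, ℤ) z0) ⧸
        MulAction.stabilizer (MulAction.stabilizer SL(2, ℤ) z0) x) :=
    Nat.card_congr (MulAction.orbitEquivQuotientStabilizer (MulAction.stabilizer SL(2, ℤ) z0) x)
  have h2 := Subgroup.card_eq_card_quotient_mul_card_subgroup
    (MulAction.stabilizer (MulAction.stabilizer SL(2, ℤ) z0) x)
  have h3 : Nat.card (MulAction.stabilizer (MulAction.stabilizer SL(2, ℤ) z0) x) =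
      Nat.card ↥(Γ ⊓ MulAction.stabilizer SL(2, ℤ) (pt z0 x)) :=
    Nat.card_congr (stabEquiv Γ z0 x)
  have h4 := card_stabilizer z0
  obtain ⟨m, hm⟩ := two_dvd_card_inf_stabilizer Γ hneg (pt z0 x)
  unfold nIdx
  rw [h1, hm, Nat.mul_div_cancel_left m (by norm_num)]
  rw [h4, h3, hm] at h2
  have h5 : 2 * eIdx z0 = 2 * (Nat.card ((MulAction.stabilizer SL(2, ℤ) z0) ⧸
        MulAction.stabilizer (MulAction.stabilizer SL(2, ℤ) z0) x) * m) := by
    rw [h2]; ring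
  exact (Nat.eq_of_mul_eq_mul_left (by norm_num) h5).symm

/-- **(H1)**: the order of a nonzero element of `WH Γ` at `pt z₀ x` is divisible by `|Γ_z/±1|`. -/
theorem nIdx_dvd_ordZ (hneg : (-1 : SL(2, ℤ)) ∈ Γ) (z0 : ℍ) (x : SL(2, ℤ) ⧸ Γ) (b : WH Γ)
    (hb : b ≠ 0) : (nIdx Γ z0 x : ℤ) ∣ ordZ (pt z0 x) b := by
  unfold ordZ
  rw [Int.natCast_dvd_natCast]
  set z := pt z0 x with hz
  set m := (ordAt (b : ℍ → ℂ) z).toNat with hm
  have hord : ordAt (b : ℍ → ℂ) z = m := (ENat.natCast_toNat (ordAt_ne_top hb z)).symm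
  by_cases hbz : (b : ℍ → ℂ) z = 0
  · have e : (fun w => (b : ℍ → ℂ) w - (b : ℍ → ℂ) z) = (b : ℍ → ℂ) := by
      funext w
      rw [hbz, sub_zero]
    have hn : ordAt (fun w => (b : ℍ → ℂ) w - (b : ℍ → ℂ) z) z = m := by rw [e]; exact hord
    have hdvd := card_inf_stabilizer_dvd Γ (isWH_coe b).mdiff (isWH_coe b).inv hn
    obtain ⟨k, hk⟩ := two_dvd_card_inf_stabilizer Γ hneg z
    unfold nIdx
    rw [← hz, hk, Nat.mul_div_cancel_left k (by norm_num)]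
    rw [hk] at hdvd
    exact (Nat.mul_dvd_mul_iff_left (by norm_num)).mp hdvd
  · have h0 : ordAt (b : ℍ → ℂ) z = 0 := (ordAt_eq_zero_iff (isWH_coe b).mdiff).mpr hbz
    have hm0 : m = 0 := by
      rw [hm, h0]
      rfl
    rw [hm0]
    exact dvd_zero _

end orbit

section hn

variable (Γ : Subgroup SL(2, ℤ)) (L : Type) [Field L] [Algebra (WH Γ) L] [IsFractionRing (WH Γ) L]

/-- **hn**: if all orders at `z` are divisible by `n > 0`, the order valuation takes values in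
`n`-th powers. -/
theorem exists_pow_eq_ordVal (z : ℍ) (n : ℕ) (hn : 0 < n)
    (hdvd : ∀ b : WH Γ, b ≠ 0 → (n : ℤ) ∣ ordZ z b) (f : L) :
    ∃ u : ℤᵐ⁰, ordVal Γ L z f = u ^ n := by
  have key : ∀ b : WH Γ, ∃ u : ℤᵐ⁰, ordVal Γ L z (algebraMap (WH Γ) L b) = u ^ n := by
    intro b
    by_cases hb : b = 0
    · refine ⟨0, ?_⟩
      rw [hb, map_zero, map_zero, zero_pow hn.ne']
    · obtain ⟨k, hk⟩ := hdvd b hb
      refine ⟨WithZero.exp (-k), ?_⟩
      rw [ordVal_apply Γ L z b hb, hk, ← WithZero.exp_nsmul]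
      congr 1
      rw [nsmul_eq_mul]
      ring
  obtain ⟨a, b, hb, rfl⟩ := IsFractionRing.div_surjective (A := WH Γ) f
  obtain ⟨ua, hua⟩ := key a
  obtain ⟨ub, hub⟩ := key b
  refine ⟨ua / ub, ?_⟩
  rw [map_div₀, hua, hub, div_pow]

end hn

section hyps

variable (Γ : Subgroup SL(2, ℤ))

theorem algebraMap_X_sub_C_apply (a : ℂ) (w : ℍ) :
    (algebraMap ℂ[X] (WH Γ) (X - C a) : ℍ → ℂ) w = jFun w - a := by
  rw [algebraMap_poly_WH_apply]
  simp

theorem coe_algebraMap_X_sub_C (a : ℂ) :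
    (algebraMap ℂ[X] (WH Γ) (X - C a) : ℍ → ℂ) = fun w => jFun w - a := by
  funext w
  exact algebraMap_X_sub_C_apply Γ a w

theorem algebraMap_X_sub_C_ne_zero (a : ℂ) : algebraMap ℂ[X] (WH Γ) (X - C a) ≠ 0 := by
  intro h
  have h1 := (FaithfulSMul.algebraMap_injective ℂ[X] (WH Γ)) (h.trans (map_zero _).symm)
  exact X_sub_C_ne_zero a h1

theorem isMaximal_span_X_sub_C (a : ℂ) : (Ideal.span {(X - C a : ℂ[X])}).IsMaximal :=
  PrincipalIdealRing.isMaximal_of_irreducible (irreducible_X_sub_C a)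

theorem not_mem_span_iff (a : ℂ) (p : ℂ[X]) : p ∉ Ideal.span {(X - C a : ℂ[X])} ↔ p.eval a ≠ 0 := by
  rw [Ideal.mem_span_singleton, dvd_iff_isRoot, IsRoot.def]

/-- **hvπ** -/
theorem ordZ_algebraMap_X_sub_C (z0 : ℍ) (x : SL(2, ℤ) ⧸ Γ) :
    ordZ (pt z0 x) (algebraMap ℂ[X] (WH Γ) (X - C (jFun z0))) = (eIdx z0 : ℤ) := by
  unfold ordZ
  rw [coe_algebraMap_X_sub_C]
  unfold pt
  rw [ordAt_jFun_sub_smul]
  rfl

/-- **hres**: the residue fields at the primes over `(X - a)` are `ℂ`. -/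
theorem residue_surjective [Γ.FiniteIndex] (a : ℂ) (𝔮 : Ideal (WH Γ)) (h𝔮 : 𝔮.IsMaximal)
    (hmem : algebraMap ℂ[X] (WH Γ) (X - C a) ∈ 𝔮) :
    Function.Surjective ((Ideal.Quotient.mk 𝔮).comp (algebraMap ℂ[X] (WH Γ))) := by
  have hcomp : (Ideal.Quotient.mk 𝔮).comp (algebraMap ℂ[X] (WH Γ)) =
      ((Ideal.Quotient.mk 𝔮).comp (algebraMap ℂ (WH Γ))).comp (evalRingHom a) := by
    apply Polynomial.ringHom_ext
    · intro c
      simp only [RingHom.comp_apply, coe_evalRingHom, eval_C]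
      rw [algebraMap_poly_WH, aeval_C]
    · simp only [RingHom.comp_apply, coe_evalRingHom, eval_X]
      rw [Ideal.Quotient.eq]
      have e : algebraMap ℂ[X] (WH Γ) X - algebraMap ℂ (WH Γ) a =
          algebraMap ℂ[X] (WH Γ) (X - C a) := by
        rw [map_sub]
        congr 1
        rw [algebraMap_poly_WH, aeval_C]
      rw [e]
      exact hmem
  have hint : Algebra.IsIntegral ℂ (WH Γ ⧸ 𝔮) := by
    refine ⟨fun y => ?_⟩
    obtain ⟨b, rfl⟩ := Ideal.Quotient.mk_surjective y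
    obtain ⟨p, hp, hpb⟩ := Algebra.IsIntegral.isIntegral (R := ℂ[X]) b
    refine ⟨p.map (evalRingHom a), hp.map _, ?_⟩
    have h1 : algebraMap ℂ (WH Γ ⧸ 𝔮) = (Ideal.Quotient.mk 𝔮).comp (algebraMap ℂ (WH Γ)) := rfl
    rw [h1, eval₂_map, ← hcomp, ← hom_eval₂, hpb, map_zero]
  have hsurj := (IsAlgClosed.algebraMap_bijective_of_isIntegral (k := ℂ) (K := WH Γ ⧸ 𝔮)).2
  intro y
  obtain ⟨c, hc⟩ := hsurj y
  refine ⟨C c, ?_⟩
  rw [hcomp]
  simp only [RingHom.comp_apply, coe_evalRingHom, eval_C]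
  exact hc

variable (L : Type) [Field L] [Algebra (WH Γ) L] [IsFractionRing (WH Γ) L]

/-- **hcenter** (in the stronger form: the valuations agree on `WH Γ`). -/
theorem ordVal_pt_eq_of_rel (z0 : ℍ) (x y : SL(2, ℤ) ⧸ Γ)
    (h : (MulAction.orbitRel (MulAction.stabilizer SL(2, ℤ) z0) (SL(2, ℤ) ⧸ Γ)).r x y) (b : WH Γ) :
    ordVal Γ L (pt z0 x) (algebraMap (WH Γ) L b) = ordVal Γ L (pt z0 y) (algebraMap (WH Γ) L b) := by
  obtain ⟨s, hs⟩ := h
  have hs' : (s : SL(2, ℤ)) • y = x := hs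
  apply ordVal_congr
  rw [← hs']
  exact ordAt_pt_smul z0 y (s : SL(2, ℤ)) (MulAction.mem_stabilizer_iff.mp s.2) b

/-- **hnorm**: an element of `WH Γ` not vanishing at any point above `z₀` divides a polynomial in
`j` not vanishing at `j(z₀)`. -/
theorem exists_dvd_algebraMap [Γ.FiniteIndex] (z0 : ℍ) (b : WH Γ)
    (hb : ∀ x : SL(2, ℤ) ⧸ Γ, (b : ℍ → ℂ) (pt z0 x) ≠ 0) :
    ∃ a : ℂ[X], a ∉ Ideal.span {(X - C (jFun z0) : ℂ[X])} ∧ b ∣ algebraMap ℂ[X] (WH Γ) a := by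
  classical
  set f : ℍ → ℂ := (b : ℍ → ℂ) with hf
  have hfWH : IsWH Γ f := isWH_coe b
  set P := cosetPoly Γ f with hP
  -- lift `P` to a polynomial over `WH Γ`
  have hlift : P ∈ Polynomial.lifts (WH Γ).val.toRingHom := by
    rw [Polynomial.lifts_iff_coeff_lifts]
    intro i
    exact ⟨⟨P.coeff i, WH_mono le_top (mem_WH.mpr (cosetPoly_coeff_isWH Γ hfWH i))⟩, rfl⟩
  obtain ⟨Q, hQ⟩ := (Polynomial.mem_lifts _).mp hlift
  have hQb : Q.eval b = 0 := by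
    apply Subtype.ext
    have h1 : (WH Γ).val.toRingHom (Q.eval b) = (Q.map (WH Γ).val.toRingHom).eval
        ((WH Γ).val.toRingHom b) := (Polynomial.eval_map_apply _ _).symm
    have h2 : (WH Γ).val.toRingHom b = f := rfl
    have h3 : ((Q.eval b : WH Γ) : ℍ → ℂ) = (WH Γ).val.toRingHom (Q.eval b) := rfl
    rw [h3, h1, hQ, h2, hP, cosetPoly_eval_self Γ hfWH.inv]
    rfl
  have hdvd : b ∣ Q.eval 0 := by
    have h := Polynomial.sub_dvd_eval_sub b 0 Q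
    rw [sub_zero, hQb, zero_sub] at h
    obtain ⟨c, hc⟩ := h
    exact ⟨-c, by linear_combination (-1 : WH Γ) * hc⟩
  have hc0 : ((Q.eval 0 : WH Γ) : ℍ → ℂ) = P.coeff 0 := by
    rw [← Polynomial.coeff_zero_eq_eval_zero, ← hQ, Polynomial.coeff_map]
    rfl
  obtain ⟨p, hp⟩ := exists_poly_of_isWH_top (P.coeff 0) (cosetPoly_coeff_isWH Γ hfWH 0)
  have hpQ : algebraMap ℂ[X] (WH Γ) p = Q.eval 0 := by
    apply Subtype.ext
    funext z
    rw [algebraMap_poly_WH_apply, hc0, hp z]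
  refine ⟨p, ?_, hpQ ▸ hdvd⟩
  rw [not_mem_span_iff, ← hp z0]
  -- the constant coefficient at `z₀` is the product of the values at the points above `z₀`
  have hmap := cosetPoly_map_eval Γ f z0
  have h1 : P.coeff 0 z0 = (P.map (Pi.evalRingHom (fun _ : ℍ => ℂ) z0)).coeff 0 := by
    rw [Polynomial.coeff_map]
    rfl
  rw [h1, hP, hmap, Polynomial.coeff_zero_eq_eval_zero, Polynomial.eval_prod]
  rw [Finset.prod_ne_zero_iff]
  intro x _
  simp only [eval_sub, eval_X, eval_C, zero_sub, ne_eq, neg_eq_zero]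
  exact hb x

end hyps

section main

variable (Γ : Subgroup SL(2, ℤ)) [Γ.FiniteIndex]
variable (L : Type) [Field L] [Algebra (WH Γ) L] [IsFractionRing (WH Γ) L]

/-- The finite places over `j = j(z₀)`, for a general finite-index `Γ ∋ -1` for which
`WH Γ` has rank `[SL(2,ℤ) : Γ]` over `ℂ[j]`. -/
theorem finite_places_aux (hneg : (-1 : SL(2, ℤ)) ∈ Γ)
    (hrank : Module.finrank ℂ[X] (WH Γ) = Γ.index) (z0 : ℍ) :
    ∃ φ : Quotient (MulAction.orbitRel (MulAction.stabilizer SL(2, ℤ) z0) (SL(2, ℤ) ⧸ Γ)) ≃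
        {𝔮 : IsDedekindDomain.HeightOneSpectrum (WH Γ) //
          algebraMap ℂ[X] (WH Γ) (X - C (jFun z0)) ∈ 𝔮.asIdeal},
      ∀ x : SL(2, ℤ) ⧸ Γ,
        (φ (Quotient.mk _ x)).1.asIdeal.ramificationIdx ℂ[X] * nIdx Γ z0 x = eIdx z0 ∧
        ∀ f : L, ordVal Γ L (pt z0 x) f =
          ((φ (Quotient.mk _ x)).1.valuation L f) ^ nIdx Γ z0 x := by
  have : Finite (SL(2, ℤ) ⧸ Γ) := Subgroup.finite_quotient_of_finiteIndex
  exact places_of_valuations (A := ℂ[X]) (B := WH Γ) (L := L) (X - C (jFun z0))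
    (X_sub_C_ne_zero _) (isMaximal_span_X_sub_C _)
    (fun 𝔮 h𝔮 hmem => residue_surjective Γ (jFun z0) 𝔮 h𝔮 hmem)
    (X := SL(2, ℤ) ⧸ Γ) (by rw [hrank, Subgroup.index_eq_card])
    (fun x => ordVal Γ L (pt z0 x))
    (fun x a => ordVal_le_one Γ L _ _)
    (fun _ => eIdx z0) (fun _ => eIdx_pos z0)
    (fun x => by
      rw [ordVal_apply Γ L _ _ (algebraMap_X_sub_C_ne_zero Γ _), ordZ_algebraMap_X_sub_C])
    (fun x a ha => by
      rw [ordVal_eq_one_iff, algebraMap_poly_WH_apply, jFun_pt]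
      exact (not_mem_span_iff _ _).mp ha)
    (nIdx Γ z0)
    (fun x f => exists_pow_eq_ordVal Γ L (pt z0 x) (nIdx Γ z0 x) (nIdx_pos Γ hneg z0 x)
      (nIdx_dvd_ordZ Γ hneg z0 x) f)
    (MulAction.orbitRel (MulAction.stabilizer SL(2, ℤ) z0) (SL(2, ℤ) ⧸ Γ))
    (fun x => card_orbit_mul_nIdx Γ hneg z0 x)
    (fun x y h b => by rw [ordVal_pt_eq_of_rel Γ L z0 x y h b])
    (fun b hb => exists_dvd_algebraMap Γ z0 b (fun x => (ordVal_eq_one_iff Γ L _ b).mp (hb x)))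

/-- Every prime of `WH Γ` lies over some `(X - a)`. -/
theorem exists_X_sub_C_mem (𝔮 : IsDedekindDomain.HeightOneSpectrum (WH Γ)) :
    ∃ a : ℂ, algebraMap ℂ[X] (WH Γ) (X - C a) ∈ 𝔮.asIdeal := by
  classical
  set p : Ideal ℂ[X] := 𝔮.asIdeal.comap (algebraMap ℂ[X] (WH Γ)) with hp
  have hprime : p.IsPrime := Ideal.comap_isPrime _ _
  have hne : p ≠ ⊥ := fun h => 𝔮.ne_bot (Ideal.eq_bot_of_comap_eq_bot h)
  obtain ⟨g, hg, hg0⟩ := Submodule.exists_mem_ne_zero_of_ne_bot hne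
  have hsplit := (IsAlgClosed.splits g).eq_prod_roots
  rw [hsplit] at hg
  rcases hprime.mem_or_mem hg with h | h
  · exfalso
    have hu : IsUnit (C g.leadingCoeff) :=
      Polynomial.isUnit_C.mpr (isUnit_iff_ne_zero.mpr (leadingCoeff_ne_zero.mpr hg0))
    exact hprime.ne_top (Ideal.eq_top_of_isUnit_mem _ h hu)
  · obtain ⟨q, hq, hqp⟩ := (hprime.multiset_prod_mem_iff_exists_mem _).mp h
    obtain ⟨a, -, rfl⟩ := Multiset.mem_map.mp hq
    exact ⟨a, hqp⟩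

end main

end FinitePlaces

open FinitePlaces

section Gamma0

open CongruenceSubgroup IsDedekindDomain

variable (N : ℕ) [NeZero N]

omit [NeZero N] in
theorem FinitePlaces.neg_one_mem_Gamma0 : (-1 : SL(2, ℤ)) ∈ Gamma0 N := by
  rw [Gamma0_mem]
  simp

theorem FinitePlaces.card_orbitRel_quotient_congr {X : Type} [MulAction SL(2, ℤ) X]
    {H H' : Subgroup SL(2, ℤ)} (h : H = H') :
    Nat.card (MulAction.orbitRel.Quotient H X) = Nat.card (MulAction.orbitRel.Quotient H' X) := by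
  subst h
  rfl

variable (L : Type) [Field L] [Algebra (WH (Gamma0 N)) L] [IsFractionRing (WH (Gamma0 N)) L]

/-- **Finite places of `X₀(N)`**: the primes of `WH Γ₀(N)` over `(X - j(z₀))` are in bijection
with the orbits of `Stab(z₀)` on `SL(2,ℤ) ⧸ Γ₀(N)`; the ramification index times `|Γ_z/±1|` is the
order of `j - j(z₀)` at `z₀`, and the order valuation at the point `z = pt z₀ x` above `z₀` is the
`|Γ_z/±1|`-th power of the `𝔮`-adic valuation. -/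
theorem finite_places (z0 : ℍ) :
    ∃ φ : Quotient (MulAction.orbitRel (MulAction.stabilizer SL(2, ℤ) z0) (X0 N)) ≃
        {𝔮 : HeightOneSpectrum (WH (Gamma0 N)) //
          algebraMap ℂ[X] (WH (Gamma0 N)) (X - C (jFun z0)) ∈ 𝔮.asIdeal},
      ∀ x : X0 N,
        (φ (Quotient.mk _ x)).1.asIdeal.ramificationIdx ℂ[X] * nIdx (Gamma0 N) z0 x = eIdx z0 ∧
        ∀ f : L, ordVal (Gamma0 N) L (pt z0 x) f =
          ((φ (Quotient.mk _ x)).1.valuation L f) ^ nIdx (Gamma0 N) z0 x :=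
  finite_places_aux (Gamma0 N) L (neg_one_mem_Gamma0 N) (finrank_poly_WH_Gamma0 N) z0

/-- The number of primes over `(X - j(z₀))` is the number of `Stab(z₀)`-orbits. -/
theorem card_primes_over (z0 : ℍ) :
    Nat.card {𝔮 : HeightOneSpectrum (WH (Gamma0 N)) //
        algebraMap ℂ[X] (WH (Gamma0 N)) (X - C (jFun z0)) ∈ 𝔮.asIdeal} =
      Nat.card (MulAction.orbitRel.Quotient (MulAction.stabilizer SL(2, ℤ) z0) (X0 N)) := by
  obtain ⟨φ, -⟩ := finite_places N (FractionRing (WH (Gamma0 N))) z0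
  exact (Nat.card_congr φ).symm

/-- The number of primes over `(X - 1728)` is the number of orbits of `S` on `X₀(N)`. -/
theorem card_primes_over_1728 :
    Nat.card {𝔮 : HeightOneSpectrum (WH (Gamma0 N)) //
        algebraMap ℂ[X] (WH (Gamma0 N)) (X - C 1728) ∈ 𝔮.asIdeal} =
      Nat.card (MulAction.orbitRel.Quotient (Subgroup.zpowers ModularGroup.S) (X0 N)) := by
  have h := card_primes_over N UpperHalfPlane.I
  rw [(E₆_eq_zero_iff _).mp E₆_I] at h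
  rw [h]
  exact card_orbitRel_quotient_congr stabilizer_I

/-- The number of primes over `(X - 0)` is the number of orbits of `S T` on `X₀(N)`. -/
theorem card_primes_over_zero :
    Nat.card {𝔮 : HeightOneSpectrum (WH (Gamma0 N)) //
        algebraMap ℂ[X] (WH (Gamma0 N)) (X - C 0) ∈ 𝔮.asIdeal} =
      Nat.card (MulAction.orbitRel.Quotient
        (Subgroup.zpowers (ModularGroup.S * ModularGroup.T)) (X0 N)) := by
  have h := card_primes_over N rho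
  rw [jFun_rho] at h
  rw [h]
  exact card_orbitRel_quotient_congr stabilizer_rho

/-- **hunr**: the primes of `WH Γ₀(N)` not over `j = 1728` or `j = 0` are unramified over `ℂ[j]`. -/
theorem ramificationIdx_eq_one (𝔮 : HeightOneSpectrum (WH (Gamma0 N)))
    (h1 : algebraMap ℂ[X] (WH (Gamma0 N)) (X - C 1728) ∉ 𝔮.asIdeal)
    (h2 : algebraMap ℂ[X] (WH (Gamma0 N)) (X - C 0) ∉ 𝔮.asIdeal) :
    𝔮.asIdeal.ramificationIdx ℂ[X] = 1 := by
  obtain ⟨a, ha⟩ := exists_X_sub_C_mem (Gamma0 N) 𝔮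
  obtain ⟨z0, rfl⟩ := jFun_surjective a
  obtain ⟨φ, hφ⟩ := finite_places N (FractionRing (WH (Gamma0 N))) z0
  obtain ⟨q, hq⟩ := φ.surjective ⟨𝔮, ha⟩
  obtain ⟨x, rfl⟩ := Quotient.exists_rep q
  have he := (hφ x).1
  rw [hq] at he
  have hE : eIdx z0 = 1 := by
    rcases eIdx_cases z0 with ⟨-, -, h⟩ | ⟨h6, -⟩ | ⟨h4, -⟩
    · exact h
    · exfalso
      rw [(E₆_eq_zero_iff z0).mp h6] at ha
      exact h1 ha
    · exfalso
      rw [(E₄_eq_zero_iff z0).mp h4] at ha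
      exact h2 ha
  rw [hE] at he
  exact Nat.eq_one_of_mul_eq_one_right he

/-- **Dictionary for step (4)**: if `w = a / b` satisfies the finite-place conditions of
`holoDiff` (`v_𝔮(w) ≥ -(e_𝔮 - 1)` for all `𝔮`), then `ord_z(b) + 1 ≤ ord_z(a) + ord_z(j - j(z))`
at every `z : ℍ`. -/
theorem ordAt_add_one_le_of_valuation_le (a b : WH (Gamma0 N)) (hb : b ≠ 0)
    (h : ∀ 𝔮 : HeightOneSpectrum (WH (Gamma0 N)),
      𝔮.valuation L (algebraMap (WH (Gamma0 N)) L a / algebraMap (WH (Gamma0 N)) L b) ≤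
        WithZero.exp (((𝔮.asIdeal.ramificationIdx ℂ[X] : ℕ) : ℤ) - 1)) (z : ℍ) :
    ordAt (b : ℍ → ℂ) z + 1 ≤ ordAt (a : ℍ → ℂ) z + ordAt (fun w => jFun w - jFun z) z := by
  by_cases ha : a = 0
  · have : ordAt (a : ℍ → ℂ) z = ⊤ := by
      rw [ordAt_eq_top_iff (isWH_coe a).mdiff, ha]
      rfl
    rw [this, top_add]
    exact le_top
  obtain ⟨φ, hφ⟩ := finite_places N L z
  set x1 : X0 N := ((1 : SL(2, ℤ)) : X0 N) with hx1
  obtain ⟨he, hv⟩ := hφ x1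
  set 𝔮 := (φ (Quotient.mk _ x1)).1 with h𝔮
  set n := nIdx (Gamma0 N) z x1 with hn
  have hnpos : 0 < n := nIdx_pos (Gamma0 N) (neg_one_mem_Gamma0 N) z x1
  obtain ⟨γ, hγ, hpt⟩ := pt_mk (Γ := Gamma0 N) z 1
  rw [inv_one, one_smul] at hpt
  have hcongr : ∀ c : WH (Gamma0 N), ordZ (pt z x1) c = ordZ z c := by
    intro c
    apply ordZ_congr
    rw [hx1, hpt]
    exact ordAt_smul_of_invariant (isWH_coe c).inv hγ z
  have hw := hv (algebraMap (WH (Gamma0 N)) L a / algebraMap (WH (Gamma0 N)) L b)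
  rw [map_div₀, ordVal_apply _ L _ a ha, ordVal_apply _ L _ b hb, hcongr, hcongr,
    ← WithZero.exp_sub] at hw
  have hle : (𝔮.valuation L (algebraMap (WH (Gamma0 N)) L a / algebraMap (WH (Gamma0 N)) L b)) ^ n ≤
      (WithZero.exp (((𝔮.asIdeal.ramificationIdx ℂ[X] : ℕ) : ℤ) - 1)) ^ n :=
    pow_le_pow_left₀ zero_le (h 𝔮) n
  rw [← hw, ← WithZero.exp_nsmul, WithZero.exp_le_exp] at hle
  have hE := ordAt_jFun_sub z
  rw [hE, ordAt_eq_ordZ hb z, ordAt_eq_ordZ ha z]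
  have hA := ordZ_nonneg z a
  have hB := ordZ_nonneg z b
  have hkey : ordZ z b + 1 ≤ ordZ z a + (eIdx z : ℤ) := by
    rw [nsmul_eq_mul] at hle
    have he' : ((𝔮.asIdeal.ramificationIdx ℂ[X] : ℕ) : ℤ) * (n : ℤ) = (eIdx z : ℤ) := by
      exact_mod_cast he
    have hn1 : (1 : ℤ) ≤ (n : ℤ) := by exact_mod_cast hnpos
    nlinarith
  have hkey' : (ordZ z b).toNat + 1 ≤ (ordZ z a).toNat + eIdx z := by omega
  exact_mod_cast hkey'

end Gamma0

namespace FinitePlaces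

end FinitePlaces

end Fermat.Agent.S20
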