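import Mathlib
import Fermat.Agent.S20.Ring
import Fermat.Agent.S20.FinitePlaces

/-!
# S20 (DF): dictionary at the finite places

The statements (DF) of the wave-2 interface, deduced from `FinitePlaces.lean`.
-/

set_option autoImplicit false

open UpperHalfPlane hiding I
open Complex ModularForm Polynomial IsDedekindDomain CongruenceSubgroup
open scoped MatrixGroups Manifold WithZero

namespace Fermat.Agent.S20

open FinitePlaces

/-- **(DF1)** For every `z : ℍ` there is a prime `𝔮` of `WH Γ₀(N)` and `c > 0` with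
`c * e_𝔮 = ord_z(j - j(z))` and `v_𝔮(b)^c = exp(-ord_z(b))` for all nonzero `b`
(`L` any fraction field of `WH Γ₀(N)`). -/
theorem exists_prime_of_point (N : ℕ) [NeZero N] (L : Type) [Field L]
    [Algebra (WH (Gamma0 N)) L] [IsFractionRing (WH (Gamma0 N)) L] (z : ℍ) :
    ∃ (𝔮 : HeightOneSpectrum (WH (Gamma0 N))) (c : ℕ), 0 < c ∧
      c * 𝔮.asIdeal.ramificationIdx ℂ[X] = (ordAt (fun w => jFun w - jFun z) z).toNat ∧
      ∀ b : WH (Gamma0 N), b ≠ 0 →
        𝔮.valuation L (algebraMap (WH (Gamma0 N)) L b) ^ c =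
          WithZero.exp (-((ordAt (b : ℍ → ℂ) z).toNat : ℤ)) := by
  obtain ⟨φ, hφ⟩ := finite_places N L z
  set x1 : X0 N := ((1 : SL(2, ℤ)) : X0 N) with hx1
  obtain ⟨he, hv⟩ := hφ x1
  refine ⟨(φ (Quotient.mk _ x1)).1, nIdx (Gamma0 N) z x1,
    nIdx_pos (Gamma0 N) (neg_one_mem_Gamma0 N) z x1, ?_, ?_⟩
  · rw [mul_comm]
    exact he
  · intro b hb
    obtain ⟨γ, hγ, hpt⟩ := pt_mk (Γ := Gamma0 N) z 1
    rw [inv_one, one_smul] at hpt
    have hcongr : ordZ (pt z x1) b = ordZ z b := by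
      apply ordZ_congr
      rw [hx1, hpt]
      exact ordAt_smul_of_invariant (isWH_coe b).inv hγ z
    rw [← hv, ordVal_apply _ _ _ b hb, hcongr]
    rfl

theorem card_primes_over_I_le (N : ℕ) [NeZero N] :
    Nat.card {𝔮 : HeightOneSpectrum (WH (Gamma0 N)) //
        algebraMap ℂ[X] (WH (Gamma0 N)) (X - C (jFun UpperHalfPlane.I)) ∈ 𝔮.asIdeal} ≤
      Nat.card (MulAction.orbitRel.Quotient (Subgroup.zpowers ModularGroup.S)
        (SL(2, ℤ) ⧸ Gamma0 N)) := by
  rw [card_primes_over N UpperHalfPlane.I]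
  exact le_of_eq (card_orbitRel_quotient_congr stabilizer_I)

theorem card_primes_over_rho_le (N : ℕ) [NeZero N] :
    Nat.card {𝔮 : HeightOneSpectrum (WH (Gamma0 N)) //
        algebraMap ℂ[X] (WH (Gamma0 N)) (X - C (jFun rho)) ∈ 𝔮.asIdeal} ≤
      Nat.card (MulAction.orbitRel.Quotient (Subgroup.zpowers (ModularGroup.S * ModularGroup.T))
        (SL(2, ℤ) ⧸ Gamma0 N)) := by
  rw [card_primes_over N rho]
  exact le_of_eq (card_orbitRel_quotient_congr stabilizer_rho)

/-- Equality versions (the counting lemma gives bijections). -/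
theorem card_primes_over_I (N : ℕ) [NeZero N] :
    Nat.card {𝔮 : HeightOneSpectrum (WH (Gamma0 N)) //
        algebraMap ℂ[X] (WH (Gamma0 N)) (X - C (jFun UpperHalfPlane.I)) ∈ 𝔮.asIdeal} =
      Nat.card (MulAction.orbitRel.Quotient (Subgroup.zpowers ModularGroup.S)
        (SL(2, ℤ) ⧸ Gamma0 N)) := by
  rw [card_primes_over N UpperHalfPlane.I]
  exact card_orbitRel_quotient_congr stabilizer_I

theorem card_primes_over_rho (N : ℕ) [NeZero N] :
    Nat.card {𝔮 : HeightOneSpectrum (WH (Gamma0 N)) //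
        algebraMap ℂ[X] (WH (Gamma0 N)) (X - C (jFun rho)) ∈ 𝔮.asIdeal} =
      Nat.card (MulAction.orbitRel.Quotient (Subgroup.zpowers (ModularGroup.S * ModularGroup.T))
        (SL(2, ℤ) ⧸ Gamma0 N)) := by
  rw [card_primes_over N rho]
  exact card_orbitRel_quotient_congr stabilizer_rho

theorem ramificationIdx_eq_one_of_ne (N : ℕ) [NeZero N] (𝔮 : HeightOneSpectrum (WH (Gamma0 N)))
    (h1 : algebraMap ℂ[X] (WH (Gamma0 N)) (X - C (jFun UpperHalfPlane.I)) ∉ 𝔮.asIdeal)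
    (h2 : algebraMap ℂ[X] (WH (Gamma0 N)) (X - C (jFun rho)) ∉ 𝔮.asIdeal) :
    𝔮.asIdeal.ramificationIdx ℂ[X] = 1 := by
  rw [jFun_I] at h1
  rw [jFun_rho] at h2
  exact ramificationIdx_eq_one N 𝔮 h1 h2

end Fermat.Agent.S20
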