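import Mathlib
import Fermat.Agent.S20.AinfDVR

/-!
# `Ainf k` as a `k`-algebra

Companion of `AinfDVR.lean` with explicit `k`, an `Algebra k (Ainf k)` instance and the
residue field statement in bijective form.
-/

set_option autoImplicit false

open Polynomial

namespace Fermat.Agent.S20

section AinfDVR

variable (k : Type) [Field k]

/-- `1/X` as an element of `Ainf k`. -/
noncomputable def Xinv : Ainf k := ⟨(RatFunc.X : RatFunc k)⁻¹, (Ainf.Xinv : Ainf k).2⟩

theorem coe_Xinv : ((Xinv k : Ainf k) : RatFunc k) = (RatFunc.X : RatFunc k)⁻¹ := rfl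

theorem Xinv_eq : Xinv k = Ainf.Xinv := rfl

theorem Xinv_ne_zero : Xinv k ≠ 0 := Ainf.Xinv_ne_zero

/-- constants as a ring hom into `Ainf k`. -/
noncomputable def constAinf : k →+* Ainf k where
  toFun c := ⟨algebraMap k (RatFunc k) c, by
    rw [RatFunc.algebraMap_eq_C, mem_Ainf, RatFunc.intDegree_C]⟩
  map_one' := Subtype.ext (map_one _)
  map_mul' := fun a b => Subtype.ext (map_mul _ a b)
  map_zero' := Subtype.ext (map_zero _)
  map_add' := fun a b => Subtype.ext (map_add _ a b)

theorem constAinf_eq : constAinf k = Ainf.const := by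
  ext c
  show algebraMap k (RatFunc k) c = _
  rw [Ainf.coe_const]

theorem coe_constAinf (c : k) :
    ((constAinf k c : Ainf k) : RatFunc k) = algebraMap k (RatFunc k) c := rfl

noncomputable instance algebraAinf : Algebra k (Ainf k) := (constAinf k).toAlgebra

theorem algebraMap_Ainf_eq : algebraMap k (Ainf k) = constAinf k := rfl

instance isScalarTower_Ainf : IsScalarTower k (Ainf k) (RatFunc k) :=
  IsScalarTower.of_algebraMap_eq (fun _ => rfl)

theorem isFractionRing_Ainf : IsFractionRing (Ainf k) (RatFunc k) := inferInstance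

/-- every nonzero element is a unit times a power of `1/X`. -/
theorem Ainf_eq_unit_mul_pow (a : Ainf k) (ha : a ≠ 0) :
    ∃ (u : (Ainf k)ˣ) (d : ℕ), a = u * Xinv k ^ d := by
  obtain ⟨u, hu⟩ := Ainf.eq_Xinv_pow_mul_unit a ha
  exact ⟨u, _, by rw [Xinv_eq, mul_comm]; exact hu⟩

/-- units are the nonzero elements of degree zero. -/
theorem Ainf_isUnit_iff (a : Ainf k) : IsUnit a ↔ a ≠ 0 ∧ (a : RatFunc k).intDegree = 0 :=
  Ainf.isUnit_iff a

theorem isDiscreteValuationRing_Ainf : IsDiscreteValuationRing (Ainf k) := inferInstance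

theorem maximalIdeal_Ainf : IsLocalRing.maximalIdeal (Ainf k) = Ideal.span {Xinv k} :=
  Ainf.maximalIdeal_eq

theorem Ainf_isMaximal_iff (p : Ideal (Ainf k)) : p.IsMaximal ↔ p = Ideal.span {Xinv k} := by
  rw [← maximalIdeal_Ainf]
  constructor
  · intro h
    exact IsLocalRing.eq_maximalIdeal h
  · rintro rfl
    exact IsLocalRing.maximalIdeal.isMaximal _

/-- the residue field is `k`. -/
theorem Ainf_residue (a : Ainf k) :
    ∃ c : k, a - algebraMap k (Ainf k) c ∈ Ideal.span {Xinv k} := by
  obtain ⟨c, hc⟩ := Ainf.exists_const_sub_mem a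
  refine ⟨c, ?_⟩
  rw [← maximalIdeal_Ainf, algebraMap_Ainf_eq, constAinf_eq]
  exact hc

theorem Ainf_residue_bijective :
    Function.Bijective
      ((Ideal.Quotient.mk (Ideal.span {Xinv k})).comp (algebraMap k (Ainf k))) := by
  constructor
  · have : (Ideal.span {Xinv k} : Ideal (Ainf k)).IsMaximal :=
      (Ainf_isMaximal_iff k _).2 rfl
    exact RingHom.injective _
  · intro y
    obtain ⟨a, rfl⟩ := Ideal.Quotient.mk_surjective y
    obtain ⟨c, hc⟩ := Ainf_residue k a
    refine ⟨c, ?_⟩
    rw [RingHom.comp_apply]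
    exact (Ideal.Quotient.eq.2 hc).symm

end AinfDVR

end Fermat.Agent.S20
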