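import Mathlib

set_option autoImplicit false

open UniqueFactorizationMonoid

namespace Fermat.Agent.S20

section TameDifferent

attribute [local instance] FractionRing.liftAlgebra FractionRing.isScalarTower_liftAlgebra
  Ideal.Quotient.field

variable (A : Type*) {B : Type*} [CommRing A] [CommRing B] [Algebra A B]
  [IsDedekindDomain A] [IsDedekindDomain B] [Module.IsTorsionFree A B] [Module.Finite A B]
  [Algebra.IsSeparable (FractionRing A) (FractionRing B)]

/-- **Tame different, upper bound.** If the residue field `A ⧸ p` has characteristic zero and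
`P` is a prime of `B` above `p`, then `P ^ e ∤ 𝔇_{B/A}`, where `e` is the exact power of `P`
dividing `p B`. -/
theorem not_pow_count_dvd_differentIdeal {p : Ideal A} [p.IsMaximal] [CharZero (A ⧸ p)]
    (hp : p ≠ ⊥) (P : Ideal B) [P.IsPrime] (hP : P ≠ ⊥)
    (hPp : p.map (algebraMap A B) ≤ P) :
    ¬ P ^ (normalizedFactors (p.map (algebraMap A B))).count P ∣ differentIdeal A B := by
  classical
  have hI0 : p.map (algebraMap A B) ≠ ⊥ :=
    (Ideal.map_eq_bot_iff_of_injective (FaithfulSMul.algebraMap_injective A B)).not.mpr hp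
  have hPmax : P.IsMaximal := Ideal.IsPrime.isMaximal inferInstance hP
  obtain ⟨Q, hPQ, hfac⟩ := Ideal.eq_prime_pow_mul_coprime hI0 P
  set n := (normalizedFactors (p.map (algebraMap A B))).count P with hn
  have hn0 : n ≠ 0 := by
    rw [hn, ← Nat.pos_iff_ne_zero, Multiset.count_pos]
    exact (Ideal.mem_normalizedFactors_iff hI0).mpr ⟨inferInstance, hPp⟩
  have hcop : IsCoprime (P ^ n) Q := (Ideal.isCoprime_iff_sup_eq.mpr hPQ).pow_left
  obtain ⟨a, ha, b, hb, hab⟩ := Ideal.isCoprime_iff_exists.mp hcop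
  refine not_dvd_differentIdeal_of_intTrace_not_mem A (P ^ n) Q hfac.symm b hb ?_
  rw [← Ideal.Quotient.eq_zero_iff_mem, ← Algebra.trace_quotient_eq_of_isDedekindDomain]
  let _ : Algebra (A ⧸ p) (B ⧸ P ^ n) := Ideal.Quotient.algebraQuotientOfLEComap (by
      rw [← Ideal.map_le_iff_le_comap, hfac]
      exact Ideal.mul_le_left)
  let _ : Algebra (A ⧸ p) (B ⧸ Q) := Ideal.Quotient.algebraQuotientOfLEComap (by
      rw [← Ideal.map_le_iff_le_comap, hfac]
      exact Ideal.mul_le_right)
  have : IsScalarTower A (A ⧸ p) (B ⧸ Q) := .of_algebraMap_eq' rfl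
  have : IsScalarTower A (A ⧸ p) (B ⧸ P ^ n) := .of_algebraMap_eq' rfl
  have : Module.Finite (A ⧸ p) (B ⧸ Q) :=
    Module.Finite.of_restrictScalars_finite A (A ⧸ p) (B ⧸ Q)
  have : Module.Finite (A ⧸ p) (B ⧸ P ^ n) :=
    Module.Finite.of_restrictScalars_finite A (A ⧸ p) (B ⧸ P ^ n)
  let e : (B ⧸ p.map (algebraMap A B)) ≃ₐ[A ⧸ p] ((B ⧸ P ^ n) × B ⧸ Q) :=
    { __ := (Ideal.quotEquivOfEq hfac).trans (Ideal.quotientMulEquivQuotientProd (P ^ n) Q hcop),
      commutes' := Quotient.ind fun _ ↦ rfl }
  have he1 : (e (Ideal.Quotient.mk _ b)).1 = 1 := by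
    have h1 : (e (Ideal.Quotient.mk _ b)).1 = Ideal.Quotient.mk (P ^ n) b := rfl
    rw [h1, ← map_one (Ideal.Quotient.mk (P ^ n)), Ideal.Quotient.eq]
    have : b - 1 = -a := by rw [← hab]; ring
    rw [this]
    exact neg_mem ha
  have he2 : (e (Ideal.Quotient.mk _ b)).2 = 0 := by
    have h2 : (e (Ideal.Quotient.mk _ b)).2 = Ideal.Quotient.mk Q b := rfl
    rw [h2, Ideal.Quotient.eq_zero_iff_mem]
    exact hb
  have hnt : Nontrivial (B ⧸ P ^ n) := by
    rw [Ideal.Quotient.nontrivial_iff]
    intro h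
    have h2 : P = ⊤ := by
      rw [Ideal.eq_top_iff_one]
      exact Ideal.pow_le_self hn0 (h ▸ Submodule.mem_top)
    exact hPmax.ne_top h2
  rw [← Algebra.trace_eq_of_algEquiv e, Algebra.trace_prod_apply, he1, he2, map_zero, add_zero,
    ← map_one (algebraMap (A ⧸ p) (B ⧸ P ^ n)), Algebra.trace_algebraMap, nsmul_eq_mul, mul_one,
    Nat.cast_eq_zero]
  exact (Module.finrank_pos (R := A ⧸ p) (M := B ⧸ P ^ n)).ne' 

/-- **Different, lower bound** (Mathlib's `pow_sub_one_dvd_differentIdeal`, restated with the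
exact exponent of `P` in `p B`). -/
theorem pow_count_sub_one_dvd_differentIdeal {p : Ideal A} [p.IsMaximal] (hp : p ≠ ⊥)
    (P : Ideal B) :
    P ^ ((normalizedFactors (p.map (algebraMap A B))).count P - 1) ∣ differentIdeal A B := by
  classical
  have hI0 : p.map (algebraMap A B) ≠ ⊥ :=
    (Ideal.map_eq_bot_iff_of_injective (FaithfulSMul.algebraMap_injective A B)).not.mpr hp
  by_cases hmem : P ∈ normalizedFactors (p.map (algebraMap A B))
  · have hirr : Irreducible P := irreducible_of_normalized_factor P hmem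
    refine pow_sub_one_dvd_differentIdeal A P _ hp ?_
    rw [dvd_iff_normalizedFactors_le_normalizedFactors (pow_ne_zero _ hirr.ne_zero) hI0,
      normalizedFactors_pow, normalizedFactors_irreducible hirr, normalize_eq,
      Multiset.le_iff_count]
    intro Q
    rw [Multiset.count_nsmul, Multiset.count_singleton]
    split_ifs with h
    · subst h; simp
    · simp
  · rw [Multiset.count_eq_zero_of_notMem hmem, Nat.zero_sub, pow_zero]
    exact one_dvd _

/-- **Tame different, exact exponent.** If the residue field `A ⧸ p` has characteristic zero and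
`P` is a nonzero prime of `B` above `p`, then the exponent of `P` in the different `𝔇_{B/A}` is
`e - 1`, where `e` is the exponent of `P` in `p B`. -/
theorem count_normalizedFactors_differentIdeal {p : Ideal A} [p.IsMaximal] [CharZero (A ⧸ p)]
    (hp : p ≠ ⊥) (P : Ideal B) [P.IsPrime] (hP : P ≠ ⊥)
    (hPp : p.map (algebraMap A B) ≤ P) :
    (normalizedFactors (differentIdeal A B)).count P =
      (normalizedFactors (p.map (algebraMap A B))).count P - 1 := by
  classical
  have hI0 : p.map (algebraMap A B) ≠ ⊥ :=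
    (Ideal.map_eq_bot_iff_of_injective (FaithfulSMul.algebraMap_injective A B)).not.mpr hp
  have hn0 : (normalizedFactors (p.map (algebraMap A B))).count P ≠ 0 := by
    rw [← Nat.pos_iff_ne_zero, Multiset.count_pos]
    exact (Ideal.mem_normalizedFactors_iff hI0).mpr ⟨inferInstance, hPp⟩
  refine Ideal.count_normalizedFactors_eq
    (Ideal.le_of_dvd (pow_count_sub_one_dvd_differentIdeal A hp P)) ?_
  rw [Nat.sub_add_cancel (Nat.one_le_iff_ne_zero.mpr hn0)]
  exact mt Ideal.dvd_iff_le.mpr (not_pow_count_dvd_differentIdeal A hp P hP hPp)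

/-- **Tame different** in terms of `Ideal.ramificationIdx'`. -/
theorem count_normalizedFactors_differentIdeal_eq_ramificationIdx'
    {p : Ideal A} [p.IsMaximal] [CharZero (A ⧸ p)]
    (hp : p ≠ ⊥) (P : Ideal B) [P.IsPrime] (hP : P ≠ ⊥)
    (hPp : p.map (algebraMap A B) ≤ P) :
    (normalizedFactors (differentIdeal A B)).count P = p.ramificationIdx' P - 1 := by
  have hI0 : p.map (algebraMap A B) ≠ ⊥ :=
    (Ideal.map_eq_bot_iff_of_injective (FaithfulSMul.algebraMap_injective A B)).not.mpr hp
  rw [count_normalizedFactors_differentIdeal A hp P hP hPp,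
    Ideal.IsDedekindDomain.ramificationIdx'_eq_normalizedFactors_count hI0 inferInstance hP]

/-- **Tame different** in terms of the length-based `Ideal.ramificationIdx`. -/
theorem count_normalizedFactors_differentIdeal_eq_ramificationIdx
    {p : Ideal A} [p.IsMaximal] [CharZero (A ⧸ p)]
    (hp : p ≠ ⊥) (P : Ideal B) [P.IsPrime] [P.LiesOver p] (hP : P ≠ ⊥) :
    (normalizedFactors (differentIdeal A B)).count P = P.ramificationIdx A - 1 := by
  have hI0 : p.map (algebraMap A B) ≠ ⊥ :=
    (Ideal.map_eq_bot_iff_of_injective (FaithfulSMul.algebraMap_injective A B)).not.mpr hp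
  have hPp : p.map (algebraMap A B) ≤ P :=
    Ideal.map_le_of_le_comap (P.over_def p).le
  rw [count_normalizedFactors_differentIdeal A hp P hP hPp,
    Ideal.IsDedekindDomain.ramificationIdx_eq_normalizedFactors_count p P hI0]

end TameDifferent

end Fermat.Agent.S20
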