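import Mathlib
import Fermat.Agent.S20.TameDifferent

set_option autoImplicit false

open UniqueFactorizationMonoid

namespace Fermat.Agent.S20

namespace DifferentDim

section Layer1

variable (k : Type*) [Field k] {B : Type*} [CommRing B] [IsDedekindDomain B] [Algebra k B]

/-- In a Dedekind domain, `span {a} ⊔ P * I = I` for `a ∈ I \ P * I`, `P` a nonzero prime. -/
theorem span_sup_mul_eq (P I : Ideal B) [P.IsPrime] (hP : P ≠ ⊥) (hI : I ≠ ⊥) {a : B}
    (haI : a ∈ I) (haPI : a ∉ P * I) : Ideal.span {a} ⊔ P * I = I := by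
  set G := Ideal.span {a} ⊔ P * I with hG
  have hGI : G ≤ I := sup_le ((Ideal.span_singleton_le_iff_mem _).mpr haI) Ideal.mul_le_right
  obtain ⟨J, hJ⟩ := Ideal.dvd_iff_le.mpr hGI
  have hJP : J ∣ P := by
    have h1 : I * J ∣ I * P := by
      rw [← hJ, mul_comm I P]
      exact Ideal.dvd_iff_le.mpr le_sup_right
    exact (mul_dvd_mul_iff_left hI).mp h1
  have hprime : Prime P := Ideal.prime_of_isPrime hP inferInstance
  rcases (hprime.irreducible.dvd_iff.mp hJP) with hu | hassoc
  · rw [hJ, Ideal.isUnit_iff.mp hu, Ideal.mul_top]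
  · exfalso
    apply haPI
    have hJeq : J = P := by
      have := associated_iff_eq.mp hassoc
      exact this.symm
    have : G = P * I := by rw [hJ, hJeq, mul_comm]
    rw [← this]
    exact Ideal.mem_sup_left (Ideal.mem_span_singleton_self a)

/-- Additivity of the `k`-dimension of quotients of a Dedekind domain along a prime factor. -/
theorem rank_quotient_mul_prime (P I : Ideal B) [P.IsPrime] (hP : P ≠ ⊥) (hI : I ≠ ⊥) :
    Module.rank k (B ⧸ (P * I)) = Module.rank k (B ⧸ I) + Module.rank k (B ⧸ P) := by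
  have hlt : P * I < I := by
    refine lt_of_le_of_ne Ideal.mul_le_right ?_
    intro h
    have h1 : P * I = 1 * I := by rw [h, one_mul]
    have h2 := mul_right_cancel₀ hI h1
    exact (inferInstance : P.IsPrime).ne_top (by rw [h2, Ideal.one_eq_top])
  obtain ⟨a, haI, haPI⟩ := SetLike.exists_of_lt hlt
  have hsup := span_sup_mul_eq P I hP hI haI haPI
  let π : (B ⧸ (P * I)) →ₗ[k] (B ⧸ I) :=
    (Ideal.Quotient.factorₐ k (Ideal.mul_le_right : P * I ≤ I)).toLinearMap
  have hπ : Function.Surjective π :=
    Ideal.Quotient.factor_surjective (Ideal.mul_le_right : P * I ≤ I)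
  have hmap : P ≤ Submodule.comap (LinearMap.mulLeft B a) (P * I) := by
    intro x hx
    simp only [Submodule.mem_comap, LinearMap.mulLeft_apply]
    rw [mul_comm a x]
    exact Ideal.mul_mem_mul hx haI
  let μ : (B ⧸ P) →ₗ[k] (B ⧸ (P * I)) :=
    (Submodule.mapQ P (P * I) (LinearMap.mulLeft B a) hmap).restrictScalars k
  have hμ_mk : ∀ b : B, μ (Ideal.Quotient.mk P b) = Ideal.Quotient.mk (P * I) (a * b) := by
    intro b
    rfl
  have hμinj : Function.Injective μ := by
    rw [injective_iff_map_eq_zero]
    intro x hx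
    obtain ⟨b, rfl⟩ := Ideal.Quotient.mk_surjective x
    rw [hμ_mk, Ideal.Quotient.eq_zero_iff_mem] at hx
    rw [Ideal.Quotient.eq_zero_iff_mem]
    -- a * b ∈ P * I, a ∉ P * I; show b ∈ P
    by_contra hb
    have hPmax : P.IsMaximal := Ideal.IsPrime.isMaximal inferInstance hP
    obtain ⟨c', p, hp, hpc⟩ := hPmax.exists_inv hb
    apply haPI
    have hap : a = p * a + c' * (a * b) := by
      calc a = (c' * b + p) * a := by rw [hpc, one_mul]
        _ = p * a + c' * (a * b) := by ring
    rw [hap]
    exact Ideal.add_mem _ (Ideal.mul_mem_mul hp haI) (Ideal.mul_mem_left _ _ hx)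
  have hπ_mk : ∀ b : B, π (Ideal.Quotient.mk (P * I) b) = Ideal.Quotient.mk I b := by
    intro b
    rfl
  have hrange : LinearMap.range μ = LinearMap.ker π := by
    ext x
    constructor
    · rintro ⟨y, rfl⟩
      obtain ⟨b, rfl⟩ := Ideal.Quotient.mk_surjective y
      rw [LinearMap.mem_ker, hμ_mk, hπ_mk, Ideal.Quotient.eq_zero_iff_mem]
      exact Ideal.mul_mem_right _ _ haI
    · intro hx
      obtain ⟨y, rfl⟩ := Ideal.Quotient.mk_surjective x
      rw [LinearMap.mem_ker, hπ_mk, Ideal.Quotient.eq_zero_iff_mem, ← hsup] at hx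
      obtain ⟨u, hu, z, hz, rfl⟩ := Submodule.mem_sup.mp hx
      obtain ⟨b, rfl⟩ := Ideal.mem_span_singleton'.mp hu
      refine ⟨Ideal.Quotient.mk P b, ?_⟩
      rw [hμ_mk, Ideal.Quotient.eq]
      have : a * b - (b * a + z) = -z := by ring
      rw [this]
      exact neg_mem hz
  calc Module.rank k (B ⧸ (P * I))
      = Module.rank k (LinearMap.range π) + Module.rank k (LinearMap.ker π) :=
        (LinearMap.rank_range_add_rank_ker π).symm
    _ = Module.rank k (B ⧸ I) + Module.rank k (B ⧸ P) := by
        rw [LinearMap.range_eq_top.mpr hπ, rank_top, ← hrange, rank_range_of_injective μ hμinj]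

/-- If all residue fields of the Dedekind `k`-algebra `B` are `k`, then `dim_k B/I` is the number
of prime factors of `I` (with multiplicity). -/
theorem rank_quotient_eq_card_normalizedFactors
    (hres : ∀ P : Ideal B, P.IsPrime → P ≠ ⊥ → Module.finrank k (B ⧸ P) = 1)
    (I : Ideal B) (hI : I ≠ ⊥) :
    Module.rank k (B ⧸ I) = (Multiset.card (normalizedFactors I) : Cardinal) := by
  revert hI
  refine UniqueFactorizationMonoid.induction_on_prime
    (P := fun I : Ideal B => I ≠ ⊥ →
      Module.rank k (B ⧸ I) = (Multiset.card (normalizedFactors I) : Cardinal)) I ?_ ?_ ?_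
  · intro h
    exact absurd rfl h
  · intro J hJ _
    rw [normalizedFactors_of_isUnit hJ, Multiset.card_zero, Nat.cast_zero]
    have : Subsingleton (B ⧸ J) := by
      rw [Ideal.isUnit_iff.mp hJ]
      exact Ideal.Quotient.subsingleton_iff.mpr rfl
    exact rank_subsingleton' k (B ⧸ J)
  · intro J P hJ hP ih _
    have hJ' : J ≠ ⊥ := hJ
    have hPprime : P.IsPrime := Ideal.isPrime_of_prime hP
    have hP0 : P ≠ ⊥ := hP.ne_zero
    rw [rank_quotient_mul_prime k P J hP0 hJ', ih hJ', normalizedFactors_mul hP.ne_zero hJ,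
      normalizedFactors_irreducible hP.irreducible, normalize_eq, Multiset.card_add,
      Multiset.card_singleton, Module.rank_eq_one_iff_finrank_eq_one.mpr (hres P hPprime hP0)]
    push_cast
    ring

theorem finite_quotient_of_ne_bot
    (hres : ∀ P : Ideal B, P.IsPrime → P ≠ ⊥ → Module.finrank k (B ⧸ P) = 1)
    (I : Ideal B) (hI : I ≠ ⊥) : Module.Finite k (B ⧸ I) :=
  Module.finite_of_rank_eq_nat (rank_quotient_eq_card_normalizedFactors k hres I hI)

theorem finrank_quotient_eq_card_normalizedFactors
    (hres : ∀ P : Ideal B, P.IsPrime → P ≠ ⊥ → Module.finrank k (B ⧸ P) = 1)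
    (I : Ideal B) (hI : I ≠ ⊥) :
    Module.finrank k (B ⧸ I) = Multiset.card (normalizedFactors I) :=
  Module.finrank_eq_of_rank_eq (rank_quotient_eq_card_normalizedFactors k hres I hI)

end Layer1

section Layer2

open nonZeroDivisors

variable (k : Type*) [Field k] {B : Type*} {L : Type*} [CommRing B] [IsDedekindDomain B]
  [Field L] [Algebra B L] [IsFractionRing B L] [Algebra k B] [Algebra k L] [IsScalarTower k B L]

/-- Membership in the inverse of an integral ideal `D`, given `span {d} = D * J`. -/
theorem mem_inv_iff_of_span_eq_mul {D J : Ideal B} {d : B} (hd : d ≠ 0)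
    (hDJ : Ideal.span {d} = D * J) (hD : D ≠ ⊥) (w : L) :
    w ∈ ((D : FractionalIdeal B⁰ L)⁻¹) ↔
      ∃ x ∈ J, algebraMap B L x = algebraMap B L d * w := by
  have hd' : algebraMap B L d ≠ 0 := by
    rwa [Ne, map_eq_zero_iff _ (IsFractionRing.injective B L)]
  have hD' : (D : FractionalIdeal B⁰ L) ≠ 0 := FractionalIdeal.coeIdeal_ne_zero.mpr hD
  have h1 : FractionalIdeal.spanSingleton B⁰ (algebraMap B L d) =
      (D : FractionalIdeal B⁰ L) * (J : FractionalIdeal B⁰ L) := by
    rw [← FractionalIdeal.coeIdeal_span_singleton, hDJ, FractionalIdeal.coeIdeal_mul]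
  have h2 : ((D : FractionalIdeal B⁰ L)⁻¹) =
      FractionalIdeal.spanSingleton B⁰ (algebraMap B L d)⁻¹ * (J : FractionalIdeal B⁰ L) := by
    have hJ : J ≠ ⊥ := by
      rintro rfl
      rw [Ideal.mul_bot, Ideal.span_singleton_eq_bot] at hDJ
      exact hd hDJ
    have hJ' : (J : FractionalIdeal B⁰ L) ≠ 0 := FractionalIdeal.coeIdeal_ne_zero.mpr hJ
    rw [← FractionalIdeal.spanSingleton_inv, h1, mul_inv, mul_assoc, inv_mul_cancel₀ hJ', mul_one]
  rw [h2, FractionalIdeal.mem_singleton_mul]
  constructor
  · rintro ⟨y, hy, rfl⟩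
    obtain ⟨x, hx, rfl⟩ := (FractionalIdeal.mem_coeIdeal _).mp hy
    exact ⟨x, hx, by field_simp⟩
  · rintro ⟨x, hx, hxe⟩
    refine ⟨algebraMap B L x, (FractionalIdeal.mem_coeIdeal _).mpr ⟨x, hx, rfl⟩, ?_⟩
    rw [hxe]
    field_simp

/-- **Dimension of `D⁻¹ / B`.** If all residue fields of the Dedekind `k`-algebra `B` are `k`
and `D` is a nonzero ideal, then `dim_k (D⁻¹ / B)` is the number of prime factors of `D`
(with multiplicity).  Here `M` is (the carrier of) `B ⊆ L` and `Mdual` is `D⁻¹ ⊆ L`, both as
`k`-subspaces of `L`. -/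
theorem finrank_inv_quotient
    (hres : ∀ P : Ideal B, P.IsPrime → P ≠ ⊥ → Module.finrank k (B ⧸ P) = 1)
    (D : Ideal B) (hD : D ≠ ⊥) (M Mdual : Submodule k L)
    (hM : ∀ v, v ∈ M ↔ v ∈ (algebraMap B L).range)
    (hMd : ∀ w, w ∈ Mdual ↔ w ∈ ((D : FractionalIdeal B⁰ L)⁻¹)) :
    Module.Finite k (↥Mdual ⧸ M.submoduleOf Mdual) ∧
      Module.finrank k (↥Mdual ⧸ M.submoduleOf Mdual) = Multiset.card (normalizedFactors D) := by
  classical
  obtain ⟨d, hdD, hd⟩ := Submodule.exists_mem_ne_zero_of_ne_bot hD
  obtain ⟨J, hDJ⟩ := Ideal.dvd_iff_le.mpr ((Ideal.span_singleton_le_iff_mem D).mpr hdD)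
  have hJ : J ≠ ⊥ := by
    rintro rfl
    rw [Ideal.mul_bot, Ideal.span_singleton_eq_bot] at hDJ
    exact hd hDJ
  have hd0 : Ideal.span {d} ≠ ⊥ := by rwa [Ne, Ideal.span_singleton_eq_bot]
  have hd' : algebraMap B L d ≠ 0 := by
    rwa [Ne, map_eq_zero_iff _ (IsFractionRing.injective B L)]
  have key := mem_inv_iff_of_span_eq_mul (L := L) hd hDJ hD
  have hle : Ideal.span {d} ≤ J := by rw [hDJ]; exact Ideal.mul_le_right
  -- the embedding `B → L` as a `k`-linear map
  let ιk : B →ₗ[k] L := (IsScalarTower.toAlgHom k B L).toLinearMap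
  have hιk : ∀ b, ιk b = algebraMap B L b := fun b => rfl
  have hinj : Function.Injective ιk := IsFractionRing.injective B L
  let e : B ≃ₗ[k] ↥(LinearMap.range ιk) := LinearEquiv.ofInjective ιk hinj
  let g : ↥Mdual →ₗ[k] ↥(LinearMap.range ιk) :=
    LinearMap.codRestrict _ ((LinearMap.mulLeft k (algebraMap B L d)).comp Mdual.subtype) (by
      intro w
      obtain ⟨x, _, hxe⟩ := (key w).mp ((hMd w).mp w.2)
      exact ⟨x, hxe⟩)
  let f : ↥Mdual →ₗ[k] (B ⧸ Ideal.span {d}) :=
    (Ideal.Quotient.mkₐ k (Ideal.span {d})).toLinearMap ∘ₗ e.symm.toLinearMap ∘ₗ g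
  have hf : ∀ (w : ↥Mdual) (x : B), algebraMap B L x = algebraMap B L d * w →
      f w = Ideal.Quotient.mk (Ideal.span {d}) x := by
    intro w x hx
    have : e.symm (g w) = x := by
      rw [LinearEquiv.symm_apply_eq]
      apply Subtype.ext
      rw [LinearEquiv.ofInjective_apply]
      exact hx.symm
    show Ideal.Quotient.mk (Ideal.span {d}) (e.symm (g w)) = _
    rw [this]
  let ρ : (B ⧸ Ideal.span {d}) →ₗ[k] (B ⧸ J) := (Ideal.Quotient.factorₐ k hle).toLinearMap
  have hρ : Function.Surjective ρ := Ideal.Quotient.factor_surjective hle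
  have hρ_mk : ∀ b : B, ρ (Ideal.Quotient.mk (Ideal.span {d}) b) = Ideal.Quotient.mk J b :=
    fun b => rfl
  have hker : LinearMap.ker f = M.submoduleOf Mdual := by
    ext w
    obtain ⟨x, hxJ, hxe⟩ := (key w).mp ((hMd w).mp w.2)
    rw [LinearMap.mem_ker, hf w x hxe, Ideal.Quotient.eq_zero_iff_mem, Submodule.submoduleOf,
      Submodule.mem_comap, Submodule.subtype_apply, hM, Ideal.mem_span_singleton']
    constructor
    · rintro ⟨b, rfl⟩
      refine ⟨b, ?_⟩
      rw [map_mul] at hxe
      have := mul_left_cancel₀ hd' (by rw [← hxe]; ring : algebraMap B L d * algebraMap B L b =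
        algebraMap B L d * (w : L))
      exact this
    · rintro ⟨b, hb⟩
      refine ⟨b, ?_⟩
      apply IsFractionRing.injective B L
      rw [hxe, map_mul, ← hb]
      ring
  have hrange : LinearMap.range f = LinearMap.ker ρ := by
    ext y
    constructor
    · rintro ⟨w, rfl⟩
      obtain ⟨x, hxJ, hxe⟩ := (key w).mp ((hMd w).mp w.2)
      rw [LinearMap.mem_ker, hf w x hxe, hρ_mk, Ideal.Quotient.eq_zero_iff_mem]
      exact hxJ
    · intro hy
      obtain ⟨x, rfl⟩ := Ideal.Quotient.mk_surjective y
      rw [LinearMap.mem_ker, hρ_mk, Ideal.Quotient.eq_zero_iff_mem] at hy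
      have hw : (algebraMap B L d)⁻¹ * algebraMap B L x ∈ Mdual := by
        rw [hMd, key]
        exact ⟨x, hy, by field_simp⟩
      refine ⟨⟨_, hw⟩, ?_⟩
      apply hf
      show algebraMap B L x = algebraMap B L d * ((algebraMap B L d)⁻¹ * algebraMap B L x)
      field_simp
  have hfin_d : Module.Finite k (B ⧸ Ideal.span {d}) := finite_quotient_of_ne_bot k hres _ hd0
  let eq1 : (↥Mdual ⧸ M.submoduleOf Mdual) ≃ₗ[k] ↥(LinearMap.ker ρ) :=
    (Submodule.quotEquivOfEq _ _ hker.symm).trans
      (f.quotKerEquivRange.trans (LinearEquiv.ofEq _ _ hrange))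
  have hfin : Module.Finite k (↥Mdual ⧸ M.submoduleOf Mdual) := Module.Finite.equiv eq1.symm
  refine ⟨hfin, ?_⟩
  have h1 := LinearMap.finrank_range_add_finrank_ker ρ
  have hcard : Multiset.card (normalizedFactors (Ideal.span {d})) =
      Multiset.card (normalizedFactors D) + Multiset.card (normalizedFactors J) := by
    rw [hDJ, normalizedFactors_mul hD hJ, Multiset.card_add]
  rw [LinearMap.range_eq_top.mpr hρ, finrank_top,
    finrank_quotient_eq_card_normalizedFactors k hres _ hJ,
    finrank_quotient_eq_card_normalizedFactors k hres _ hd0, hcard] at h1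
  rw [eq1.finrank_eq]
  omega

open IsDedekindDomain in
/-- **Valuation criterion for `D⁻¹`**: `w ∈ D⁻¹` iff `v_P(w) ≥ -(exponent of P in D)` for all
nonzero primes `P` (in Mathlib's multiplicative convention `P.valuation L w ≤ exp (count)`). -/
theorem mem_inv_iff_forall_valuation_le (D : Ideal B) (hD : D ≠ ⊥) (w : L) :
    w ∈ ((D : FractionalIdeal B⁰ L)⁻¹) ↔
      ∀ v : HeightOneSpectrum B, v.valuation L w ≤
        WithZero.exp (((normalizedFactors D).count v.asIdeal : ℕ) : ℤ) := by
  classical
  have hD' : (D : FractionalIdeal B⁰ L) ≠ 0 := FractionalIdeal.coeIdeal_ne_zero.mpr hD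
  have hle : ∀ v : HeightOneSpectrum B, D ≤ v.asIdeal ^ (normalizedFactors D).count v.asIdeal := by
    intro v
    rw [← Ideal.dvd_iff_le, dvd_iff_normalizedFactors_le_normalizedFactors
      (pow_ne_zero _ v.ne_bot) hD, normalizedFactors_pow,
      normalizedFactors_irreducible v.irreducible, normalize_eq, Multiset.le_iff_count]
    intro Q
    rw [Multiset.count_nsmul, Multiset.count_singleton]
    split_ifs with h
    · subst h; simp
    · simp
  have hnle : ∀ v : HeightOneSpectrum B,
      ¬ D ≤ v.asIdeal ^ ((normalizedFactors D).count v.asIdeal + 1) := by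
    intro v h
    rw [← Ideal.dvd_iff_le, dvd_iff_normalizedFactors_le_normalizedFactors
      (pow_ne_zero _ v.ne_bot) hD, normalizedFactors_pow,
      normalizedFactors_irreducible v.irreducible, normalize_eq, Multiset.le_iff_count] at h
    have := h v.asIdeal
    rw [Multiset.count_nsmul, Multiset.count_singleton_self] at this
    omega
  rw [FractionalIdeal.mem_inv_iff hD']
  constructor
  · intro hw v
    obtain ⟨r, hrD, hrv⟩ := SetLike.not_le_iff_exists.mp (hnle v)
    have hr0 : r ≠ 0 := by
      rintro rfl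
      exact hrv (zero_mem _)
    have h1 : w * algebraMap B L r ∈ (1 : FractionalIdeal B⁰ L) :=
      hw _ ((FractionalIdeal.mem_coeIdeal _).mpr ⟨r, hrD, rfl⟩)
    obtain ⟨b, hb⟩ := (FractionalIdeal.mem_one_iff _).mp h1
    have h2 : v.valuation L (w * algebraMap B L r) ≤ 1 := by
      rw [← hb]
      exact v.valuation_le_one b
    rw [map_mul, v.valuation_of_algebraMap] at h2
    have h3 : WithZero.exp (-(((normalizedFactors D).count v.asIdeal : ℕ) : ℤ)) ≤
        v.intValuation r := by
      rw [← v.intValuation_le_pow_iff_mem] at hrv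
      rw [v.intValuation_if_neg hr0] at hrv ⊢
      rw [WithZero.exp_le_exp] at hrv ⊢
      push_cast at hrv ⊢
      omega
    have hpos : (0 : WithZero (Multiplicative ℤ)) <
        WithZero.exp (-(((normalizedFactors D).count v.asIdeal : ℕ) : ℤ)) := WithZero.exp_pos
    calc v.valuation L w
        = v.valuation L w * WithZero.exp (-(((normalizedFactors D).count v.asIdeal : ℕ) : ℤ)) *
            WithZero.exp (((normalizedFactors D).count v.asIdeal : ℕ) : ℤ) := by
          rw [mul_assoc, ← WithZero.exp_add, neg_add_cancel, WithZero.exp_zero, mul_one]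
      _ ≤ v.valuation L w * v.intValuation r *
            WithZero.exp (((normalizedFactors D).count v.asIdeal : ℕ) : ℤ) := by
          gcongr
      _ ≤ 1 * WithZero.exp (((normalizedFactors D).count v.asIdeal : ℕ) : ℤ) := by
          gcongr
      _ = _ := one_mul _
  · intro hw y hy
    obtain ⟨r, hrD, rfl⟩ := (FractionalIdeal.mem_coeIdeal _).mp hy
    rw [FractionalIdeal.mem_one_iff]
    refine HeightOneSpectrum.mem_integers_of_valuation_le_one L _ (fun v => ?_)
    rw [map_mul, v.valuation_of_algebraMap]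
    have h1 : v.intValuation r ≤ WithZero.exp (-(((normalizedFactors D).count v.asIdeal : ℕ) : ℤ)) :=
      (v.intValuation_le_pow_iff_mem r _).mpr (hle v hrD)
    calc v.valuation L w * v.intValuation r
        ≤ WithZero.exp (((normalizedFactors D).count v.asIdeal : ℕ) : ℤ) *
            WithZero.exp (-(((normalizedFactors D).count v.asIdeal : ℕ) : ℤ)) := by
          gcongr
          exact hw v
      _ = 1 := by rw [← WithZero.exp_add, add_neg_cancel, WithZero.exp_zero]

end Layer2

section Layer3

open nonZeroDivisors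

set_option linter.unusedSectionVars false

attribute [local instance] FractionRing.liftAlgebra FractionRing.isScalarTower_liftAlgebra
  Ideal.Quotient.field

variable (k : Type*) [Field k] (A K : Type*) (L : Type*) {B : Type*}
  [CommRing A] [Field K] [CommRing B] [Field L]
  [Algebra A K] [Algebra B L] [Algebra A B] [Algebra K L] [Algebra A L]
  [IsScalarTower A K L] [IsScalarTower A B L]
  [IsDedekindDomain A] [IsFractionRing A K] [FiniteDimensional K L] [Algebra.IsSeparable K L]
  [IsIntegralClosure B A L] [IsDedekindDomain B] [Module.IsTorsionFree A B]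
  [IsFractionRing B L]
  [Algebra k A] [Algebra k B] [IsScalarTower k A B]

/-- If all residue fields of `B` are `k` (and `k ⊆ A ⊆ B`), the residue fields of `A` are `k`. -/
theorem finrank_quotient_eq_one_of_hres [Algebra.IsIntegral A B]
    (hres : ∀ P : Ideal B, P.IsPrime → P ≠ ⊥ → Module.finrank k (B ⧸ P) = 1)
    (p : Ideal A) [p.IsMaximal] (hp : p ≠ ⊥) : Module.finrank k (A ⧸ p) = 1 := by
  have hinjAB : Function.Injective (algebraMap A B) := FaithfulSMul.algebraMap_injective A B
  obtain ⟨Q, hQmax, hQp⟩ := Ideal.exists_ideal_over_maximal_of_isIntegral (S := B) p (by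
    rw [(RingHom.injective_iff_ker_eq_bot _).mp hinjAB]; exact bot_le)
  have hQ0 : Q ≠ ⊥ := by
    rintro rfl
    apply hp
    rw [← hQp]
    exact (RingHom.injective_iff_ker_eq_bot _).mp hinjAB
  have h1 := hres Q hQmax.isPrime hQ0
  have hfin : Module.Finite k (B ⧸ Q) := Module.finite_of_finrank_eq_succ h1
  let φ : (A ⧸ p) →ₗ[k] (B ⧸ Q) :=
    (Ideal.quotientMapₐ Q (IsScalarTower.toAlgHom k A B) (le_of_eq hQp.symm)).toLinearMap
  have hφ : Function.Injective φ := by
    refine Ideal.quotientMap_injective' (f := algebraMap A B) (H := le_of_eq hQp.symm) ?_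
    exact le_of_eq hQp
  have hle := LinearMap.finrank_le_finrank_of_injective hφ
  have hfinA : Module.Finite k (A ⧸ p) := Module.Finite.of_injective φ hφ
  have hpos : 0 < Module.finrank k (A ⧸ p) := Module.finrank_pos
  omega

include K L in
/-- `Module.Finite A B` in the AKLB setting. -/
theorem finite_of_AKLB : Module.Finite A B := IsIntegralClosure.finite A K L B

include K L in
/-- **`Σ e_P = μ`** when all residue fields are `k`: the multiset of prime factors of `p B`
has exactly `[L : K]` elements. -/
theorem card_normalizedFactors_map_eq_finrank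
    (hres : ∀ P : Ideal B, P.IsPrime → P ≠ ⊥ → Module.finrank k (B ⧸ P) = 1)
    (p : Ideal A) [p.IsMaximal] (hp : p ≠ ⊥) :
    Multiset.card (normalizedFactors (p.map (algebraMap A B))) = Module.finrank K L := by
  have hfinAB : Module.Finite A B := finite_of_AKLB A K L
  have hint : Algebra.IsIntegral A B := IsIntegralClosure.isIntegral_algebra A L
  have hI0 : p.map (algebraMap A B) ≠ ⊥ :=
    (Ideal.map_eq_bot_iff_of_injective (FaithfulSMul.algebraMap_injective A B)).not.mpr hp
  have h1 := finrank_quotient_eq_card_normalizedFactors k hres _ hI0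
  have h2 : Module.finrank (A ⧸ p) (B ⧸ p.map (algebraMap A B)) = Module.finrank K L := by
    set_option linter.deprecated false in
    exact Ideal.finrank_quotient_map p K L
  have h3 := finrank_quotient_eq_one_of_hres k A hres p hp
  have : IsScalarTower k (A ⧸ p) (B ⧸ p.map (algebraMap A B)) := by
    refine IsScalarTower.of_algebraMap_eq (fun x => ?_)
    rw [IsScalarTower.algebraMap_apply k A (A ⧸ p),
      IsScalarTower.algebraMap_apply k B (B ⧸ p.map (algebraMap A B)),
      IsScalarTower.algebraMap_apply k A B]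
    rfl
  have h4 := Module.finrank_mul_finrank k (A ⧸ p) (B ⧸ p.map (algebraMap A B))
  rw [← h1, ← h4, h3, one_mul, h2]

include K L in
/-- Separability of `Frac B / Frac A` in the AKLB setting (as required by Mathlib's lemmas on
`differentIdeal`). -/
theorem isSeparable_fractionRing_of_AKLB :
    Algebra.IsSeparable (FractionRing A) (FractionRing B) := by
  have H : RingHom.comp (algebraMap (FractionRing A) (FractionRing B))
      ↑(FractionRing.algEquiv A K).symm.toRingEquiv =
        RingHom.comp ↑(FractionRing.algEquiv B L).symm.toRingEquiv (algebraMap K L) := by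
    apply IsLocalization.ringHom_ext A⁰
    ext
    simp only [RingHom.coe_comp, RingHom.coe_coe,
      AlgEquiv.coe_ringEquiv, Function.comp_apply, AlgEquiv.commutes,
      ← IsScalarTower.algebraMap_apply]
    rw [IsScalarTower.algebraMap_apply A B L, AlgEquiv.commutes, ← IsScalarTower.algebraMap_apply]
  exact Algebra.IsSeparable.of_equiv_equiv _ _ H

include K L in
/-- The different is nonzero (AKLB setting). -/
theorem differentIdeal_ne_bot_of_AKLB : differentIdeal A B ≠ ⊥ := by
  have h := coeIdeal_differentIdeal A K L B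
  intro h0
  rw [h0] at h
  have h1 : ((⊥ : Ideal B) : FractionalIdeal B⁰ L) = 0 := FractionalIdeal.coeIdeal_bot
  rw [h1] at h
  have h2 := FractionalIdeal.dual_ne_zero A K (one_ne_zero (α := FractionalIdeal B⁰ L))
  exact h2 (inv_eq_zero.mp h.symm)

/-- Membership in the trace dual of `B` is membership in the inverse different. -/
theorem mem_traceDual_one_iff_mem_inv_different (w : L) :
    w ∈ Submodule.traceDual A K (1 : Submodule B L) ↔
      w ∈ ((differentIdeal A B : FractionalIdeal B⁰ L)⁻¹) := by
  rw [coeIdeal_differentIdeal A K L B, inv_inv, ← FractionalIdeal.coe_dual_one A K L B,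
    FractionalIdeal.mem_coe]

include K L in
/-- **(T1), AKLB form.** Exact exponent `e - 1` of the different at a prime `P` above `p`, when
the base field `k ⊆ A` has characteristic zero. -/
theorem count_differentIdeal_of_AKLB [CharZero k] (p : Ideal A) [p.IsMaximal] (hp : p ≠ ⊥)
    (P : Ideal B) [P.IsPrime] (hP : P ≠ ⊥) (hPp : p.map (algebraMap A B) ≤ P) :
    (normalizedFactors (differentIdeal A B)).count P =
      (normalizedFactors (p.map (algebraMap A B))).count P - 1 := by
  have hfinAB : Module.Finite A B := finite_of_AKLB A K L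
  have hsep : Algebra.IsSeparable (FractionRing A) (FractionRing B) :=
    isSeparable_fractionRing_of_AKLB A K L
  have hchar : CharZero (A ⧸ p) :=
    charZero_of_injective_algebraMap (algebraMap k (A ⧸ p)).injective
  exact count_normalizedFactors_differentIdeal A hp P hP hPp

include K L in
/-- **Tame Hurwitz at one prime `p` of `A`**: `Σ_{P ∣ p} (e_P - 1) + #{P ∣ p} = [L : K]`, with
`e_P - 1` written as the exponent of `P` in the different. -/
theorem sum_count_differentIdeal_add_card [CharZero k]
    (hres : ∀ P : Ideal B, P.IsPrime → P ≠ ⊥ → Module.finrank k (B ⧸ P) = 1)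
    (p : Ideal A) [p.IsMaximal] (hp : p ≠ ⊥) :
    ∑ P ∈ (normalizedFactors (p.map (algebraMap A B))).toFinset,
        (normalizedFactors (differentIdeal A B)).count P +
      (normalizedFactors (p.map (algebraMap A B))).toFinset.card = Module.finrank K L := by
  have hI0 : p.map (algebraMap A B) ≠ ⊥ :=
    (Ideal.map_eq_bot_iff_of_injective (FaithfulSMul.algebraMap_injective A B)).not.mpr hp
  rw [← card_normalizedFactors_map_eq_finrank k A K L hres p hp,
    ← Multiset.toFinset_sum_count_eq (normalizedFactors (p.map (algebraMap A B))),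
    Finset.card_eq_sum_ones, ← Finset.sum_add_distrib]
  refine Finset.sum_congr rfl (fun P hPmem => ?_)
  rw [Multiset.mem_toFinset] at hPmem
  have hPprime : P.IsPrime := ((Ideal.mem_normalizedFactors_iff hI0).mp hPmem).1
  have hPp : p.map (algebraMap A B) ≤ P := ((Ideal.mem_normalizedFactors_iff hI0).mp hPmem).2
  have hP0 : P ≠ ⊥ := (prime_of_normalized_factor P hPmem).ne_zero
  rw [count_differentIdeal_of_AKLB k A K L p hp P hP0 hPp]
  have : 0 < (normalizedFactors (p.map (algebraMap A B))).count P := Multiset.count_pos.mpr hPmem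
  omega

include K L in
/-- **Degree of the different** (tame Hurwitz, global form).  If `S` is a finite set of nonzero
maximal ideals of `A` containing the contraction of every prime factor of the different, then
`deg 𝔇 + Σ_{p ∈ S} #{P ∣ p} = #S · [L : K]`. -/
theorem card_normalizedFactors_differentIdeal_add [CharZero k]
    (hres : ∀ P : Ideal B, P.IsPrime → P ≠ ⊥ → Module.finrank k (B ⧸ P) = 1)
    (S : Finset (Ideal A)) (hS : ∀ p ∈ S, p.IsMaximal ∧ p ≠ ⊥)
    (hram : ∀ P ∈ normalizedFactors (differentIdeal A B), P.under A ∈ S) :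
    Multiset.card (normalizedFactors (differentIdeal A B)) +
      ∑ p ∈ S, (normalizedFactors (p.map (algebraMap A B))).toFinset.card =
        S.card * Module.finrank K L := by
  classical
  have hD0 : differentIdeal A B ≠ ⊥ := differentIdeal_ne_bot_of_AKLB A K L
  have hmapne : ∀ p ∈ S, p.map (algebraMap A B) ≠ ⊥ := fun p hpS =>
    (Ideal.map_eq_bot_iff_of_injective (FaithfulSMul.algebraMap_injective A B)).not.mpr (hS p hpS).2
  -- each prime over `p ∈ S` contracts to `p`
  have hunder : ∀ p ∈ S, ∀ P ∈ normalizedFactors (p.map (algebraMap A B)), P.under A = p := by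
    intro p hpS P hPmem
    have hPprime : P.IsPrime := ((Ideal.mem_normalizedFactors_iff (hmapne p hpS)).mp hPmem).1
    have hPp : p.map (algebraMap A B) ≤ P := ((Ideal.mem_normalizedFactors_iff (hmapne p hpS)).mp hPmem).2
    have hpmax := (hS p hpS).1
    symm
    refine hpmax.eq_of_le ?_ (Ideal.map_le_iff_le_comap.mp hPp)
    exact (Ideal.IsPrime.under A P).ne_top
  have hdisj : (S : Set (Ideal A)).PairwiseDisjoint
      (fun p => (normalizedFactors (p.map (algebraMap A B))).toFinset) := by
    intro p hp q hq hpq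
    rw [Function.onFun, Finset.disjoint_left]
    intro P hP1 hP2
    rw [Multiset.mem_toFinset] at hP1 hP2
    exact hpq ((hunder p hp P hP1).symm.trans (hunder q hq P hP2))
  have h1 : Multiset.card (normalizedFactors (differentIdeal A B)) =
      ∑ p ∈ S, ∑ P ∈ (normalizedFactors (p.map (algebraMap A B))).toFinset,
        (normalizedFactors (differentIdeal A B)).count P := by
    rw [← Finset.sum_biUnion hdisj, ← Multiset.toFinset_sum_count_eq]
    refine Finset.sum_subset ?_ ?_
    · intro P hP
      rw [Multiset.mem_toFinset] at hP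
      rw [Finset.mem_biUnion]
      refine ⟨P.under A, hram P hP, ?_⟩
      rw [Multiset.mem_toFinset, Ideal.mem_normalizedFactors_iff (hmapne _ (hram P hP))]
      exact ⟨((Ideal.mem_normalizedFactors_iff hD0).mp hP).1, Ideal.map_comap_le⟩
    · intro P _ hP
      rw [Multiset.mem_toFinset] at hP
      exact Multiset.count_eq_zero_of_notMem hP
  rw [h1, ← Finset.sum_add_distrib, Finset.card_eq_sum_ones, Finset.sum_mul, one_mul]
  refine Finset.sum_congr rfl (fun p hpS => ?_)
  have hpmax := (hS p hpS).1
  exact sum_count_differentIdeal_add_card k A K L hres p (hS p hpS).2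

open IsDedekindDomain in
/-- **(T3)** Valuation criterion for the trace dual: `w ∈ B^∨` iff
`v_P(w) ≥ -(exponent of P in the different)` for all nonzero primes `P` of `B`. -/
theorem mem_traceDual_one_iff_forall_valuation_le (w : L) :
    w ∈ Submodule.traceDual A K (1 : Submodule B L) ↔
      ∀ v : HeightOneSpectrum B, v.valuation L w ≤
        WithZero.exp (((normalizedFactors (differentIdeal A B)).count v.asIdeal : ℕ) : ℤ) :=
  (mem_traceDual_one_iff_mem_inv_different A K L w).trans
    (mem_inv_iff_forall_valuation_le (differentIdeal A B) (differentIdeal_ne_bot_of_AKLB A K L) w)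

open IsDedekindDomain in
include k in
/-- **(T3), tame form.** `w ∈ B^∨` iff `v_P(w) ≥ -(e_P - 1)` for all nonzero primes `P` of `B`,
where `e_P` is the exponent of `P` in `(P ∩ A) B`. -/
theorem mem_traceDual_one_iff_forall_valuation_le_ramification [CharZero k] (w : L) :
    w ∈ Submodule.traceDual A K (1 : Submodule B L) ↔
      ∀ v : HeightOneSpectrum B, v.valuation L w ≤
        WithZero.exp ((((normalizedFactors ((v.asIdeal.under A).map (algebraMap A B))).count
          v.asIdeal - 1 : ℕ) : ℤ)) := by
  rw [mem_traceDual_one_iff_forall_valuation_le A K L w]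
  have hint : Algebra.IsIntegral A B := IsIntegralClosure.isIntegral_algebra A L
  refine forall_congr' (fun v => ?_)
  have hp0 : v.asIdeal.under A ≠ ⊥ := mt Ideal.eq_bot_of_comap_eq_bot v.ne_bot
  have hpmax : (v.asIdeal.under A).IsMaximal :=
    Ideal.IsPrime.isMaximal (Ideal.IsPrime.under A v.asIdeal) hp0
  rw [count_differentIdeal_of_AKLB k A K L (v.asIdeal.under A) hp0 v.asIdeal v.ne_bot
    Ideal.map_comap_le]

variable [Algebra k L] [IsScalarTower k B L]

omit [Algebra k A] [IsScalarTower k A B] in
/-- **(T2)** `dim_k (B^∨ / B) = #(prime factors of the different, with multiplicity)`, where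
`B^∨` is the trace dual of `B` over `A`; stated for `k`-subspaces `M` (the carrier of `B` in `L`)
and `Mdual` (the carrier of the trace dual), in the shape used by the lattice genus formula. -/
theorem finrank_traceDual_quotient
    (hres : ∀ P : Ideal B, P.IsPrime → P ≠ ⊥ → Module.finrank k (B ⧸ P) = 1)
    (M Mdual : Submodule k L)
    (hM : ∀ v, v ∈ M ↔ v ∈ (algebraMap B L).range)
    (hMd : ∀ w, w ∈ Mdual ↔ w ∈ Submodule.traceDual A K (1 : Submodule B L)) :
    Module.Finite k (↥Mdual ⧸ M.submoduleOf Mdual) ∧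
      Module.finrank k (↥Mdual ⧸ M.submoduleOf Mdual) =
        Multiset.card (normalizedFactors (differentIdeal A B)) :=
  finrank_inv_quotient k hres (differentIdeal A B) (differentIdeal_ne_bot_of_AKLB A K L) M Mdual hM
    (fun w => (hMd w).trans (mem_traceDual_one_iff_mem_inv_different A K L w))

end Layer3

section Layer4

open nonZeroDivisors

attribute [local instance] Ideal.Quotient.field

variable (k : Type*) [Field k] (A : Type*) {B : Type*}
  [CommRing A] [CommRing B] [Algebra A B] [IsDedekindDomain A] [IsDedekindDomain B]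
  [Module.IsTorsionFree A B] [Module.Finite A B]
  [Algebra k A] [Algebra k B] [IsScalarTower k A B]

omit [IsDedekindDomain A] [Module.IsTorsionFree A B] in
/-- If `k` is algebraically closed and surjects onto all residue fields of `A`, then all residue
fields of the finite extension `B` are `k`. -/
theorem hres_of_isAlgClosed [IsAlgClosed k]
    (hk : ∀ p : Ideal A, p.IsMaximal →
      Function.Surjective ((Ideal.Quotient.mk p).comp (algebraMap k A))) :
    ∀ P : Ideal B, P.IsPrime → P ≠ ⊥ → Module.finrank k (B ⧸ P) = 1 := by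
  intro P hPprime hP0
  have hPmax : P.IsMaximal := Ideal.IsPrime.isMaximal hPprime hP0
  have hint : Algebra.IsIntegral A B := Algebra.IsIntegral.of_finite A B
  have hpmax : (P.under A).IsMaximal := Ideal.isMaximal_comap_of_isIntegral_of_isMaximal P
  have hsurj := hk (P.under A) hpmax
  have hfin1 : Module.Finite k (A ⧸ P.under A) :=
    Module.Finite.of_surjective (Algebra.linearMap k (A ⧸ P.under A)) hsurj
  have hfin2 : Module.Finite (A ⧸ P.under A) (B ⧸ P) :=
    Module.Finite.of_restrictScalars_finite A (A ⧸ P.under A) (B ⧸ P)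
  have htower : IsScalarTower k (A ⧸ P.under A) (B ⧸ P) := by
    refine IsScalarTower.of_algebraMap_eq (fun x => ?_)
    rw [IsScalarTower.algebraMap_apply k A (A ⧸ P.under A),
      IsScalarTower.algebraMap_apply k B (B ⧸ P), IsScalarTower.algebraMap_apply k A B]
    rfl
  have hfin : Module.Finite k (B ⧸ P) := Module.Finite.trans (A ⧸ P.under A) (B ⧸ P)
  have hint2 : Algebra.IsIntegral k (B ⧸ P) := Algebra.IsIntegral.of_finite k (B ⧸ P)
  have hbij : Function.Bijective (algebraMap k (B ⧸ P)) :=
    IsAlgClosed.algebraMap_bijective_of_isIntegral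
  have e : k ≃ₗ[k] (B ⧸ P) := LinearEquiv.ofBijective (Algebra.linearMap k (B ⧸ P)) hbij
  rw [← e.finrank_eq, Module.finrank_self]

end Layer4

end DifferentDim

/-! ## The two statements in the shape consumed by the Riemann–Hurwitz assembly -/

section DifferentDimStub

open IsDedekindDomain nonZeroDivisors

set_option linter.unusedSectionVars false

variable (k : Type) [Field k]
  (A : Type) [CommRing A] [IsDedekindDomain A] [Algebra k A]
  (K : Type) [Field K] [Algebra A K] [IsFractionRing A K]
  (L : Type) [Field L] [Algebra K L] [FiniteDimensional K L] [Algebra.IsSeparable K L]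
  [Algebra A L] [IsScalarTower A K L] [Algebra k L] [IsScalarTower k A L]
  (B : Type) [CommRing B] [IsDedekindDomain B] [Algebra A B] [Algebra B L] [IsFractionRing B L]
  [IsScalarTower A B L] [IsIntegralClosure B A L]

include K L in
/-- `B` is torsion-free over `A` in the AKLB setting. -/
theorem DifferentDim.isTorsionFree_of_AKLB : Module.IsTorsionFree A B := by
  rw [Module.isTorsionFree_iff_algebraMap_injective]
  have h1 : Function.Injective (algebraMap A L) := by
    rw [IsScalarTower.algebraMap_eq A K L]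
    exact (algebraMap K L).injective.comp (IsFractionRing.injective A K)
  rw [IsScalarTower.algebraMap_eq A B L] at h1
  exact Function.Injective.of_comp h1

/-- (i) valuation description of the trace dual (tame case: residue characteristic zero). -/
theorem mem_traceDual_iff_valuation [CharZero k] (w : L) :
    w ∈ Submodule.traceDual A K (1 : Submodule B L) ↔
      ∀ 𝔮 : HeightOneSpectrum B,
        𝔮.valuation L w ≤ WithZero.exp (((𝔮.asIdeal.ramificationIdx A : ℕ) : ℤ) - 1) := by
  have : Module.IsTorsionFree A B := DifferentDim.isTorsionFree_of_AKLB A K L B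
  let _ : Algebra k B := ((algebraMap A B).comp (algebraMap k A)).toAlgebra
  have : IsScalarTower k A B := IsScalarTower.of_algebraMap_eq (fun _ => rfl)
  rw [DifferentDim.mem_traceDual_one_iff_forall_valuation_le_ramification k A K L w]
  refine forall_congr' (fun 𝔮 => ?_)
  have hint : Algebra.IsIntegral A B := IsIntegralClosure.isIntegral_algebra A L
  have hp0 : 𝔮.asIdeal.under A ≠ ⊥ := mt Ideal.eq_bot_of_comap_eq_bot 𝔮.ne_bot
  have hI0 : (𝔮.asIdeal.under A).map (algebraMap A B) ≠ ⊥ :=
    (Ideal.map_eq_bot_iff_of_injective (FaithfulSMul.algebraMap_injective A B)).not.mpr hp0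
  rw [Ideal.IsDedekindDomain.ramificationIdx_eq_normalizedFactors_count
    (𝔮.asIdeal.under A) 𝔮.asIdeal hI0]
  have hpos : 1 ≤ (UniqueFactorizationMonoid.normalizedFactors
      ((𝔮.asIdeal.under A).map (algebraMap A B))).count 𝔮.asIdeal := by
    rw [Nat.one_le_iff_ne_zero, ← Nat.pos_iff_ne_zero, Multiset.count_pos]
    exact (Ideal.mem_normalizedFactors_iff hI0).mpr ⟨𝔮.isPrime, Ideal.map_comap_le⟩
  rw [Nat.cast_sub hpos, Nat.cast_one]

/-- (ii), finiteness and natural-number form. -/
theorem DifferentDim.finrank_traceDual_quot_aux [CharZero k] [IsAlgClosed k]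
    (hk : ∀ p : Ideal A, p.IsMaximal →
      Function.Surjective ((Ideal.Quotient.mk p).comp (algebraMap k A)))
    (M Mdual : Submodule k L)
    (hM : ∀ v, v ∈ M ↔ v ∈ (1 : Submodule B L))
    (hMd : ∀ w, w ∈ Mdual ↔ w ∈ Submodule.traceDual A K (1 : Submodule B L))
    (S : Finset (Ideal A)) (hS : ∀ p ∈ S, p.IsMaximal ∧ p ≠ ⊥)
    (hunr : ∀ 𝔮 : HeightOneSpectrum B, 𝔮.asIdeal.under A ∉ S →
      𝔮.asIdeal.ramificationIdx A = 1) :
    Module.Finite k (↥Mdual ⧸ M.submoduleOf Mdual) ∧
      Module.finrank k (↥Mdual ⧸ M.submoduleOf Mdual) +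
        ∑ p ∈ S, Nat.card {𝔮 : HeightOneSpectrum B // 𝔮.asIdeal.under A = p} =
          S.card * Module.finrank K L := by
  classical
  have htf : Module.IsTorsionFree A B := DifferentDim.isTorsionFree_of_AKLB A K L B
  let _ : Algebra k B := ((algebraMap A B).comp (algebraMap k A)).toAlgebra
  have htower : IsScalarTower k A B := IsScalarTower.of_algebraMap_eq (fun _ => rfl)
  have htowerL : IsScalarTower k B L := by
    refine IsScalarTower.of_algebraMap_eq (fun x => ?_)
    rw [IsScalarTower.algebraMap_apply k A L, IsScalarTower.algebraMap_apply A B L]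
    rfl
  have hfinAB : Module.Finite A B := DifferentDim.finite_of_AKLB A K L
  have hint : Algebra.IsIntegral A B := IsIntegralClosure.isIntegral_algebra A L
  have hres := DifferentDim.hres_of_isAlgClosed k A (B := B) hk
  have hD0 : differentIdeal A B ≠ ⊥ := DifferentDim.differentIdeal_ne_bot_of_AKLB A K L
  obtain ⟨hfin, hfr⟩ := DifferentDim.finrank_traceDual_quotient k A K L hres M Mdual
    (fun v => (hM v).trans (by rw [Submodule.mem_one]; rfl)) hMd
  refine ⟨hfin, ?_⟩
  -- unramified outside `S`
  have hram : ∀ P ∈ UniqueFactorizationMonoid.normalizedFactors (differentIdeal A B),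
      P.under A ∈ S := by
    intro P hP
    by_contra hPS
    have hPprime : P.IsPrime := ((Ideal.mem_normalizedFactors_iff hD0).mp hP).1
    have hP0 : P ≠ ⊥ := (UniqueFactorizationMonoid.prime_of_normalized_factor P hP).ne_zero
    have hp0 : P.under A ≠ ⊥ := mt Ideal.eq_bot_of_comap_eq_bot hP0
    have hpmax : (P.under A).IsMaximal :=
      Ideal.IsPrime.isMaximal (Ideal.IsPrime.under A P) hp0
    have hI0 : (P.under A).map (algebraMap A B) ≠ ⊥ :=
      (Ideal.map_eq_bot_iff_of_injective (FaithfulSMul.algebraMap_injective A B)).not.mpr hp0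
    have h1 := hunr ⟨P, hPprime, hP0⟩ hPS
    rw [Ideal.IsDedekindDomain.ramificationIdx_eq_normalizedFactors_count (P.under A) P hI0] at h1
    have h2 := DifferentDim.count_differentIdeal_of_AKLB k A K L (P.under A) hp0 P hP0
      Ideal.map_comap_le
    rw [h1] at h2
    exact (Multiset.count_pos.mpr hP).ne' h2
  have hcount := DifferentDim.card_normalizedFactors_differentIdeal_add k A K L hres S hS hram
  rw [hfr, ← hcount]
  congr 1
  refine Finset.sum_congr rfl (fun p hpS => ?_)
  have hpmax := (hS p hpS).1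
  have hp0 := (hS p hpS).2
  have hI0 : p.map (algebraMap A B) ≠ ⊥ :=
    (Ideal.map_eq_bot_iff_of_injective (FaithfulSMul.algebraMap_injective A B)).not.mpr hp0
  rw [← Nat.card_eq_finsetCard]
  refine Nat.card_congr ?_
  refine
    { toFun := fun 𝔮 => ⟨𝔮.1.asIdeal, ?_⟩
      invFun := fun P => ⟨⟨P.1, ?_, ?_⟩, ?_⟩
      left_inv := fun 𝔮 => rfl
      right_inv := fun P => rfl }
  · rw [Multiset.mem_toFinset, Ideal.mem_normalizedFactors_iff hI0]
    exact ⟨𝔮.1.isPrime, Ideal.map_le_iff_le_comap.mpr (le_of_eq 𝔮.2.symm)⟩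
  · exact ((Ideal.mem_normalizedFactors_iff hI0).mp (Multiset.mem_toFinset.mp P.2)).1
  · exact (UniqueFactorizationMonoid.prime_of_normalized_factor P.1
      (Multiset.mem_toFinset.mp P.2)).ne_zero
  · have hPprime : P.1.IsPrime :=
      ((Ideal.mem_normalizedFactors_iff hI0).mp (Multiset.mem_toFinset.mp P.2)).1
    have hPp : p.map (algebraMap A B) ≤ P.1 :=
      ((Ideal.mem_normalizedFactors_iff hI0).mp (Multiset.mem_toFinset.mp P.2)).2
    symm
    exact hpmax.eq_of_le (Ideal.IsPrime.under A P.1).ne_top (Ideal.map_le_iff_le_comap.mp hPp)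

/-- (ii) dimension of `traceDual / B` over the constant field. -/
theorem finrank_traceDual_quot [CharZero k] [IsAlgClosed k]
    (hk : ∀ p : Ideal A, p.IsMaximal →
      Function.Surjective ((Ideal.Quotient.mk p).comp (algebraMap k A)))
    (M Mdual : Submodule k L)
    (hM : ∀ v, v ∈ M ↔ v ∈ (1 : Submodule B L))
    (hMd : ∀ w, w ∈ Mdual ↔ w ∈ Submodule.traceDual A K (1 : Submodule B L))
    (S : Finset (Ideal A)) (hS : ∀ p ∈ S, p.IsMaximal ∧ p ≠ ⊥)
    (hunr : ∀ 𝔮 : HeightOneSpectrum B, 𝔮.asIdeal.under A ∉ S →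
      𝔮.asIdeal.ramificationIdx A = 1) :
    (Module.finrank k (↥Mdual ⧸ M.submoduleOf Mdual) : ℤ) =
      ∑ p ∈ S, ((Module.finrank K L : ℤ) -
        Nat.card {𝔮 : HeightOneSpectrum B // 𝔮.asIdeal.under A = p}) := by
  have h := (DifferentDim.finrank_traceDual_quot_aux k A K L B hk M Mdual hM hMd S hS hunr).2
  rw [Finset.sum_sub_distrib, Finset.sum_const, nsmul_eq_mul, ← Nat.cast_mul, ← h]
  push_cast
  ring

/-- (ii'), finiteness part. -/
theorem finite_traceDual_quot [CharZero k] [IsAlgClosed k]
    (hk : ∀ p : Ideal A, p.IsMaximal →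
      Function.Surjective ((Ideal.Quotient.mk p).comp (algebraMap k A)))
    (M Mdual : Submodule k L)
    (hM : ∀ v, v ∈ M ↔ v ∈ (1 : Submodule B L))
    (hMd : ∀ w, w ∈ Mdual ↔ w ∈ Submodule.traceDual A K (1 : Submodule B L))
    (S : Finset (Ideal A)) (hS : ∀ p ∈ S, p.IsMaximal ∧ p ≠ ⊥)
    (hunr : ∀ 𝔮 : HeightOneSpectrum B, 𝔮.asIdeal.under A ∉ S →
      𝔮.asIdeal.ramificationIdx A = 1) :
    Module.Finite k (↥Mdual ⧸ M.submoduleOf Mdual) :=
  (DifferentDim.finrank_traceDual_quot_aux k A K L B hk M Mdual hM hMd S hS hunr).1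

end DifferentDimStub

end Fermat.Agent.S20
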