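import Mathlib

set_option autoImplicit false

namespace Fermat.Agent.S20.Lattice

open Polynomial

variable {k : Type*} [Field k]

/-! ### Degrees of rational functions -/

/-- `f = 0` or `deg f ≤ d`. -/
def DegLE (f : RatFunc k) (d : ℤ) : Prop := f = 0 ∨ f.intDegree ≤ d

lemma DegLE.zero (d : ℤ) : DegLE (0 : RatFunc k) d := Or.inl rfl

lemma DegLE.of_ne {f : RatFunc k} {d : ℤ} (h : f.intDegree ≤ d) : DegLE f d := Or.inr h

lemma DegLE.le {f : RatFunc k} {d : ℤ} (h : DegLE f d) (hf : f ≠ 0) : f.intDegree ≤ d :=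
  h.resolve_left hf

lemma DegLE.mono {f : RatFunc k} {d d' : ℤ} (h : DegLE f d) (hd : d ≤ d') : DegLE f d' :=
  h.imp id (fun h => h.trans hd)

lemma DegLE.neg {f : RatFunc k} {d : ℤ} (h : DegLE f d) : DegLE (-f) d := by
  rcases h with h | h
  · left; simp [h]
  · right; rwa [RatFunc.intDegree_neg]

lemma DegLE.add {f g : RatFunc k} {d : ℤ} (hf : DegLE f d) (hg : DegLE g d) :
    DegLE (f + g) d := by
  by_cases hf0 : f = 0
  · simpa [hf0] using hg
  by_cases hg0 : g = 0
  · simpa [hg0] using hf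
  by_cases hfg : f + g = 0
  · exact Or.inl hfg
  right
  exact (RatFunc.intDegree_add_le hg0 hfg).trans (max_le (hf.le hf0) (hg.le hg0))

lemma DegLE.sub {f g : RatFunc k} {d : ℤ} (hf : DegLE f d) (hg : DegLE g d) :
    DegLE (f - g) d := by
  rw [sub_eq_add_neg]; exact hf.add hg.neg

lemma DegLE.mul {f g : RatFunc k} {a b : ℤ} (hf : DegLE f a) (hg : DegLE g b) :
    DegLE (f * g) (a + b) := by
  by_cases hf0 : f = 0
  · left; simp [hf0]
  by_cases hg0 : g = 0
  · left; simp [hg0]
  right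
  rw [RatFunc.intDegree_mul hf0 hg0]
  exact add_le_add (hf.le hf0) (hg.le hg0)

lemma DegLE.sum {ι : Type*} (s : Finset ι) {f : ι → RatFunc k} {d : ℤ}
    (h : ∀ i ∈ s, DegLE (f i) d) : DegLE (∑ i ∈ s, f i) d := by
  classical
  induction s using Finset.induction_on with
  | empty => simpa using DegLE.zero d
  | insert a s ha ih =>
    rw [Finset.sum_insert ha]
    exact (h a (Finset.mem_insert_self a s)).add
      (ih fun i hi => h i (Finset.mem_insert_of_mem hi))

lemma intDegree_X_zpow (m : ℤ) : ((RatFunc.X : RatFunc k) ^ m).intDegree = m := by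
  have hX : (RatFunc.X : RatFunc k) ≠ 0 := RatFunc.X_ne_zero
  have hnat : ∀ n : ℕ, ((RatFunc.X : RatFunc k) ^ n).intDegree = n := by
    intro n
    induction n with
    | zero => simp
    | succ n ih =>
      rw [pow_succ, RatFunc.intDegree_mul (pow_ne_zero n hX) hX, ih, RatFunc.intDegree_X]
      push_cast; ring
  cases m with
  | ofNat n => simpa using hnat n
  | negSucc n =>
    rw [zpow_negSucc, RatFunc.intDegree_inv, hnat]
    rfl

lemma degLE_X_zpow (m : ℤ) : DegLE ((RatFunc.X : RatFunc k) ^ m) m :=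
  Or.inr (le_of_eq (intDegree_X_zpow m))

lemma degLE_C (c : k) : DegLE (RatFunc.C c : RatFunc k) 0 :=
  Or.inr (le_of_eq (RatFunc.intDegree_C c))

lemma degLE_algebraMap (p : k[X]) :
    DegLE (algebraMap k[X] (RatFunc k) p) p.natDegree :=
  Or.inr (le_of_eq RatFunc.intDegree_polynomial)

/-- A polynomial of negative degree vanishes. -/
lemma eq_zero_of_degLE_neg {p : k[X]} {d : ℤ} (hd : d < 0)
    (h : DegLE (algebraMap k[X] (RatFunc k) p) d) : p = 0 := by
  by_contra hp
  have h0 : algebraMap k[X] (RatFunc k) p ≠ 0 := by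
    simpa using hp
  have := h.le h0
  rw [RatFunc.intDegree_polynomial] at this
  omega

/-- The leading term of a nonzero rational function at infinity. -/
lemma exists_leading {f : RatFunc k} (hf : f ≠ 0) :
    ∃ c : k, c ≠ 0 ∧
      DegLE (f - RatFunc.C c * RatFunc.X ^ f.intDegree) (f.intDegree - 1) := by
  set p := f.num with hp
  set q := f.denom with hq
  have hp0 : p ≠ 0 := RatFunc.num_ne_zero hf
  have hq0 : q ≠ 0 := f.denom_ne_zero
  have hqm : q.Monic := RatFunc.monic_denom f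
  set a := p.natDegree with ha
  set b := q.natDegree with hb
  have hdeg : f.intDegree = (a : ℤ) - b := rfl
  set c := p.leadingCoeff with hc
  have hc0 : c ≠ 0 := leadingCoeff_ne_zero.mpr hp0
  refine ⟨c, hc0, ?_⟩
  set P : k[X] := p * X ^ b with hP
  set Q : k[X] := C c * X ^ a * q with hQ
  have hP0 : P ≠ 0 := mul_ne_zero hp0 (pow_ne_zero _ X_ne_zero)
  have hPdeg : P.natDegree = a + b := by
    rw [hP, natDegree_mul hp0 (pow_ne_zero _ X_ne_zero), natDegree_X_pow]
  have hQ0 : Q ≠ 0 :=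
    mul_ne_zero (mul_ne_zero (C_ne_zero.mpr hc0) (pow_ne_zero _ X_ne_zero)) hq0
  have hQdeg : Q.natDegree = a + b := by
    rw [hQ, natDegree_mul (mul_ne_zero (C_ne_zero.mpr hc0) (pow_ne_zero _ X_ne_zero)) hq0,
      natDegree_C_mul_X_pow a c hc0]
  have hPlc : P.leadingCoeff = c := by
    rw [hP, leadingCoeff_mul, leadingCoeff_X_pow, mul_one]
  have hQlc : Q.leadingCoeff = c := by
    rw [hQ, leadingCoeff_mul, leadingCoeff_mul, leadingCoeff_C, leadingCoeff_X_pow, mul_one,
      hqm.leadingCoeff, mul_one]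
  have hlt : (P - Q).degree < P.degree := by
    apply degree_sub_lt_left _ hP0 (hPlc.trans hQlc.symm)
    rw [degree_eq_natDegree hP0, degree_eq_natDegree hQ0, hPdeg, hQdeg]
  have hqX : algebraMap k[X] (RatFunc k) (q * X ^ b) ≠ 0 :=
    RatFunc.algebraMap_ne_zero (mul_ne_zero hq0 (pow_ne_zero b X_ne_zero))
  have hfdiv : f = algebraMap k[X] (RatFunc k) p / algebraMap k[X] (RatFunc k) q :=
    (RatFunc.num_div_denom f).symm
  have hq' : algebraMap k[X] (RatFunc k) q ≠ 0 := RatFunc.algebraMap_ne_zero hq0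
  have hX : (RatFunc.X : RatFunc k) ≠ 0 := RatFunc.X_ne_zero
  have key : f - RatFunc.C c * RatFunc.X ^ f.intDegree =
      algebraMap k[X] (RatFunc k) (P - Q) / algebraMap k[X] (RatFunc k) (q * X ^ b) := by
    rw [hdeg, zpow_sub₀ hX, zpow_natCast, zpow_natCast, hP, hQ]
    simp only [map_sub, map_mul, map_pow, RatFunc.algebraMap_X, RatFunc.algebraMap_C]
    rw [hfdiv]
    field_simp
  rw [key]
  by_cases hN : P - Q = 0
  · left; rw [hN]; simp
  right
  have hN' : algebraMap k[X] (RatFunc k) (P - Q) ≠ 0 := RatFunc.algebraMap_ne_zero hN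
  rw [RatFunc.intDegree_div hN' hqX, RatFunc.intDegree_polynomial, RatFunc.intDegree_polynomial,
    natDegree_mul hq0 (pow_ne_zero _ X_ne_zero), natDegree_X_pow, hdeg]
  have h1 : (P - Q).natDegree < P.natDegree := natDegree_lt_natDegree hN hlt
  rw [hPdeg] at h1
  push_cast
  omega


/-! ### Reduced bases (Dedekind–Weber) -/

section DW

variable {V : Type*} [AddCommGroup V] [Module (RatFunc k) V] {ι : Type*} [Fintype ι]
  [DecidableEq ι]

/-- The image of `k[X]` in `k(X)`. -/
noncomputable abbrev Rg (k : Type*) [Field k] : Subring (RatFunc k) := (algebraMap k[X] (RatFunc k)).range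

/-- `v` lies in the `k[X]`-lattice spanned by the basis `b`. -/
def InLat (b : Module.Basis ι (RatFunc k) V) (v : V) : Prop :=
  ∀ i, b.repr v i ∈ Rg k

/-- Replace one vector of a basis. -/
lemma exists_basis_update (b : Module.Basis ι (RatFunc k) V) (j : ι) (w : V)
    (hw : b.repr w j ≠ 0) :
    ∃ c : Module.Basis ι (RatFunc k) V, c j = w ∧ (∀ i, i ≠ j → c i = b i) ∧
      ∀ v i, c.repr v i = if i = j then b.repr v j / b.repr w j
        else b.repr v i - (b.repr v j / b.repr w j) * b.repr w i := by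
  set ρ : ι → RatFunc k := fun i => b.repr w i with hρ
  have hρj : ρ j ≠ 0 := hw
  let e : (ι → RatFunc k) ≃ₗ[RatFunc k] (ι → RatFunc k) :=
    { toFun := fun r i => if i = j then r j / ρ j else r i - (r j / ρ j) * ρ i
      map_add' := by
        intro r s; funext i
        simp only [Pi.add_apply]
        split_ifs <;> ring
      map_smul' := by
        intro a r; funext i
        simp only [Pi.smul_apply, smul_eq_mul, RingHom.id_apply]
        split_ifs <;> ring
      invFun := fun a i => if i = j then a j * ρ j else a i + a j * ρ i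
      left_inv := by
        intro r; funext i
        by_cases hi : i = j
        · subst hi; simp [hρj]
        · simp [hi]
      right_inv := by
        intro a; funext i
        by_cases hi : i = j
        · subst hi; simp [hρj]
        · simp [hi, hρj] }
  refine ⟨Module.Basis.ofEquivFun (b.equivFun ≪≫ₗ e), ?_, ?_, ?_⟩
  · rw [Module.Basis.coe_ofEquivFun]
    change b.equivFun.symm (e.symm (Pi.single j 1)) = w
    have : e.symm (Pi.single j 1) = b.equivFun w := by
      funext i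
      change (if i = j then (Pi.single j (1 : RatFunc k) : ι → RatFunc k) j * ρ j
        else (Pi.single j (1 : RatFunc k) : ι → RatFunc k) i +
          (Pi.single j (1 : RatFunc k) : ι → RatFunc k) j * ρ i) = b.equivFun w i
      by_cases hi : i = j
      · subst hi; simp [hρ]
      · simp [hi, hρ]
    rw [this, LinearEquiv.symm_apply_apply]
  · intro i hi
    rw [Module.Basis.coe_ofEquivFun]
    change b.equivFun.symm (e.symm (Pi.single i 1)) = b i
    have : e.symm (Pi.single i 1) = b.equivFun (b i) := by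
      funext i'
      change (if i' = j then (Pi.single i (1 : RatFunc k) : ι → RatFunc k) j * ρ j
        else (Pi.single i (1 : RatFunc k) : ι → RatFunc k) i' +
          (Pi.single i (1 : RatFunc k) : ι → RatFunc k) j * ρ i') = b.equivFun (b i) i'
      rw [Module.Basis.equivFun_self]
      have hij : (Pi.single i (1 : RatFunc k) : ι → RatFunc k) j = 0 := by
        simp [Ne.symm hi]
      by_cases hi' : i' = j
      · subst hi'; simp [hi]
      · simp only [hi', if_false, hij, zero_mul, add_zero, Pi.single_apply]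
        by_cases h : i' = i
        · subst h; simp
        · simp [h, Ne.symm h]
    rw [this, LinearEquiv.symm_apply_apply]
  · intro v i
    rw [Module.Basis.ofEquivFun_repr_apply]
    rfl

variable (U : AddSubgroup V)

omit [Fintype ι] [DecidableEq ι] in
lemma smul_mem_of_degLE (hU : ∀ f : RatFunc k, DegLE f 0 → ∀ u ∈ U, f • u ∈ U)
    {f : RatFunc k} {e : ℤ} {x : V} (hf : DegLE f (-e))
    (hx : (RatFunc.X : RatFunc k) ^ (-e) • x ∈ U) : f • x ∈ U := by
  have hX : (RatFunc.X : RatFunc k) ≠ 0 := RatFunc.X_ne_zero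
  have h1 : f • x = (f * RatFunc.X ^ e) • ((RatFunc.X : RatFunc k) ^ (-e) • x) := by
    rw [smul_smul, mul_assoc, ← zpow_add₀ hX, add_neg_cancel, zpow_zero, mul_one]
  rw [h1]
  refine hU _ ?_ _ hx
  have := hf.mul (degLE_X_zpow (k := k) e)
  rwa [neg_add_cancel] at this

omit [DecidableEq ι] in
lemma mem_of_coeffs (hU : ∀ f : RatFunc k, DegLE f 0 → ∀ u ∈ U, f • u ∈ U)
    (b : Module.Basis ι (RatFunc k) V) (e : ι → ℤ)
    (he : ∀ i, (RatFunc.X : RatFunc k) ^ (-e i) • b i ∈ U) {v : V}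
    (hv : ∀ i, DegLE (b.repr v i) (-e i)) : v ∈ U := by
  rw [← b.sum_repr v]
  exact U.sum_mem fun i _ => smul_mem_of_degLE U hU (hv i) (he i)

/-- One reduction step. -/
lemma reduce_step (hU : ∀ f : RatFunc k, DegLE f 0 → ∀ u ∈ U, f • u ∈ U)
    (b : Module.Basis ι (RatFunc k) V) (e : ι → ℤ)
    (he : ∀ i, (RatFunc.X : RatFunc k) ^ (-e i) • b i ∈ U)
    (v : V) (hv : v ∈ U) (i₀ : ι) (hbad : ¬ DegLE (b.repr v i₀) (-e i₀)) :
    ∃ (c : Module.Basis ι (RatFunc k) V) (j : ι), (∀ x, InLat c x ↔ InLat b x) ∧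
      (∀ i, i ≠ j → c i = b i) ∧ (RatFunc.X : RatFunc k) ^ (-(e j - 1)) • c j ∈ U := by
  classical
  have hX : (RatFunc.X : RatFunc k) ≠ 0 := RatFunc.X_ne_zero
  set f : ι → RatFunc k := fun i => b.repr v i with hf
  have hf₀ : f i₀ ≠ 0 := fun h => hbad (Or.inl h)
  have hdeg₀ : 0 < (f i₀).intDegree + e i₀ := by
    by_contra h
    exact hbad (Or.inr (by change (f i₀).intDegree ≤ -e i₀; omega))
  -- the maximal weight
  let w : ι → WithBot ℤ := fun i => if f i = 0 then ⊥ else (((f i).intDegree + e i : ℤ) : WithBot ℤ)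
  obtain ⟨i₁, -, hmax⟩ := Finset.exists_max_image Finset.univ w ⟨i₀, Finset.mem_univ _⟩
  have hw₀ : w i₀ = (((f i₀).intDegree + e i₀ : ℤ) : WithBot ℤ) := if_neg hf₀
  have hf₁ : f i₁ ≠ 0 := by
    intro h
    have h1 := hmax i₀ (Finset.mem_univ _)
    have h2 : w i₁ = ⊥ := if_pos h
    rw [h2, hw₀] at h1
    exact absurd h1 (by simp)
  have hw₁ : w i₁ = (((f i₁).intDegree + e i₁ : ℤ) : WithBot ℤ) := if_neg hf₁
  set m : ℤ := (f i₁).intDegree + e i₁ with hm
  have hle : ∀ i, f i ≠ 0 → (f i).intDegree + e i ≤ m := by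
    intro i hi
    have h1 := hmax i (Finset.mem_univ _)
    have h2 : w i = (((f i).intDegree + e i : ℤ) : WithBot ℤ) := if_neg hi
    rw [h2, hw₁] at h1
    exact WithBot.coe_le_coe.mp h1
  have hm1 : 1 ≤ m := by have := hle i₀ hf₀; omega
  -- the indices of maximal weight
  let J : Finset ι := Finset.univ.filter fun i => f i ≠ 0 ∧ (f i).intDegree + e i = m
  have hJ : ∀ i, i ∈ J ↔ f i ≠ 0 ∧ (f i).intDegree + e i = m := by
    intro i; simp [J]
  obtain ⟨j, hjJ, hjmax⟩ := Finset.exists_max_image J e ⟨i₁, (hJ i₁).mpr ⟨hf₁, rfl⟩⟩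
  -- leading coefficients
  have hlead : ∀ i, ∃ c : k, (i ∈ J → c ≠ 0) ∧ (i ∉ J → c = 0) ∧
      DegLE (f i - RatFunc.C c * RatFunc.X ^ (m - e i)) (m - e i - 1) := by
    intro i
    by_cases hi : i ∈ J
    · obtain ⟨hi0, hideg⟩ := (hJ i).mp hi
      obtain ⟨c, hc, hcd⟩ := exists_leading hi0
      have e1 : (f i).intDegree = m - e i := by omega
      rw [e1] at hcd
      exact ⟨c, fun _ => hc, fun h => absurd hi h, hcd⟩
    · refine ⟨0, fun h => absurd h hi, fun _ => rfl, ?_⟩
      rw [map_zero, zero_mul, sub_zero]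
      by_cases hi0 : f i = 0
      · exact Or.inl hi0
      · right
        have h1 := hle i hi0
        have h2 : (f i).intDegree + e i ≠ m := fun h => hi ((hJ i).mpr ⟨hi0, h⟩)
        omega
  choose lam hlam1 hlam0 hlamdeg using hlead
  set ρ : ι → RatFunc k := fun i => RatFunc.C (lam i) * RatFunc.X ^ (e j - e i) with hρ
  set b' : V := ∑ i, ρ i • b i with hb'
  have hrepr : ∀ i, b.repr b' i = ρ i := by
    intro i
    rw [hb', Module.Basis.repr_sum_self]
  have hρj : ρ j = RatFunc.C (lam j) := by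
    simp [hρ]
  have hρj0 : ρ j ≠ 0 := by
    rw [hρj]
    exact (_root_.map_ne_zero _).mpr (hlam1 j hjJ)
  have hρmem : ∀ i, ρ i ∈ Rg k := by
    intro i
    by_cases hi : i ∈ J
    · have h1 : 0 ≤ e j - e i := by have := hjmax i hi; omega
      obtain ⟨n, hn⟩ := Int.eq_ofNat_of_zero_le h1
      refine ⟨Polynomial.C (lam i) * Polynomial.X ^ n, ?_⟩
      simp [hρ, hn]
    · refine ⟨0, ?_⟩
      simp [hρ, hlam0 i hi]
  have hρjinv : (ρ j)⁻¹ ∈ Rg k := by
    refine ⟨Polynomial.C (lam j)⁻¹, ?_⟩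
    rw [hρj]
    simp
  obtain ⟨c, hcj, hci, hcrepr⟩ := exists_basis_update b j b' (by rw [hrepr]; exact hρj0)
  refine ⟨c, j, ?_, hci, ?_⟩
  · intro x
    constructor
    · intro hx i
      have hj := hcrepr x j
      rw [if_pos rfl, hrepr] at hj
      have hbj : b.repr x j = c.repr x j * ρ j := by
        rw [hj]; field_simp
      by_cases hi : i = j
      · subst hi
        rw [hbj]
        exact (Rg k).mul_mem (hx i) (hρmem i)
      · have h1 := hcrepr x i
        rw [if_neg hi, hrepr, hrepr, ← hj] at h1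
        have h2 : b.repr x i = c.repr x i + c.repr x j * ρ i := by
          rw [h1]; ring
        rw [h2]
        exact (Rg k).add_mem (hx i) ((Rg k).mul_mem (hx j) (hρmem i))
    · intro hx i
      rw [hcrepr x i]
      by_cases hi : i = j
      · rw [if_pos hi, hrepr, div_eq_mul_inv]
        exact (Rg k).mul_mem (hx j) hρjinv
      · rw [if_neg hi, hrepr, hrepr, div_eq_mul_inv]
        exact (Rg k).sub_mem (hx i)
          ((Rg k).mul_mem ((Rg k).mul_mem (hx j) hρjinv) (hρmem i))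
  · rw [hcj]
    -- `X^(1 - e j) • b' = X^(1 - m) • v - Σ (X^(1-m) g_i) • b_i`
    have key : (RatFunc.X : RatFunc k) ^ (-(e j - 1)) • b' =
        (RatFunc.X : RatFunc k) ^ (1 - m) • v -
          ∑ i, ((RatFunc.X : RatFunc k) ^ (1 - m) *
            (f i - RatFunc.C (lam i) * RatFunc.X ^ (m - e i))) • b i := by
      conv_rhs => rw [← b.sum_repr v]
      rw [hb', Finset.smul_sum, Finset.smul_sum, ← Finset.sum_sub_distrib]
      refine Finset.sum_congr rfl fun i _ => ?_
      rw [smul_smul, smul_smul, ← sub_smul]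
      congr 1
      change RatFunc.X ^ (-(e j - 1)) * (RatFunc.C (lam i) * RatFunc.X ^ (e j - e i)) =
        RatFunc.X ^ (1 - m) * f i -
          RatFunc.X ^ (1 - m) * (f i - RatFunc.C (lam i) * RatFunc.X ^ (m - e i))
      have e1 : (RatFunc.X : RatFunc k) ^ (-(e j - 1)) * RatFunc.X ^ (e j - e i) =
          RatFunc.X ^ (1 - m) * RatFunc.X ^ (m - e i) := by
        rw [← zpow_add₀ hX, ← zpow_add₀ hX]
        congr 1; ring
      linear_combination RatFunc.C (lam i) * e1
    rw [key]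
    refine U.sub_mem ?_ (U.sum_mem fun i _ => ?_)
    · exact hU _ ((degLE_X_zpow (k := k) (1 - m)).mono (by omega)) _ hv
    · refine smul_mem_of_degLE U hU ?_ (he i)
      have := (degLE_X_zpow (k := k) (1 - m)).mul (hlamdeg i)
      exact this.mono (by omega)

omit [Fintype ι] [DecidableEq ι] in
lemma inLat_self (c : Module.Basis ι (RatFunc k) V) (i : ι) : InLat c (c i) := by
  classical
  intro i'
  rw [Module.Basis.repr_self, Finsupp.single_apply]
  split_ifs
  · exact (Rg k).one_mem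
  · exact (Rg k).zero_mem

omit [Fintype ι] [DecidableEq ι] in
lemma one_le_of_valid (hU : ∀ f : RatFunc k, DegLE f 0 → ∀ u ∈ U, f • u ∈ U)
    (b₀ : Module.Basis ι (RatFunc k) V) (D : ℕ)
    (hD : ∀ v, InLat b₀ v → (RatFunc.X : RatFunc k) ^ D • v ∈ U → v = 0)
    (c : Module.Basis ι (RatFunc k) V) (hc : ∀ v, InLat c v ↔ InLat b₀ v) (e : ι → ℤ)
    (he : ∀ i, (RatFunc.X : RatFunc k) ^ (-e i) • c i ∈ U) (i : ι) : 1 ≤ e i + D := by
  by_contra hlt
  have hX : (RatFunc.X : RatFunc k) ≠ 0 := RatFunc.X_ne_zero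
  have h1 : (RatFunc.X : RatFunc k) ^ D • c i ∈ U := by
    have h2 : (RatFunc.X : RatFunc k) ^ D • c i =
        (RatFunc.X : RatFunc k) ^ ((D : ℤ) + e i) • ((RatFunc.X : RatFunc k) ^ (-e i) • c i) := by
      rw [smul_smul, ← zpow_add₀ hX, add_neg_cancel_right, zpow_natCast]
    rw [h2]
    exact hU _ ((degLE_X_zpow (k := k) _).mono (by omega)) _ (he i)
  exact c.ne_zero i (hD _ ((hc _).mp (inLat_self c i)) h1)

lemma exists_reduced_aux (hU : ∀ f : RatFunc k, DegLE f 0 → ∀ u ∈ U, f • u ∈ U)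
    (b₀ : Module.Basis ι (RatFunc k) V) (D : ℕ)
    (hD : ∀ v, InLat b₀ v → (RatFunc.X : RatFunc k) ^ D • v ∈ U → v = 0) (N : ℕ) :
    ∀ (b : Module.Basis ι (RatFunc k) V) (e : ι → ℤ), (∀ v, InLat b v ↔ InLat b₀ v) →
      (∀ i, (RatFunc.X : RatFunc k) ^ (-e i) • b i ∈ U) → ∑ i, (e i + D) ≤ N →
      ∃ (b' : Module.Basis ι (RatFunc k) V) (d : ι → ℤ),
        (∀ v, InLat b' v ↔ InLat b₀ v) ∧ (∀ v, v ∈ U ↔ ∀ i, DegLE (b'.repr v i) (d i)) := by
  induction N with
  | zero =>
    intro b e hb he hsum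
    by_cases hgood : ∀ v ∈ U, ∀ i, DegLE (b.repr v i) (-e i)
    · exact ⟨b, fun i => -e i, hb, fun v => ⟨hgood v, fun h => mem_of_coeffs U hU b e he h⟩⟩
    · exfalso
      obtain ⟨v, hgood⟩ := not_forall.mp hgood
      obtain ⟨hv, hgood⟩ := Classical.not_imp.mp hgood
      obtain ⟨i₀, hbad⟩ := not_forall.mp hgood
      have h1 : ∀ i, 1 ≤ e i + D := one_le_of_valid U hU b₀ D hD b hb e he
      have h2 : (0 : ℤ) < ∑ i, (e i + (D : ℤ)) :=
        Finset.sum_pos (fun i _ => by have := h1 i; omega) ⟨i₀, Finset.mem_univ _⟩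
      have h3 : ∑ i, (e i + (D : ℤ)) ≤ 0 := by exact_mod_cast hsum
      omega
  | succ N ih =>
    intro b e hb he hsum
    by_cases hgood : ∀ v ∈ U, ∀ i, DegLE (b.repr v i) (-e i)
    · exact ⟨b, fun i => -e i, hb, fun v => ⟨hgood v, fun h => mem_of_coeffs U hU b e he h⟩⟩
    · obtain ⟨v, hgood⟩ := not_forall.mp hgood
      obtain ⟨hv, hgood⟩ := Classical.not_imp.mp hgood
      obtain ⟨i₀, hbad⟩ := not_forall.mp hgood
      obtain ⟨c, j, hc, hci, hcj⟩ := reduce_step U hU b e he v hv i₀ hbad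
      refine ih c (fun i => if i = j then e i - 1 else e i) (fun x => (hc x).trans (hb x)) ?_ ?_
      · intro i
        by_cases hi : i = j
        · subst hi; rw [if_pos rfl]; exact hcj
        · rw [if_neg hi, hci i hi]; exact he i
      · have h1 : ∑ i, ((if i = j then e i - 1 else e i) + (D : ℤ)) =
            ∑ i, (e i + (D : ℤ)) - 1 := by
          have : ∀ i, (if i = j then e i - 1 else e i) + (D : ℤ) =
              (e i + (D : ℤ)) - (if i = j then 1 else 0) := by
            intro i; split_ifs <;> ring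
          simp only [this, Finset.sum_sub_distrib, Finset.sum_ite_eq', Finset.mem_univ, if_true]
        rw [h1]
        push_cast at hsum
        omega

/-- Dedekind–Weber: existence of a reduced basis for a pair of lattices. -/
theorem exists_reduced_basis (hU : ∀ f : RatFunc k, DegLE f 0 → ∀ u ∈ U, f • u ∈ U)
    (hU2 : ∀ v : V, ∃ d : ℕ, ((RatFunc.X : RatFunc k)⁻¹ ^ d) • v ∈ U)
    (b₀ : Module.Basis ι (RatFunc k) V)
    (hU3 : ∃ D : ℕ, ∀ v, InLat b₀ v → (RatFunc.X : RatFunc k) ^ D • v ∈ U → v = 0) :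
    ∃ (b : Module.Basis ι (RatFunc k) V) (d : ι → ℤ),
      (∀ v, InLat b v ↔ InLat b₀ v) ∧ (∀ v, v ∈ U ↔ ∀ i, DegLE (b.repr v i) (d i)) := by
  obtain ⟨D, hD⟩ := hU3
  choose d₀ hd₀ using fun i => hU2 (b₀ i)
  have he : ∀ i, (RatFunc.X : RatFunc k) ^ (-(d₀ i : ℤ)) • b₀ i ∈ U := by
    intro i
    rw [zpow_neg, zpow_natCast, ← inv_pow]
    exact hd₀ i
  have hnn : (0 : ℤ) ≤ ∑ i, ((d₀ i : ℤ) + D) := Finset.sum_nonneg fun i _ => by positivity
  refine exists_reduced_aux U hU b₀ D hD (∑ i, ((d₀ i : ℤ) + D)).toNat b₀ (fun i => (d₀ i : ℤ))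
    (fun _ => Iff.rfl) he ?_
  rw [Int.toNat_of_nonneg hnn]

end DW


/-! ### Dimension counts for diagonal pairs -/


section Dims

variable {V : Type*} [AddCommGroup V] [Module (RatFunc k) V] [Module k V]
  [IsScalarTower k (RatFunc k) V] {ι : Type*} [Fintype ι]

omit [Fintype ι] in
lemma repr_smul_k (c : Module.Basis ι (RatFunc k) V) (r : k) (v : V) (i : ι) :
    c.repr (r • v) i = RatFunc.C r * c.repr v i := by
  have : r • v = (RatFunc.C r : RatFunc k) • v := by
    rw [← RatFunc.algebraMap_eq_C, algebraMap_smul]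
  rw [this, map_smul, Finsupp.smul_apply, smul_eq_mul]

lemma C_mem_Rg (r : k) : (RatFunc.C r : RatFunc k) ∈ Rg k :=
  ⟨Polynomial.C r, RatFunc.algebraMap_C r⟩

/-- The `k[X]`-lattice spanned by a basis, as a `k`-subspace. -/
def latSub (c : Module.Basis ι (RatFunc k) V) : Submodule k V where
  carrier := {v | InLat c v}
  add_mem' := by
    intro v w hv hw i
    rw [map_add, Finsupp.add_apply]
    exact (Rg k).add_mem (hv i) (hw i)
  zero_mem' := by
    intro i
    rw [map_zero, Finsupp.zero_apply]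
    exact (Rg k).zero_mem
  smul_mem' := by
    intro r v hv i
    rw [repr_smul_k]
    exact (Rg k).mul_mem (C_mem_Rg r) (hv i)

/-- The lattice at infinity with exponents `a` with respect to a basis. -/
def degSub (c : Module.Basis ι (RatFunc k) V) (a : ι → ℤ) : Submodule k V where
  carrier := {v | ∀ i, DegLE (c.repr v i) (a i)}
  add_mem' := by
    intro v w hv hw i
    rw [map_add, Finsupp.add_apply]
    exact (hv i).add (hw i)
  zero_mem' := by
    intro i
    rw [map_zero, Finsupp.zero_apply]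
    exact DegLE.zero _
  smul_mem' := by
    intro r v hv i
    rw [repr_smul_k]
    have := (degLE_C r).mul (hv i)
    rwa [zero_add] at this

omit [Fintype ι] in
lemma mem_latSub {c : Module.Basis ι (RatFunc k) V} {v : V} : v ∈ latSub c ↔ InLat c v := Iff.rfl

omit [Fintype ι] in
lemma mem_degSub {c : Module.Basis ι (RatFunc k) V} {a : ι → ℤ} {v : V} :
    v ∈ degSub c a ↔ ∀ i, DegLE (c.repr v i) (a i) := Iff.rfl

/-- The parametrisation of `latSub c ⊓ degSub c a` by tuples of polynomials of bounded degree. -/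
noncomputable def polyMap (c : Module.Basis ι (RatFunc k) V) (n : ι → ℕ) :
    (∀ i, degreeLT k (n i)) →ₗ[k] V :=
  ∑ i, ((LinearMap.toSpanSingleton (RatFunc k) V (c i)).restrictScalars k) ∘ₗ
    (IsScalarTower.toAlgHom k k[X] (RatFunc k)).toLinearMap ∘ₗ (degreeLT k (n i)).subtype ∘ₗ
    LinearMap.proj i

lemma polyMap_apply (c : Module.Basis ι (RatFunc k) V) (n : ι → ℕ) (p : ∀ i, degreeLT k (n i)) :
    polyMap c n p = ∑ i, algebraMap k[X] (RatFunc k) (p i : k[X]) • c i := by
  simp [polyMap, LinearMap.sum_apply]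

lemma repr_polyMap (c : Module.Basis ι (RatFunc k) V) (n : ι → ℕ) (p : ∀ i, degreeLT k (n i))
    (i : ι) : c.repr (polyMap c n p) i = algebraMap k[X] (RatFunc k) (p i : k[X]) := by
  rw [polyMap_apply, Module.Basis.repr_sum_self]

lemma polyMap_injective (c : Module.Basis ι (RatFunc k) V) (n : ι → ℕ) :
    Function.Injective (polyMap c n) := by
  rw [← LinearMap.ker_eq_bot, LinearMap.ker_eq_bot']
  intro p hp
  funext i
  have h := repr_polyMap c n p i
  rw [hp, map_zero, Finsupp.zero_apply] at h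
  have h2 : (p i : k[X]) = 0 := by
    apply RatFunc.algebraMap_injective k
    rw [← h, map_zero]
  exact Subtype.ext h2

lemma range_polyMap (c : Module.Basis ι (RatFunc k) V) (a : ι → ℤ) :
    LinearMap.range (polyMap c fun i => (a i + 1).toNat) = latSub c ⊓ degSub c a := by
  ext v
  constructor
  · rintro ⟨p, rfl⟩
    refine ⟨fun i => ?_, fun i => ?_⟩
    · rw [repr_polyMap]; exact ⟨_, rfl⟩
    · rw [repr_polyMap]
      by_cases hp : (p i : k[X]) = 0
      · left; rw [hp, map_zero]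
      · right
        rw [RatFunc.intDegree_polynomial]
        have h1 := mem_degreeLT.mp (p i).2
        rw [degree_eq_natDegree hp] at h1
        have h2 : (p i : k[X]).natDegree < (a i + 1).toNat := by exact_mod_cast h1
        omega
  · rintro ⟨hv1, hv2⟩
    choose q hq using hv1
    have hmem : ∀ i, q i ∈ degreeLT k (a i + 1).toNat := by
      intro i
      rw [mem_degreeLT]
      by_cases hq0 : q i = 0
      · rw [hq0, degree_zero]; exact WithBot.bot_lt_coe _
      · have h1 := hv2 i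
        rw [← hq i] at h1
        have h2 := h1.le (RatFunc.algebraMap_ne_zero hq0)
        rw [RatFunc.intDegree_polynomial] at h2
        rw [degree_eq_natDegree hq0]
        have : (q i).natDegree < (a i + 1).toNat := by omega
        exact_mod_cast this
    refine ⟨fun i => ⟨q i, hmem i⟩, ?_⟩
    apply c.repr.injective
    ext i
    rw [repr_polyMap]
    exact hq i

lemma finrank_lat_inf_deg (c : Module.Basis ι (RatFunc k) V) (a : ι → ℤ) :
    Module.finrank k ↥(latSub c ⊓ degSub c a) = ∑ i, (a i + 1).toNat := by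
  rw [← range_polyMap, LinearMap.finrank_range_of_inj (polyMap_injective c _),
    Module.finrank_pi_fintype]
  refine Finset.sum_congr rfl fun i _ => ?_
  rw [(degreeLTEquiv k _).finrank_eq, Module.finrank_fin_fun]

instance finite_lat_inf_deg (c : Module.Basis ι (RatFunc k) V) (a : ι → ℤ) :
    Module.Finite k ↥(latSub c ⊓ degSub c a) := by
  rw [← range_polyMap]
  have : ∀ i, Module.Finite k (degreeLT k ((fun i => (a i + 1).toNat) i)) := fun i =>
    Module.Finite.equiv (degreeLTEquiv k _).symm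
  infer_instance

/-- Every rational function is a polynomial plus a proper fraction. -/
lemma exists_poly_add_proper (f : RatFunc k) :
    ∃ q : k[X], DegLE (f - algebraMap k[X] (RatFunc k) q) (-1) := by
  set p := f.num with hp
  set d := f.denom with hd
  have hdm : d.Monic := RatFunc.monic_denom f
  have hd0 : d ≠ 0 := f.denom_ne_zero
  have hd' : algebraMap k[X] (RatFunc k) d ≠ 0 := RatFunc.algebraMap_ne_zero hd0
  refine ⟨p /ₘ d, ?_⟩
  have hf : f = algebraMap k[X] (RatFunc k) p / algebraMap k[X] (RatFunc k) d :=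
    (RatFunc.num_div_denom f).symm
  have hdiv : p %ₘ d + d * (p /ₘ d) = p := modByMonic_add_div p d
  have key : f - algebraMap k[X] (RatFunc k) (p /ₘ d) =
      algebraMap k[X] (RatFunc k) (p %ₘ d) / algebraMap k[X] (RatFunc k) d := by
    rw [hf, eq_div_iff hd', sub_mul, div_mul_cancel₀ _ hd', ← map_mul, ← map_sub]
    congr 1
    linear_combination (-1 : k[X]) * hdiv
  rw [key]
  by_cases hr : p %ₘ d = 0
  · left; rw [hr, map_zero, zero_div]
  · right
    rw [RatFunc.intDegree_div (RatFunc.algebraMap_ne_zero hr) hd',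
      RatFunc.intDegree_polynomial, RatFunc.intDegree_polynomial]
    have := natDegree_lt_natDegree hr (degree_modByMonic_lt p hdm)
    omega

lemma exists_lat_add_deg (c : Module.Basis ι (RatFunc k) V) (a : ι → ℤ) (ha : ∀ i, -1 ≤ a i)
    (v : V) : ∃ m ∈ latSub c, ∃ u ∈ degSub c a, m + u = v := by
  choose q hq using fun i => exists_poly_add_proper (c.repr v i)
  refine ⟨∑ i, algebraMap k[X] (RatFunc k) (q i) • c i, ?_,
    ∑ i, (c.repr v i - algebraMap k[X] (RatFunc k) (q i)) • c i, ?_, ?_⟩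
  · intro i
    rw [Module.Basis.repr_sum_self]
    exact ⟨_, rfl⟩
  · intro i
    rw [Module.Basis.repr_sum_self]
    exact (hq i).mono (ha i)
  · rw [← Finset.sum_add_distrib]
    conv_rhs => rw [← c.sum_repr v]
    refine Finset.sum_congr rfl fun i _ => ?_
    rw [← add_smul]
    congr 1
    ring

end Dims


/-! ### Dual lattices and the index lemma -/


section Dual

variable {V : Type*} [AddCommGroup V] [Module (RatFunc k) V] {ι : Type*} [Fintype ι]
  [DecidableEq ι]

lemma form_eq_sum (Φ : LinearMap.BilinForm (RatFunc k) V) (hΦ : Φ.Nondegenerate)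
    (c : Module.Basis ι (RatFunc k) V) (w v : V) :
    Φ w v = ∑ j, c.repr v j * (Φ.dualBasis hΦ c).repr w j := by
  conv_lhs => rw [← c.sum_repr v]
  rw [map_sum]
  refine Finset.sum_congr rfl fun j _ => ?_
  rw [map_smul, smul_eq_mul, LinearMap.BilinForm.dualBasis_repr_apply]

lemma forall_mem_Rg_iff (Φ : LinearMap.BilinForm (RatFunc k) V) (hΦ : Φ.Nondegenerate)
    (c : Module.Basis ι (RatFunc k) V) (w : V) :
    (∀ v, InLat c v → Φ w v ∈ Rg k) ↔ InLat (Φ.dualBasis hΦ c) w := by
  constructor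
  · intro h i
    rw [LinearMap.BilinForm.dualBasis_repr_apply]
    exact h _ (inLat_self c i)
  · intro h v hv
    rw [form_eq_sum Φ hΦ c]
    exact (Rg k).sum_mem fun j _ => (Rg k).mul_mem (hv j) (h j)

lemma forall_degLE_iff (Φ : LinearMap.BilinForm (RatFunc k) V) (hΦ : Φ.Nondegenerate)
    (c : Module.Basis ι (RatFunc k) V) (a : ι → ℤ) (e : ℤ) (w : V) :
    (∀ u, (∀ i, DegLE (c.repr u i) (a i)) → DegLE (Φ w u) e) ↔
      ∀ i, DegLE ((Φ.dualBasis hΦ c).repr w i) (e - a i) := by
  have hX : (RatFunc.X : RatFunc k) ≠ 0 := RatFunc.X_ne_zero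
  constructor
  · intro h i
    have h1 := h ((RatFunc.X : RatFunc k) ^ (a i) • c i) (by
      intro i'
      rw [map_smul, Module.Basis.repr_self, Finsupp.smul_apply, Finsupp.single_apply]
      split_ifs with hi
      · subst hi
        rw [smul_eq_mul, mul_one]
        exact degLE_X_zpow _
      · rw [smul_zero]; exact DegLE.zero _)
    rw [map_smul, smul_eq_mul, ← LinearMap.BilinForm.dualBasis_repr_apply hΦ c] at h1
    have h2 := (degLE_X_zpow (k := k) (-a i)).mul h1
    rw [← mul_assoc, ← zpow_add₀ hX, neg_add_cancel, zpow_zero, one_mul] at h2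
    exact h2.mono (by omega)
  · intro h u hu
    rw [form_eq_sum Φ hΦ c]
    refine DegLE.sum _ fun j _ => ?_
    have := (hu j).mul (h j)
    exact this.mono (by omega)

end Dual

section Index

variable {V : Type*} [AddCommGroup V] [Module k V]

/-- The index lemma: if `Q ⊆ P + N` then `dim (Q ∩ N) = dim (P ∩ N) + dim (Q / P)`. -/
lemma finrank_inf_eq_add {P Q N : Submodule k V} (hPQ : P ≤ Q)
    (hsup : ∀ q ∈ Q, ∃ p ∈ P, ∃ n ∈ N, p + n = q) [Module.Finite k ↥(Q ⊓ N)] :
    Module.Finite k (↥Q ⧸ P.submoduleOf Q) ∧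
      Module.finrank k ↥(Q ⊓ N) =
        Module.finrank k ↥(P ⊓ N) + Module.finrank k (↥Q ⧸ P.submoduleOf Q) := by
  let φ : ↥(Q ⊓ N) →ₗ[k] ↥Q ⧸ P.submoduleOf Q :=
    (P.submoduleOf Q).mkQ ∘ₗ Submodule.inclusion inf_le_left
  have hsurj : Function.Surjective φ := by
    intro y
    obtain ⟨⟨q, hq⟩, rfl⟩ := Submodule.Quotient.mk_surjective _ y
    obtain ⟨p, hp, n, hn, hpn⟩ := hsup q hq
    have hnQ : n ∈ Q := by
      have : n = q - p := by rw [← hpn]; abel
      rw [this]
      exact Q.sub_mem hq (hPQ hp)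
    refine ⟨⟨n, hnQ, hn⟩, ?_⟩
    change Submodule.Quotient.mk (⟨n, hnQ⟩ : ↥Q) = Submodule.Quotient.mk (⟨q, hq⟩ : ↥Q)
    rw [Submodule.Quotient.eq]
    change (⟨n, hnQ⟩ : ↥Q).1 - (⟨q, hq⟩ : ↥Q).1 ∈ P
    have : n - q = -p := by rw [← hpn]; abel
    change n - q ∈ P
    rw [this]
    exact P.neg_mem hp
  have hfin : Module.Finite k (↥Q ⧸ P.submoduleOf Q) := Module.Finite.of_surjective φ hsurj
  refine ⟨hfin, ?_⟩
  have hker : (LinearMap.ker φ).map (Q ⊓ N).subtype = P ⊓ N := by
    ext v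
    constructor
    · rintro ⟨x, hx, rfl⟩
      have hx' : φ x = 0 := hx
      have h1 : (Submodule.inclusion inf_le_left x : ↥Q) ∈ P.submoduleOf Q := by
        rwa [← Submodule.Quotient.mk_eq_zero]
      exact ⟨h1, x.2.2⟩
    · rintro ⟨hvP, hvN⟩
      refine ⟨⟨v, hPQ hvP, hvN⟩, ?_, rfl⟩
      change φ _ = 0
      change Submodule.Quotient.mk _ = 0
      rw [Submodule.Quotient.mk_eq_zero]
      exact hvP
  have h1 := LinearMap.finrank_range_add_finrank_ker φ
  rw [LinearMap.range_eq_top.mpr hsurj, finrank_top] at h1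
  have h2 : Module.finrank k ↥(LinearMap.ker φ) = Module.finrank k ↥(P ⊓ N) := by
    rw [← hker]
    exact (Submodule.equivSubtypeMap (Q ⊓ N) (LinearMap.ker φ)).finrank_eq
  omega

end Index


/-! ### The genus formula -/


section Final

variable {V : Type*} [AddCommGroup V] [Module (RatFunc k) V] [Module k V]
  [IsScalarTower k (RatFunc k) V] {ι : Type*} [Fintype ι] [DecidableEq ι]

/-- Multiplication by `X ^ m` as a `k`-linear equivalence. -/
noncomputable def twist (k : Type*) [Field k] (V : Type*) [AddCommGroup V] [Module (RatFunc k) V]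
    [Module k V] [IsScalarTower k (RatFunc k) V] (m : ℤ) : V ≃ₗ[k] V where
  toFun v := (RatFunc.X : RatFunc k) ^ m • v
  invFun v := (RatFunc.X : RatFunc k) ^ (-m) • v
  map_add' := smul_add _
  map_smul' r v := by
    simp only [RingHom.id_apply]
    rw [smul_comm]
  left_inv v := by
    change (RatFunc.X : RatFunc k) ^ (-m) • ((RatFunc.X : RatFunc k) ^ m • v) = v
    rw [smul_smul, ← zpow_add₀ RatFunc.X_ne_zero, neg_add_cancel, zpow_zero, one_smul]
  right_inv v := by
    change (RatFunc.X : RatFunc k) ^ m • ((RatFunc.X : RatFunc k) ^ (-m) • v) = v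
    rw [smul_smul, ← zpow_add₀ RatFunc.X_ne_zero, add_neg_cancel, zpow_zero, one_smul]

omit [Fintype ι] [DecidableEq ι] in
lemma twist_apply (m : ℤ) (v : V) : twist k V m v = (RatFunc.X : RatFunc k) ^ m • v := rfl

omit [Fintype ι] [DecidableEq ι] in
lemma twist_mem_degSub (c : Module.Basis ι (RatFunc k) V) (a : ι → ℤ) (m : ℤ) (v : V) :
    twist k V m v ∈ degSub c (fun i => a i + m) ↔ v ∈ degSub c a := by
  have hX : (RatFunc.X : RatFunc k) ≠ 0 := RatFunc.X_ne_zero
  simp only [mem_degSub, twist_apply, map_smul, Finsupp.smul_apply, smul_eq_mul]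
  constructor
  · intro h i
    have := (degLE_X_zpow (k := k) (-m)).mul (h i)
    rw [← mul_assoc, ← zpow_add₀ hX, neg_add_cancel, zpow_zero, one_mul] at this
    exact this.mono (by omega)
  · intro h i
    have := (degLE_X_zpow (k := k) m).mul (h i)
    exact this.mono (by omega)

omit [Fintype ι] [DecidableEq ι] in
lemma finrank_comap_twist (m : ℤ) (S : Submodule k V) :
    Module.finrank k ↥(S.comap (twist k V m : V →ₗ[k] V)) = Module.finrank k ↥S := by
  rw [Submodule.comap_equiv_eq_map_symm]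
  exact LinearEquiv.finrank_map_eq _ _

/-- The genus formula for a pair of lattices (Riemann–Roch and Serre duality over the
projective line), together with all the finiteness statements. -/
theorem genus_formula_full (Φ : LinearMap.BilinForm (RatFunc k) V) (hΦ : Φ.Nondegenerate)
    (b₀ : Module.Basis ι (RatFunc k) V) (M U Mdual Udual Omega : Submodule k V)
    (hM : ∀ v, v ∈ M ↔ InLat b₀ v)
    (hU1 : ∀ f : RatFunc k, DegLE f 0 → ∀ u ∈ U, f • u ∈ U)
    (hU2 : ∀ v : V, ∃ d : ℕ, ((RatFunc.X : RatFunc k)⁻¹ ^ d) • v ∈ U)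
    (hU3 : ∃ D : ℕ, ∀ v ∈ M, (RatFunc.X : RatFunc k) ^ D • v ∈ U → v = 0)
    (hMd : ∀ w, w ∈ Mdual ↔ ∀ v ∈ M, Φ w v ∈ Rg k)
    (hUd : ∀ w, w ∈ Udual ↔ ∀ u ∈ U, DegLE (Φ w u) 0)
    (hΩ : ∀ w, w ∈ Omega ↔ w ∈ Mdual ∧ ∀ u ∈ U, DegLE (Φ w u) (-2))
    (hMle : M ≤ Mdual) (hUle : U ≤ Udual) :
    Module.Finite k ↥Omega ∧ Module.Finite k ↥(M ⊓ U) ∧
      Module.Finite k (↥Mdual ⧸ M.submoduleOf Mdual) ∧
      Module.Finite k (↥Udual ⧸ U.submoduleOf Udual) ∧
      2 * Module.finrank k Omega + 2 * Fintype.card ι =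
        2 * Module.finrank k ↥(M ⊓ U) + Module.finrank k (↥Mdual ⧸ M.submoduleOf Mdual) +
          Module.finrank k (↥Udual ⧸ U.submoduleOf Udual) := by
  classical
  obtain ⟨D, hD⟩ := hU3
  obtain ⟨b, d, hb, hUb⟩ := exists_reduced_basis U.toAddSubgroup hU1 hU2 b₀
    ⟨D, fun v hv => hD v ((hM v).mpr hv)⟩
  have hUb' : ∀ v, v ∈ U ↔ ∀ i, DegLE (b.repr v i) (d i) := hUb
  have hMeq : M = latSub b := by
    ext v; rw [hM, mem_latSub, hb]
  have hUeq : U = degSub b d := by
    ext v; exact hUb' v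
  set c' := Φ.dualBasis hΦ b with hc'
  have hMdeq : Mdual = latSub c' := by
    ext w
    rw [hMd, mem_latSub, ← forall_mem_Rg_iff Φ hΦ b w]
    exact ⟨fun h v hv => h v ((hM v).mpr ((hb v).mp hv)),
      fun h v hv => h v ((hb v).mpr ((hM v).mp hv))⟩
  have hUdeq : Udual = degSub c' (fun i => -d i) := by
    ext w
    rw [hUd, mem_degSub]
    have := forall_degLE_iff Φ hΦ b d 0 w
    simp only [zero_sub] at this
    rw [← this]
    exact ⟨fun h u hu => h u ((hUb' u).mpr hu), fun h u hu => h u ((hUb' u).mp hu)⟩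
  have hΩeq : Omega = latSub c' ⊓ degSub c' (fun i => -d i - 2) := by
    ext w
    rw [hΩ, hMdeq, Submodule.mem_inf, mem_degSub]
    have := forall_degLE_iff Φ hΦ b d (-2) w
    have e : ∀ i, (-2 : ℤ) - d i = -d i - 2 := fun i => by ring
    simp only [e] at this
    rw [← this]
    exact and_congr Iff.rfl
      ⟨fun h u hu => h u ((hUb' u).mpr hu), fun h u hu => h u ((hUb' u).mp hu)⟩
  subst hMeq hUeq hMdeq hUdeq hΩeq
  -- the twist
  set m : ℕ := ∑ i, (d i).natAbs with hm
  have hmi : ∀ i, (d i).natAbs ≤ m := fun i =>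
    Finset.single_le_sum (f := fun i => (d i).natAbs) (fun _ _ => Nat.zero_le _)
      (Finset.mem_univ i)
  set N₁ : Submodule k V := degSub b (fun i => d i + m) with hN₁
  have hdecomp := exists_lat_add_deg b (fun i => d i + m) (fun i => by have := hmi i; omega)
  have htw : ∀ (c : Module.Basis ι (RatFunc k) V) (a : ι → ℤ) (v : V),
      twist k V m v ∈ degSub c (fun i => a i + m) ↔ v ∈ degSub c a :=
    fun c a v => twist_mem_degSub c a m v
  have hN₁le : N₁ ≤ degSub c' (fun i => -d i + m) := by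
    intro u hu
    have h1 : (twist k V m).symm u ∈ degSub b d := by
      rw [← htw b d, LinearEquiv.apply_symm_apply]; exact hu
    have h2 := hUle h1
    rw [← htw c' (fun i => -d i), LinearEquiv.apply_symm_apply] at h2
    exact h2
  -- step 1
  have : Module.Finite k ↥(latSub c' ⊓ N₁) :=
    Submodule.finiteDimensional_of_le
      (S₂ := latSub c' ⊓ degSub c' (fun i => -d i + m)) (inf_le_inf_left _ hN₁le)
  obtain ⟨hfin1, h1⟩ := finrank_inf_eq_add (P := latSub b) (Q := latSub c') (N := N₁) hMle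
    (fun q _ => hdecomp q)
  -- step 2
  set N₂ : Submodule k V := (latSub c').comap (twist k V m : V →ₗ[k] V) with hN₂
  have hQN : degSub c' (fun i => -d i) ⊓ N₂ =
      (latSub c' ⊓ degSub c' (fun i => -d i + m)).comap (twist k V m : V →ₗ[k] V) := by
    ext v
    simp only [Submodule.mem_inf, hN₂, Submodule.mem_comap, LinearEquiv.coe_coe]
    rw [htw c' (fun i => -d i)]
    exact and_comm
  have hPN : degSub b d ⊓ N₂ = (latSub c' ⊓ N₁).comap (twist k V m : V →ₗ[k] V) := by
    ext v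
    simp only [Submodule.mem_inf, hN₂, hN₁, Submodule.mem_comap, LinearEquiv.coe_coe]
    rw [htw b d]
    exact and_comm
  have : Module.Finite k ↥(degSub c' (fun i => -d i) ⊓ N₂) := by
    rw [hQN, Submodule.comap_equiv_eq_map_symm]
    infer_instance
  obtain ⟨hfin2, h2⟩ := finrank_inf_eq_add (P := degSub b d) (Q := degSub c' (fun i => -d i))
    (N := N₂) hUle (by
      intro q _
      obtain ⟨μ, hμ, ν, hν, hμν⟩ := hdecomp (twist k V m q)
      refine ⟨(twist k V m).symm ν, ?_, (twist k V m).symm μ, ?_, ?_⟩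
      · rw [← htw b d, LinearEquiv.apply_symm_apply]; exact hν
      · change twist k V m ((twist k V m).symm μ) ∈ latSub c'
        rw [LinearEquiv.apply_symm_apply]
        exact hMle hμ
      · rw [← map_add, add_comm, hμν, LinearEquiv.symm_apply_apply])
  refine ⟨inferInstance, inferInstance, hfin1, hfin2, ?_⟩
  rw [hQN, finrank_comap_twist, finrank_lat_inf_deg] at h2
  rw [hPN, finrank_comap_twist] at h2
  rw [finrank_lat_inf_deg] at h1
  rw [finrank_lat_inf_deg, finrank_lat_inf_deg]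
  -- arithmetic
  have E1 : ((∑ i, (-d i + (m : ℤ) + 1).toNat : ℕ) : ℤ) = ∑ i, (-d i + (m : ℤ) + 1) := by
    push_cast
    refine Finset.sum_congr rfl fun i _ => ?_
    have := hmi i
    omega
  have E2 : ((∑ i, (d i + (m : ℤ) + 1).toNat : ℕ) : ℤ) = ∑ i, (d i + (m : ℤ) + 1) := by
    push_cast
    refine Finset.sum_congr rfl fun i _ => ?_
    have := hmi i
    omega
  have E3 : (∑ i, ((-d i - 2 + 1).toNat : ℤ)) - ∑ i, ((d i + 1).toNat : ℤ) =
      ∑ i, (-d i - 1) := by
    rw [← Finset.sum_sub_distrib]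
    refine Finset.sum_congr rfl fun i _ => ?_
    omega
  have h12 : ((∑ i, (-d i + (m : ℤ) + 1).toNat : ℕ) : ℤ) =
      ((∑ i, (d i + (m : ℤ) + 1).toNat : ℕ) : ℤ) +
        (Module.finrank k (↥(latSub c') ⧸ (latSub b).submoduleOf (latSub c')) : ℤ) +
        (Module.finrank k (↥(degSub c' fun i => -d i) ⧸
          (degSub b d).submoduleOf (degSub c' fun i => -d i)) : ℤ) := by
    have : (∑ i, (-d i + (m : ℤ) + 1).toNat : ℕ) =
        (∑ i, (d i + (m : ℤ) + 1).toNat : ℕ) +
        Module.finrank k (↥(latSub c') ⧸ (latSub b).submoduleOf (latSub c')) +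
        Module.finrank k (↥(degSub c' fun i => -d i) ⧸
          (degSub b d).submoduleOf (degSub c' fun i => -d i)) := by
      rw [h2, h1]
    exact_mod_cast this
  rw [E1, E2] at h12
  have E4 : ∑ i, (-d i - 1) = -(∑ i, d i) - (Fintype.card ι : ℤ) := by
    simp only [Finset.sum_sub_distrib, Finset.sum_neg_distrib, Finset.sum_const, Finset.card_univ,
      nsmul_eq_mul, mul_one]
  simp only [Finset.sum_add_distrib, Finset.sum_neg_distrib, Finset.sum_const, Finset.card_univ,
    nsmul_eq_mul, mul_one] at h12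
  rw [E4] at E3
  zify
  linarith

/-- The genus formula for a pair of lattices: Riemann–Roch and Serre duality over the
projective line. -/
theorem genus_formula (Φ : LinearMap.BilinForm (RatFunc k) V) (hΦ : Φ.Nondegenerate)
    (b₀ : Module.Basis ι (RatFunc k) V) (M U Mdual Udual Omega : Submodule k V)
    (hM : ∀ v, v ∈ M ↔ InLat b₀ v)
    (hU1 : ∀ f : RatFunc k, DegLE f 0 → ∀ u ∈ U, f • u ∈ U)
    (hU2 : ∀ v : V, ∃ d : ℕ, ((RatFunc.X : RatFunc k)⁻¹ ^ d) • v ∈ U)
    (hU3 : ∃ D : ℕ, ∀ v ∈ M, (RatFunc.X : RatFunc k) ^ D • v ∈ U → v = 0)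
    (hMd : ∀ w, w ∈ Mdual ↔ ∀ v ∈ M, Φ w v ∈ Rg k)
    (hUd : ∀ w, w ∈ Udual ↔ ∀ u ∈ U, DegLE (Φ w u) 0)
    (hΩ : ∀ w, w ∈ Omega ↔ w ∈ Mdual ∧ ∀ u ∈ U, DegLE (Φ w u) (-2))
    (hMle : M ≤ Mdual) (hUle : U ≤ Udual) :
    2 * Module.finrank k Omega + 2 * Fintype.card ι =
      2 * Module.finrank k ↥(M ⊓ U) + Module.finrank k (↥Mdual ⧸ M.submoduleOf Mdual) +
        Module.finrank k (↥Udual ⧸ U.submoduleOf Udual) :=
  (genus_formula_full Φ hΦ b₀ M U Mdual Udual Omega hM hU1 hU2 hU3 hMd hUd hΩ hMle hUle).2.2.2.2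

/-- Finiteness of the space of "holomorphic differentials" of a pair of lattices. -/
theorem finite_Omega (Φ : LinearMap.BilinForm (RatFunc k) V) (hΦ : Φ.Nondegenerate)
    (b₀ : Module.Basis ι (RatFunc k) V) (M U Mdual Udual Omega : Submodule k V)
    (hM : ∀ v, v ∈ M ↔ InLat b₀ v)
    (hU1 : ∀ f : RatFunc k, DegLE f 0 → ∀ u ∈ U, f • u ∈ U)
    (hU2 : ∀ v : V, ∃ d : ℕ, ((RatFunc.X : RatFunc k)⁻¹ ^ d) • v ∈ U)
    (hU3 : ∃ D : ℕ, ∀ v ∈ M, (RatFunc.X : RatFunc k) ^ D • v ∈ U → v = 0)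
    (hMd : ∀ w, w ∈ Mdual ↔ ∀ v ∈ M, Φ w v ∈ Rg k)
    (hUd : ∀ w, w ∈ Udual ↔ ∀ u ∈ U, DegLE (Φ w u) 0)
    (hΩ : ∀ w, w ∈ Omega ↔ w ∈ Mdual ∧ ∀ u ∈ U, DegLE (Φ w u) (-2))
    (hMle : M ≤ Mdual) (hUle : U ≤ Udual) :
    Module.Finite k ↥Omega :=
  (genus_formula_full Φ hΦ b₀ M U Mdual Udual Omega hM hU1 hU2 hU3 hMd hUd hΩ hMle hUle).1

end Final


end Fermat.Agent.S20.Lattice
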