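import Mathlib

set_option autoImplicit false
set_option linter.unusedSectionVars false

open Polynomial IsDedekindDomain
open scoped nonZeroDivisors

namespace Fermat.Agent.S20

section Pair

variable (A K L B : Type) [CommRing A] [IsDedekindDomain A] [Field K] [Algebra A K]
  [IsFractionRing A K] [Field L] [Algebra K L] [FiniteDimensional K L] [Algebra.IsSeparable K L]
  [Algebra A L] [IsScalarTower A K L]
  [CommRing B] [IsDedekindDomain B] [Algebra A B] [Algebra B L] [IsFractionRing B L]
  [IsScalarTower A B L] [IsIntegralClosure B A L]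

namespace RHGen

include K in
theorem torsionFree_L : Module.IsTorsionFree A L := .trans_faithfulSMul A K L

include K L in
theorem finite_B : Module.Finite A B := IsIntegralClosure.finite A K L B

include L in
theorem isIntegral_B : Algebra.IsIntegral A B := IsIntegralClosure.isIntegral_algebra A L

include L in
/-- A generator of `P ∩ A` has nonzero image in `B`. -/
theorem algebraMap_generator_ne_zero (P : HeightOneSpectrum B) (π : A)
    (hπ : P.asIdeal.under A = Ideal.span {π}) : algebraMap A B π ≠ 0 := by
  have hint : Algebra.IsIntegral A B := isIntegral_B A L B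
  obtain ⟨b, hbP, hb0⟩ : ∃ b ∈ P.asIdeal, b ≠ 0 := by
    by_contra hcon
    push Not at hcon
    exact P.ne_bot ((Submodule.eq_bot_iff _).mpr hcon)
  have hlt : (⊥ : Ideal B).comap (algebraMap A B) < P.asIdeal.comap (algebraMap A B) :=
    Ideal.comap_lt_comap_of_integral_mem_sdiff (I := (⊥ : Ideal B)) (J := P.asIdeal) bot_le
      ⟨hbP, fun h => hb0 ((Submodule.mem_bot B).mp h)⟩ (Algebra.IsIntegral.isIntegral b)
  obtain ⟨a, haP, hab⟩ := SetLike.exists_of_lt hlt
  intro h0
  apply hab
  have haπ : a ∈ Ideal.span {π} := by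
    rw [← hπ]
    exact haP
  obtain ⟨c, rfl⟩ := Ideal.mem_span_singleton.mp haπ
  rw [Ideal.mem_comap, map_mul, h0, zero_mul]
  exact Ideal.zero_mem _

end RHGen

include L in
/-- G1: the valuation at `P` of a generator of `P ∩ A` is `exp (-e_P)`. -/
theorem valuation_algebraMap_generator (P : HeightOneSpectrum B) (π : A)
    (hπ : P.asIdeal.under A = Ideal.span {π}) :
    P.valuation L (algebraMap A L π) = WithZero.exp (-(P.asIdeal.ramificationIdx A : ℤ)) := by
  have hπB : algebraMap A B π ≠ 0 := RHGen.algebraMap_generator_ne_zero A L B P π hπ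
  have : P.asIdeal.LiesOver (Ideal.span {π}) := ⟨hπ.symm⟩
  have hmap : (Ideal.span {π} : Ideal A).map (algebraMap A B) ≠ ⊥ := by
    rw [Ideal.map_span, Set.image_singleton, Ne, Ideal.span_singleton_eq_bot]
    exact hπB
  rw [IsScalarTower.algebraMap_apply A B L, HeightOneSpectrum.valuation_of_algebraMap,
    P.intValuation_eq_exp_neg_multiplicity hπB,
    Ideal.IsDedekindDomain.ramificationIdx_eq_multiplicity (Ideal.span {π}) P.asIdeal hmap,
    Ideal.map_span, Set.image_singleton]

/-- G2: a prime of `B` lies over the maximal ideal `(π)` iff it contains `π`. -/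
theorem under_eq_span_iff (P : Ideal B) [P.IsPrime] (π : A)
    (hπ : (Ideal.span {π} : Ideal A).IsMaximal) :
    P.under A = Ideal.span {π} ↔ algebraMap A B π ∈ P := by
  constructor
  · intro h
    have : π ∈ P.under A := by
      rw [h]
      exact Ideal.subset_span rfl
    exact this
  · intro h
    have hle : Ideal.span {π} ≤ P.under A := by
      rw [Ideal.span_le, Set.singleton_subset_iff]
      exact h
    have hne : P.under A ≠ ⊤ := Ideal.comap_ne_top _ (Ideal.IsPrime.ne_top inferInstance)
    exact (hπ.eq_of_le hne hle).symm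

include L in
/-- G3: a height one prime of `B` lies over a nonzero maximal ideal of `A`. -/
theorem under_isMaximal_and_ne_bot (P : HeightOneSpectrum B) :
    (P.asIdeal.under A).IsMaximal ∧ P.asIdeal.under A ≠ ⊥ := by
  have hint : Algebra.IsIntegral A B := RHGen.isIntegral_B A L B
  have hne : P.asIdeal.under A ≠ ⊥ := fun h => P.ne_bot (Ideal.eq_bot_of_comap_eq_bot h)
  have hprime : (P.asIdeal.under A).IsPrime := Ideal.comap_isPrime _ _
  exact ⟨Ideal.IsPrime.isMaximal hprime hne, hne⟩

/-- `B` is a free `A`-lattice in `L`: there is a `K`-basis of `L` whose `A`-span is `B`. -/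
theorem exists_basis_lattice [IsPrincipalIdealRing A] :
    ∃ b : Module.Basis (Fin (Module.finrank K L)) K L,
      ∀ v : L, v ∈ Set.range (algebraMap B L) ↔ ∀ i, b.repr v i ∈ Set.range (algebraMap A K) := by
  classical
  have : Module.IsTorsionFree A L := RHGen.torsionFree_L A K L
  have : Module.Free A B := IsIntegralClosure.module_free A K L B
  have : Module.Finite A B := RHGen.finite_B A K L B
  have : IsLocalization (Algebra.algebraMapSubmonoid B A⁰) L :=
    IsIntegralClosure.isLocalization A K L B
  let bB := Module.Free.chooseBasis A B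
  let b := Module.Basis.localizationLocalization K A⁰ L bB
  have hcard : Fintype.card (Module.Free.ChooseBasisIndex A B) = Module.finrank K L :=
    (Module.finrank_eq_card_basis b).symm
  let e : Module.Free.ChooseBasisIndex A B ≃ Fin (Module.finrank K L) :=
    Fintype.equivFinOfCardEq hcard
  refine ⟨b.reindex e, fun v => ?_⟩
  constructor
  · rintro ⟨x, rfl⟩ i
    refine ⟨bB.repr x (e.symm i), ?_⟩
    rw [Module.Basis.repr_reindex_apply]
    exact (Module.Basis.localizationLocalization_repr_algebraMap K A⁰ L bB x (e.symm i)).symm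
  · intro h
    choose a ha using h
    refine ⟨∑ j, a (e j) • bB j, ?_⟩
    have hv : v = ∑ j, b.repr v j • b j := (b.sum_repr v).symm
    rw [hv, map_sum]
    refine Finset.sum_congr rfl (fun j _ => ?_)
    have h1 : b.repr v j = algebraMap A K (a (e j)) := by
      have := ha (e j)
      rw [Module.Basis.repr_reindex_apply, Equiv.symm_apply_apply] at this
      exact this.symm
    rw [h1, Module.Basis.localizationLocalization_apply, Algebra.smul_def, map_mul,
      ← IsScalarTower.algebraMap_apply A B L, Algebra.smul_def,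
      ← IsScalarTower.algebraMap_apply A K L]

/-- The trace of a product of two integral elements is integral (`B` is contained in its
trace dual). -/
theorem trace_mul_mem (x y : L) (hx : x ∈ Set.range (algebraMap B L))
    (hy : y ∈ Set.range (algebraMap B L)) :
    Algebra.trace K L (x * y) ∈ Set.range (algebraMap A K) := by
  obtain ⟨bx, rfl⟩ := hx
  obtain ⟨by', rfl⟩ := hy
  have h1 : IsIntegral A (algebraMap B L bx * algebraMap B L by') := by
    rw [← map_mul]
    exact (IsIntegralClosure.isIntegral A L (bx * by')).algebraMap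
  have h2 : IsIntegral A (Algebra.trace K L (algebraMap B L bx * algebraMap B L by')) :=
    Algebra.isIntegral_trace h1
  obtain ⟨a, ha⟩ := IsIntegrallyClosed.isIntegral_iff.mp h2
  exact ⟨a, ha⟩

include K in
/-- Every element of `L` is moved into `B` by a power of a uniformizer (for `A` a discrete
valuation ring with uniformizer `π`). -/
theorem exists_pow_smul_mem (π : A)
    (hπ : ∀ a : A, a ≠ 0 → ∃ (u : Aˣ) (d : ℕ), a = u * π ^ d) (v : L) :
    ∃ d : ℕ, ∃ b : B, algebraMap B L b = algebraMap A L π ^ d * v := by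
  have : IsLocalization (Algebra.algebraMapSubmonoid B A⁰) L :=
    IsIntegralClosure.isLocalization A K L B
  obtain ⟨⟨x, ⟨_, a, ha, rfl⟩⟩, hx⟩ := IsLocalization.surj (Algebra.algebraMapSubmonoid B A⁰) v
  simp only at hx
  have ha0 : a ≠ 0 := nonZeroDivisors.ne_zero ha
  obtain ⟨u, d, rfl⟩ := hπ a ha0
  refine ⟨d, x * algebraMap A B ((u⁻¹ : Aˣ) : A), ?_⟩
  rw [map_mul, ← hx, ← IsScalarTower.algebraMap_apply A B L, ← IsScalarTower.algebraMap_apply A B L,
    map_mul, map_pow]
  have hu : algebraMap A L (u : A) * algebraMap A L ((u⁻¹ : Aˣ) : A) = 1 := by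
    rw [← map_mul, Units.mul_inv, map_one]
  calc v * (algebraMap A L ↑u * algebraMap A L π ^ d) * algebraMap A L ((u⁻¹ : Aˣ) : A)
      = algebraMap A L π ^ d * v * (algebraMap A L ↑u * algebraMap A L ((u⁻¹ : Aˣ) : A)) := by ring
    _ = algebraMap A L π ^ d * v := by rw [hu, mul_one]

end Pair

section Poly

variable (k : Type) [Field k]

/-- G5: `(X - a)` is a nonzero maximal ideal. -/
theorem span_X_sub_C_isMaximal_and_ne_bot (a : k) :
    (Ideal.span {X - C a} : Ideal k[X]).IsMaximal ∧ (Ideal.span {X - C a} : Ideal k[X]) ≠ ⊥ := by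
  refine ⟨PrincipalIdealRing.isMaximal_of_irreducible (Polynomial.irreducible_X_sub_C a), ?_⟩
  rw [Ne, Ideal.span_singleton_eq_bot]
  exact Polynomial.X_sub_C_ne_zero a

/-- G6: distinct points give distinct ideals. -/
theorem span_X_sub_C_injective (a₁ a₂ : k)
    (h : (Ideal.span {X - C a₁} : Ideal k[X]) = Ideal.span {X - C a₂}) : a₁ = a₂ := by
  have h1 : (X - C a₁ : k[X]) ∈ Ideal.span {X - C a₂} := by
    rw [← h]
    exact Ideal.subset_span rfl
  rw [Ideal.mem_span_singleton, Polynomial.dvd_iff_isRoot] at h1
  simp only [IsRoot.def, eval_sub, eval_X, eval_C] at h1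
  exact (sub_eq_zero.mp h1).symm

/-- G4: over an algebraically closed field all residue fields of `k[X]` are `k`. -/
theorem polynomial_residue_surjective [IsAlgClosed k] (p : Ideal k[X]) (hp : p.IsMaximal) :
    Function.Surjective ((Ideal.Quotient.mk p).comp (algebraMap k k[X])) := by
  have hp0 : p ≠ ⊥ := (Ideal.bot_lt_of_maximal p (Polynomial.not_isField k)).ne'
  obtain ⟨q, rfl⟩ : ∃ q : k[X], p = Ideal.span {q} :=
    ⟨_, (Ideal.span_singleton_generator p).symm⟩
  have hq0 : q ≠ 0 := by
    rintro rfl
    exact hp0 (by simp)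
  have hqu : ¬ IsUnit q := by
    intro hu
    exact hp.ne_top (Ideal.span_singleton_eq_top.mpr hu)
  have hdeg : q.degree ≠ 0 := by
    intro hd
    exact hqu (Polynomial.isUnit_iff_degree_eq_zero.mpr hd)
  obtain ⟨a, ha⟩ := IsAlgClosed.exists_root q hdeg
  have hdvd : (X - C a) ∣ q := Polynomial.dvd_iff_isRoot.mpr ha
  have hle : Ideal.span {q} ≤ Ideal.span {X - C a} :=
    Ideal.span_singleton_le_span_singleton.mpr hdvd
  have heq : Ideal.span {q} = Ideal.span {X - C a} :=
    hp.eq_of_le (span_X_sub_C_isMaximal_and_ne_bot k a).1.ne_top hle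
  intro y
  obtain ⟨f, rfl⟩ := Ideal.Quotient.mk_surjective y
  refine ⟨f.eval a, ?_⟩
  rw [RingHom.comp_apply, Ideal.Quotient.eq, heq, Ideal.mem_span_singleton]
  have : (X - C a) ∣ f - C (f.eval a) := Polynomial.X_sub_C_dvd_sub_C_eval
  have h2 : algebraMap k k[X] (f.eval a) - f = -(f - C (f.eval a)) := by
    rw [Polynomial.algebraMap_eq]
    ring
  rw [h2]
  exact (dvd_neg).mpr this

end Poly

end Fermat.Agent.S20
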