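import Mathlib
import Fermat.Agent.S20.Ainf
import Fermat.Agent.S20.AinfDVR
import Fermat.Agent.S20.AinfAlg
import Fermat.Agent.S20.Lattice
import Fermat.Agent.S20.DifferentDim
import Fermat.Agent.S20.RHGen

/-!
# Riemann–Hurwitz for a function field given by two Dedekind lattices: auxiliary lemmas
-/

set_option autoImplicit false
set_option linter.unusedSectionVars false
set_option linter.style.haveILetI false
open Polynomial IsDedekindDomain
open scoped RatFunc
namespace Fermat.Agent.S20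
namespace RH

section plumbing

variable (k : Type) [Field k]
variable (L : Type) [Field L] [Algebra k[X] L] [FaithfulSMul k[X] L]

lemma tower_Ainf_K_L :
    @IsScalarTower (Ainf k) (RatFunc k) L Algebra.toSMul Algebra.toSMul Algebra.toSMul :=
  IsScalarTower.of_algebraMap_eq (fun _ => rfl)

lemma algebraMap_Ainf_apply (a : Ainf k) :
    algebraMap (Ainf k) L a = algebraMap (RatFunc k) L (a : RatFunc k) := rfl

variable [Algebra k L] [IsScalarTower k k[X] L]

lemma algebraMap_const (c : k) :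
    algebraMap (Ainf k) L (algebraMap k (Ainf k) c) = algebraMap k L c := by
  show algebraMap (RatFunc k) L (algebraMap k (RatFunc k) c) = algebraMap k L c
  rw [← IsScalarTower.algebraMap_apply k (RatFunc k) L]

lemma algebraMap_C (c : k) : algebraMap k[X] L (C c) = algebraMap k L c := by
  rw [IsScalarTower.algebraMap_apply k k[X] L]
  rfl

lemma tower_k_Ainf_L : IsScalarTower k (Ainf k) L :=
  IsScalarTower.of_algebraMap_eq (fun c => (algebraMap_const k L c).symm)

end plumbing

lemma injective_of_tower (R S T : Type) [CommRing R] [CommRing S] [Field T] [Algebra R S]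
    [Algebra S T] [Algebra R T] [IsScalarTower R S T] [FaithfulSMul R T] :
    Function.Injective (algebraMap R S) := by
  have h := FaithfulSMul.algebraMap_injective R T
  rw [IsScalarTower.algebraMap_eq R S T] at h
  exact Function.Injective.of_comp h

section subOf

variable {k : Type} [Field k] {L : Type} [Field L] [Algebra k L]
  {R : Type} [CommRing R] [Algebra R L]

/-- An `R`-submodule of `L` viewed as a `k`-submodule, given constants `ι : k →+* R`. -/
def subOf (ι : k →+* R) (hι : ∀ c, algebraMap R L (ι c) = algebraMap k L c)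
    (I : Submodule R L) : Submodule k L where
  carrier := I
  add_mem' := I.add_mem
  zero_mem' := I.zero_mem
  smul_mem' c x hx := by
    have h := I.smul_mem (ι c) hx
    rwa [Algebra.smul_def, hι, ← Algebra.smul_def] at h

lemma mem_subOf (ι : k →+* R) (hι : ∀ c, algebraMap R L (ι c) = algebraMap k L c)
    (I : Submodule R L) (x : L) : x ∈ subOf ι hι I ↔ x ∈ I := Iff.rfl

end subOf

section setting
variable (k : Type) [Field k] [IsAlgClosed k] [CharZero k]
variable (L : Type) [Field L] [Algebra k[X] L] [FaithfulSMul k[X] L]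
  [Algebra k L] [IsScalarTower k k[X] L]
  [FiniteDimensional (RatFunc k) L]
variable (B : Type) [CommRing B] [IsDedekindDomain B] [Algebra k[X] B] [Algebra B L]
  [IsFractionRing B L] [IsScalarTower k[X] B L] [IsIntegralClosure B k[X] L]
variable (B' : Type) [CommRing B'] [IsDedekindDomain B'] [Algebra (Ainf k) B']
  [Algebra B' L] [IsFractionRing B' L] [IsScalarTower (Ainf k) B' L]
  [IsIntegralClosure B' (Ainf k) L]

/-- constants in `B`. -/
noncomputable def constB : k →+* B := (algebraMap k[X] B).comp (C : k →+* k[X])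

lemma algebraMap_constB (c : k) : algebraMap B L (constB k B c) = algebraMap k L c := by
  unfold constB
  rw [RingHom.comp_apply, ← IsScalarTower.algebraMap_apply k[X] B L, algebraMap_C]

/-- constants in `B'`. -/
noncomputable def constB' : k →+* B' := (algebraMap (Ainf k) B').comp (algebraMap k (Ainf k))

lemma algebraMap_constB' (c : k) : algebraMap B' L (constB' k B' c) = algebraMap k L c := by
  unfold constB'
  rw [RingHom.comp_apply, ← IsScalarTower.algebraMap_apply (Ainf k) B' L, algebraMap_const]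

/-- The lattice `M` (image of `B`). -/
noncomputable def Msub : Submodule k L :=
  subOf (constB k B) (algebraMap_constB k L B) (1 : Submodule B L)

/-- The lattice `U` at infinity (image of `B'`). -/
noncomputable def Usub : Submodule k L :=
  subOf (constB' k B') (algebraMap_constB' k L B') (1 : Submodule B' L)

/-- The dual lattice of `M`. -/
noncomputable def Mdual : Submodule k L :=
  subOf (constB k B) (algebraMap_constB k L B)
    (Submodule.traceDual k[X] (RatFunc k) (1 : Submodule B L))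

/-- The dual lattice of `U`. -/
noncomputable def Udual : Submodule k L :=
  haveI := tower_Ainf_K_L k L
  subOf (constB' k B') (algebraMap_constB' k L B')
    (Submodule.traceDual (Ainf k) (RatFunc k) (1 : Submodule B' L))

lemma mem_Msub (v : L) : v ∈ Msub k L B ↔ ∃ b : B, algebraMap B L b = v := by
  unfold Msub
  rw [mem_subOf, Submodule.mem_one]

lemma mem_Usub (v : L) : v ∈ Usub k L B' ↔ ∃ b : B', algebraMap B' L b = v := by
  unfold Usub
  rw [mem_subOf, Submodule.mem_one]

lemma exists_basis :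
    ∃ (ι : Type) (_ : Fintype ι) (b₀ : Module.Basis ι (RatFunc k) L),
      ∀ v : L, v ∈ Msub k L B ↔ Lattice.InLat b₀ v := by
  haveI : Module.Finite k[X] B := IsIntegralClosure.finite k[X] (RatFunc k) L B
  haveI : Module.IsTorsionFree k[X] B :=
    Module.isTorsionFree_iff_algebraMap_injective.mpr (injective_of_tower k[X] B L)
  haveI : Module.Free k[X] B := Module.free_of_finite_type_torsion_free'
  let b := Module.Free.chooseBasis k[X] B
  haveI : IsLocalization (Algebra.algebraMapSubmonoid B (nonZeroDivisors k[X])) L :=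
    IsIntegralClosure.isLocalization k[X] (RatFunc k) L B
  let b₀ := b.localizationLocalization (RatFunc k) (nonZeroDivisors k[X]) L
  refine ⟨_, inferInstance, b₀, fun v => ?_⟩
  rw [mem_Msub]
  unfold Lattice.InLat
  have h1 := Module.Basis.mem_span_iff_repr_mem k[X] b₀ v
  have h2 := Module.Basis.localizationLocalization_span (RatFunc k) (nonZeroDivisors k[X]) L b
  rw [h2] at h1
  have h3 : (∀ i, b₀.repr v i ∈ Lattice.Rg k) ↔
      ∀ i, b₀.repr v i ∈ Set.range (algebraMap k[X] (RatFunc k)) := Iff.rfl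
  rw [h3, ← h1]
  constructor
  · rintro ⟨y, rfl⟩
    exact ⟨y, rfl⟩
  · rintro ⟨y, hy⟩
    exact ⟨y, hy⟩

lemma hU1 (f : RatFunc k) (hf : Lattice.DegLE f 0) (u : L) (hu : u ∈ Usub k L B') :
    f • u ∈ Usub k L B' := by
  rw [mem_Usub] at hu ⊢
  obtain ⟨b', rfl⟩ := hu
  have hfA : f ∈ Ainf k := by
    rcases hf with rfl | h
    · exact zero_mem _
    · exact h
  refine ⟨algebraMap (Ainf k) B' ⟨f, hfA⟩ * b', ?_⟩
  rw [map_mul, ← IsScalarTower.algebraMap_apply (Ainf k) B' L, Algebra.smul_def]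
  rfl

lemma hU2 (v : L) : ∃ d : ℕ, ((RatFunc.X : RatFunc k)⁻¹ ^ d) • v ∈ Usub k L B' := by
  haveI := tower_Ainf_K_L k L
  haveI : IsLocalization (Algebra.algebraMapSubmonoid B' (nonZeroDivisors (Ainf k))) L :=
    IsIntegralClosure.isLocalization (Ainf k) (RatFunc k) L B'
  obtain ⟨⟨b', ⟨s, hs⟩⟩, h⟩ :=
    IsLocalization.surj (Algebra.algebraMapSubmonoid B' (nonZeroDivisors (Ainf k))) v
  obtain ⟨a, ha, rfl⟩ := hs
  have ha0 : a ≠ 0 := nonZeroDivisors.ne_zero ha
  obtain ⟨u, hu⟩ := Ainf.eq_Xinv_pow_mul_unit a ha0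
  refine ⟨(-(a : RatFunc k).intDegree).toNat, ?_⟩
  rw [mem_Usub]
  refine ⟨b' * algebraMap (Ainf k) B' ((u⁻¹ : (Ainf k)ˣ) : Ainf k), ?_⟩
  simp only at h
  rw [map_mul, ← h, ← IsScalarTower.algebraMap_apply (Ainf k) B' L,
    ← IsScalarTower.algebraMap_apply (Ainf k) B' L, mul_assoc, ← map_mul, Algebra.smul_def]
  have h3 : a * ((u⁻¹ : (Ainf k)ˣ) : Ainf k) =
      (Ainf.Xinv : Ainf k) ^ (-(a : RatFunc k).intDegree).toNat := by
    conv_lhs => rw [hu]
    rw [mul_assoc, Units.mul_inv, mul_one]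
  rw [h3, mul_comm]
  rfl

lemma hU3 (hconst : ∀ f : L, IsIntegral k[X] f → IsIntegral (Ainf k) f →
      ∃ c : k, f = algebraMap k L c) :
    ∃ D : ℕ, ∀ v ∈ Msub k L B, (RatFunc.X : RatFunc k) ^ D • v ∈ Usub k L B' → v = 0 := by
  haveI := tower_Ainf_K_L k L
  refine ⟨1, fun v hv hXv => ?_⟩
  rw [mem_Msub] at hv
  rw [mem_Usub, pow_one] at hXv
  obtain ⟨b, rfl⟩ := hv
  obtain ⟨b', hb'⟩ := hXv
  have hX0 : (RatFunc.X : RatFunc k) ≠ 0 := RatFunc.X_ne_zero
  have h1 : IsIntegral k[X] (algebraMap B L b) :=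
    (IsIntegralClosure.isIntegral_iff (A := B)).mpr ⟨b, rfl⟩
  have h2 : IsIntegral (Ainf k) (algebraMap B L b) := by
    have h3 : algebraMap B L b = algebraMap B' L (algebraMap (Ainf k) B' Ainf.Xinv * b') := by
      rw [map_mul, hb', ← IsScalarTower.algebraMap_apply (Ainf k) B' L, Algebra.smul_def,
        ← mul_assoc]
      have h4 : algebraMap (Ainf k) L Ainf.Xinv * algebraMap (RatFunc k) L RatFunc.X = 1 := by
        show algebraMap (RatFunc k) L ((RatFunc.X : RatFunc k)⁻¹) * algebraMap (RatFunc k) L RatFunc.X = 1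
        rw [← map_mul, inv_mul_cancel₀ hX0, map_one]
      rw [h4, one_mul]
    rw [h3]
    exact (IsIntegralClosure.isIntegral_iff (A := B')).mpr ⟨_, rfl⟩
  obtain ⟨c, hc⟩ := hconst _ h1 h2
  by_cases hc0 : c = 0
  · rw [hc, hc0, map_zero]
  · exfalso
    have h5 : algebraMap (RatFunc k) L RatFunc.X = algebraMap B' L (constB' k B' c⁻¹ * b') := by
      rw [map_mul, algebraMap_constB', hb', hc, Algebra.smul_def, mul_comm, mul_assoc, ← map_mul,
        mul_inv_cancel₀ hc0, map_one, mul_one]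
    have h6 : IsIntegral (Ainf k) (algebraMap (RatFunc k) L (RatFunc.X : RatFunc k)) := by
      rw [h5]
      exact (IsIntegralClosure.isIntegral_iff (A := B')).mpr ⟨_, rfl⟩
    have h7 : IsIntegral (Ainf k) (RatFunc.X : RatFunc k) :=
      (isIntegral_algebraMap_iff (algebraMap (RatFunc k) L).injective).mp h6
    obtain ⟨y, hy⟩ := IsIntegrallyClosed.isIntegral_iff.mp h7
    have h8 : (RatFunc.X : RatFunc k) ∈ Ainf k := by
      rw [← hy]
      exact y.2
    rw [mem_Ainf, RatFunc.intDegree_X] at h8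
    omega

lemma mem_range_Ainf_iff (x : RatFunc k) :
    x ∈ (algebraMap (Ainf k) (RatFunc k)).range ↔ Lattice.DegLE x 0 := by
  constructor
  · rintro ⟨y, rfl⟩
    exact Or.inr y.2
  · intro h
    have hx : x ∈ Ainf k := by
      rcases h with rfl | h
      · exact zero_mem _
      · exact h
    exact ⟨⟨x, hx⟩, rfl⟩

lemma hMd (w : L) : w ∈ Mdual k L B ↔
    ∀ v ∈ Msub k L B, Algebra.traceForm (RatFunc k) L w v ∈ Lattice.Rg k := by
  unfold Mdual Msub
  rw [mem_subOf, Submodule.mem_traceDual]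
  rfl

lemma hUd (w : L) : w ∈ Udual k L B' ↔
    ∀ u ∈ Usub k L B', Lattice.DegLE (Algebra.traceForm (RatFunc k) L w u) 0 := by
  haveI := tower_Ainf_K_L k L
  unfold Udual Usub
  rw [mem_subOf, Submodule.mem_traceDual]
  refine forall₂_congr fun u _ => ?_
  exact mem_range_Ainf_iff k _

lemma hMle : Msub k L B ≤ Mdual k L B := by
  intro v hv
  exact Submodule.one_le_traceDual_one (A := k[X]) (K := RatFunc k) (L := L) (B := B) hv

lemma hUle : Usub k L B' ≤ Udual k L B' := by
  haveI := tower_Ainf_K_L k L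
  intro v hv
  exact Submodule.one_le_traceDual_one (A := Ainf k) (K := RatFunc k) (L := L) (B := B') hv

lemma nondeg : (Algebra.traceForm (RatFunc k) L).Nondegenerate :=
  traceForm_nondegenerate (RatFunc k) L

lemma mem_Mdual_iff (w : L) : w ∈ Mdual k L B ↔ ∀ 𝔮 : HeightOneSpectrum B,
    𝔮.valuation L w ≤ WithZero.exp (((𝔮.asIdeal.ramificationIdx k[X] : ℕ) : ℤ) - 1) :=
  mem_traceDual_iff_valuation k k[X] (RatFunc k) L B w

lemma mem_Udual_iff (w : L) : w ∈ Udual k L B' ↔ ∀ 𝔫 : HeightOneSpectrum B',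
    𝔫.valuation L w ≤ WithZero.exp (((𝔫.asIdeal.ramificationIdx (Ainf k) : ℕ) : ℤ) - 1) := by
  haveI := tower_Ainf_K_L k L
  haveI := tower_k_Ainf_L k L
  exact mem_traceDual_iff_valuation k (Ainf k) (RatFunc k) L B' w

include L in
lemma isIntegral_B' : Algebra.IsIntegral (Ainf k) B' := by
  haveI := tower_Ainf_K_L k L
  exact IsIntegralClosure.isIntegral_algebra (Ainf k) L

include L in
lemma isIntegral_B : Algebra.IsIntegral k[X] B :=
  IsIntegralClosure.isIntegral_algebra k[X] L

include L in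
lemma under_isMaximal (𝔮 : HeightOneSpectrum B) : (𝔮.asIdeal.under k[X]).IsMaximal := by
  haveI := isIntegral_B k L B
  haveI : 𝔮.asIdeal.IsMaximal := 𝔮.isMaximal
  exact Ideal.IsMaximal.under k[X] 𝔮.asIdeal

include L in
lemma under_isMaximal' (𝔫 : HeightOneSpectrum B') : (𝔫.asIdeal.under (Ainf k)).IsMaximal := by
  haveI := isIntegral_B' k L B'
  haveI : 𝔫.asIdeal.IsMaximal := 𝔫.isMaximal
  exact Ideal.IsMaximal.under (Ainf k) 𝔫.asIdeal

include L in
lemma under_eq_maximalIdeal (𝔫 : HeightOneSpectrum B') :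
    𝔫.asIdeal.under (Ainf k) = IsLocalRing.maximalIdeal (Ainf k) :=
  IsLocalRing.eq_maximalIdeal (under_isMaximal' k L B' 𝔫)

lemma valuation_X (𝔫 : HeightOneSpectrum B') :
    𝔫.valuation L (algebraMap (RatFunc k) L RatFunc.X) =
      WithZero.exp ((𝔫.asIdeal.ramificationIdx (Ainf k) : ℕ) : ℤ) := by
  haveI := tower_Ainf_K_L k L
  have hu : 𝔫.asIdeal.under (Ainf k) = Ideal.span {(Ainf.Xinv : Ainf k)} := by
    rw [under_eq_maximalIdeal k L B' 𝔫, Ainf.maximalIdeal_eq]
  have h := valuation_algebraMap_generator (A := Ainf k) (L := L) (B := B') 𝔫 Ainf.Xinv hu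
  have h2 : algebraMap (Ainf k) L Ainf.Xinv = (algebraMap (RatFunc k) L RatFunc.X)⁻¹ := by
    show algebraMap (RatFunc k) L ((RatFunc.X : RatFunc k)⁻¹) = _
    rw [map_inv₀]
  rw [h2, map_inv₀] at h
  rw [← inv_inv (𝔫.valuation L _), h, ← WithZero.exp_neg, neg_neg]

lemma degLE_neg_two_iff (f : RatFunc k) :
    Lattice.DegLE f (-2) ↔ Lattice.DegLE ((RatFunc.X : RatFunc k) ^ 2 * f) 0 := by
  have hX : ((RatFunc.X : RatFunc k) ^ 2) ≠ 0 := pow_ne_zero _ RatFunc.X_ne_zero
  by_cases hf : f = 0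
  · subst hf
    simp [Lattice.DegLE]
  · unfold Lattice.DegLE
    have h1 : ((RatFunc.X : RatFunc k) ^ 2 * f).intDegree = 2 + f.intDegree := by
      rw [RatFunc.intDegree_mul hX hf, AinfDVR.intDegree_X_pow]
      norm_num
    rw [h1]
    simp only [hf, mul_eq_zero, hX, or_self, false_or]
    constructor <;> intro h <;> omega

lemma hOmega2 (w : L) :
    (∀ u ∈ Usub k L B', Lattice.DegLE (Algebra.traceForm (RatFunc k) L w u) (-2)) ↔
      ∀ 𝔫 : HeightOneSpectrum B', 𝔫.valuation L w ≤
        WithZero.exp (-((((𝔫.asIdeal.ramificationIdx (Ainf k) : ℕ) : ℤ)) + 1)) := by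
  have h1 : (∀ u ∈ Usub k L B', Lattice.DegLE (Algebra.traceForm (RatFunc k) L w u) (-2)) ↔
      ((RatFunc.X : RatFunc k) ^ 2) • w ∈ Udual k L B' := by
    rw [hUd]
    refine forall₂_congr fun u _ => ?_
    rw [degLE_neg_two_iff, map_smul, LinearMap.smul_apply, smul_eq_mul]
  rw [h1, mem_Udual_iff]
  refine forall_congr' fun 𝔫 => ?_
  rw [Algebra.smul_def, map_mul, map_pow, map_pow, valuation_X k L B' 𝔫]
  set e : ℤ := ((𝔫.asIdeal.ramificationIdx (Ainf k) : ℕ) : ℤ) with he
  have h2 : WithZero.exp (e - 1) = WithZero.exp e ^ 2 * WithZero.exp (-(e + 1)) := by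
    rw [← WithZero.exp_nsmul, ← WithZero.exp_add]
    congr 1
    simp only [nsmul_eq_mul, Nat.cast_ofNat]
    ring
  rw [h2]
  have h3 : (0 : WithZero (Multiplicative ℤ)) < WithZero.exp e ^ 2 :=
    pow_pos (zero_lt_iff.mpr WithZero.exp_ne_zero) 2
  exact mul_le_mul_iff_right₀ h3

lemma finrank_inf (hconst : ∀ f : L, IsIntegral k[X] f → IsIntegral (Ainf k) f →
      ∃ c : k, f = algebraMap k L c) :
    Module.finrank k ↥(Msub k L B ⊓ Usub k L B') = 1 := by
  have h : Msub k L B ⊓ Usub k L B' = Submodule.span k {(1 : L)} := by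
    apply le_antisymm
    · intro w hw
      obtain ⟨hM, hU⟩ := Submodule.mem_inf.mp hw
      rw [mem_Msub] at hM
      rw [mem_Usub] at hU
      obtain ⟨b, rfl⟩ := hM
      obtain ⟨b', hb'⟩ := hU
      have h1 : IsIntegral k[X] (algebraMap B L b) :=
        (IsIntegralClosure.isIntegral_iff (A := B)).mpr ⟨b, rfl⟩
      have h2 : IsIntegral (Ainf k) (algebraMap B L b) :=
        (IsIntegralClosure.isIntegral_iff (A := B')).mpr ⟨b', hb'⟩
      obtain ⟨c, hc⟩ := hconst _ h1 h2
      rw [hc, Algebra.algebraMap_eq_smul_one]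
      exact Submodule.smul_mem _ _ (Submodule.subset_span rfl)
    · rw [Submodule.span_le, Set.singleton_subset_iff]
      exact Submodule.mem_inf.mpr
        ⟨(mem_Msub k L B 1).mpr ⟨1, map_one _⟩, (mem_Usub k L B' 1).mpr ⟨1, map_one _⟩⟩
  rw [h]
  exact finrank_span_singleton one_ne_zero

lemma card_over (a : k) :
    Nat.card {𝔮 : HeightOneSpectrum B // 𝔮.asIdeal.under k[X] = Ideal.span {X - C a}} =
      Nat.card {𝔮 : HeightOneSpectrum B // algebraMap k[X] B (X - C a) ∈ 𝔮.asIdeal} := by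
  refine Nat.card_congr (Equiv.subtypeEquivRight fun 𝔮 => ?_)
  haveI := 𝔮.isPrime
  exact under_eq_span_iff (A := k[X]) (B := B) 𝔮.asIdeal (X - C a)
    (span_X_sub_C_isMaximal_and_ne_bot k a).1

lemma finrank_Mdual_quot (a₁ a₂ : k) (ha : a₁ ≠ a₂)
    (hunr : ∀ 𝔮 : HeightOneSpectrum B,
      algebraMap k[X] B (X - C a₁) ∉ 𝔮.asIdeal → algebraMap k[X] B (X - C a₂) ∉ 𝔮.asIdeal →
        𝔮.asIdeal.ramificationIdx k[X] = 1) :
    (Module.finrank k (↥(Mdual k L B) ⧸ (Msub k L B).submoduleOf (Mdual k L B)) : ℤ) =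
      ((Module.finrank (RatFunc k) L : ℤ) -
        Nat.card {𝔮 : HeightOneSpectrum B // algebraMap k[X] B (X - C a₁) ∈ 𝔮.asIdeal}) +
      ((Module.finrank (RatFunc k) L : ℤ) -
        Nat.card {𝔮 : HeightOneSpectrum B // algebraMap k[X] B (X - C a₂) ∈ 𝔮.asIdeal}) := by
  classical
  have hne : (Ideal.span {X - C a₁} : Ideal k[X]) ≠ Ideal.span {X - C a₂} :=
    fun h => ha (span_X_sub_C_injective k a₁ a₂ h)
  have h := finrank_traceDual_quot k k[X] (RatFunc k) L B (polynomial_residue_surjective k)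
    (Msub k L B) (Mdual k L B) (fun v => Iff.rfl) (fun w => Iff.rfl)
    {Ideal.span {X - C a₁}, Ideal.span {X - C a₂}} ?_ ?_
  · rw [h, Finset.sum_pair hne, card_over k B a₁, card_over k B a₂]
  · intro p hp
    rw [Finset.mem_insert, Finset.mem_singleton] at hp
    rcases hp with rfl | rfl
    · exact span_X_sub_C_isMaximal_and_ne_bot k a₁
    · exact span_X_sub_C_isMaximal_and_ne_bot k a₂
  · intro 𝔮 h𝔮
    rw [Finset.mem_insert, Finset.mem_singleton, not_or] at h𝔮
    haveI := 𝔮.isPrime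
    refine hunr 𝔮 (fun h1 => h𝔮.1 ?_) (fun h2 => h𝔮.2 ?_)
    · exact (under_eq_span_iff (A := k[X]) (B := B) 𝔮.asIdeal (X - C a₁)
        (span_X_sub_C_isMaximal_and_ne_bot k a₁).1).mpr h1
    · exact (under_eq_span_iff (A := k[X]) (B := B) 𝔮.asIdeal (X - C a₂)
        (span_X_sub_C_isMaximal_and_ne_bot k a₂).1).mpr h2

lemma finrank_Udual_quot :
    (Module.finrank k (↥(Udual k L B') ⧸ (Usub k L B').submoduleOf (Udual k L B')) : ℤ) =
      (Module.finrank (RatFunc k) L : ℤ) - Nat.card (HeightOneSpectrum B') := by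
  classical
  haveI := tower_Ainf_K_L k L
  haveI := tower_k_Ainf_L k L
  have h := finrank_traceDual_quot k (Ainf k) (RatFunc k) L B' ?_
    (Usub k L B') (Udual k L B') (fun v => Iff.rfl) (fun w => Iff.rfl)
    {IsLocalRing.maximalIdeal (Ainf k)} ?_ ?_
  · rw [h, Finset.sum_singleton]
    congr 2
    exact Nat.card_congr (Equiv.subtypeUnivEquiv (fun 𝔫 => under_eq_maximalIdeal k L B' 𝔫))
  · intro p hp
    rw [Ainf_isMaximal_iff] at hp
    subst hp
    exact (Ainf_residue_bijective k).2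
  · intro p hp
    rw [Finset.mem_singleton] at hp
    subst hp
    exact ⟨IsLocalRing.maximalIdeal.isMaximal _, Ainf.maximalIdeal_ne_bot⟩
  · intro 𝔫 h𝔫
    exact absurd (Finset.mem_singleton.mpr (under_eq_maximalIdeal k L B' 𝔫)) h𝔫

lemma valuation_const_le (𝔮 : HeightOneSpectrum B) (c : k) :
    𝔮.valuation L (algebraMap k L c) ≤ 1 := by
  rw [← algebraMap_constB k L B c]
  exact 𝔮.valuation_le_one _

lemma valuation_const_le' (𝔫 : HeightOneSpectrum B') (c : k) :
    𝔫.valuation L (algebraMap k L c) ≤ 1 := by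
  rw [← algebraMap_constB' k L B' c]
  exact 𝔫.valuation_le_one _

end setting

end RH
end Fermat.Agent.S20
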