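import Mathlib
import Fermat.Agent.S20.Ainf
import Fermat.Agent.S20.RHAux

/-!
# Riemann–Hurwitz for a function field given by two Dedekind lattices

`L / k(X)` finite, `B` the integral closure of `k[X]`, `B'` the integral closure of the
valuation ring at infinity. The space `holoDiff` of "holomorphic differentials `w dX`"
is finite dimensional, and twice its dimension is given by the Riemann–Hurwitz formula
when `L / k(X)` is unramified outside `a₁, a₂, ∞`.
-/

set_option autoImplicit false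
set_option linter.unusedSectionVars false
open Polynomial IsDedekindDomain
open scoped RatFunc
namespace Fermat.Agent.S20
section RH
variable (k : Type) [Field k] [IsAlgClosed k] [CharZero k]
variable (L : Type) [Field L] [Algebra k[X] L] [FaithfulSMul k[X] L]
  [Algebra k L] [IsScalarTower k k[X] L]
  [FiniteDimensional (RatFunc k) L]
variable (B : Type) [CommRing B] [IsDedekindDomain B] [Algebra k[X] B] [Algebra B L]
  [IsFractionRing B L] [IsScalarTower k[X] B L] [IsIntegralClosure B k[X] L]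
variable (B' : Type) [CommRing B'] [IsDedekindDomain B'] [Algebra (Ainf k) B']
  [Algebra B' L] [IsFractionRing B' L] [IsScalarTower (Ainf k) B' L]
  [IsIntegralClosure B' (Ainf k) L]

/-- "holomorphic differentials" `w dX`: `ord_𝔮 w ≥ -(e_𝔮 - 1)` at finite places,
`ord_𝔫 w ≥ e_𝔫 + 1` at infinite places. -/
def holoDiff : Submodule k L where
  carrier := {w | (∀ 𝔮 : HeightOneSpectrum B,
        𝔮.valuation L w ≤ WithZero.exp (((𝔮.asIdeal.ramificationIdx k[X] : ℕ) : ℤ) - 1)) ∧
      (∀ 𝔫 : HeightOneSpectrum B',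
        𝔫.valuation L w ≤ WithZero.exp (-(((𝔫.asIdeal.ramificationIdx (Ainf k) : ℕ) : ℤ) + 1)))}
  add_mem' := by
    intro x y hx hy
    exact ⟨fun 𝔮 => (Valuation.map_add _ x y).trans (max_le (hx.1 𝔮) (hy.1 𝔮)),
      fun 𝔫 => (Valuation.map_add _ x y).trans (max_le (hx.2 𝔫) (hy.2 𝔫))⟩
  zero_mem' := by
    refine ⟨fun 𝔮 => ?_, fun 𝔫 => ?_⟩
    · rw [map_zero]; exact zero_le
    · rw [map_zero]; exact zero_le
  smul_mem' := by
    intro c x hx
    refine ⟨fun 𝔮 => ?_, fun 𝔫 => ?_⟩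
    · rw [Algebra.smul_def, map_mul]
      exact (mul_le_mul' (RH.valuation_const_le k L B 𝔮 c) (hx.1 𝔮)).trans (one_mul _).le
    · rw [Algebra.smul_def, map_mul]
      exact (mul_le_mul' (RH.valuation_const_le' k L B' 𝔫 c) (hx.2 𝔫)).trans (one_mul _).le

theorem mem_holoDiff (w : L) : w ∈ holoDiff k L B B' ↔
    (∀ 𝔮 : HeightOneSpectrum B,
        𝔮.valuation L w ≤ WithZero.exp (((𝔮.asIdeal.ramificationIdx k[X] : ℕ) : ℤ) - 1)) ∧
      (∀ 𝔫 : HeightOneSpectrum B',
        𝔫.valuation L w ≤ WithZero.exp (-(((𝔫.asIdeal.ramificationIdx (Ainf k) : ℕ) : ℤ) + 1))) :=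
  Iff.rfl

theorem finrank_holoDiff (a₁ a₂ : k) (ha : a₁ ≠ a₂)
    (hconst : ∀ f : L, IsIntegral k[X] f → IsIntegral (Ainf k) f → ∃ c : k, f = algebraMap k L c)
    (hunr : ∀ 𝔮 : HeightOneSpectrum B,
      algebraMap k[X] B (X - C a₁) ∉ 𝔮.asIdeal → algebraMap k[X] B (X - C a₂) ∉ 𝔮.asIdeal →
        𝔮.asIdeal.ramificationIdx k[X] = 1) :
    Module.Finite k (holoDiff k L B B') ∧
    (2 * Module.finrank k (holoDiff k L B B') : ℤ) =
      2 + Module.finrank (RatFunc k) L
        - Nat.card {𝔮 : HeightOneSpectrum B // algebraMap k[X] B (X - C a₁) ∈ 𝔮.asIdeal}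
        - Nat.card {𝔮 : HeightOneSpectrum B // algebraMap k[X] B (X - C a₂) ∈ 𝔮.asIdeal}
        - Nat.card (HeightOneSpectrum B') := by
  classical
  obtain ⟨ι, hι, b₀, hb₀⟩ := RH.exists_basis k L B
  have hΩ : ∀ w, w ∈ holoDiff k L B B' ↔ w ∈ RH.Mdual k L B ∧
      ∀ u ∈ RH.Usub k L B', Lattice.DegLE (Algebra.traceForm (RatFunc k) L w u) (-2) := by
    intro w
    rw [mem_holoDiff, RH.mem_Mdual_iff, RH.hOmega2]
  have key := Lattice.genus_formula_full (Algebra.traceForm (RatFunc k) L) (RH.nondeg k L) b₀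
    (RH.Msub k L B) (RH.Usub k L B') (RH.Mdual k L B) (RH.Udual k L B') (holoDiff k L B B')
    hb₀ (RH.hU1 k L B') (RH.hU2 k L B') (RH.hU3 k L B B' hconst) (RH.hMd k L B)
    (RH.hUd k L B') hΩ (RH.hMle k L B) (RH.hUle k L B')
  obtain ⟨hfin, -, -, -, hform⟩ := key
  refine ⟨hfin, ?_⟩
  have h1 := RH.finrank_inf k L B B' hconst
  have h2 := RH.finrank_Mdual_quot k L B a₁ a₂ ha hunr
  have h3 := RH.finrank_Udual_quot k L B'
  have h4 : Fintype.card ι = Module.finrank (RatFunc k) L :=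
    (Module.finrank_eq_card_basis b₀).symm
  rw [h1, h4] at hform
  have hform' : (2 * Module.finrank k (holoDiff k L B B') : ℤ) +
      2 * Module.finrank (RatFunc k) L =
      2 * 1 + (Module.finrank k (↥(RH.Mdual k L B) ⧸
        (RH.Msub k L B).submoduleOf (RH.Mdual k L B)) : ℤ) +
      (Module.finrank k (↥(RH.Udual k L B') ⧸
        (RH.Usub k L B').submoduleOf (RH.Udual k L B')) : ℤ) := by
    exact_mod_cast hform
  rw [h2, h3] at hform'
  linarith
end RH
end Fermat.Agent.S20
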