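import Mathlib
import Fermat.Prelude.Def_ModularCurve_GenusNumerics

set_option autoImplicit false

open scoped MatrixGroups
open CongruenceSubgroup

namespace Fermat.Agent.S20.Comb

/-- The cross product of the first columns of two elements of `SL(2, ℤ)`. -/
def cross (g h : SL(2, ℤ)) : ℤ := g 0 0 * h 1 0 - g 1 0 * h 0 0

lemma inv_mul_mem_Gamma0_iff {N : ℕ} (g h : SL(2, ℤ)) :
    g⁻¹ * h ∈ Gamma0 N ↔ (N : ℤ) ∣ cross g h := by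
  rw [Gamma0_mem, ZMod.intCast_zmod_eq_zero_iff_dvd]
  have h1 : (g⁻¹ * h) 1 0 = cross g h := by
    rw [Matrix.SpecialLinearGroup.coe_mul, Matrix.SpecialLinearGroup.coe_inv, Matrix.adjugate_fin_two,
      Matrix.mul_apply, Fin.sum_univ_two]
    simp [cross]
    ring
  rw [h1]

lemma mk_eq_mk_iff {N : ℕ} (g h : SL(2, ℤ)) :
    (g : SL(2, ℤ) ⧸ Gamma0 N) = h ↔ (N : ℤ) ∣ cross g h := by
  rw [QuotientGroup.eq, inv_mul_mem_Gamma0_iff]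

lemma isCoprime_col (g : SL(2, ℤ)) : IsCoprime (g 0 0) (g 1 0) := by
  have h := g.det_coe
  rw [Matrix.det_fin_two] at h
  exact ⟨g 1 1, -(g 0 1), by linarith⟩

lemma smul_mk {N : ℕ} (s g : SL(2, ℤ)) :
    s • (g : SL(2, ℤ) ⧸ Gamma0 N) = ((s * g : SL(2, ℤ)) : SL(2, ℤ) ⧸ Gamma0 N) := rfl

lemma S_mul_00 (g : SL(2, ℤ)) : (ModularGroup.S * g) 0 0 = -(g 1 0) := by
  rw [Matrix.SpecialLinearGroup.coe_mul, Matrix.mul_apply, Fin.sum_univ_two]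
  simp [ModularGroup.S]

lemma S_mul_10 (g : SL(2, ℤ)) : (ModularGroup.S * g) 1 0 = g 0 0 := by
  rw [Matrix.SpecialLinearGroup.coe_mul, Matrix.mul_apply, Fin.sum_univ_two]
  simp [ModularGroup.S]

lemma ST_mul_00 (g : SL(2, ℤ)) : (ModularGroup.S * ModularGroup.T * g) 0 0 = -(g 1 0) := by
  rw [Matrix.SpecialLinearGroup.coe_mul, Matrix.SpecialLinearGroup.coe_mul, Matrix.mul_apply, Fin.sum_univ_two,
    Matrix.mul_apply, Matrix.mul_apply, Fin.sum_univ_two, Fin.sum_univ_two]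
  simp [ModularGroup.S, ModularGroup.T]

lemma ST_mul_10 (g : SL(2, ℤ)) :
    (ModularGroup.S * ModularGroup.T * g) 1 0 = g 0 0 + g 1 0 := by
  rw [Matrix.SpecialLinearGroup.coe_mul, Matrix.SpecialLinearGroup.coe_mul, Matrix.mul_apply, Fin.sum_univ_two,
    Matrix.mul_apply, Matrix.mul_apply, Fin.sum_univ_two, Fin.sum_univ_two]
  simp [ModularGroup.S, ModularGroup.T]

lemma Tzpow_mul_00 (n : ℤ) (g : SL(2, ℤ)) :
    (ModularGroup.T ^ n * g) 0 0 = g 0 0 + n * g 1 0 := by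
  rw [Matrix.SpecialLinearGroup.coe_mul, ModularGroup.coe_T_zpow, Matrix.mul_apply, Fin.sum_univ_two]
  simp

lemma Tzpow_mul_10 (n : ℤ) (g : SL(2, ℤ)) :
    (ModularGroup.T ^ n * g) 1 0 = g 1 0 := by
  rw [Matrix.SpecialLinearGroup.coe_mul, ModularGroup.coe_T_zpow, Matrix.mul_apply, Fin.sum_univ_two]
  simp

lemma S_smul_mk_eq_iff {N : ℕ} (g : SL(2, ℤ)) :
    ModularGroup.S • (g : SL(2, ℤ) ⧸ Gamma0 N) = g ↔ (N : ℤ) ∣ g 0 0 ^ 2 + g 1 0 ^ 2 := by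
  rw [smul_mk, mk_eq_mk_iff, cross, S_mul_00, S_mul_10]
  have : -(g 1 0) * g 1 0 - g 0 0 * g 0 0 = -(g 0 0 ^ 2 + g 1 0 ^ 2) := by ring
  rw [this, dvd_neg]

lemma ST_smul_mk_eq_iff {N : ℕ} (g : SL(2, ℤ)) :
    (ModularGroup.S * ModularGroup.T) • (g : SL(2, ℤ) ⧸ Gamma0 N) = g ↔
      (N : ℤ) ∣ g 0 0 ^ 2 + g 0 0 * g 1 0 + g 1 0 ^ 2 := by
  rw [smul_mk, mk_eq_mk_iff, cross, ST_mul_00, ST_mul_10]
  have : -(g 1 0) * g 1 0 - (g 0 0 + g 1 0) * g 0 0 =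
      -(g 0 0 ^ 2 + g 0 0 * g 1 0 + g 1 0 ^ 2) := by ring
  rw [this, dvd_neg]

end Fermat.Agent.S20.Comb
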