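import Mathlib
import Fermat.Prelude.Def_ModularCurve_GenusNumerics
import Fermat.Agent.S20.CombBasic

set_option autoImplicit false
set_option linter.unusedSectionVars false

open scoped MatrixGroups
open CongruenceSubgroup

namespace Fermat.Agent.S20.Comb

/-- `rr m a γ` is the residue of `a / γ` modulo `m`. -/
noncomputable def rr (m : ℕ) (a γ : ℤ) : ℕ := (((a : ℤ) : ZMod m) * ((γ : ℤ) : ZMod m)⁻¹).val

lemma rr_eq_iff {m : ℕ} [NeZero m] {a γ a' γ' : ℤ} (hγ : IsCoprime γ (m : ℤ))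
    (hγ' : IsCoprime γ' (m : ℤ)) :
    rr m a γ = rr m a' γ' ↔ (m : ℤ) ∣ a * γ' - a' * γ := by
  unfold rr
  rw [(ZMod.val_injective m).eq_iff]
  have hu : IsUnit ((γ : ℤ) : ZMod m) := (ZMod.coe_int_isUnit_iff_isCoprime γ m).mpr hγ.symm
  have hu' : IsUnit ((γ' : ℤ) : ZMod m) := (ZMod.coe_int_isUnit_iff_isCoprime γ' m).mpr hγ'.symm
  rw [← ZMod.intCast_zmod_eq_zero_iff_dvd]
  push_cast
  have h1 := ZMod.mul_inv_of_unit _ hu
  have h2 := ZMod.mul_inv_of_unit _ hu'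
  constructor
  · intro h3
    linear_combination ((γ : ℤ) : ZMod m) * ((γ' : ℤ) : ZMod m) * h3
      - ((a : ℤ) : ZMod m) * ((γ' : ℤ) : ZMod m) * h1
      + ((a' : ℤ) : ZMod m) * ((γ : ℤ) : ZMod m) * h2
  · intro h3
    linear_combination ((γ : ℤ) : ZMod m)⁻¹ * ((γ' : ℤ) : ZMod m)⁻¹ * h3
      - ((a : ℤ) : ZMod m) * ((γ : ℤ) : ZMod m)⁻¹ * h2
      + ((a' : ℤ) : ZMod m) * ((γ' : ℤ) : ZMod m)⁻¹ * h1

lemma rr_lt {m : ℕ} [NeZero m] (a γ : ℤ) : rr m a γ < m := ZMod.val_lt _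

lemma rr_coprime {m : ℕ} [NeZero m] {a γ : ℤ} (ha : IsCoprime a (m : ℤ))
    (hγ : IsCoprime γ (m : ℤ)) : Nat.Coprime m (rr m a γ) := by
  have hu : IsUnit ((γ : ℤ) : ZMod m) := (ZMod.coe_int_isUnit_iff_isCoprime γ m).mpr hγ.symm
  have hua : IsUnit ((a : ℤ) : ZMod m) := (ZMod.coe_int_isUnit_iff_isCoprime a m).mpr ha.symm
  have h1 := ZMod.mul_inv_of_unit _ hu
  have hui : IsUnit (((γ : ℤ) : ZMod m)⁻¹) := IsUnit.of_mul_eq_one _ (by rw [mul_comm]; exact h1)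
  have hprod : IsUnit (((a : ℤ) : ZMod m) * ((γ : ℤ) : ZMod m)⁻¹) := hua.mul hui
  have h2 := ZMod.val_coe_unit_coprime hprod.unit
  rw [IsUnit.unit_spec] at h2
  exact h2.symm

lemma rr_one {m : ℕ} [NeZero m] (a : ℤ) (r : ℕ) (hr : r < m) (h : (m : ℤ) ∣ a - r) :
    rr m a 1 = r := by
  unfold rr
  have h1 : ((a : ℤ) : ZMod m) = ((r : ℕ) : ZMod m) := by
    have h2 : (((r : ℕ) : ℤ) : ZMod m) = ((a : ℤ) : ZMod m) :=
      (ZMod.intCast_eq_intCast_iff_dvd_sub _ _ _).mpr h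
    rw [← h2]
    simp
  rw [h1]
  have h3 : ((1 : ℤ) : ZMod m)⁻¹ = 1 := by simp
  rw [h3, mul_one]
  exact ZMod.val_natCast_of_lt hr

/-- The gcd of the lower left entry with `N`. -/
def dOf (N : ℕ) (g : SL(2, ℤ)) : ℕ := Int.gcd (g 1 0) N

/-- `gcd (d, N / d)`. -/
def gg (N d : ℕ) : ℕ := Nat.gcd d (N / d)

/-- The complete invariant of the `T`-orbit of a coset. -/
noncomputable def J (N : ℕ) (g : SL(2, ℤ)) : ℕ × ℕ :=
  (dOf N g, rr (gg N (dOf N g)) (g 0 0) (g 1 0 / (dOf N g : ℤ)))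

section facts

variable {N : ℕ} [NeZero N]

lemma dOf_dvd (g : SL(2, ℤ)) : dOf N g ∣ N :=
  Int.natCast_dvd_natCast.mp (Int.gcd_dvd_right (g 1 0) N)

lemma dOf_pos (g : SL(2, ℤ)) : 0 < dOf N g :=
  Int.gcd_pos_of_ne_zero_right _ (by exact_mod_cast NeZero.ne N)

lemma dOf_dvd_c (g : SL(2, ℤ)) : (dOf N g : ℤ) ∣ g 1 0 := Int.gcd_dvd_left (g 1 0) N

lemma gg_pos {d : ℕ} (hd : 0 < d) : 0 < gg N d := Nat.gcd_pos_of_pos_left _ hd

lemma gg_dvd_left (d : ℕ) : gg N d ∣ d := Nat.gcd_dvd_left _ _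

lemma gg_dvd_right (d : ℕ) : gg N d ∣ N / d := Nat.gcd_dvd_right _ _

instance neZero_gg (g : SL(2, ℤ)) : NeZero (gg N (dOf N g)) := ⟨(gg_pos (dOf_pos g)).ne'⟩

lemma isCoprime_quot (g : SL(2, ℤ)) :
    IsCoprime (g 1 0 / (dOf N g : ℤ)) ((N / dOf N g : ℕ) : ℤ) := by
  rw [Int.isCoprime_iff_gcd_eq_one, Int.natCast_div]
  exact Int.gcd_div_gcd_div_gcd (dOf_pos g)

lemma isCoprime_quot_gg (g : SL(2, ℤ)) :
    IsCoprime (g 1 0 / (dOf N g : ℤ)) ((gg N (dOf N g) : ℕ) : ℤ) :=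
  (isCoprime_quot g).of_isCoprime_of_dvd_right (Int.natCast_dvd_natCast.mpr (gg_dvd_right _))

lemma isCoprime_a_gg (g : SL(2, ℤ)) : IsCoprime (g 0 0) ((gg N (dOf N g) : ℕ) : ℤ) :=
  (isCoprime_col g).of_isCoprime_of_dvd_right
    ((Int.natCast_dvd_natCast.mpr (gg_dvd_left _)).trans (dOf_dvd_c g))

lemma dOf_dvd_dOf_of_cross {g g' : SL(2, ℤ)} (h : (N : ℤ) ∣ cross g g') :
    dOf N g' ∣ dOf N g := by
  apply Int.natCast_dvd_natCast.mp
  have h1 : (dOf N g' : ℤ) ∣ g' 1 0 := dOf_dvd_c g'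
  have h2 : (dOf N g' : ℤ) ∣ (N : ℤ) := Int.natCast_dvd_natCast.mpr (dOf_dvd g')
  have h3 : (dOf N g' : ℤ) ∣ g 1 0 * g' 0 0 := by
    have h4 : (dOf N g' : ℤ) ∣ g 0 0 * g' 1 0 - cross g g' :=
      dvd_sub (Dvd.dvd.mul_left h1 _) (h2.trans h)
    have h5 : g 0 0 * g' 1 0 - cross g g' = g 1 0 * g' 0 0 := by unfold cross; ring
    rwa [h5] at h4
  have h6 : IsCoprime (dOf N g' : ℤ) (g' 0 0) :=
    (isCoprime_col g').symm.of_isCoprime_of_dvd_left h1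
  exact Int.dvd_coe_gcd (h6.dvd_of_dvd_mul_right h3) h2

lemma cross_symm (g g' : SL(2, ℤ)) : cross g' g = -cross g g' := by unfold cross; ring

lemma dOf_eq_of_cross {g g' : SL(2, ℤ)} (h : (N : ℤ) ∣ cross g g') : dOf N g = dOf N g' :=
  Nat.dvd_antisymm (dOf_dvd_dOf_of_cross (by rw [cross_symm]; exact (dvd_neg.mpr h)))
    (dOf_dvd_dOf_of_cross h)

/-- Elements in the same coset have the same invariant. -/
lemma J_eq_of_cross {g g' : SL(2, ℤ)} (h : (N : ℤ) ∣ cross g g') : J N g = J N g' := by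
  have hd : dOf N g = dOf N g' := dOf_eq_of_cross h
  unfold J
  rw [← hd]
  refine Prod.ext rfl ?_
  show rr (gg N (dOf N g)) (g 0 0) (g 1 0 / (dOf N g : ℤ)) =
    rr (gg N (dOf N g)) (g' 0 0) (g' 1 0 / (dOf N g : ℤ))
  have hc' : IsCoprime (g' 1 0 / (dOf N g : ℤ)) ((gg N (dOf N g) : ℕ) : ℤ) := by
    have := isCoprime_quot_gg (N := N) g'
    rwa [← hd] at this
  rw [rr_eq_iff (isCoprime_quot_gg g) hc']
  -- N = d * M, c = d * γ, c' = d * γ'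
  have hdc : (dOf N g : ℤ) * (g 1 0 / (dOf N g : ℤ)) = g 1 0 := Int.mul_ediv_cancel' (dOf_dvd_c g)
  have hdc' : (dOf N g : ℤ) * (g' 1 0 / (dOf N g : ℤ)) = g' 1 0 := by
    have := Int.mul_ediv_cancel' (dOf_dvd_c (N := N) g')
    rwa [← hd] at this
  have hN : ((dOf N g : ℕ) : ℤ) * ((N / dOf N g : ℕ) : ℤ) = (N : ℤ) := by
    rw [← Nat.cast_mul, Nat.mul_div_cancel' (dOf_dvd g)]
  have hdpos : ((dOf N g : ℕ) : ℤ) ≠ 0 := by exact_mod_cast (dOf_pos g).ne'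
  have h1 : ((N / dOf N g : ℕ) : ℤ) ∣
      g 0 0 * (g' 1 0 / (dOf N g : ℤ)) - g' 0 0 * (g 1 0 / (dOf N g : ℤ)) := by
    have h2 : ((dOf N g : ℕ) : ℤ) * ((N / dOf N g : ℕ) : ℤ) ∣ (dOf N g : ℤ) *
        (g 0 0 * (g' 1 0 / (dOf N g : ℤ)) - g' 0 0 * (g 1 0 / (dOf N g : ℤ))) := by
      rw [hN]
      have h3 : (dOf N g : ℤ) *
          (g 0 0 * (g' 1 0 / (dOf N g : ℤ)) - g' 0 0 * (g 1 0 / (dOf N g : ℤ))) = cross g g' := by
        unfold cross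
        linear_combination g 0 0 * hdc' - g' 0 0 * hdc
      rw [h3]
      exact h
    exact (mul_dvd_mul_iff_left hdpos).mp h2
  exact (Int.natCast_dvd_natCast.mpr (gg_dvd_right _)).trans h1

/-- The invariant is constant on `T`-orbits. -/
lemma J_Tzpow_mul (n : ℤ) (g : SL(2, ℤ)) : J N (ModularGroup.T ^ n * g) = J N g := by
  have hd : dOf N (ModularGroup.T ^ n * g) = dOf N g := by
    unfold dOf
    rw [Tzpow_mul_10]
  unfold J
  rw [hd]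
  refine Prod.ext rfl ?_
  show rr (gg N (dOf N g)) ((ModularGroup.T ^ n * g) 0 0)
      ((ModularGroup.T ^ n * g) 1 0 / (dOf N g : ℤ)) =
    rr (gg N (dOf N g)) (g 0 0) (g 1 0 / (dOf N g : ℤ))
  rw [Tzpow_mul_10, Tzpow_mul_00, rr_eq_iff (isCoprime_quot_gg g) (isCoprime_quot_gg g)]
  have hdc : (dOf N g : ℤ) * (g 1 0 / (dOf N g : ℤ)) = g 1 0 := Int.mul_ediv_cancel' (dOf_dvd_c g)
  have h1 : (g 0 0 + n * g 1 0) * (g 1 0 / (dOf N g : ℤ)) - g 0 0 * (g 1 0 / (dOf N g : ℤ)) =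
      (dOf N g : ℤ) * (n * (g 1 0 / (dOf N g : ℤ)) * (g 1 0 / (dOf N g : ℤ))) := by
    linear_combination (-(n * (g 1 0 / (dOf N g : ℤ)))) * hdc
  rw [h1]
  exact Dvd.dvd.mul_right (Int.natCast_dvd_natCast.mpr (gg_dvd_left _)) _

/-- Equal invariants force the same `T`-orbit. -/
lemma exists_Tzpow_of_J_eq {g g' : SL(2, ℤ)} (h : J N g = J N g') :
    ∃ n : ℤ, (N : ℤ) ∣ cross (ModularGroup.T ^ n * g) g' := by
  have hd : dOf N g = dOf N g' := congrArg Prod.fst h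
  have hr : rr (gg N (dOf N g)) (g 0 0) (g 1 0 / (dOf N g : ℤ)) =
      rr (gg N (dOf N g)) (g' 0 0) (g' 1 0 / (dOf N g : ℤ)) := by
    have h2 := congrArg Prod.snd h
    unfold J at h2
    simp only at h2
    rw [← hd] at h2
    exact h2
  have hc' : IsCoprime (g' 1 0 / (dOf N g : ℤ)) ((gg N (dOf N g) : ℕ) : ℤ) := by
    have := isCoprime_quot_gg (N := N) g'
    rwa [← hd] at this
  have hcM' : IsCoprime (g' 1 0 / (dOf N g : ℤ)) ((N / dOf N g : ℕ) : ℤ) := by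
    have := isCoprime_quot (N := N) g'
    rwa [← hd] at this
  rw [rr_eq_iff (isCoprime_quot_gg g) hc'] at hr
  obtain ⟨B', hB'⟩ := hr
  have hdc : (dOf N g : ℤ) * (g 1 0 / (dOf N g : ℤ)) = g 1 0 := Int.mul_ediv_cancel' (dOf_dvd_c g)
  have hdc' : (dOf N g : ℤ) * (g' 1 0 / (dOf N g : ℤ)) = g' 1 0 := by
    have := Int.mul_ediv_cancel' (dOf_dvd_c (N := N) g')
    rwa [← hd] at this
  have hN : ((dOf N g : ℕ) : ℤ) * ((N / dOf N g : ℕ) : ℤ) = (N : ℤ) := by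
    rw [← Nat.cast_mul, Nat.mul_div_cancel' (dOf_dvd g)]
  obtain ⟨w, z, hwz⟩ := (isCoprime_quot g).mul_left hcM'
  have hbez := Nat.gcd_eq_gcd_ab (dOf N g) (N / dOf N g)
  have hbez' : ((gg N (dOf N g) : ℕ) : ℤ) = (dOf N g : ℤ) * Nat.gcdA (dOf N g) (N / dOf N g) +
      ((N / dOf N g : ℕ) : ℤ) * Nat.gcdB (dOf N g) (N / dOf N g) := hbez
  set d : ℤ := (dOf N g : ℤ) with hd_def
  set M : ℤ := ((N / dOf N g : ℕ) : ℤ) with hM_def
  set γ : ℤ := g 1 0 / d with hγ_def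
  set γ' : ℤ := g' 1 0 / d with hγ'_def
  set m : ℤ := ((gg N (dOf N g) : ℕ) : ℤ) with hm_def
  set x : ℤ := Nat.gcdA (dOf N g) (N / dOf N g) with hx_def
  set y : ℤ := Nat.gcdB (dOf N g) (N / dOf N g) with hy_def
  refine ⟨-B' * x * w, ?_⟩
  unfold cross
  rw [Tzpow_mul_00, Tzpow_mul_10]
  refine ⟨B' * (y + x * d * z), ?_⟩
  linear_combination (-(g 0 0 + (-B' * x * w) * g 1 0)) * hdc'
    - ((-B' * x * w) * d * γ' - g' 0 0) * hdc
    + d * hB' + d * B' * hbez' - d ^ 2 * B' * x * hwz + B' * (y + x * d * z) * hN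

/-- Lifting a unit residue modulo `m` to an integer coprime to a multiple `d` of `m`. -/
lemma exists_coprime_lift {m d r : ℕ} (hd : 0 < d) (hm : m ∣ d) (hr : Nat.Coprime r m) :
    ∃ a : ℤ, IsCoprime a (d : ℤ) ∧ (m : ℤ) ∣ a - r := by
  have : NeZero d := ⟨hd.ne'⟩
  obtain ⟨u, hu⟩ := ZMod.unitsMap_surjective hm (ZMod.unitOfCoprime r hr)
  refine ⟨((u : ZMod d).val : ℤ), ?_, ?_⟩
  · exact Nat.isCoprime_iff_coprime.mpr (ZMod.val_coe_unit_coprime u)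
  · have h1 : ((ZMod.unitsMap hm u : (ZMod m)ˣ) : ZMod m) = ((r : ℕ) : ZMod m) := by
      rw [hu, ZMod.coe_unitOfCoprime]
    rw [ZMod.unitsMap_def, Units.coe_map] at h1
    have h2 : (((u : ZMod d).val : ℕ) : ZMod m) = ((r : ℕ) : ZMod m) := by
      rw [← h1, ZMod.natCast_val]
      rfl
    have h3 : ((((r : ℕ) : ℤ)) : ZMod m) = ((((u : ZMod d).val : ℕ) : ℤ) : ZMod m) := by
      push_cast
      exact h2.symm
    exact (ZMod.intCast_eq_intCast_iff_dvd_sub _ _ _).mp h3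

/-- Every admissible value of the invariant is attained. -/
lemma exists_J_eq {d r : ℕ} (hd : d ∣ N) (hr : r < gg N d) (hcop : Nat.Coprime (gg N d) r) :
    ∃ g : SL(2, ℤ), J N g = (d, r) := by
  have hdpos : 0 < d := Nat.pos_of_dvd_of_pos hd (Nat.pos_of_ne_zero (NeZero.ne N))
  obtain ⟨a, ha, har⟩ := exists_coprime_lift hdpos (gg_dvd_left (N := N) d) hcop.symm
  obtain ⟨g, hg0, hg1⟩ := ha.exists_SL2_col 0
  refine ⟨g, ?_⟩
  have hdg : dOf N g = d := by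
    unfold dOf
    rw [hg1, Int.gcd_natCast_natCast]
    exact Nat.gcd_eq_left hd
  unfold J
  rw [hdg]
  refine Prod.ext rfl ?_
  show rr (gg N d) (g 0 0) (g 1 0 / (d : ℤ)) = r
  rw [hg0, hg1, Int.ediv_self (by exact_mod_cast hdpos.ne')]
  have : NeZero (gg N d) := ⟨(gg_pos (N := N) hdpos).ne'⟩
  exact rr_one a r hr har

lemma J_mem (g : SL(2, ℤ)) :
    (J N g).1 ∈ N.divisors ∧ (J N g).2 < gg N (J N g).1 ∧
      Nat.Coprime (gg N (J N g).1) (J N g).2 :=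
  ⟨Nat.mem_divisors.mpr ⟨dOf_dvd g, NeZero.ne N⟩,
    @rr_lt (gg N (dOf N g)) (neZero_gg g) _ _,
    @rr_coprime (gg N (dOf N g)) (neZero_gg g) _ _ (isCoprime_a_gg g) (isCoprime_quot_gg g)⟩

end facts

section count

variable (N : ℕ) [NeZero N]

/-- The invariant of a `T`-orbit, computed on chosen representatives. -/
noncomputable def orbInv
    (ω : MulAction.orbitRel.Quotient (Subgroup.zpowers ModularGroup.T) (SL(2, ℤ) ⧸ Gamma0 N)) :
    ℕ × ℕ :=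
  J N (Quotient.out (Quotient.out ω))

lemma orbInv_mk (g : SL(2, ℤ)) :
    orbInv N (Quotient.mk'' (g : SL(2, ℤ) ⧸ Gamma0 N)) = J N g := by
  unfold orbInv
  set ω : MulAction.orbitRel.Quotient (Subgroup.zpowers ModularGroup.T) (SL(2, ℤ) ⧸ Gamma0 N) :=
    Quotient.mk'' (g : SL(2, ℤ) ⧸ Gamma0 N) with hω
  have h1 : (Quotient.mk'' (Quotient.out ω) :
      MulAction.orbitRel.Quotient (Subgroup.zpowers ModularGroup.T) (SL(2, ℤ) ⧸ Gamma0 N)) =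
      Quotient.mk'' (g : SL(2, ℤ) ⧸ Gamma0 N) := Quotient.out_eq' ω
  rw [Quotient.eq''] at h1
  have h2 : Quotient.out ω ∈ MulAction.orbit (Subgroup.zpowers ModularGroup.T)
      (g : SL(2, ℤ) ⧸ Gamma0 N) := h1
  obtain ⟨⟨t, ht⟩, h3⟩ := h2
  obtain ⟨n, rfl⟩ := Subgroup.mem_zpowers_iff.mp ht
  have h4 : ((ModularGroup.T ^ n * g : SL(2, ℤ)) : SL(2, ℤ) ⧸ Gamma0 N) = Quotient.out ω := h3
  have h5 : ((Quotient.out (Quotient.out ω) : SL(2, ℤ)) : SL(2, ℤ) ⧸ Gamma0 N) =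
      ((ModularGroup.T ^ n * g : SL(2, ℤ)) : SL(2, ℤ) ⧸ Gamma0 N) := by
    rw [h4]
    exact QuotientGroup.out_eq' _
  rw [mk_eq_mk_iff] at h5
  rw [J_eq_of_cross h5, J_Tzpow_mul]

lemma orbInv_injective : Function.Injective (orbInv N) := by
  intro ω ω' h
  induction ω using Quotient.inductionOn' with
  | h q =>
  induction ω' using Quotient.inductionOn' with
  | h q' =>
  induction q using QuotientGroup.induction_on with
  | H g =>
  induction q' using QuotientGroup.induction_on with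
  | H g' =>
  rw [orbInv_mk, orbInv_mk] at h
  obtain ⟨n, hn⟩ := exists_Tzpow_of_J_eq h
  rw [← mk_eq_mk_iff] at hn
  apply Quotient.sound'
  show (g : SL(2, ℤ) ⧸ Gamma0 N) ∈ MulAction.orbit (Subgroup.zpowers ModularGroup.T)
    (g' : SL(2, ℤ) ⧸ Gamma0 N)
  refine ⟨⟨ModularGroup.T ^ (-n), Subgroup.mem_zpowers_iff.mpr ⟨-n, rfl⟩⟩, ?_⟩
  show ModularGroup.T ^ (-n) • ((g' : SL(2, ℤ)) : SL(2, ℤ) ⧸ Gamma0 N) = g
  rw [← hn]
  show ModularGroup.T ^ (-n) • (ModularGroup.T ^ n • ((g : SL(2, ℤ)) : SL(2, ℤ) ⧸ Gamma0 N)) = g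
  rw [smul_smul, ← zpow_add]
  simp

/-- The index set of the cusps. -/
def cuspIndex : Finset (Σ _ : ℕ, ℕ) :=
  N.divisors.sigma fun d => (Finset.range (gg N d)).filter fun r => (gg N d).Coprime r

lemma card_cuspIndex : (cuspIndex N).card = ModularCurve.cuspCount N := by
  unfold cuspIndex ModularCurve.cuspCount
  rw [Finset.card_sigma]
  refine Finset.sum_congr rfl fun d _ => ?_
  rw [Nat.totient_eq_card_coprime]
  rfl

/-- The number of orbits of `T` on `SL(2, ℤ) ⧸ Γ₀(N)` is `cuspCount N`. -/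
theorem card_orbits_T_aux :
    Nat.card (MulAction.orbitRel.Quotient (Subgroup.zpowers ModularGroup.T)
      (SL(2, ℤ) ⧸ Gamma0 N)) = ModularCurve.cuspCount N := by
  rw [← card_cuspIndex, ← Nat.card_eq_finsetCard]
  apply Nat.card_congr
  have hmem : ∀ ω, (⟨(orbInv N ω).1, (orbInv N ω).2⟩ : Σ _ : ℕ, ℕ) ∈ cuspIndex N := by
    intro ω
    obtain ⟨h1, h2, h3⟩ := J_mem (N := N) (Quotient.out (Quotient.out ω))
    unfold cuspIndex
    rw [Finset.mem_sigma]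
    exact ⟨h1, Finset.mem_filter.mpr ⟨Finset.mem_range.mpr h2, h3⟩⟩
  refine Equiv.ofBijective (fun ω => ⟨⟨(orbInv N ω).1, (orbInv N ω).2⟩, hmem ω⟩) ⟨?_, ?_⟩
  · intro ω ω' h
    apply orbInv_injective N
    have h1 := congrArg Subtype.val h
    simp only [Sigma.mk.injEq, heq_eq_eq] at h1
    exact Prod.ext h1.1 h1.2
  · rintro ⟨⟨d, r⟩, hdr⟩
    unfold cuspIndex at hdr
    rw [Finset.mem_sigma] at hdr
    obtain ⟨h1, h2⟩ := hdr
    rw [Finset.mem_filter, Finset.mem_range] at h2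
    obtain ⟨g, hg⟩ := exists_J_eq (N := N) (Nat.mem_divisors.mp h1).1 h2.1 h2.2
    refine ⟨Quotient.mk'' (g : SL(2, ℤ) ⧸ Gamma0 N), ?_⟩
    apply Subtype.ext
    show (⟨(orbInv N (Quotient.mk'' (g : SL(2, ℤ) ⧸ Gamma0 N))).1,
      (orbInv N (Quotient.mk'' (g : SL(2, ℤ) ⧸ Gamma0 N))).2⟩ : Σ _ : ℕ, ℕ) = ⟨d, r⟩
    rw [orbInv_mk, hg]

end count

end Fermat.Agent.S20.Comb
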