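import Mathlib
import Fermat.Prelude.Def_ModularCurve_GenusNumerics
import Fermat.Agent.S20.CombBasic

set_option autoImplicit false

open scoped MatrixGroups
open CongruenceSubgroup

namespace Fermat.Agent.S20.Comb

variable {N : ℕ}

lemma isUnit_of_sq_add_sq {a c : ℤ} (h : IsCoprime a c) (hN : (N : ℤ) ∣ a ^ 2 + c ^ 2) :
    IsUnit ((c : ℤ) : ZMod N) := by
  rw [ZMod.coe_int_isUnit_iff_isCoprime]
  obtain ⟨u, v, huv⟩ := h
  obtain ⟨k, hk⟩ := hN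
  exact ⟨u ^ 2 * k, -u ^ 2 * c + 2 * u * v * a + v ^ 2 * c, by
    linear_combination (-(u ^ 2)) * hk + (u * a + v * c + 1) * huv⟩

lemma isUnit_of_sq_add_mul_add_sq {a c : ℤ} (h : IsCoprime a c)
    (hN : (N : ℤ) ∣ a ^ 2 + a * c + c ^ 2) : IsUnit ((c : ℤ) : ZMod N) := by
  rw [ZMod.coe_int_isUnit_iff_isCoprime]
  obtain ⟨u, v, huv⟩ := h
  obtain ⟨k, hk⟩ := hN
  exact ⟨u ^ 2 * k, -u ^ 2 * a - u ^ 2 * c + 2 * u * v * a + v ^ 2 * c, by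
    linear_combination (-(u ^ 2)) * hk + (u * a + v * c + 1) * huv⟩

/-- The ratio `a / c` in `ZMod N` of the first column of `g` (meaningful when `c` is a unit). -/
noncomputable def ratio (N : ℕ) (g : SL(2, ℤ)) : ZMod N :=
  ((g 0 0 : ℤ) : ZMod N) * ((g 1 0 : ℤ) : ZMod N)⁻¹

lemma ratio_eq_iff {g h : SL(2, ℤ)} (hg : IsUnit ((g 1 0 : ℤ) : ZMod N))
    (hh : IsUnit ((h 1 0 : ℤ) : ZMod N)) :
    ratio N g = ratio N h ↔ (g : SL(2, ℤ) ⧸ Gamma0 N) = h := by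
  rw [mk_eq_mk_iff, ← ZMod.intCast_zmod_eq_zero_iff_dvd, cross]
  push_cast
  have h1 := ZMod.mul_inv_of_unit _ hg
  have h2 := ZMod.mul_inv_of_unit _ hh
  unfold ratio
  constructor
  · intro h3
    linear_combination ((g 1 0 : ℤ) : ZMod N) * ((h 1 0 : ℤ) : ZMod N) * h3
      - ((g 0 0 : ℤ) : ZMod N) * ((h 1 0 : ℤ) : ZMod N) * h1
      + ((h 0 0 : ℤ) : ZMod N) * ((g 1 0 : ℤ) : ZMod N) * h2
  · intro h3
    linear_combination ((g 1 0 : ℤ) : ZMod N)⁻¹ * ((h 1 0 : ℤ) : ZMod N)⁻¹ * h3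
      - ((g 0 0 : ℤ) : ZMod N) * ((g 1 0 : ℤ) : ZMod N)⁻¹ * h2
      + ((h 0 0 : ℤ) : ZMod N) * ((h 1 0 : ℤ) : ZMod N)⁻¹ * h1

lemma ratio_sq_add_one {g : SL(2, ℤ)} (hN : (N : ℤ) ∣ g 0 0 ^ 2 + g 1 0 ^ 2) :
    ratio N g ^ 2 + 1 = 0 := by
  have hu := isUnit_of_sq_add_sq (isCoprime_col g) hN
  have h1 := ZMod.mul_inv_of_unit _ hu
  have h2 : (((g 0 0 ^ 2 + g 1 0 ^ 2 : ℤ)) : ZMod N) = 0 :=
    (ZMod.intCast_zmod_eq_zero_iff_dvd _ _).mpr hN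
  push_cast at h2
  unfold ratio
  linear_combination (((g 1 0 : ℤ) : ZMod N)⁻¹) ^ 2 * h2
    - (((g 1 0 : ℤ) : ZMod N) * ((g 1 0 : ℤ) : ZMod N)⁻¹ + 1) * h1

lemma ratio_sq_add_self_add_one {g : SL(2, ℤ)}
    (hN : (N : ℤ) ∣ g 0 0 ^ 2 + g 0 0 * g 1 0 + g 1 0 ^ 2) :
    ratio N g ^ 2 + ratio N g + 1 = 0 := by
  have hu := isUnit_of_sq_add_mul_add_sq (isCoprime_col g) hN
  have h1 := ZMod.mul_inv_of_unit _ hu
  have h2 : (((g 0 0 ^ 2 + g 0 0 * g 1 0 + g 1 0 ^ 2 : ℤ)) : ZMod N) = 0 :=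
    (ZMod.intCast_zmod_eq_zero_iff_dvd _ _).mpr hN
  push_cast at h2
  unfold ratio
  linear_combination (((g 1 0 : ℤ) : ZMod N)⁻¹) ^ 2 * h2
    - (((g 1 0 : ℤ) : ZMod N) * ((g 1 0 : ℤ) : ZMod N)⁻¹ + 1
        + ((g 0 0 : ℤ) : ZMod N) * ((g 1 0 : ℤ) : ZMod N)⁻¹) * h1

/-- The element `[x, -1; 1, 0]` of `SL(2, ℤ)`. -/
def colMat (x : ℤ) : SL(2, ℤ) := ⟨!![x, -1; 1, 0], by simp [Matrix.det_fin_two]⟩

lemma colMat_00 (x : ℤ) : (colMat x) 0 0 = x := rfl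

lemma colMat_10 (x : ℤ) : (colMat x) 1 0 = 1 := rfl

lemma ratio_colMat (x : ZMod N) : ratio N (colMat (x.cast : ℤ)) = x := by
  unfold ratio
  rw [colMat_00, colMat_10]
  simp

/-- The number of fixed points of `S` on `SL(2, ℤ) ⧸ Γ₀(N)` is `nuTwo N`. -/
theorem card_fixedBy_S (N : ℕ) :
    Nat.card (MulAction.fixedBy (SL(2, ℤ) ⧸ Gamma0 N) ModularGroup.S) = ModularCurve.nuTwo N := by
  unfold ModularCurve.nuTwo
  have key : ∀ q : MulAction.fixedBy (SL(2, ℤ) ⧸ Gamma0 N) ModularGroup.S,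
      (N : ℤ) ∣ (q.1.out) 0 0 ^ 2 + (q.1.out) 1 0 ^ 2 := by
    intro q
    have h1 : ModularGroup.S • q.1 = q.1 := q.2
    rw [← QuotientGroup.out_eq' q.1] at h1
    exact (S_smul_mk_eq_iff _).mp h1
  apply Nat.card_congr
  refine Equiv.ofBijective (fun q => ⟨ratio N q.1.out, ratio_sq_add_one (key q)⟩) ⟨?_, ?_⟩
  · intro q q' hqq
    have h1 : ratio N q.1.out = ratio N q'.1.out := congrArg Subtype.val hqq
    rw [ratio_eq_iff (isUnit_of_sq_add_sq (isCoprime_col _) (key q))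
      (isUnit_of_sq_add_sq (isCoprime_col _) (key q')), QuotientGroup.out_eq',
      QuotientGroup.out_eq'] at h1
    exact Subtype.ext h1
  · rintro ⟨x, hx⟩
    have hdvd : (N : ℤ) ∣ (colMat (x.cast : ℤ)) 0 0 ^ 2 + (colMat (x.cast : ℤ)) 1 0 ^ 2 := by
      rw [colMat_00, colMat_10, ← ZMod.intCast_zmod_eq_zero_iff_dvd]
      push_cast
      simpa using hx
    have hfix : ((colMat (x.cast : ℤ) : SL(2, ℤ)) : SL(2, ℤ) ⧸ Gamma0 N) ∈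
        MulAction.fixedBy (SL(2, ℤ) ⧸ Gamma0 N) ModularGroup.S :=
      (S_smul_mk_eq_iff _).mpr hdvd
    refine ⟨⟨_, hfix⟩, ?_⟩
    apply Subtype.ext
    show ratio N (Quotient.out ((colMat (x.cast : ℤ) : SL(2, ℤ)) : SL(2, ℤ) ⧸ Gamma0 N)) = x
    refine Eq.trans ?_ (ratio_colMat x)
    rw [ratio_eq_iff (isUnit_of_sq_add_sq (isCoprime_col _) (key ⟨_, hfix⟩))
      (isUnit_of_sq_add_sq (isCoprime_col _) hdvd), QuotientGroup.out_eq']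

/-- The number of fixed points of `S * T` on `SL(2, ℤ) ⧸ Γ₀(N)` is `nuThree N`. -/
theorem card_fixedBy_ST (N : ℕ) :
    Nat.card (MulAction.fixedBy (SL(2, ℤ) ⧸ Gamma0 N) (ModularGroup.S * ModularGroup.T)) =
      ModularCurve.nuThree N := by
  unfold ModularCurve.nuThree
  have key : ∀ q : MulAction.fixedBy (SL(2, ℤ) ⧸ Gamma0 N) (ModularGroup.S * ModularGroup.T),
      (N : ℤ) ∣ (q.1.out) 0 0 ^ 2 + (q.1.out) 0 0 * (q.1.out) 1 0 + (q.1.out) 1 0 ^ 2 := by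
    intro q
    have h1 : (ModularGroup.S * ModularGroup.T) • q.1 = q.1 := q.2
    rw [← QuotientGroup.out_eq' q.1] at h1
    exact (ST_smul_mk_eq_iff _).mp h1
  apply Nat.card_congr
  refine Equiv.ofBijective
    (fun q => ⟨ratio N q.1.out, ratio_sq_add_self_add_one (key q)⟩) ⟨?_, ?_⟩
  · intro q q' hqq
    have h1 : ratio N q.1.out = ratio N q'.1.out := congrArg Subtype.val hqq
    rw [ratio_eq_iff (isUnit_of_sq_add_mul_add_sq (isCoprime_col _) (key q))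
      (isUnit_of_sq_add_mul_add_sq (isCoprime_col _) (key q')), QuotientGroup.out_eq',
      QuotientGroup.out_eq'] at h1
    exact Subtype.ext h1
  · rintro ⟨x, hx⟩
    have hdvd : (N : ℤ) ∣ (colMat (x.cast : ℤ)) 0 0 ^ 2 +
        (colMat (x.cast : ℤ)) 0 0 * (colMat (x.cast : ℤ)) 1 0 + (colMat (x.cast : ℤ)) 1 0 ^ 2 := by
      rw [colMat_00, colMat_10, ← ZMod.intCast_zmod_eq_zero_iff_dvd]
      push_cast
      simpa using hx
    have hfix : ((colMat (x.cast : ℤ) : SL(2, ℤ)) : SL(2, ℤ) ⧸ Gamma0 N) ∈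
        MulAction.fixedBy (SL(2, ℤ) ⧸ Gamma0 N) (ModularGroup.S * ModularGroup.T) :=
      (ST_smul_mk_eq_iff _).mpr hdvd
    refine ⟨⟨_, hfix⟩, ?_⟩
    apply Subtype.ext
    show ratio N (Quotient.out ((colMat (x.cast : ℤ) : SL(2, ℤ)) : SL(2, ℤ) ⧸ Gamma0 N)) = x
    refine Eq.trans ?_ (ratio_colMat x)
    rw [ratio_eq_iff (isUnit_of_sq_add_mul_add_sq (isCoprime_col _) (key ⟨_, hfix⟩))
      (isUnit_of_sq_add_mul_add_sq (isCoprime_col _) hdvd), QuotientGroup.out_eq']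

end Fermat.Agent.S20.Comb
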