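import Mathlib
import Fermat.Prelude.Def_ModularCurve_GenusNumerics
import Fermat.Agent.S20.CombBasic

set_option autoImplicit false

open scoped MatrixGroups
open CongruenceSubgroup

namespace Fermat.Agent.S20.Comb

/-- Computing a relative index through a complete invariant. -/
lemma relIndex_eq_card {G : Type*} [Group G] (H K : Subgroup G) {α : Type*} (f : G → α)
    (h1 : ∀ k ∈ K, ∀ k' ∈ K, (k⁻¹ * k' ∈ H ↔ f k = f k'))
    (h2 : ∀ a : α, ∃ k ∈ K, f k = a) : H.relIndex K = Nat.card α := by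
  unfold Subgroup.relIndex Subgroup.index
  apply Nat.card_congr
  refine Equiv.ofBijective (fun q => f ((Quotient.out q : K) : G)) ⟨?_, ?_⟩
  · intro q q' h
    have h3 := (h1 _ (Quotient.out q).2 _ (Quotient.out q').2).mpr h
    rw [← QuotientGroup.out_eq' q, ← QuotientGroup.out_eq' q', QuotientGroup.eq,
      Subgroup.mem_subgroupOf]
    simpa using h3
  · intro a
    obtain ⟨k, hk, rfl⟩ := h2 a
    refine ⟨((⟨k, hk⟩ : K) : K ⧸ H.subgroupOf K), ?_⟩
    have h3 : ((Quotient.out ((⟨k, hk⟩ : K) : K ⧸ H.subgroupOf K) : K) : K ⧸ H.subgroupOf K) =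
        ((⟨k, hk⟩ : K) : K ⧸ H.subgroupOf K) := QuotientGroup.out_eq' _
    rw [QuotientGroup.eq, Subgroup.mem_subgroupOf] at h3
    exact (h1 _ (Subtype.property _) _ hk).mp (by simpa using h3)

lemma dvd_of_mem_Gamma0 {M : ℕ} {g : SL(2, ℤ)} (hg : g ∈ Gamma0 M) : (M : ℤ) ∣ g 1 0 :=
  (ZMod.intCast_zmod_eq_zero_iff_dvd _ _).mp (Gamma0_mem.mp hg)

lemma mem_Gamma0_of_dvd {M : ℕ} {g : SL(2, ℤ)} (hg : (M : ℤ) ∣ g 1 0) : g ∈ Gamma0 M :=
  Gamma0_mem.mpr ((ZMod.intCast_zmod_eq_zero_iff_dvd _ _).mpr hg)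

lemma Gamma0_mul_le (p M : ℕ) : Gamma0 (p * M) ≤ Gamma0 M := by
  intro g hg
  apply mem_Gamma0_of_dvd
  exact (Int.natCast_dvd_natCast.mpr (Dvd.intro_left p rfl)).trans (dvd_of_mem_Gamma0 hg)

/-- The lower unipotent element `[1, 0; c, 1]`. -/
def lowMat (c : ℤ) : SL(2, ℤ) := ⟨!![1, 0; c, 1], by simp [Matrix.det_fin_two]⟩

lemma lowMat_00 (c : ℤ) : (lowMat c) 0 0 = 1 := rfl

lemma lowMat_10 (c : ℤ) : (lowMat c) 1 0 = c := rfl

section dvd

variable {p M : ℕ}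

/-- The invariant used when `p ∣ M`. -/
noncomputable def invDvd (p M : ℕ) (g : SL(2, ℤ)) : ZMod p :=
  ((g 1 0 / (M : ℤ) : ℤ) : ZMod p) * ((g 0 0 : ℤ) : ZMod p)⁻¹

lemma relIndex_Gamma0_of_dvd (hM : M ≠ 0) (hpM : p ∣ M) :
    (Gamma0 (p * M)).relIndex (Gamma0 M) = p := by
  have hM' : (M : ℤ) ≠ 0 := by exact_mod_cast hM
  have hunit : ∀ k ∈ Gamma0 M, IsUnit ((k 0 0 : ℤ) : ZMod p) := by
    intro k hk
    rw [ZMod.coe_int_isUnit_iff_isCoprime]
    exact ((isCoprime_col k).symm.of_isCoprime_of_dvd_left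
      ((Int.natCast_dvd_natCast.mpr hpM).trans (dvd_of_mem_Gamma0 hk)))
  rw [relIndex_eq_card (Gamma0 (p * M)) (Gamma0 M) (invDvd p M), Nat.card_zmod]
  · intro k hk k' hk'
    rw [inv_mul_mem_Gamma0_iff]
    have hc : (M : ℤ) * (k 1 0 / (M : ℤ)) = k 1 0 := Int.mul_ediv_cancel' (dvd_of_mem_Gamma0 hk)
    have hc' : (M : ℤ) * (k' 1 0 / (M : ℤ)) = k' 1 0 :=
      Int.mul_ediv_cancel' (dvd_of_mem_Gamma0 hk')
    have h1 : cross k k' =
        (M : ℤ) * (k 0 0 * (k' 1 0 / (M : ℤ)) - (k 1 0 / (M : ℤ)) * k' 0 0) := by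
      unfold cross
      linear_combination (-(k 0 0)) * hc' + k' 0 0 * hc
    have h2 : ((p * M : ℕ) : ℤ) = (M : ℤ) * (p : ℤ) := by push_cast; ring
    rw [h1, h2, mul_dvd_mul_iff_left hM', ← ZMod.intCast_zmod_eq_zero_iff_dvd]
    push_cast
    have hu := ZMod.mul_inv_of_unit _ (hunit k hk)
    have hu' := ZMod.mul_inv_of_unit _ (hunit k' hk')
    unfold invDvd
    constructor
    · intro h3
      linear_combination (-(((k 0 0 : ℤ) : ZMod p)⁻¹ * ((k' 0 0 : ℤ) : ZMod p)⁻¹)) * h3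
        - ((k 1 0 / (M : ℤ) : ℤ) : ZMod p) * ((k 0 0 : ℤ) : ZMod p)⁻¹ * hu'
        + ((k' 1 0 / (M : ℤ) : ℤ) : ZMod p) * ((k' 0 0 : ℤ) : ZMod p)⁻¹ * hu
    · intro h3
      linear_combination (-(((k 0 0 : ℤ) : ZMod p) * ((k' 0 0 : ℤ) : ZMod p))) * h3
        + ((k 1 0 / (M : ℤ) : ℤ) : ZMod p) * ((k' 0 0 : ℤ) : ZMod p) * hu
        - ((k' 1 0 / (M : ℤ) : ℤ) : ZMod p) * ((k 0 0 : ℤ) : ZMod p) * hu'
  · intro t
    refine ⟨lowMat ((M : ℤ) * (t.cast : ℤ)), mem_Gamma0_of_dvd ?_, ?_⟩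
    · rw [lowMat_10]
      exact Dvd.intro _ rfl
    · unfold invDvd
      rw [lowMat_00, lowMat_10, Int.mul_ediv_cancel_left _ hM']
      simp

end dvd

section notdvd

variable {p M : ℕ}

/-- The invariant used when `p ∤ M`. -/
noncomputable def invNotDvd (p : ℕ) (g : SL(2, ℤ)) : Option (ZMod p) :=
  if (p : ℤ) ∣ g 1 0 then none else some (((g 0 0 : ℤ) : ZMod p) * ((g 1 0 : ℤ) : ZMod p)⁻¹)

lemma invNotDvd_of_dvd {g : SL(2, ℤ)} (h : (p : ℤ) ∣ g 1 0) : invNotDvd p g = none := by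
  unfold invNotDvd
  rw [if_pos h]

lemma invNotDvd_of_not_dvd {g : SL(2, ℤ)} (h : ¬ (p : ℤ) ∣ g 1 0) :
    invNotDvd p g = some (((g 0 0 : ℤ) : ZMod p) * ((g 1 0 : ℤ) : ZMod p)⁻¹) := by
  unfold invNotDvd
  rw [if_neg h]

lemma relIndex_Gamma0_of_not_dvd (hp : p.Prime) (hpM : ¬ p ∣ M) :
    (Gamma0 (p * M)).relIndex (Gamma0 M) = p + 1 := by
  have : Fact p.Prime := ⟨hp⟩
  have hp' : Prime (p : ℤ) := Nat.prime_iff_prime_int.mp hp
  have hcopM : IsCoprime (p : ℤ) (M : ℤ) :=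
    Nat.isCoprime_iff_coprime.mpr ((Nat.Prime.coprime_iff_not_dvd hp).mpr hpM)
  -- a prime dividing `c` does not divide `a`
  have hnd : ∀ k : SL(2, ℤ), (p : ℤ) ∣ k 1 0 → ¬ (p : ℤ) ∣ k 0 0 := by
    intro k h1 h2
    obtain ⟨u, v, huv⟩ := isCoprime_col k
    have h3 : (p : ℤ) ∣ 1 := by
      rw [← huv]
      exact dvd_add (Dvd.dvd.mul_left h2 _) (Dvd.dvd.mul_left h1 _)
    exact hp'.not_dvd_one h3
  have hunit : ∀ k : SL(2, ℤ), ¬ (p : ℤ) ∣ k 1 0 → IsUnit ((k 1 0 : ℤ) : ZMod p) := by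
    intro k h1
    rw [ZMod.coe_int_isUnit_iff_isCoprime]
    exact (Prime.coprime_iff_not_dvd hp').mpr h1
  have hcard : Nat.card (Option (ZMod p)) = p + 1 := by
    rw [Nat.card_eq_fintype_card, Fintype.card_option, ZMod.card]
  rw [relIndex_eq_card (Gamma0 (p * M)) (Gamma0 M) (invNotDvd p), hcard]
  · intro k hk k' hk'
    rw [inv_mul_mem_Gamma0_iff]
    have hMc : (M : ℤ) ∣ cross k k' := by
      unfold cross
      exact dvd_sub (Dvd.dvd.mul_left (dvd_of_mem_Gamma0 hk') _)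
        (Dvd.dvd.mul_right (dvd_of_mem_Gamma0 hk) _)
    have h2 : ((p * M : ℕ) : ℤ) = (p : ℤ) * (M : ℤ) := by push_cast; ring
    have h3 : ((p * M : ℕ) : ℤ) ∣ cross k k' ↔ (p : ℤ) ∣ cross k k' := by
      rw [h2]
      exact ⟨fun h => (Dvd.intro _ rfl).trans h, fun h => hcopM.mul_dvd h hMc⟩
    rw [h3]
    by_cases hc : (p : ℤ) ∣ k 1 0
    · rw [invNotDvd_of_dvd hc]
      by_cases hc' : (p : ℤ) ∣ k' 1 0
      · rw [invNotDvd_of_dvd hc']
        simp only [iff_true]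
        unfold cross
        exact dvd_sub (Dvd.dvd.mul_left hc' _) (Dvd.dvd.mul_right hc _)
      · rw [invNotDvd_of_not_dvd hc']
        simp only [reduceCtorEq, iff_false]
        intro h4
        have h5 : (p : ℤ) ∣ k 0 0 * k' 1 0 := by
          have h6 : k 0 0 * k' 1 0 = cross k k' + k 1 0 * k' 0 0 := by unfold cross; ring
          rw [h6]
          exact dvd_add h4 (Dvd.dvd.mul_right hc _)
        rcases hp'.dvd_or_dvd h5 with h7 | h7
        · exact hnd k hc h7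
        · exact hc' h7
    · rw [invNotDvd_of_not_dvd hc]
      by_cases hc' : (p : ℤ) ∣ k' 1 0
      · rw [invNotDvd_of_dvd hc']
        simp only [reduceCtorEq, iff_false]
        intro h4
        have h5 : (p : ℤ) ∣ k 1 0 * k' 0 0 := by
          have h6 : k 1 0 * k' 0 0 = k 0 0 * k' 1 0 - cross k k' := by unfold cross; ring
          rw [h6]
          exact dvd_sub (Dvd.dvd.mul_left hc' _) h4
        rcases hp'.dvd_or_dvd h5 with h7 | h7
        · exact hc h7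
        · exact hnd k' hc' h7
      · rw [invNotDvd_of_not_dvd hc', Option.some_inj, ← ZMod.intCast_zmod_eq_zero_iff_dvd]
        unfold cross
        push_cast
        have hu := ZMod.mul_inv_of_unit _ (hunit k hc)
        have hu' := ZMod.mul_inv_of_unit _ (hunit k' hc')
        constructor
        · intro h4
          linear_combination (((k 1 0 : ℤ) : ZMod p)⁻¹ * ((k' 1 0 : ℤ) : ZMod p)⁻¹) * h4
            - ((k 0 0 : ℤ) : ZMod p) * ((k 1 0 : ℤ) : ZMod p)⁻¹ * hu'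
            + ((k' 0 0 : ℤ) : ZMod p) * ((k' 1 0 : ℤ) : ZMod p)⁻¹ * hu
        · intro h4
          linear_combination (((k 1 0 : ℤ) : ZMod p) * ((k' 1 0 : ℤ) : ZMod p)) * h4
            - ((k 0 0 : ℤ) : ZMod p) * ((k' 1 0 : ℤ) : ZMod p) * hu
            + ((k' 0 0 : ℤ) : ZMod p) * ((k 1 0 : ℤ) : ZMod p) * hu'
  · intro t
    rcases t with _ | t
    · refine ⟨1, Subgroup.one_mem _, ?_⟩
      apply invNotDvd_of_dvd
      simp
    · -- first column `(t * M + p, M)`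
      have hcop : IsCoprime ((t.cast : ℤ) * (M : ℤ) + (p : ℤ)) (M : ℤ) := by
        have h1 : IsCoprime ((p : ℤ) + (t.cast : ℤ) * (M : ℤ)) (M : ℤ) :=
          hcopM.add_mul_right_left _
        rwa [add_comm] at h1
      obtain ⟨g, hg0, hg1⟩ := hcop.exists_SL2_col 0
      refine ⟨g, mem_Gamma0_of_dvd (by rw [hg1]), ?_⟩
      have hnd' : ¬ (p : ℤ) ∣ g 1 0 := by
        rw [hg1]
        exact fun h => hpM (Int.natCast_dvd_natCast.mp h)
      rw [invNotDvd_of_not_dvd hnd', hg0, hg1]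
      have hu : IsUnit (((M : ℕ) : ℤ) : ZMod p) := by
        have := hunit g hnd'
        rwa [hg1] at this
      have hu' := ZMod.mul_inv_of_unit _ hu
      congr 1
      push_cast
      simp only [CharP.cast_eq_zero, add_zero]
      push_cast at hu'
      rw [mul_assoc, hu', mul_one]

end notdvd

section psi

open ModularCurve

lemma dedekindPsi_mul_of_dvd {p M : ℕ} (hM : M ≠ 0) (hp : p ≠ 0) (hpM : p ∣ M) :
    dedekindPsi (p * M) = p * dedekindPsi M := by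
  unfold dedekindPsi
  have hset : (p * M).divisors.filter (fun d => Squarefree d) =
      M.divisors.filter (fun d => Squarefree d) := by
    ext d
    simp only [Finset.mem_filter, Nat.mem_divisors]
    constructor
    · rintro ⟨⟨h1, -⟩, h2⟩
      refine ⟨⟨?_, hM⟩, h2⟩
      have h3 : d ∣ M ^ 2 := h1.trans (by rw [pow_two]; exact mul_dvd_mul hpM dvd_rfl)
      exact (Squarefree.dvd_pow_iff_dvd h2 two_ne_zero).mp h3
    · rintro ⟨⟨h1, -⟩, h2⟩
      exact ⟨⟨h1.trans (Dvd.intro_left p rfl), mul_ne_zero hp hM⟩, h2⟩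
  rw [hset, Finset.mul_sum]
  refine Finset.sum_congr rfl fun d hd => ?_
  rw [Finset.mem_filter, Nat.mem_divisors] at hd
  exact Nat.mul_div_assoc p hd.1.1

lemma dedekindPsi_mul_of_not_dvd {p M : ℕ} (hM : M ≠ 0) (hp : p.Prime) (hpM : ¬ p ∣ M) :
    dedekindPsi (p * M) = (p + 1) * dedekindPsi M := by
  unfold dedekindPsi
  set S := M.divisors.filter (fun d => Squarefree d) with hS
  have hmemS : ∀ d, d ∈ S ↔ d ∣ M ∧ Squarefree d := by
    intro d
    rw [hS, Finset.mem_filter, Nat.mem_divisors]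
    exact ⟨fun h => ⟨h.1.1, h.2⟩, fun h => ⟨⟨h.1, hM⟩, h.2⟩⟩
  have hset : (p * M).divisors.filter (fun d => Squarefree d) = S ∪ S.image (fun e => p * e) := by
    ext d
    simp only [Finset.mem_filter, Nat.mem_divisors, Finset.mem_union, Finset.mem_image, hmemS]
    constructor
    · rintro ⟨⟨h1, -⟩, h2⟩
      by_cases hpd : p ∣ d
      · obtain ⟨e, rfl⟩ := hpd
        right
        refine ⟨e, ⟨?_, h2.of_mul_right⟩, rfl⟩
        exact (Nat.mul_dvd_mul_iff_left hp.pos).mp h1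
      · left
        refine ⟨?_, h2⟩
        have hcop : Nat.Coprime d p := ((Nat.Prime.coprime_iff_not_dvd hp).mpr hpd).symm
        exact hcop.dvd_of_dvd_mul_left h1
    · rintro (⟨h1, h2⟩ | ⟨e, ⟨h1, h2⟩, rfl⟩)
      · exact ⟨⟨h1.trans (Dvd.intro_left p rfl), mul_ne_zero hp.ne_zero hM⟩, h2⟩
      · refine ⟨⟨Nat.mul_dvd_mul_left p h1, mul_ne_zero hp.ne_zero hM⟩, ?_⟩
        have hcop : Nat.Coprime p e :=
          (Nat.Prime.coprime_iff_not_dvd hp).mpr fun h => hpM (h.trans h1)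
        exact (Nat.squarefree_mul hcop).mpr ⟨hp.squarefree, h2⟩
  have hdisj : Disjoint S (S.image (fun e => p * e)) := by
    rw [Finset.disjoint_left]
    intro d hd hd'
    rw [Finset.mem_image] at hd'
    obtain ⟨e, -, rfl⟩ := hd'
    exact hpM ((Dvd.intro e rfl).trans ((hmemS _).mp hd).1)
  rw [hset, Finset.sum_union hdisj, Finset.sum_image (fun a _ b _ h => Nat.eq_of_mul_eq_mul_left hp.pos h),
    add_mul, one_mul, Finset.mul_sum]
  congr 1
  · refine Finset.sum_congr rfl fun d hd => ?_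
    exact Nat.mul_div_assoc p ((hmemS d).mp hd).1
  · refine Finset.sum_congr rfl fun d _ => ?_
    exact Nat.mul_div_mul_left M d hp.pos

end psi

section index

open ModularCurve

lemma Gamma0_one_eq_top : Gamma0 1 = ⊤ := by
  ext g
  simp only [Subgroup.mem_top, iff_true]
  exact mem_Gamma0_of_dvd (by simp)

/-- The index of `Γ₀(N)` in `SL(2, ℤ)` is the Dedekind psi function. -/
theorem index_Gamma0_aux (N : ℕ) (hN : N ≠ 0) : (Gamma0 N).index = dedekindPsi N := by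
  induction N using Nat.strong_induction_on with
  | _ N ih =>
  by_cases h1 : N = 1
  · subst h1
    rw [Gamma0_one_eq_top, Subgroup.index_top, dedekindPsi_one]
  · obtain ⟨p, hp, M, rfl⟩ : ∃ p : ℕ, p.Prime ∧ ∃ M, N = p * M :=
      ⟨N.minFac, Nat.minFac_prime h1, Nat.minFac_dvd N⟩
    have hM0 : M ≠ 0 := by
      rintro rfl
      exact hN (mul_zero p)
    have hlt : M < p * M := lt_mul_of_one_lt_left (Nat.pos_of_ne_zero hM0) hp.one_lt
    have hih := ih M hlt hM0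
    have hidx := Subgroup.relIndex_mul_index (Gamma0_mul_le p M)
    by_cases hdvd : p ∣ M
    · rw [← hidx, relIndex_Gamma0_of_dvd hM0 hdvd, hih, dedekindPsi_mul_of_dvd hM0 hp.ne_zero hdvd]
    · rw [← hidx, relIndex_Gamma0_of_not_dvd hp hdvd, hih, dedekindPsi_mul_of_not_dvd hM0 hp hdvd]

end index

end Fermat.Agent.S20.Comb
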