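import Mathlib
import Fermat.Prelude.Def_ModularCurve_GenusNumerics
import Fermat.Agent.S20.CombBasic
import Fermat.Agent.S20.CombFixed
import Fermat.Agent.S20.CombCusp
import Fermat.Agent.S20.CombIndex

set_option autoImplicit false

open scoped MatrixGroups
open CongruenceSubgroup

namespace Fermat.Agent.S20

/-- The index of `Γ₀(N)` in `SL(2, ℤ)` is the Dedekind psi function. -/
theorem index_Gamma0 (N : ℕ) [NeZero N] : (Gamma0 N).index = ModularCurve.dedekindPsi N :=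
  Comb.index_Gamma0_aux N (NeZero.ne N)

/-- The number of cosets of `Γ₀(N)` in `SL(2, ℤ)` is the Dedekind psi function. -/
theorem card_quot (N : ℕ) [NeZero N] :
    Nat.card (SL(2, ℤ) ⧸ Gamma0 N) = ModularCurve.dedekindPsi N :=
  index_Gamma0 N

/-- The number of fixed points of `S` on `SL(2, ℤ) ⧸ Γ₀(N)` is `nuTwo N`. -/
theorem card_fixedBy_S (N : ℕ) [NeZero N] :
    Nat.card (MulAction.fixedBy (SL(2, ℤ) ⧸ Gamma0 N) ModularGroup.S) = ModularCurve.nuTwo N :=
  Comb.card_fixedBy_S N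

/-- The number of fixed points of `S * T` on `SL(2, ℤ) ⧸ Γ₀(N)` is `nuThree N`. -/
theorem card_fixedBy_ST (N : ℕ) [NeZero N] :
    Nat.card (MulAction.fixedBy (SL(2, ℤ) ⧸ Gamma0 N) (ModularGroup.S * ModularGroup.T)) =
      ModularCurve.nuThree N :=
  Comb.card_fixedBy_ST N

/-- The number of orbits of `T` on `SL(2, ℤ) ⧸ Γ₀(N)` is `cuspCount N`. -/
theorem card_orbits_T (N : ℕ) [NeZero N] :
    Nat.card (MulAction.orbitRel.Quotient (Subgroup.zpowers ModularGroup.T)
      (SL(2, ℤ) ⧸ Gamma0 N)) = ModularCurve.cuspCount N :=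
  Comb.card_orbits_T_aux N

namespace Comb

/-- `-1` acts trivially on `SL(2, ℤ) ⧸ Γ₀(N)`. -/
theorem neg_one_smul_quot {N : ℕ} (x : SL(2, ℤ) ⧸ Gamma0 N) : (-1 : SL(2, ℤ)) • x = x := by
  induction x using QuotientGroup.induction_on with
  | H g =>
  rw [smul_mk, mk_eq_mk_iff]
  unfold cross
  have h0 : ((-1 : SL(2, ℤ)) * g) 0 0 = -(g 0 0) := by
    rw [Matrix.SpecialLinearGroup.coe_mul, Matrix.mul_apply, Fin.sum_univ_two]
    simp
  have h1 : ((-1 : SL(2, ℤ)) * g) 1 0 = -(g 1 0) := by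
    rw [Matrix.SpecialLinearGroup.coe_mul, Matrix.mul_apply, Fin.sum_univ_two]
    simp
  rw [h0, h1]
  have : -(g 0 0) * g 1 0 - -(g 1 0) * g 0 0 = 0 := by ring
  rw [this]
  exact dvd_zero _

lemma S_mul_S : ModularGroup.S * ModularGroup.S = -1 := by
  apply Subtype.ext
  rw [Matrix.SpecialLinearGroup.coe_mul, ModularGroup.S_mul_S_eq]
  simp

lemma ST_pow_three : (ModularGroup.S * ModularGroup.T) ^ 3 = -1 := by
  apply Subtype.ext
  rw [Matrix.SpecialLinearGroup.coe_pow, Matrix.SpecialLinearGroup.coe_mul]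
  simp only [ModularGroup.S, ModularGroup.T]
  simp [pow_succ, Matrix.one_fin_two]

/-- `S` acts as an involution on `SL(2, ℤ) ⧸ Γ₀(N)`. -/
theorem S_smul_S_smul {N : ℕ} (x : SL(2, ℤ) ⧸ Gamma0 N) :
    ModularGroup.S • ModularGroup.S • x = x := by
  rw [smul_smul, S_mul_S, neg_one_smul_quot]

/-- `S * T` acts with order dividing three on `SL(2, ℤ) ⧸ Γ₀(N)`. -/
theorem ST_smul_ST_smul_ST_smul {N : ℕ} (x : SL(2, ℤ) ⧸ Gamma0 N) :
    (ModularGroup.S * ModularGroup.T) • (ModularGroup.S * ModularGroup.T) •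
      (ModularGroup.S * ModularGroup.T) • x = x := by
  rw [smul_smul, smul_smul, ← pow_two, ← pow_succ, ST_pow_three, neg_one_smul_quot]

end Comb

end Fermat.Agent.S20
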