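import Mathlib
import Fermat.Agent.S20.Ring
import Fermat.Agent.S20.RH
import Fermat.Agent.S20.DictFin
import Fermat.Agent.S20.ConstFF
import Fermat.Agent.S21.Orbits

/-!
# S20: the lower bound `genusFormula N ≤ dim S₂(Γ₀(N))`, modulo the places at infinity and
the map `holoDiff → S₂`

`genus_le_of` assembles the abstract Riemann–Hurwitz formula (`RH.lean`) for the function field
`FF N` of `X₀(N)`, the count of the places over `j = 1728`, `j = 0` (`DictFin.lean`),
`B ∩ B_∞ = ℂ` (`ConstFF.lean`), the degree `[FF N : ℂ(j)]` (`Ring.lean`) and the orbit count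
(`S21/Orbits.lean`).
-/

set_option autoImplicit false

open UpperHalfPlane hiding I
open Polynomial IsDedekindDomain CongruenceSubgroup
open scoped MatrixGroups RatFunc

namespace Fermat.Agent.S20

theorem jFun_I_ne_jFun_rho : jFun UpperHalfPlane.I ≠ jFun rho := by
  rw [jFun_I, jFun_rho]
  norm_num

/-- The lower bound for the dimension of weight two cusp forms, given the count of the places at
infinity and the comparison of `holoDiff` with cusp forms. -/
theorem genus_le_of (N : ℕ) [NeZero N]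
    (hinf : Nat.card (HeightOneSpectrum (Binf N)) ≤
      Nat.card (MulAction.orbitRel.Quotient (Subgroup.zpowers ModularGroup.T)
        (SL(2, ℤ) ⧸ Gamma0 N)))
    (hle : Module.finrank ℂ (holoDiff ℂ (FF N) (WH (Gamma0 N)) (Binf N)) ≤
      Module.finrank ℂ (CuspForm (Gamma0 N) 2)) :
    ModularCurve.genusFormula N ≤ (Module.finrank ℂ (CuspForm (Gamma0 N) 2) : ℚ) := by
  obtain ⟨-, hrh⟩ := finrank_holoDiff ℂ (FF N) (WH (Gamma0 N)) (Binf N)
    (jFun UpperHalfPlane.I) (jFun rho) jFun_I_ne_jFun_rho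
    (const_of_isIntegral N) (ramificationIdx_eq_one_of_ne N)
  have h1 := card_primes_over_I_le N
  have h2 := card_primes_over_rho_le N
  have hdeg : Nat.card (SL(2, ℤ) ⧸ Gamma0 N) ≤ Module.finrank (RatFunc ℂ) (FF N) :=
    le_finrank_FF N
  have horb := Fermat.Agent.S21.orbit_count N
  unfold Fermat.Agent.S21.nOrb at horb
  have horb' : ((Nat.card (SL(2, ℤ) ⧸ Gamma0 N) : ℚ) + 2
      - Nat.card (MulAction.orbitRel.Quotient (Subgroup.zpowers ModularGroup.S)
          (SL(2, ℤ) ⧸ Gamma0 N))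
      - Nat.card (MulAction.orbitRel.Quotient (Subgroup.zpowers ModularGroup.T)
          (SL(2, ℤ) ⧸ Gamma0 N))
      - Nat.card (MulAction.orbitRel.Quotient (Subgroup.zpowers (ModularGroup.S * ModularGroup.T))
          (SL(2, ℤ) ⧸ Gamma0 N))) = 2 * ModularCurve.genusFormula N := horb
  have hle' : (Module.finrank ℂ (holoDiff ℂ (FF N) (WH (Gamma0 N)) (Binf N)) : ℚ) ≤
      (Module.finrank ℂ (CuspForm (Gamma0 N) 2) : ℚ) := by exact_mod_cast hle
  have hrh' : (2 * Module.finrank ℂ (holoDiff ℂ (FF N) (WH (Gamma0 N)) (Binf N)) : ℚ) =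
      2 + Module.finrank (RatFunc ℂ) (FF N)
        - Nat.card {𝔮 : HeightOneSpectrum (WH (Gamma0 N)) //
            algebraMap ℂ[X] (WH (Gamma0 N)) (X - C (jFun UpperHalfPlane.I)) ∈ 𝔮.asIdeal}
        - Nat.card {𝔮 : HeightOneSpectrum (WH (Gamma0 N)) //
            algebraMap ℂ[X] (WH (Gamma0 N)) (X - C (jFun rho)) ∈ 𝔮.asIdeal}
        - Nat.card (HeightOneSpectrum (Binf N)) := by exact_mod_cast hrh
  have h1' := (Nat.cast_le (α := ℚ)).mpr h1
  have h2' := (Nat.cast_le (α := ℚ)).mpr h2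
  have h3' := (Nat.cast_le (α := ℚ)).mpr hinf
  have hdeg' := (Nat.cast_le (α := ℚ)).mpr hdeg
  linarith

end Fermat.Agent.S20
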