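import Mathlib
import Fermat.Agent.S20.LevelOneBasic
import Fermat.Agent.S20.Stab
import Fermat.Agent.S23.Glue
import Fermat.Agent.S23.Analysis

/-!
# S20 step (4): the bridge between weight-two cusp forms and differentials `w · dj`

* `Bridge.exists_mdiff_mul_eq_of_ordAt_le`: division of holomorphic functions on `ℍ` by orders.
* `Bridge.exists_cuspForm_of_orders`: for weakly holomorphic `Γ₀(N)`-invariant `a`, `b ≠ 0`
  with `ord_z b ≤ ord_z a + ord_z (D j)` at all points and `a · D j / b → 0` at all cusps there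
  is a cusp form `f` of weight two with `f · b = a · D j`.
* `Bridge.finrank_le_finrank_cuspForm`: a subspace `H` of the function field all of whose
  elements `a / b` admit such an `f` has dimension at most `dim S₂(Γ₀(N))`.
-/

set_option autoImplicit false

open UpperHalfPlane hiding I
open Complex Filter Topology ModularForm Derivative CongruenceSubgroup
open scoped MatrixGroups Manifold

namespace Fermat.Agent.S20

namespace Bridge

/-- Division in the ring of holomorphic functions on `ℍ`, by orders of vanishing. -/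
theorem exists_mdiff_mul_eq_of_ordAt_le {n d : ℍ → ℂ} (hn : MDiff n) (hd : MDiff d)
    (hd0 : d ≠ 0) (h : ∀ z, ordAt d z ≤ ordAt n z) :
    ∃ g : ℍ → ℂ, MDiff g ∧ ∀ z, g z * d z = n z := by
  set U : Set ℂ := {z | 0 < z.im} with hUdef
  have hU : IsOpen U := isOpen_upperHalfPlaneSet
  set n' : ℂ → ℂ := n ∘ ofComplex with hn'
  set d' : ℂ → ℂ := d ∘ ofComplex with hd'
  have hnA : AnalyticOnNhd ℂ n' U := (UpperHalfPlane.mdifferentiable_iff.mp hn).analyticOnNhd hU
  have hdA : AnalyticOnNhd ℂ d' U := (UpperHalfPlane.mdifferentiable_iff.mp hd).analyticOnNhd hU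
  set q : ℂ → ℂ := n' / d' with hqdef
  have hq : MeromorphicOn q U := fun z hz =>
    (hnA z hz).meromorphicAt.div (hdA z hz).meromorphicAt
  set g' : ℂ → ℂ := toMeromorphicNFOn q U with hg'
  have hdtop : ∀ z ∈ U, analyticOrderAt d' z ≠ ⊤ := by
    intro z hz htop
    rw [analyticOrderAt_eq_top] at htop
    apply hd0
    apply UpperHalfPlane.eq_zero_of_frequently hd (τ := ⟨z, hz⟩)
    have h1 : ∀ᶠ w in 𝓝 (⟨z, hz⟩ : ℍ), d w = 0 := by
      have hcont : ContinuousAt ((↑) : ℍ → ℂ) (⟨z, hz⟩ : ℍ) := continuous_coe.continuousAt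
      have := hcont.eventually (show ∀ᶠ w in 𝓝 (((⟨z, hz⟩ : ℍ) : ℂ)), d' w = 0 from htop)
      filter_upwards [this] with w hw
      simpa [hd'] using hw
    exact (h1.filter_mono nhdsWithin_le_nhds).frequently
  have hord : ∀ z ∈ U, 0 ≤ meromorphicOrderAt q z := by
    intro z hz
    rw [hqdef, meromorphicOrderAt_div (hnA z hz).meromorphicAt (hdA z hz).meromorphicAt,
      (hnA z hz).meromorphicOrderAt_eq, (hdA z hz).meromorphicOrderAt_eq]
    have hle : analyticOrderAt d' z ≤ analyticOrderAt n' z := h ⟨z, hz⟩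
    obtain ⟨m, hm⟩ := ENat.ne_top_iff_exists.mp (hdtop z hz)
    rw [← hm] at hle ⊢
    rcases eq_or_ne (analyticOrderAt n' z) ⊤ with ht | ht
    · rw [ht]; simp
    · obtain ⟨k, hk⟩ := ENat.ne_top_iff_exists.mp ht
      rw [← hk] at hle ⊢
      have hmk : m ≤ k := by exact_mod_cast hle
      simp only [ENat.map_natCast]
      have : ((k : ℤ) : WithTop ℤ) - ((m : ℤ) : WithTop ℤ) = (((k : ℤ) - (m : ℤ) : ℤ) : WithTop ℤ) := by
        norm_cast
      rw [this]
      exact_mod_cast (sub_nonneg.mpr (Int.ofNat_le.mpr hmk))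
  have hgA : ∀ z ∈ U, AnalyticAt ℂ g' z := fun z hz =>
    ((meromorphicNFOn_toMeromorphicNFOn q U hz).meromorphicOrderAt_nonneg_iff_analyticAt).mp
      (by rw [meromorphicOrderAt_toMeromorphicNFOn hq hz]; exact hord z hz)
  have hmul : ∀ z ∈ U, g' z * d' z = n' z := by
    intro z hz
    have hne : ∀ᶠ w in 𝓝[≠] z, d' w ≠ 0 :=
      (hdA z hz).eventually_eq_zero_or_eventually_ne_zero.resolve_left
        (by rw [← analyticOrderAt_eq_top]; exact hdtop z hz)
    have h1 : ∀ᶠ w in 𝓝[≠] z, g' w * d' w = n' w := by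
      filter_upwards [hq.toMeromorphicNFOn_eq_self_on_nhdsNE hz, hne] with w hw1 hw2
      rw [hg', hw1, hqdef, Pi.div_apply]
      field_simp
    have hc1 : ContinuousAt (fun w => g' w * d' w) z :=
      (hgA z hz).continuousAt.mul (hdA z hz).continuousAt
    have hc2 : ContinuousAt n' z := (hnA z hz).continuousAt
    exact tendsto_nhds_unique (hc1.tendsto.mono_left nhdsWithin_le_nhds)
      ((hc2.tendsto.mono_left nhdsWithin_le_nhds).congr' (h1.mono fun w hw => hw.symm))
  refine ⟨fun z => g' z, ?_, fun z => ?_⟩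
  · rw [UpperHalfPlane.mdifferentiable_iff]
    intro z hz
    have : (fun w : ℍ => g' w) ∘ ofComplex =ᶠ[𝓝 z] g' := by
      filter_upwards [hU.mem_nhds hz] with w hw
      simp [ofComplex_apply_of_im_pos hw]
    exact ((hgA z hz).differentiableAt.congr_of_eventuallyEq this).differentiableWithinAt
  · have := hmul z z.im_pos
    simpa [hn', hd'] using this

theorem ordAt_mul {a c : ℍ → ℂ} (ha : MDiff a) (hc : MDiff c) (z : ℍ) :
    ordAt (a * c) z = ordAt a z + ordAt c z := by
  have hU : IsOpen {z : ℂ | 0 < z.im} := isOpen_upperHalfPlaneSet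
  have haA : AnalyticAt ℂ (a ∘ ofComplex) z :=
    (UpperHalfPlane.mdifferentiable_iff.mp ha).analyticOnNhd hU z z.im_pos
  have hcA : AnalyticAt ℂ (c ∘ ofComplex) z :=
    (UpperHalfPlane.mdifferentiable_iff.mp hc).analyticOnNhd hU z z.im_pos
  exact analyticOrderAt_mul haA hcA

theorem mdiff_D_jFun : MDiff (D jFun) := normalizedDerivOfComplex_mdifferentiable mdiff_jFun

/-- `D j` has weight `2`. -/
theorem D_jFun_smul (g : SL(2, ℤ)) (z : ℍ) : D jFun (g • z) = denom g z ^ 2 * D jFun z := by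
  have h := normalizedDerivOfComplex_SL_slash (k := 0) (F := jFun) mdiff_jFun (γ := g)
  have hj : jFun ∣[(0:ℤ)] g = jFun := by
    funext w
    rw [ModularForm.SL_slash_apply, jFun_smul, neg_zero, zpow_zero, mul_one]
  rw [hj] at h
  have h2 := congrFun h z
  simp only [Pi.sub_apply, Int.cast_zero, zero_mul, sub_zero, zero_add] at h2
  rw [ModularForm.SL_slash_apply] at h2
  have hd : denom g z ≠ 0 := denom_ne_zero g z
  rw [h2, zpow_neg, show denom g z ^ (2:ℤ) = denom g z ^ 2 by norm_cast]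
  field_simp

/-- From order conditions to a cusp form `f` with `f · b = a · D j`. -/
theorem exists_cuspForm_of_orders (N : ℕ) [NeZero N] {a b : ℍ → ℂ}
    (ha : IsWH (Gamma0 N) a) (hb : IsWH (Gamma0 N) b) (hb0 : b ≠ 0)
    (hord : ∀ z : ℍ, ordAt b z ≤ ordAt a z + ordAt (D jFun) z)
    (hcusp : ∀ g : SL(2, ℤ), (∀ᶠ z in atImInfty, b (g • z) ≠ 0) ∧
      Tendsto (fun z : ℍ => a (g • z) * D jFun z / b (g • z)) atImInfty (𝓝 0)) :
    ∃ f : CuspForm (Gamma0 N) 2, ∀ z, f z * b z = a z * D jFun z := by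
  obtain ⟨f₀, hf₀, hmul⟩ := exists_mdiff_mul_eq_of_ordAt_le (n := a * D jFun)
    (ha.mdiff.mul mdiff_D_jFun) hb.mdiff hb0
    (fun z => by rw [ordAt_mul ha.mdiff mdiff_D_jFun]; exact hord z)
  simp only [Pi.mul_apply] at hmul
  have hslash : ∀ (g : SL(2, ℤ)) (w : ℍ),
      (f₀ ∣[(2:ℤ)] g) w * b (g • w) = a (g • w) * D jFun w := by
    intro g w
    rw [ModularForm.SL_slash_apply]
    have e1 := hmul (g • w)
    rw [D_jFun_smul] at e1
    have hd : denom g w ≠ 0 := denom_ne_zero g w
    rw [zpow_neg, show denom g w ^ (2:ℤ) = denom g w ^ 2 by norm_cast]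
    field_simp
    linear_combination e1
  have hinv : ∀ γ ∈ Gamma0 N, f₀ ∣[(2:ℤ)] γ = f₀ := by
    intro γ hγ
    have h1 : (f₀ ∣[(2:ℤ)] γ) * b = f₀ * b := by
      funext w
      simp only [Pi.mul_apply]
      have e1 := hslash γ w
      rw [hb.inv γ hγ w, ha.inv γ hγ w] at e1
      rw [e1, hmul w]
    exact Fermat.Agent.S23.mdiff_mul_right_cancel (hf₀.slash 2 _) hf₀ hb.mdiff hb0 h1
  have hzero : ∀ g : SL(2, ℤ), IsZeroAtImInfty (f₀ ∣[(2:ℤ)] g) := by
    intro g
    obtain ⟨hne, ht⟩ := hcusp g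
    refine ht.congr' ?_
    filter_upwards [hne] with z hz
    have e1 := hslash g z
    field_simp
    linear_combination -e1
  obtain ⟨G, hG⟩ := Fermat.Agent.S23.Glue.exists_cuspForm_of_mdiff N 2 f₀ hf₀ hinv hzero
  exact ⟨G, fun z => by rw [hG]; exact hmul z⟩

/-- The derivative of a holomorphic function bounded at `i∞` is bounded at `i∞`
(Cauchy estimate on discs of radius one). -/
theorem isBoundedAtImInfty_D {F : ℍ → ℂ} (hF : MDiff F) (hb : IsBoundedAtImInfty F) :
    IsBoundedAtImInfty (D F) := by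
  rw [isBoundedAtImInfty_iff] at hb ⊢
  obtain ⟨M, A, hMA⟩ := hb
  refine ⟨‖(2 * (Real.pi : ℂ) * I)⁻¹‖ * (M / 1), max A 0 + 2, fun z hz => ?_⟩
  have hA : A + 2 ≤ z.im := le_trans (by linarith [le_max_left A 0]) hz
  have h0 : 2 ≤ z.im := le_trans (by linarith [le_max_right A 0]) hz
  have hdiff : DifferentiableOn ℂ (F ∘ ofComplex) {w : ℂ | 0 < w.im} :=
    UpperHalfPlane.mdifferentiable_iff.mp hF
  have hsub : ∀ w ∈ Metric.closedBall (z : ℂ) 1, A ≤ w.im ∧ 0 < w.im := by
    intro w hw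
    have h1 : |(w - (z:ℂ)).im| ≤ 1 :=
      (Complex.abs_im_le_norm _).trans (by simpa [dist_eq_norm] using hw)
    have h2 : (w - (z:ℂ)).im = w.im - z.im := by simp
    rw [h2, abs_le] at h1
    constructor <;> linarith [h1.1]
  have hd : DiffContOnCl ℂ (F ∘ ofComplex) (Metric.ball (z:ℂ) 1) := by
    apply DifferentiableOn.diffContOnCl
    rw [closure_ball _ one_ne_zero]
    exact hdiff.mono (fun w hw => (hsub w hw).2)
  have hC : ∀ w ∈ Metric.sphere (z:ℂ) 1, ‖(F ∘ ofComplex) w‖ ≤ M := by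
    intro w hw
    have hw' := hsub w (Metric.sphere_subset_closedBall hw)
    have : (F ∘ ofComplex) w = F ⟨w, hw'.2⟩ := by
      simp [ofComplex_apply_of_im_pos hw'.2]
    rw [this]
    exact hMA _ hw'.1
  have hder := Complex.norm_deriv_le_of_forall_mem_sphere_norm_le one_pos hd hC
  show ‖(2 * (Real.pi : ℂ) * I)⁻¹ * deriv (F ∘ ofComplex) z‖ ≤ _
  rw [norm_mul]
  gcongr

theorem numAlg (u f e4 e6 Δ' : ℂ) (hu : u ≠ 0) (hΔ : Δ' ≠ 0) :
    (u ^ (2:ℤ) * f) * (u ^ (4:ℤ) * e4) * (u ^ (6:ℤ) * e6) / (u ^ (12:ℤ) * Δ') =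
      f * e4 * e6 / Δ' := by
  have e2 : u ^ (2:ℤ) = u ^ 2 := by norm_cast
  have e4' : u ^ (4:ℤ) = u ^ 4 := by norm_cast
  have e6' : u ^ (6:ℤ) = u ^ 6 := by norm_cast
  have e12 : u ^ (12:ℤ) = u ^ 12 := by norm_cast
  rw [e2, e4', e6', e12]
  field_simp

theorem denAlg (u e4 e6 dj Δ' : ℂ) (hu : u ≠ 0) (hΔ : Δ' ≠ 0) :
    (u ^ (4:ℤ) * e4) * (u ^ (6:ℤ) * e6) * (u ^ 2 * dj) / (u ^ (12:ℤ) * Δ') =
      e4 * e6 * dj / Δ' := by
  have e4' : u ^ (4:ℤ) = u ^ 4 := by norm_cast
  have e6' : u ^ (6:ℤ) = u ^ 6 := by norm_cast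
  have e12 : u ^ (12:ℤ) = u ^ 12 := by norm_cast
  rw [e4', e6', e12]
  field_simp

theorem mdiff_E₄ : MDiff (fun z : ℍ => E₄ z) := ModularFormClass.holo E₄
theorem mdiff_E₆ : MDiff (fun z : ℍ => E₆ z) := ModularFormClass.holo E₆
theorem mdiff_disc : MDiff (fun z : ℍ => ModularForm.discriminant z) :=
  ModularFormClass.holo CuspForm.discriminant

theorem cuspForm_smul (N : ℕ) (f : CuspForm (Gamma0 N) 2) {γ : SL(2, ℤ)} (hγ : γ ∈ Gamma0 N)
    (z : ℍ) : f (γ • z) = denom γ z ^ (2:ℤ) * f z :=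
  SlashInvariantForm.slash_action_eqn_SL'' f hγ z

/-- The numerator `f · E₄ · E₆ / Δ` attached to a weight-two cusp form is weakly holomorphic. -/
theorem isWH_num (N : ℕ) [NeZero N] (f : CuspForm (Gamma0 N) 2) :
    IsWH (Gamma0 N) (fun z : ℍ => f z * E₄ z * E₆ z / ModularForm.discriminant z) where
  mdiff := by
    have hf : MDiff (fun z : ℍ => f z) := CuspFormClass.holo f
    exact ((hf.mul mdiff_E₄).mul mdiff_E₆).div mdiff_disc ModularForm.discriminant_ne_zero
  inv := by
    intro γ hγ z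
    rw [cuspForm_smul N f hγ, E₄_smul, E₆_smul, disc_smul]
    exact numAlg _ _ _ _ _ (denom_ne_zero γ z) (ModularForm.discriminant_ne_zero z)
  bdd := ⟨1, fun g => by
    have key : (fun z : ℍ => (f (g • z) * E₄ (g • z) * E₆ (g • z) /
        ModularForm.discriminant (g • z)) * ModularForm.discriminant z ^ 1) =
        ((⇑f ∣[(2:ℤ)] g) * (fun z : ℍ => E₄ z)) * (fun z : ℍ => E₆ z) := by
      funext z
      simp only [Pi.mul_apply]
      rw [ModularForm.SL_slash_apply, E₄_smul, E₆_smul, disc_smul]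
      have hu : denom g z ≠ 0 := denom_ne_zero g z
      have hΔ := ModularForm.discriminant_ne_zero z
      have e2 : denom g z ^ (-(2:ℤ)) = (denom g z ^ 2)⁻¹ := by
        rw [zpow_neg]; norm_cast
      have e4' : denom g z ^ (4:ℤ) = denom g z ^ 4 := by norm_cast
      have e6' : denom g z ^ (6:ℤ) = denom g z ^ 6 := by norm_cast
      have e12 : denom g z ^ (12:ℤ) = denom g z ^ 12 := by norm_cast
      rw [e2, e4', e6', e12]
      field_simp
    rw [key]
    exact ((Fermat.Agent.S23.Glue.cuspForm_slash_isZeroAtImInfty N f g).isBoundedAtImInfty.mul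
      (ModularFormClass.bdd_at_infty E₄)).mul (ModularFormClass.bdd_at_infty E₆)⟩

/-- `D j · Δ² = D(E₄³) · Δ − E₄³ · D Δ`. -/
theorem D_jFun_mul_disc_sq (z : ℍ) :
    D jFun z * ModularForm.discriminant z ^ 2 =
      D (fun w : ℍ => E₄ w ^ 3) z * ModularForm.discriminant z -
        E₄ z ^ 3 * D (fun w : ℍ => ModularForm.discriminant w) z := by
  have h1 : (fun w : ℍ => E₄ w ^ 3) = jFun * (fun w : ℍ => ModularForm.discriminant w) := by
    funext w
    simp only [Pi.mul_apply]
    rw [jFun_mul_disc]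
  have h2 := normalizedDerivOfComplex_mul jFun (fun w : ℍ => ModularForm.discriminant w)
    mdiff_jFun mdiff_disc
  rw [← h1] at h2
  have h3 := congrFun h2 z
  simp only [Pi.add_apply, Pi.mul_apply] at h3
  rw [h3, ← jFun_mul_disc z]
  ring

theorem isBoundedAtImInfty_D_jFun_mul :
    IsBoundedAtImInfty (fun z : ℍ => D jFun z * ModularForm.discriminant z ^ 2) := by
  have hE : IsBoundedAtImInfty (fun z : ℍ => E₄ z ^ 3) := isBoundedAtImInfty_E₄_cube
  have hE' : MDiff (fun z : ℍ => E₄ z ^ 3) := mdiff_E₄.pow 3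
  have hΔ : IsBoundedAtImInfty (fun z : ℍ => ModularForm.discriminant z) := isBoundedAtImInfty_disc
  have h1 := (isBoundedAtImInfty_D hE' hE).mul hΔ
  have h2 := hE.mul (isBoundedAtImInfty_D mdiff_disc hΔ)
  have h3 := h1.sub h2
  have e : (fun z : ℍ => D jFun z * ModularForm.discriminant z ^ 2) =
      (D (fun w : ℍ => E₄ w ^ 3) * fun z : ℍ => ModularForm.discriminant z) -
        (fun z : ℍ => E₄ z ^ 3) * D (fun w : ℍ => ModularForm.discriminant w) := by
    funext z
    simp only [Pi.sub_apply, Pi.mul_apply]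
    exact D_jFun_mul_disc_sq z
  rw [e]
  exact h3

/-- The denominator `E₄ · E₆ · D j / Δ` is weakly holomorphic of level one. -/
theorem isWH_den :
    IsWH (⊤ : Subgroup SL(2, ℤ))
      (fun z : ℍ => E₄ z * E₆ z * D jFun z / ModularForm.discriminant z) where
  mdiff := ((mdiff_E₄.mul mdiff_E₆).mul mdiff_D_jFun).div mdiff_disc
    ModularForm.discriminant_ne_zero
  inv := by
    intro γ _ z
    rw [E₄_smul, E₆_smul, disc_smul, D_jFun_smul]
    exact denAlg _ _ _ _ _ (denom_ne_zero γ z) (ModularForm.discriminant_ne_zero z)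
  bdd := ⟨3, fun g => by
    have key : (fun z : ℍ => (E₄ (g • z) * E₆ (g • z) * D jFun (g • z) /
        ModularForm.discriminant (g • z)) * ModularForm.discriminant z ^ 3) =
        ((fun z : ℍ => E₄ z) * (fun z : ℍ => E₆ z)) *
          (fun z : ℍ => D jFun z * ModularForm.discriminant z ^ 2) := by
      funext z
      simp only [Pi.mul_apply]
      rw [E₄_smul, E₆_smul, disc_smul, D_jFun_smul,
        denAlg _ _ _ _ _ (denom_ne_zero g z) (ModularForm.discriminant_ne_zero z)]
      have hΔ := ModularForm.discriminant_ne_zero z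
      field_simp
    rw [key]
    exact ((ModularFormClass.bdd_at_infty E₄).mul (ModularFormClass.bdd_at_infty E₆)).mul
      isBoundedAtImInfty_D_jFun_mul⟩

theorem E₄_I_ne_zero : E₄ UpperHalfPlane.I ≠ 0 := by
  intro h
  have h1 := ModularForm.discriminant_eq_E₄_cube_sub_E₆_sq UpperHalfPlane.I
  rw [h, E₆_I] at h1
  exact ModularForm.discriminant_ne_zero UpperHalfPlane.I (by rw [h1]; simp)

theorem E₆_rho_ne_zero : E₆ rho ≠ 0 := by
  intro h
  have h1 := ModularForm.discriminant_eq_E₄_cube_sub_E₆_sq rho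
  rw [h, E₄_rho] at h1
  exact ModularForm.discriminant_ne_zero rho (by rw [h1]; simp)

/-- `j` is not constant: its derivative is not identically zero. -/
theorem D_jFun_ne_zero : D jFun ≠ 0 := by
  intro h
  have hdiff : DifferentiableOn ℂ (jFun ∘ ofComplex) {w : ℂ | 0 < w.im} :=
    UpperHalfPlane.mdifferentiable_iff.mp mdiff_jFun
  have hderiv : Set.EqOn (deriv (jFun ∘ ofComplex)) 0 {w : ℂ | 0 < w.im} := by
    intro w hw
    have h0 := congrFun h ⟨w, hw⟩
    simp only [normalizedDerivOfComplex, Pi.zero_apply] at h0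
    rcases mul_eq_zero.mp h0 with h1 | h1
    · exfalso
      have : (2 * (Real.pi : ℂ) * Complex.I) ≠ 0 := by
        simp [Real.pi_ne_zero]
      exact (inv_ne_zero this) h1
    · exact h1
  have hpre : IsPreconnected {w : ℂ | 0 < w.im} := (convex_halfSpace_im_gt 0).isPreconnected
  have hconst := IsOpen.is_const_of_deriv_eq_zero isOpen_upperHalfPlaneSet hpre hdiff hderiv
    (x := ((UpperHalfPlane.I : ℍ) : ℂ)) (y := ((rho : ℍ) : ℂ)) UpperHalfPlane.I.im_pos rho.im_pos
  simp only [Function.comp_apply, ofComplex_apply] at hconst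
  rw [jFun_rho] at hconst
  exact E₄_I_ne_zero ((jFun_eq_zero_iff _).mp hconst)

theorem den_ne_zero :
    (fun z : ℍ => E₄ z * E₆ z * D jFun z / ModularForm.discriminant z) ≠ 0 := by
  intro h
  have h1 : ((fun z : ℍ => E₄ z) * (fun z : ℍ => E₆ z)) * D jFun = 0 := by
    funext z
    have h0 := congrFun h z
    simp only [Pi.zero_apply, div_eq_zero_iff] at h0
    rcases h0 with h0 | h0
    · simpa using h0
    · exact absurd h0 (ModularForm.discriminant_ne_zero z)
  rcases (UpperHalfPlane.mul_eq_zero_iff (mdiff_E₄.mul mdiff_E₆) mdiff_D_jFun).mp h1 with h2 | h2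
  · rcases (UpperHalfPlane.mul_eq_zero_iff mdiff_E₄ mdiff_E₆).mp h2 with h3 | h3
    · exact E₄_I_ne_zero (congrFun h3 UpperHalfPlane.I)
    · exact E₆_rho_ne_zero (congrFun h3 rho)
  · exact D_jFun_ne_zero h2

/-- The numerator attached to a cusp form, as an element of `WH Γ₀(N)`. -/
noncomputable def numWH (N : ℕ) [NeZero N] (f : CuspForm (Gamma0 N) 2) : WH (Gamma0 N) :=
  ⟨fun z : ℍ => f z * E₄ z * E₆ z / ModularForm.discriminant z, isWH_num N f⟩

/-- The common denominator `E₄ E₆ D j / Δ`, as an element of `WH Γ₀(N)`. -/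
noncomputable def denWH (N : ℕ) : WH (Gamma0 N) :=
  ⟨fun z : ℍ => E₄ z * E₆ z * D jFun z / ModularForm.discriminant z,
    WH_mono le_top (mem_WH.mpr isWH_den)⟩

theorem denWH_ne_zero (N : ℕ) : denWH N ≠ 0 := by
  intro h
  exact den_ne_zero (congrArg Subtype.val h)

/-- **Bridge, linear-algebra part**: a subspace `H` of the function field of `X₀(N)` all of whose
elements `a / b` come with a cusp form `f` such that `f · b = a · D j` has dimension at most
`dim S₂(Γ₀(N))`. -/
theorem finrank_le_finrank_cuspForm (N : ℕ) [NeZero N]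
    (L : Type) [Field L] [Algebra (WH (Gamma0 N)) L] [IsFractionRing (WH (Gamma0 N)) L]
    [Algebra ℂ L] [IsScalarTower ℂ (WH (Gamma0 N)) L]
    [Module.Finite ℂ (CuspForm (Gamma0 N) 2)] (H : Submodule ℂ L)
    (hH : ∀ a b : WH (Gamma0 N), b ≠ 0 → algebraMap (WH (Gamma0 N)) L a /
        algebraMap (WH (Gamma0 N)) L b ∈ H →
      ∃ f : CuspForm (Gamma0 N) 2, ∀ z, f z * b.1 z = a.1 z * D jFun z) :
    Module.finrank ℂ H ≤ Module.finrank ℂ (CuspForm (Gamma0 N) 2) := by
  have : IsDomain (WH (Gamma0 N)) :=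
    (IsFractionRing.injective (WH (Gamma0 N)) L).isDomain _
  let Ψ : CuspForm (Gamma0 N) 2 →ₗ[ℂ] L :=
    { toFun := fun f => algebraMap (WH (Gamma0 N)) L (numWH N f) /
        algebraMap (WH (Gamma0 N)) L (denWH N)
      map_add' := by
        intro f g
        have : numWH N (f + g) = numWH N f + numWH N g := by
          apply Subtype.ext
          funext z
          show (f + g) z * E₄ z * E₆ z / ModularForm.discriminant z =
            f z * E₄ z * E₆ z / ModularForm.discriminant z +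
              g z * E₄ z * E₆ z / ModularForm.discriminant z
          rw [show (f + g) z = f z + g z from rfl]
          ring
        rw [this, map_add, add_div]
      map_smul' := by
        intro c f
        have : numWH N (c • f) = c • numWH N f := by
          apply Subtype.ext
          funext z
          show (c • f) z * E₄ z * E₆ z / ModularForm.discriminant z =
            c • (f z * E₄ z * E₆ z / ModularForm.discriminant z)
          rw [show (c • f) z = c • f z from rfl, smul_eq_mul, smul_eq_mul]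
          ring
        rw [this, RingHom.id_apply, Algebra.algebraMap_eq_smul_one, smul_assoc,
          ← Algebra.algebraMap_eq_smul_one, smul_div_assoc] }
  have hle : H ≤ LinearMap.range Ψ := by
    intro w hw
    obtain ⟨a, b, hb, rfl⟩ := IsFractionRing.div_surjective (A := WH (Gamma0 N)) w
    have hb0 : b ≠ 0 := nonZeroDivisors.ne_zero hb
    obtain ⟨f, hf⟩ := hH a b hb0 hw
    refine ⟨f, ?_⟩
    show algebraMap (WH (Gamma0 N)) L (numWH N f) / algebraMap (WH (Gamma0 N)) L (denWH N) = _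
    have hinj := IsFractionRing.injective (WH (Gamma0 N)) L
    have hd0 : algebraMap (WH (Gamma0 N)) L (denWH N) ≠ 0 := fun h =>
      denWH_ne_zero N (hinj (by rw [h, map_zero]))
    have hb0' : algebraMap (WH (Gamma0 N)) L b ≠ 0 := fun h => hb0 (hinj (by rw [h, map_zero]))
    rw [div_eq_div_iff hd0 hb0', ← map_mul, ← map_mul]
    congr 1
    apply Subtype.ext
    funext z
    show (f z * E₄ z * E₆ z / ModularForm.discriminant z) * b.1 z =
      a.1 z * (E₄ z * E₆ z * D jFun z / ModularForm.discriminant z)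
    have hΔ := ModularForm.discriminant_ne_zero z
    field_simp
    linear_combination E₄ z * E₆ z * hf z
  calc Module.finrank ℂ H ≤ Module.finrank ℂ (LinearMap.range Ψ) := Submodule.finrank_mono hle
    _ ≤ Module.finrank ℂ (CuspForm (Gamma0 N) 2) := LinearMap.finrank_range_le Ψ

end Bridge

end Fermat.Agent.S20
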