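import Mathlib
import Fermat.Agent.S20.OrdCusp
import Fermat.Agent.S20.JOrder

/-!
# S20 step (4), cusp side: from cusp orders to the vanishing of `a · D j / b` at the cusps

For weakly holomorphic `Γ₀(N)`-invariant `a`, `b ≠ 0` whose orders at the cusp `g • ∞` (in the
uniform parameter `q_N`) satisfy `ord b + N + 1 ≤ ord a`, the weight-two function
`a · D j / b` tends to `0` at that cusp.  This is the `hcusp` hypothesis of
`Bridge.exists_cuspForm_of_orders`.
-/

set_option autoImplicit false

open UpperHalfPlane ModularForm Function Filter Derivative CongruenceSubgroup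
open scoped MatrixGroups Manifold Topology

namespace Fermat.Agent.S20

namespace CuspTendsto

theorem E₆_per (h : ℕ) (z : ℍ) : E₆ ((h : ℝ) +ᵥ z) = E₆ z :=
  SlashInvariantForm.vAdd_apply_of_mem_strictPeriods E₆ z (OrdCusp.natCast_mem_strictPeriods_SL h)

theorem isMeroInf_E₆ (h : ℕ) : IsMeroInf h (fun z => E₆ z) :=
  IsMeroInf.of_bdd E₆.holo' (fun z => E₆_per h z) (ModularFormClass.bdd_at_infty E₆)

/-- If the order of the numerator at `i∞` exceeds the order of the denominator, the quotient
tends to `0` at `i∞`. -/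
theorem tendsto_div_of_ordInf_lt {h : ℕ} (hh : 0 < h) {P Q : ℍ → ℂ} (hP : IsMeroInf h P)
    (hQ : IsMeroInf h Q) (hlt : ordInf h Q < ordInf h P) :
    Tendsto (fun z => P z / Q z) atImInfty (𝓝 0) := by
  have hPm := hP.meromorphicAt hh
  have hQm := hQ.meromorphicAt hh
  have hdiv : MeromorphicAt
      ((fun q : ℂ => P (ofComplex (Function.Periodic.invQParam h q))) *
        (fun q : ℂ => Q (ofComplex (Function.Periodic.invQParam h q)))⁻¹) 0 := hPm.mul hQm.inv
  have hord : 0 < meromorphicOrderAt
      ((fun q : ℂ => P (ofComplex (Function.Periodic.invQParam h q))) *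
        (fun q : ℂ => Q (ofComplex (Function.Periodic.invQParam h q)))⁻¹) 0 := by
    rw [meromorphicOrderAt_mul hPm hQm.inv, meromorphicOrderAt_inv]
    change ordInf h Q < ordInf h P at hlt
    change 0 < ordInf h P + -ordInf h Q
    cases hq : ordInf h Q with
    | top => rw [hq] at hlt; exact absurd hlt (not_top_lt)
    | coe m =>
      rw [hq] at hlt
      cases hp : ordInf h P with
      | top => simp
      | coe n =>
        rw [hp] at hlt
        have hmn : m < n := by exact_mod_cast hlt
        have e : ((n : ℤ) : WithTop ℤ) + -((m : ℤ) : WithTop ℤ) = ((n - m : ℤ) : WithTop ℤ) := by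
          norm_cast
        rw [e]
        exact_mod_cast sub_pos.mpr hmn
  have ht := (tendsto_zero_iff_meromorphicOrderAt_pos hdiv).mpr hord
  have ht2 := ht.comp (OrdCusp.tendsto_qParam hh)
  refine ht2.congr (fun τ => ?_)
  simp only [comp_apply, Pi.mul_apply, Pi.inv_apply]
  rw [OrdCusp.eq_comp_qParam hh hP.per τ, OrdCusp.eq_comp_qParam hh hQ.per τ, div_eq_mul_inv]

end CuspTendsto

open CuspTendsto in
/-- From cusp orders (in `q_N`) to the cusp hypothesis of `Bridge.exists_cuspForm_of_orders`. -/
theorem cusp_condition_of_ordCuspZ (N : ℕ) [NeZero N] {a b : ℍ → ℂ}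
    (ha : IsWH (Gamma0 N) a) (hb : IsWH (Gamma0 N) b) (hb0 : b ≠ 0) (g : SL(2, ℤ))
    (h : a = 0 ∨ ordCuspZ N g b + N + 1 ≤ ordCuspZ N g a) :
    (∀ᶠ z in atImInfty, b (g • z) ≠ 0) ∧
      Tendsto (fun z : ℍ => a (g • z) * D jFun z / b (g • z)) atImInfty (𝓝 0) := by
  have hN : 0 < N := NeZero.pos N
  have hB := hb.isMeroInf g
  have hA := ha.isMeroInf g
  have hBord : ordInf N (fun z => b (g • z)) = ((ordCuspZ N g b : ℤ) : WithTop ℤ) :=
    ordCusp_eq_coe hb hb0 g
  constructor
  · have hm := hB.meromorphicAt hN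
    have hne : meromorphicOrderAt
        (fun q : ℂ => b (g • ofComplex (Function.Periodic.invQParam N q))) 0 ≠ ⊤ := by
      have h1 : ordInf N (fun z => b (g • z)) ≠ ⊤ := by rw [hBord]; exact WithTop.coe_ne_top
      exact h1
    have hev := (meromorphicOrderAt_ne_top_iff_eventually_ne_zero hm).mp hne
    have hev2 := (OrdCusp.tendsto_qParam hN).eventually hev
    filter_upwards [hev2] with τ hτ
    have e : b (g • ofComplex (Function.Periodic.invQParam N (Function.Periodic.qParam (N : ℝ) τ)))
        = b (g • τ) := OrdCusp.eq_comp_qParam (F := fun z => b (g • z)) hN hB.per τ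
    rwa [e] at hτ
  · by_cases ha0 : a = 0
    · subst ha0
      simp
    · have h' : ordCuspZ N g b + N + 1 ≤ ordCuspZ N g a := h.resolve_left ha0
      obtain ⟨c, -, hD⟩ := exists_D_jFun_eq
      have hAord : ordInf N (fun z => a (g • z)) = ((ordCuspZ N g a : ℤ) : WithTop ℤ) :=
        ordCusp_eq_coe ha ha0 g
      have hE : IsMeroInf N ((fun z : ℍ => E₄ z) ^ 2 * (fun z : ℍ => E₆ z)) :=
        ((isMeroInf_E₄ N).pow 2).mul (isMeroInf_E₆ N)
      have hEbd : IsBoundedAtImInfty ((fun z : ℍ => E₄ z) ^ 2 * (fun z : ℍ => E₆ z)) := by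
        have h4 : IsBoundedAtImInfty (fun z : ℍ => E₄ z) := ModularFormClass.bdd_at_infty E₄
        have h6 : IsBoundedAtImInfty (fun z : ℍ => E₆ z) := ModularFormClass.bdd_at_infty E₆
        have := (h4.mul h4).mul h6
        refine this.congr' ?_ ?_ <;> exact Eventually.of_forall fun z => by simp [pow_succ]
      have hE0 : 0 ≤ ordInf N ((fun z : ℍ => E₄ z) ^ 2 * (fun z : ℍ => E₆ z)) :=
        (ordInf_nonneg_iff hN hE).mpr hEbd
      have hP : IsMeroInf N ((fun z => a (g • z)) * ((fun z : ℍ => E₄ z) ^ 2 * (fun z : ℍ => E₆ z))) :=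
        hA.mul hE
      have hQ : IsMeroInf N ((fun z => b (g • z)) * (fun z : ℍ => ModularForm.discriminant z)) :=
        hB.mul (isMeroInf_disc N)
      have hordQ : ordInf N ((fun z => b (g • z)) * (fun z : ℍ => ModularForm.discriminant z)) =
          ((ordCuspZ N g b + N : ℤ) : WithTop ℤ) := by
        rw [ordInf_mul hN hB (isMeroInf_disc N), hBord, ordInf_disc hN]
        norm_cast
      have hordP : ((ordCuspZ N g a : ℤ) : WithTop ℤ) ≤
          ordInf N ((fun z => a (g • z)) * ((fun z : ℍ => E₄ z) ^ 2 * (fun z : ℍ => E₆ z))) := by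
        rw [ordInf_mul hN hA hE, hAord]
        exact le_add_of_nonneg_right hE0
      have hlt : ordInf N ((fun z => b (g • z)) * (fun z : ℍ => ModularForm.discriminant z)) <
          ordInf N ((fun z => a (g • z)) * ((fun z : ℍ => E₄ z) ^ 2 * (fun z : ℍ => E₆ z))) := by
        rw [hordQ]
        refine lt_of_lt_of_le ?_ hordP
        exact_mod_cast (by omega : ordCuspZ N g b + N < ordCuspZ N g a)
      have ht := (tendsto_div_of_ordInf_lt hN hP hQ hlt).const_mul c
      rw [mul_zero] at ht
      refine ht.congr (fun z => ?_)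
      show c * (a (g • z) * (E₄ z ^ 2 * E₆ z) / (b (g • z) * ModularForm.discriminant z)) =
        a (g • z) * D jFun z / b (g • z)
      rw [hD z]
      have hΔ := ModularForm.discriminant_ne_zero z
      by_cases hbz : b (g • z) = 0
      · rw [hbz, zero_mul, div_zero, div_zero, mul_zero]
      · field_simp

end Fermat.Agent.S20
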