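import Mathlib
import Fermat.Agent.S20.Bridge
import Fermat.Agent.S20.Elliptic
import Fermat.Agent.S20.JOrder
import Fermat.Agent.S20.OrdCusp
import Fermat.Agent.S20.CuspTendsto

/-!
# S20 step (4), dictionary part: from valuation conditions to cusp forms

* `Bridge.ordAt_D_jFun_add_one`: `ord_z (D j) + 1 = ord_z (j - j z)`.
* `Bridge.finrank_le_of_dict`: a subspace `H` of the function field of `Γ₀(N)` whose elements
  satisfy the "holomorphic differential" valuation conditions, for valuations which compute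
  orders at the points of `ℍ` and at the cusps, has dimension at most `dim S₂(Γ₀(N))`.
-/

set_option autoImplicit false

open UpperHalfPlane hiding I
open Complex Filter Topology ModularForm Derivative CongruenceSubgroup
open scoped MatrixGroups Manifold WithZero

namespace Fermat.Agent.S20

namespace Bridge

/-- `ord_z (D j) + 1 = ord_z (j - j z)`. -/
theorem ordAt_D_jFun_add_one (z : ℍ) :
    ordAt (D jFun) z + 1 = ordAt (fun w => jFun w - jFun z) z := by
  unfold ordAt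
  have hF : AnalyticAt ℂ (jFun ∘ ofComplex) (z : ℂ) :=
    JOrder.analyticAt_comp_ofComplex mdiff_jFun z
  have h1 := hF.analyticOrderAt_deriv_add_one
  have e1 : ((fun w => jFun w - jFun z) ∘ ofComplex) =
      (fun x => (jFun ∘ ofComplex) x - (jFun ∘ ofComplex) (z : ℂ)) := by
    funext x
    simp [ofComplex_apply]
  rw [e1, ← h1]
  congr 1
  have e2 : (D jFun ∘ ofComplex) =ᶠ[𝓝 (z : ℂ)]
      ((fun _ : ℂ => (2 * (Real.pi : ℂ) * Complex.I)⁻¹) * deriv (jFun ∘ ofComplex)) := by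
    filter_upwards [isOpen_upperHalfPlaneSet.mem_nhds z.im_pos] with x hx
    simp [normalizedDerivOfComplex, ofComplex_apply_of_im_pos hx]
  rw [analyticOrderAt_congr e2, analyticOrderAt_mul analyticAt_const hF.deriv]
  have h0 : analyticOrderAt (fun _ : ℂ => (2 * (Real.pi : ℂ) * Complex.I)⁻¹) (z : ℂ) = 0 := by
    rw [analyticAt_const.analyticOrderAt_eq_zero]
    simp [Real.pi_ne_zero]
  rw [h0, zero_add]

/-- The finite half of the dictionary, on the level of orders. -/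
theorem ordAt_le_of_valuation {L : Type} [Field L] (v : Valuation L ℤᵐ⁰) (c e : ℕ) (hc : 0 < c)
    {a b : ℍ → ℂ} (ha : MDiff a) (hb : MDiff b) (ha0 : a ≠ 0) (hb0 : b ≠ 0) (z : ℍ)
    (hce : c * e = (ordAt (fun w => jFun w - jFun z) z).toNat)
    {x y : L}
    (hx : v x ^ c = WithZero.exp (-((ordAt a z).toNat : ℤ)))
    (hy' : v y ^ c = WithZero.exp (-((ordAt b z).toNat : ℤ)))
    (hle : v (x / y) ≤ WithZero.exp ((e : ℤ) - 1)) :
    ordAt b z ≤ ordAt a z + ordAt (D jFun) z := by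
  have hatop : ordAt a z ≠ ⊤ := fun h => ha0 ((ordAt_eq_top_iff ha).mp h)
  have hbtop : ordAt b z ≠ ⊤ := fun h => hb0 ((ordAt_eq_top_iff hb).mp h)
  have hj := ordAt_D_jFun_add_one z
  by_cases hdtop : ordAt (D jFun) z = ⊤
  · rw [hdtop]; simp
  generalize ordAt (D jFun) z = od at hj hdtop ⊢
  generalize ordAt a z = oa at hx hatop ⊢
  generalize ordAt b z = ob at hy' hbtop ⊢
  lift od to ℕ using hdtop with d
  lift oa to ℕ using hatop with α
  lift ob to ℕ using hbtop with β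
  rw [← hj] at hce
  have hce' : c * e = d + 1 := by
    rw [hce]; rfl
  have h1 : v (x / y) ^ c ≤ WithZero.exp ((e : ℤ) - 1) ^ c := pow_le_pow_left' hle c
  rw [map_div₀, div_pow, hx, hy', ← WithZero.exp_sub, ← WithZero.exp_nsmul,
    WithZero.exp_le_exp] at h1
  simp only [ENat.toNat_natCast, nsmul_eq_mul] at h1
  have h2 : (c : ℤ) * ((e : ℤ) - 1) ≤ d := by
    have : (c : ℤ) * e = d + 1 := by exact_mod_cast hce'
    have hc' : (1 : ℤ) ≤ c := by exact_mod_cast hc
    nlinarith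
  have h3 : (β : ℤ) ≤ α + d := by linarith
  have h4 : β ≤ α + d := by exact_mod_cast h3
  exact_mod_cast h4

/-- The cusp half of the dictionary, on the level of orders. -/
theorem ordCuspZ_le_of_valuation {L : Type} [Field L] (v : Valuation L ℤᵐ⁰) (c e N : ℕ)
    (hc : 0 < c) (hce : c * e = N) {oa ob : ℤ} {w : L}
    (hw : v w ^ c = WithZero.exp (-(oa - ob)))
    (hle : v w ≤ WithZero.exp (-((e : ℤ) + 1))) : ob + N + 1 ≤ oa := by
  have h1 : v w ^ c ≤ WithZero.exp (-((e : ℤ) + 1)) ^ c := pow_le_pow_left' hle c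
  rw [hw, ← WithZero.exp_nsmul, WithZero.exp_le_exp] at h1
  simp only [nsmul_eq_mul] at h1
  have h2 : (c : ℤ) * e = N := by exact_mod_cast hce
  have hc' : (1 : ℤ) ≤ c := by exact_mod_cast hc
  nlinarith

/-- **Dictionary, generic form.** Let `H` be a subspace of the function field `L` of `Γ₀(N)`
such that for every `w ∈ H`
* at every point `z : ℍ` there is a valuation `v` of `L` with `v ^ c = exp (- ord_z)` on
  `WH (Γ₀(N))`, `c * e = ord_z (j - j z)`, and `v w ≤ exp (e - 1)`;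
* at every cusp `g ∞` there is a valuation `v` of `L` with `v ^ c = exp (- ord_g)`, `c * e = N`
  and `v w ≤ exp (-(e + 1))`.
Then `dim H ≤ dim S₂(Γ₀(N))`. -/
theorem finrank_le_of_dict (N : ℕ) [NeZero N]
    (L : Type) [Field L] [Algebra (WH (Gamma0 N)) L] [IsFractionRing (WH (Gamma0 N)) L]
    [Algebra ℂ L] [IsScalarTower ℂ (WH (Gamma0 N)) L]
    [Module.Finite ℂ (CuspForm (Gamma0 N) 2)] (H : Submodule ℂ L)
    (hfin : ∀ w ∈ H, ∀ z : ℍ, ∃ (v : Valuation L ℤᵐ⁰) (c e : ℕ), 0 < c ∧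
      c * e = (ordAt (fun w => jFun w - jFun z) z).toNat ∧
      (∀ b : WH (Gamma0 N), b ≠ 0 → v (algebraMap (WH (Gamma0 N)) L b) ^ c =
        WithZero.exp (-((ordAt (b : ℍ → ℂ) z).toNat : ℤ))) ∧
      v w ≤ WithZero.exp ((e : ℤ) - 1))
    (hinf : ∀ w ∈ H, ∀ g : SL(2, ℤ), ∃ (v : Valuation L ℤᵐ⁰) (c e : ℕ), 0 < c ∧ c * e = N ∧
      (∀ b₁ b₂ : WH (Gamma0 N), b₁ ≠ 0 → b₂ ≠ 0 →
        v (algebraMap (WH (Gamma0 N)) L b₁ / algebraMap (WH (Gamma0 N)) L b₂) ^ c =
          WithZero.exp (-(ordCuspZ N g (b₁ : ℍ → ℂ) - ordCuspZ N g (b₂ : ℍ → ℂ)))) ∧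
      v w ≤ WithZero.exp (-((e : ℤ) + 1))) :
    Module.finrank ℂ H ≤ Module.finrank ℂ (CuspForm (Gamma0 N) 2) := by
  refine finrank_le_finrank_cuspForm N L H fun a b hb hmem => ?_
  by_cases ha : a = 0
  · exact ⟨0, fun z => by simp [ha]⟩
  have ha0 : (a : ℍ → ℂ) ≠ 0 := fun h => ha (Subtype.ext h)
  have hb0 : (b : ℍ → ℂ) ≠ 0 := fun h => hb (Subtype.ext h)
  refine exists_cuspForm_of_orders N a.2 b.2 hb0 ?_ ?_
  · intro z
    obtain ⟨v, c, e, hc, hce, hval, hle⟩ := hfin _ hmem z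
    exact ordAt_le_of_valuation v c e hc a.2.mdiff b.2.mdiff ha0 hb0 z hce (hval a ha)
      (hval b hb) hle
  · intro g
    obtain ⟨v, c, e, hc, hce, hval, hle⟩ := hinf _ hmem g
    exact cusp_condition_of_ordCuspZ N a.2 b.2 hb0 g
      (Or.inr (ordCuspZ_le_of_valuation v c e N hc hce (hval a b ha hb) hle))

end Bridge

end Fermat.Agent.S20
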