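import Mathlib
import Fermat.Agent.S20.BridgeDict
import Fermat.Agent.S20.Ring
import Fermat.Agent.S20.RH
import Fermat.Agent.S20.DictFin
import Fermat.Agent.S20.DictInf

/-!
# S20 step (4): `dim (holomorphic differentials) ≤ dim S₂(Γ₀(N))`

`finrank_holoDiff_le`: the space of "holomorphic differentials" of the function field of
`Γ₀(N)` has dimension at most `dim S₂(Γ₀(N))`.
-/

set_option autoImplicit false

open UpperHalfPlane hiding I
open Polynomial IsDedekindDomain CongruenceSubgroup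
open scoped MatrixGroups Manifold RatFunc WithZero

namespace Fermat.Agent.S20

/-- The space of "holomorphic differentials" of the function field of `Γ₀(N)` injects into the
space of cusp forms of weight two; here the dictionary at the cusps is a hypothesis. -/
theorem finrank_holoDiff_le_of_cusp (N : ℕ) [NeZero N]
    [Module.Finite ℂ (CuspForm (Gamma0 N) 2)]
    (hcusp : ∀ g : SL(2, ℤ), ∃ (𝔫 : HeightOneSpectrum (Binf N)) (c : ℕ), 0 < c ∧
      c * 𝔫.asIdeal.ramificationIdx (Ainf ℂ) = N ∧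
      ∀ b₁ b₂ : WH (Gamma0 N), b₁ ≠ 0 → b₂ ≠ 0 →
        𝔫.valuation (FF N) (algebraMap (WH (Gamma0 N)) (FF N) b₁ /
            algebraMap (WH (Gamma0 N)) (FF N) b₂) ^ c =
          WithZero.exp (-(ordCuspZ N g (b₁ : ℍ → ℂ) - ordCuspZ N g (b₂ : ℍ → ℂ)))) :
    Module.finrank ℂ (holoDiff ℂ (FF N) (WH (Gamma0 N)) (Binf N)) ≤
      Module.finrank ℂ (CuspForm (Gamma0 N) 2) := by
  refine Bridge.finrank_le_of_dict N (FF N) (holoDiff ℂ (FF N) (WH (Gamma0 N)) (Binf N)) ?_ ?_
  · intro w hw z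
    obtain ⟨𝔮, c, hc, hce, hval⟩ := exists_prime_of_point N (FF N) z
    exact ⟨𝔮.valuation (FF N), c, 𝔮.asIdeal.ramificationIdx ℂ[X], hc, hce, hval, hw.1 𝔮⟩
  · intro w hw g
    obtain ⟨𝔫, c, hc, hce, hval⟩ := hcusp g
    exact ⟨𝔫.valuation (FF N), c, 𝔫.asIdeal.ramificationIdx (Ainf ℂ), hc, hce, hval, hw.2 𝔫⟩

/-- The space of "holomorphic differentials" of the function field of `Γ₀(N)` has dimension at
most `dim S₂(Γ₀(N))`. -/
theorem finrank_holoDiff_le (N : ℕ) [NeZero N] [Module.Finite ℂ (CuspForm (Gamma0 N) 2)] :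
    Module.finrank ℂ (holoDiff ℂ (FF N) (WH (Gamma0 N)) (Binf N)) ≤
      Module.finrank ℂ (CuspForm (Gamma0 N) 2) :=
  finrank_holoDiff_le_of_cusp N (exists_prime_of_cusp N)

end Fermat.Agent.S20
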