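import Mathlib
import Fermat.Agent.S20.Ainf
import Fermat.Agent.S20.AinfDVR
import Fermat.Agent.S20.Lattice

/-!
# The lattice bridge for the abstract Riemann–Hurwitz formula

For a finite separable extension `L` of `k(X)`, with `B` the integral closure of `k[X]` and `B'`
the integral closure of `Ainf k` (the valuation ring at infinity) in `L`, we instantiate the
genus formula for lattice pairs (`Lattice.genus_formula_full`) with the trace form.
-/

set_option autoImplicit false

open Polynomial IsDedekindDomain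
open scoped RatFunc

namespace Fermat.Agent.S20

namespace RHLat

section Generic

variable (A K L B : Type) [CommRing A] [IsDomain A] [IsPrincipalIdealRing A] [Field K]
  [Algebra A K] [IsFractionRing A K] [Field L] [Algebra K L] [FiniteDimensional K L]
  [Algebra.IsSeparable K L] [Algebra A L] [IsScalarTower A K L] [CommRing B] [Algebra A B]
  [Algebra B L] [IsScalarTower A B L] [IsIntegralClosure B A L]

/-- The integral closure of a PID in a finite separable extension of its fraction field has a
basis over the PID which is a basis of the extension. -/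
theorem exists_basis :
    ∃ (ι : Type) (_ : Fintype ι) (b : Module.Basis ι K L),
      ∀ v : L, v ∈ Set.range (algebraMap B L) ↔ ∀ i, b.repr v i ∈ Set.range (algebraMap A K) := by
  classical
  have : Module.IsTorsionFree A L := .trans_faithfulSMul A K L
  have : Module.Free A B := IsIntegralClosure.module_free A K L B
  have : IsNoetherian A B := IsIntegralClosure.isNoetherian A K L B
  have : IsLocalization (Algebra.algebraMapSubmonoid B (nonZeroDivisors A)) L :=
    IsIntegralClosure.isLocalization A K L B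
  let b := Module.Free.chooseBasis A B
  let b' := Module.Basis.localizationLocalization K (nonZeroDivisors A) L b
  refine ⟨Module.Free.ChooseBasisIndex A B, inferInstance, b', fun v => ⟨?_, fun h => ?_⟩⟩
  · rintro ⟨x, rfl⟩ i
    exact ⟨b.repr x i,
      (Module.Basis.localizationLocalization_repr_algebraMap K (nonZeroDivisors A) L b x i).symm⟩
  · choose a ha using h
    refine ⟨∑ i, a i • b i, ?_⟩
    rw [← b'.sum_repr v, map_sum]
    refine Finset.sum_congr rfl fun i _ => ?_
    rw [← ha i, Algebra.smul_def, map_mul, ← IsScalarTower.algebraMap_apply A B L,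
      Module.Basis.localizationLocalization_apply, Algebra.smul_def,
      ← IsScalarTower.algebraMap_apply A K L]

end Generic

section Main

variable (k : Type) [Field k]
variable (L : Type) [Field L] [Algebra k[X] L] [FaithfulSMul k[X] L]

instance isScalarTower_Ainf_ratFunc :
    @IsScalarTower (Ainf k) (RatFunc k) L (Algebra.ofSubsemiring (Ainf k)).toSMul
      Algebra.toSMul Algebra.toSMul :=
  IsScalarTower.of_algebraMap_eq (fun _ => rfl)

theorem algebraMap_Ainf_apply (a : Ainf k) :
    algebraMap (Ainf k) L a = algebraMap (RatFunc k) L (a : RatFunc k) := rfl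

omit [Field L] [Algebra k[X] L] [FaithfulSMul k[X] L] in
theorem mem_Ainf_iff_degLE (x : RatFunc k) : x ∈ Ainf k ↔ Lattice.DegLE x 0 := by
  rw [mem_Ainf]
  constructor
  · intro h; exact Or.inr h
  · rintro (rfl | h)
    · simp
    · exact h

omit [Field L] [Algebra k[X] L] [FaithfulSMul k[X] L] in
theorem mem_range_Ainf_iff (x : RatFunc k) :
    x ∈ (algebraMap (Ainf k) (RatFunc k)).range ↔ Lattice.DegLE x 0 := by
  rw [← mem_Ainf_iff_degLE]
  constructor
  · rintro ⟨a, rfl⟩; exact a.2
  · intro h; exact ⟨⟨x, h⟩, rfl⟩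

omit [Field L] [Algebra k[X] L] [FaithfulSMul k[X] L] in
theorem degLE_X_sq_mul (t : RatFunc k) :
    Lattice.DegLE ((RatFunc.X : RatFunc k) ^ 2 * t) 0 ↔ Lattice.DegLE t (-2) := by
  by_cases ht : t = 0
  · subst ht
    simp [Lattice.DegLE]
  · have hX : (RatFunc.X : RatFunc k) ^ 2 ≠ 0 := pow_ne_zero 2 RatFunc.X_ne_zero
    have hdeg : ((RatFunc.X : RatFunc k) ^ 2 * t).intDegree = 2 + t.intDegree := by
      rw [RatFunc.intDegree_mul hX ht, AinfDVR.intDegree_X_pow]
      rfl
    unfold Lattice.DegLE
    rw [hdeg]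
    constructor
    · rintro (h | h)
      · exact absurd h (mul_ne_zero hX ht)
      · right; omega
    · rintro (h | h)
      · exact absurd h ht
      · right; omega

variable [Algebra k L] [IsScalarTower k k[X] L]

instance isScalarTower_base : IsScalarTower k (RatFunc k) L := by
  refine IsScalarTower.of_algebraMap_eq fun c => ?_
  rw [IsScalarTower.algebraMap_apply k k[X] L, IsScalarTower.algebraMap_apply k[X] (RatFunc k) L,
    ← IsScalarTower.algebraMap_apply k k[X] (RatFunc k)]

end Main

end RHLat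

section RHLatMain

variable (k : Type) [Field k]
variable (L : Type) [Field L] [Algebra k[X] L] [FaithfulSMul k[X] L]
  [Algebra k L] [IsScalarTower k k[X] L]
  [FiniteDimensional (RatFunc k) L]
variable (B : Type) [CommRing B] [IsDedekindDomain B] [Algebra k[X] B] [Algebra B L]
  [IsFractionRing B L] [IsScalarTower k[X] B L] [IsIntegralClosure B k[X] L]
variable (B' : Type) [CommRing B'] [IsDedekindDomain B'] [Algebra (Ainf k) B']
  [Algebra B' L] [IsFractionRing B' L] [IsScalarTower (Ainf k) B' L]
  [IsIntegralClosure B' (Ainf k) L]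

omit [IsDedekindDomain B] [IsFractionRing B L] [IsDedekindDomain B'] [IsFractionRing B' L] in
open RHLat in
/-- The genus formula for the pair of lattices `B`, `B'` in `L` with respect to the trace form. -/
theorem lattice_pair_formula [Algebra.IsSeparable (RatFunc k) L]
    (hconst : ∀ f : L, IsIntegral k[X] f → IsIntegral (Ainf k) f → ∃ c : k, f = algebraMap k L c)
    (M U Mdual Udual Omega : Submodule k L)
    (hM : ∀ v, v ∈ M ↔ v ∈ Set.range (algebraMap B L))
    (hU : ∀ v, v ∈ U ↔ v ∈ Set.range (algebraMap B' L))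
    (hMd : ∀ w, w ∈ Mdual ↔ w ∈ Submodule.traceDual k[X] (RatFunc k) (1 : Submodule B L))
    (hUd : ∀ w, w ∈ Udual ↔ w ∈ Submodule.traceDual (Ainf k) (RatFunc k) (1 : Submodule B' L))
    (hΩ : ∀ w, w ∈ Omega ↔ w ∈ Mdual ∧ (algebraMap (RatFunc k) L RatFunc.X ^ 2) * w ∈ Udual) :
    Module.Finite k Omega ∧ Module.Finite k (↥Mdual ⧸ M.submoduleOf Mdual) ∧
      Module.Finite k (↥Udual ⧸ U.submoduleOf Udual) ∧
      2 * Module.finrank k Omega + 2 * Module.finrank (RatFunc k) L =
        2 + Module.finrank k (↥Mdual ⧸ M.submoduleOf Mdual) +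
          Module.finrank k (↥Udual ⧸ U.submoduleOf Udual) := by
  classical
  obtain ⟨ι, _, b₀, hb₀⟩ := RHLat.exists_basis k[X] (RatFunc k) L B
  have hΦ := traceForm_nondegenerate (RatFunc k) L
  -- the hypotheses of the abstract genus formula
  have hM' : ∀ v, v ∈ M ↔ Lattice.InLat b₀ v := by
    intro v
    rw [hM, hb₀]
    rfl
  have hU1 : ∀ f : RatFunc k, Lattice.DegLE f 0 → ∀ u ∈ U, f • u ∈ U := by
    intro f hf u hu
    rw [hU] at hu ⊢
    obtain ⟨b, rfl⟩ := hu
    have hfA : f ∈ Ainf k := (mem_Ainf_iff_degLE k f).mpr hf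
    refine ⟨algebraMap (Ainf k) B' ⟨f, hfA⟩ * b, ?_⟩
    rw [map_mul, ← IsScalarTower.algebraMap_apply (Ainf k) B' L, Algebra.smul_def]
    rfl
  have hU2 : ∀ v : L, ∃ d : ℕ, ((RatFunc.X : RatFunc k)⁻¹ ^ d) • v ∈ U := by
    intro v
    have hloc : IsLocalization (Algebra.algebraMapSubmonoid B' (nonZeroDivisors (Ainf k))) L :=
      IsIntegralClosure.isLocalization (Ainf k) (RatFunc k) L B'
    obtain ⟨⟨x, ⟨_, a, ha, rfl⟩⟩, hx⟩ :=
      IsLocalization.surj (Algebra.algebraMapSubmonoid B' (nonZeroDivisors (Ainf k))) v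
    have ha0 : a ≠ 0 := nonZeroDivisors.ne_zero ha
    obtain ⟨u, hu⟩ := Ainf.eq_Xinv_pow_mul_unit a ha0
    set d : ℕ := (-(a : RatFunc k).intDegree).toNat with hd
    refine ⟨d, ?_⟩
    rw [hU]
    refine ⟨algebraMap (Ainf k) B' ((u⁻¹ : (Ainf k)ˣ) : Ainf k) * x, ?_⟩
    have hXd : (Ainf.Xinv : Ainf k) ^ d = a * ((u⁻¹ : (Ainf k)ˣ) : Ainf k) := by
      rw [hu, mul_assoc, Units.mul_inv, mul_one]
    have hXinv : (RatFunc.X : RatFunc k)⁻¹ ^ d = (((Ainf.Xinv : Ainf k) ^ d : Ainf k) : RatFunc k) :=
      rfl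
    simp only at hx
    rw [Algebra.smul_def, hXinv, ← algebraMap_Ainf_apply, hXd, map_mul (algebraMap (Ainf k) L),
      IsScalarTower.algebraMap_apply (Ainf k) B' L, IsScalarTower.algebraMap_apply (Ainf k) B' L,
      map_mul (algebraMap B' L), ← hx]
    ring
  have hU3 : ∃ D : ℕ, ∀ v ∈ M, (RatFunc.X : RatFunc k) ^ D • v ∈ U → v = 0 := by
    refine ⟨1, fun v hv hXv => ?_⟩
    rw [hM] at hv
    rw [hU] at hXv
    obtain ⟨b, rfl⟩ := hv
    obtain ⟨b', hb'⟩ := hXv
    rw [pow_one] at hb'
    have hX : (RatFunc.X : RatFunc k) • algebraMap B L b =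
        algebraMap B L (algebraMap k[X] B X * b) := by
      rw [map_mul, ← IsScalarTower.algebraMap_apply k[X] B L, Algebra.smul_def,
        ← RatFunc.algebraMap_X, ← IsScalarTower.algebraMap_apply k[X] (RatFunc k) L]
    have h1 : IsIntegral k[X] ((RatFunc.X : RatFunc k) • algebraMap B L b) := by
      rw [hX]; exact (IsIntegralClosure.isIntegral_iff (A := B)).mpr ⟨_, rfl⟩
    have h2 : IsIntegral (Ainf k) ((RatFunc.X : RatFunc k) • algebraMap B L b) := by
      rw [← hb']; exact (IsIntegralClosure.isIntegral_iff (A := B')).mpr ⟨_, rfl⟩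
    obtain ⟨c, hc⟩ := hconst _ h1 h2
    by_cases hc0 : c = 0
    · rw [hc0, map_zero] at hc
      exact (smul_eq_zero.mp hc).resolve_left RatFunc.X_ne_zero
    · exfalso
      have hv : algebraMap B L b = algebraMap (RatFunc k) L
          ((RatFunc.X : RatFunc k)⁻¹ * algebraMap k (RatFunc k) c) := by
        rw [map_mul, ← IsScalarTower.algebraMap_apply k (RatFunc k) L, ← hc, Algebra.smul_def,
          ← mul_assoc, ← map_mul, inv_mul_cancel₀ RatFunc.X_ne_zero, map_one, one_mul]
      have h3 : IsIntegral k[X] (algebraMap (RatFunc k) L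
          ((RatFunc.X : RatFunc k)⁻¹ * algebraMap k (RatFunc k) c)) := by
        rw [← hv]; exact (IsIntegralClosure.isIntegral_iff (A := B)).mpr ⟨_, rfl⟩
      rw [isIntegral_algebraMap_iff (algebraMap (RatFunc k) L).injective] at h3
      obtain ⟨p, hp⟩ := IsIntegrallyClosed.isIntegral_iff.mp h3
      have hdeg := congrArg RatFunc.intDegree hp
      have hCc : (algebraMap k (RatFunc k) c) ≠ 0 := by
        rw [Ne, map_eq_zero]; exact hc0
      rw [RatFunc.intDegree_polynomial, RatFunc.intDegree_mul (inv_ne_zero RatFunc.X_ne_zero) hCc,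
        RatFunc.intDegree_inv, RatFunc.intDegree_X, RatFunc.algebraMap_eq_C,
        RatFunc.intDegree_C] at hdeg
      omega
  have hMd' : ∀ w, w ∈ Mdual ↔ ∀ v ∈ M, Algebra.traceForm (RatFunc k) L w v ∈ Lattice.Rg k := by
    intro w
    rw [hMd, Submodule.mem_traceDual]
    constructor
    · intro h v hv
      exact h v (Submodule.mem_one.mpr ((hM v).mp hv))
    · intro h v hv
      exact h v ((hM v).mpr (Submodule.mem_one.mp hv))
  have hUd0 : ∀ w, w ∈ Submodule.traceDual (Ainf k) (RatFunc k) (1 : Submodule B' L) ↔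
      ∀ u ∈ U, Lattice.DegLE (Algebra.traceForm (RatFunc k) L w u) 0 := by
    intro w
    rw [Submodule.mem_traceDual]
    constructor
    · intro h u hu
      exact (mem_range_Ainf_iff k _).mp (h u (Submodule.mem_one.mpr ((hU u).mp hu)))
    · intro h u hu
      exact (mem_range_Ainf_iff k _).mpr (h u ((hU u).mpr (Submodule.mem_one.mp hu)))
  have hUd' : ∀ w, w ∈ Udual ↔
      ∀ u ∈ U, Lattice.DegLE (Algebra.traceForm (RatFunc k) L w u) 0 :=
    fun w => (hUd w).trans (hUd0 w)
  have hΩ' : ∀ w, w ∈ Omega ↔ w ∈ Mdual ∧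
      ∀ u ∈ U, Lattice.DegLE (Algebra.traceForm (RatFunc k) L w u) (-2) := by
    intro w
    rw [hΩ, hUd, hUd0]
    refine and_congr Iff.rfl (forall₂_congr fun u hu => ?_)
    rw [Algebra.traceForm_apply, Algebra.traceForm_apply, ← map_pow, mul_assoc,
      ← Algebra.smul_def, map_smul, smul_eq_mul]
    exact degLE_X_sq_mul k _
  have hMle : M ≤ Mdual := by
    intro v hv
    rw [hMd]
    exact Submodule.one_le_traceDual_one (Submodule.mem_one.mpr ((hM v).mp hv))
  have hUle : U ≤ Udual := by
    intro v hv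
    rw [hUd]
    exact Submodule.one_le_traceDual_one (Submodule.mem_one.mpr ((hU v).mp hv))
  have hMU : Module.finrank k ↥(M ⊓ U) = 1 := by
    have : M ⊓ U = Submodule.span k {(1 : L)} := by
      ext v
      rw [Submodule.mem_inf, hM, hU, Submodule.mem_span_singleton]
      constructor
      · rintro ⟨⟨b, rfl⟩, ⟨b', hb'⟩⟩
        obtain ⟨c, hc⟩ := hconst (algebraMap B L b)
          ((IsIntegralClosure.isIntegral_iff (A := B)).mpr ⟨_, rfl⟩)
          (by rw [← hb']; exact (IsIntegralClosure.isIntegral_iff (A := B')).mpr ⟨_, rfl⟩)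
        exact ⟨c, by rw [hc, Algebra.smul_def, mul_one]⟩
      · rintro ⟨c, rfl⟩
        refine ⟨⟨algebraMap k[X] B (C c), ?_⟩, ⟨algebraMap (Ainf k) B' (Ainf.const c), ?_⟩⟩
        · rw [← IsScalarTower.algebraMap_apply k[X] B L, Algebra.smul_def, mul_one,
            IsScalarTower.algebraMap_apply k k[X] L]
          rfl
        · rw [← IsScalarTower.algebraMap_apply (Ainf k) B' L, algebraMap_Ainf_apply,
            Ainf.coe_const, ← IsScalarTower.algebraMap_apply k (RatFunc k) L, Algebra.smul_def,
            mul_one]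
    rw [this]
    exact finrank_span_singleton one_ne_zero
  obtain ⟨h1, -, h3, h4, h5⟩ := Lattice.genus_formula_full (Algebra.traceForm (RatFunc k) L) hΦ b₀
    M U Mdual Udual Omega hM' hU1 hU2 hU3 hMd' hUd' hΩ' hMle hUle
  refine ⟨h1, h3, h4, ?_⟩
  rw [hMU, ← Module.finrank_eq_card_basis b₀] at h5
  omega

end RHLatMain

end Fermat.Agent.S20
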